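/-
S16, block (E) (helper15): the weight-2 Eisenstein series of level `N`,
`eis2 N = N·E₂(N·) − E₂`, as a Mathlib `ModularForm (Gamma0 N) 2`, built from Mathlib's `E2`.
-/
import Mathlib
import Fermat.Prelude.Def_ModularForm_HeckeOperator
import Fermat.Prelude.Thm_CongruenceSubgroup_one_mem_strictPeriods_Gamma0

set_option autoImplicit false

open UpperHalfPlane ModularForm EisensteinSeries Matrix.SpecialLinearGroup
open scoped MatrixGroups ModularForm Manifold Topology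

noncomputable section

namespace Fermat.Agent.S16.EisP

/-- `eis2 N = E₂ ∣[2] diag(N,1) − E₂ = N·E₂(N·) − E₂`. -/
def eis2 (N : ℕ) : ℍ → ℂ := E2 ∣[(2 : ℤ)] heckeDiagMatrix N - E2

theorem eis2_apply {N : ℕ} (hN : N ≠ 0) (z : ℍ) :
    eis2 N z = (N : ℂ) * E2 (heckeDiagMatrix N • z) - E2 z := by
  rw [eis2, Pi.sub_apply, slash_heckeDiagMatrix_apply 2 hN]
  norm_num

/-- The conjugate `diag(N,1) γ diag(N,1)⁻¹` of `γ ∈ Γ₀(N)`. -/
def conjSL {N : ℕ} (γ : SL(2, ℤ)) (e : ℤ) (he : γ 1 0 = N * e) : SL(2, ℤ) :=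
  ⟨!![γ 0 0, N * γ 0 1; e, γ 1 1], by
    have h := γ.det_coe
    rw [Matrix.det_fin_two] at h
    rw [Matrix.det_fin_two_of]
    rw [he] at h
    linear_combination h⟩

@[simp] theorem conjSL_zero_zero {N : ℕ} (γ : SL(2, ℤ)) (e : ℤ) (he : γ 1 0 = N * e) :
    (conjSL γ e he) 0 0 = γ 0 0 := rfl

@[simp] theorem conjSL_zero_one {N : ℕ} (γ : SL(2, ℤ)) (e : ℤ) (he : γ 1 0 = N * e) :
    (conjSL γ e he) 0 1 = N * γ 0 1 := rfl

@[simp] theorem conjSL_one_zero {N : ℕ} (γ : SL(2, ℤ)) (e : ℤ) (he : γ 1 0 = N * e) :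
    (conjSL γ e he) 1 0 = e := rfl

@[simp] theorem conjSL_one_one {N : ℕ} (γ : SL(2, ℤ)) (e : ℤ) (he : γ 1 0 = N * e) :
    (conjSL γ e he) 1 1 = γ 1 1 := rfl

theorem coeGL_apply (g : SL(2, ℤ)) (i j : Fin 2) :
    (g : GL (Fin 2) ℝ) i j = ((g i j : ℤ) : ℝ) := by
  simp

theorem heckeDiagMatrix_mul_mapGL {N : ℕ} (hN : N ≠ 0) (γ : SL(2, ℤ)) (e : ℤ)
    (he : γ 1 0 = N * e) :
    heckeDiagMatrix N * (γ : GL (Fin 2) ℝ) =
      ((conjSL γ e he : SL(2, ℤ)) : GL (Fin 2) ℝ) * heckeDiagMatrix N := by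
  ext i j
  fin_cases i <;> fin_cases j <;>
    simp [hN, Matrix.mul_apply, Fin.sum_univ_two]
  all_goals first
    | (have := congrArg (Int.cast : ℤ → ℝ) he; push_cast at this ⊢; linear_combination this)
    | (have := congrArg (Int.cast : ℤ → ℝ) he; push_cast at this ⊢; linear_combination -this)
    | ring1

/-- `D₂` of the conjugate, slashed by `diag(N,1)`, is `D₂` of `γ`. -/
theorem D2_conjSL_slash {N : ℕ} (hN : N ≠ 0) (γ : SL(2, ℤ)) (e : ℤ) (he : γ 1 0 = N * e) :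
    (D2 (conjSL γ e he)) ∣[(2 : ℤ)] heckeDiagMatrix N = D2 γ := by
  ext z
  rw [slash_heckeDiagMatrix_apply 2 hN, D2, D2, show (2 : ℤ) - 1 = 1 by norm_num, zpow_one]
  simp only [conjSL_one_zero]
  have h1 : denom (conjSL γ e he) ((heckeDiagMatrix N • z : ℍ) : ℂ) = denom γ z := by
    simp only [denom, coe_heckeDiagMatrix_smul hN]
    simp [he]
    ring
  rw [h1, he]
  push_cast
  ring

theorem eis2_slash_of_mem_Gamma0 {N : ℕ} (hN : N ≠ 0) (γ : SL(2, ℤ)) (e : ℤ)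
    (he : γ 1 0 = N * e) : eis2 N ∣[(2 : ℤ)] γ = eis2 N := by
  have h1 : (E2 ∣[(2 : ℤ)] heckeDiagMatrix N) ∣[(2 : ℤ)] γ =
      E2 ∣[(2 : ℤ)] heckeDiagMatrix N - (1 / (2 * riemannZeta 2)) • D2 γ := by
    rw [SL_slash, ← SlashAction.slash_mul, heckeDiagMatrix_mul_mapGL hN γ e he,
      SlashAction.slash_mul, ← SL_slash, E2_slash_action, sub_eq_add_neg, SlashAction.add_slash,
      SlashAction.neg_slash, ModularForm.smul_slash, σ_heckeDiagMatrix, D2_conjSL_slash hN,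
      ← sub_eq_add_neg]
    rfl
  rw [eis2, sub_eq_add_neg, SlashAction.add_slash, SlashAction.neg_slash, h1, E2_slash_action]
  abel

/-! ### The `S`-transform (Atkin–Lehner): `eis2 N ∣ S = −(eis2 N ∣ [[1,0],[0,N]])` -/

theorem heckeDiagMatrix_mul_S {N : ℕ} (hN : N ≠ 0) :
    heckeDiagMatrix N * ((ModularGroup.S : SL(2, ℤ)) : GL (Fin 2) ℝ) =
      ((ModularGroup.S : SL(2, ℤ)) : GL (Fin 2) ℝ) * heckeMatrix N 0 := by
  ext i j
  fin_cases i <;> fin_cases j <;>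
    simp [hN, ModularGroup.coe_S, Matrix.mul_apply, Fin.sum_univ_two]

theorem D2_S_slash {N : ℕ} (hN : N ≠ 0) :
    (D2 ModularGroup.S) ∣[(2 : ℤ)] heckeMatrix N 0 = D2 ModularGroup.S := by
  ext z
  have hN' : (N : ℂ) ≠ 0 := by exact_mod_cast hN
  rw [slash_heckeMatrix_apply 2 hN, D2_S, D2_S, coe_heckeMatrix_smul hN]
  have hz : (z : ℂ) ≠ 0 := ne_zero z
  simp only [Nat.cast_zero, add_zero]
  field_simp

theorem heckeDiagMatrix_smul_heckeMatrix_zero {N : ℕ} (hN : N ≠ 0) (z : ℍ) :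
    heckeDiagMatrix N • (heckeMatrix N 0 • z) = z := by
  have hN' : (N : ℂ) ≠ 0 := by exact_mod_cast hN
  apply UpperHalfPlane.ext
  rw [coe_heckeDiagMatrix_smul hN, coe_heckeMatrix_smul hN]
  simp only [Nat.cast_zero, add_zero]
  field_simp

theorem E2_slash_diag_slash_heckeMatrix_zero {N : ℕ} (hN : N ≠ 0) :
    (E2 ∣[(2 : ℤ)] heckeDiagMatrix N) ∣[(2 : ℤ)] heckeMatrix N 0 = E2 := by
  ext z
  have hN' : (N : ℂ) ≠ 0 := by exact_mod_cast hN
  rw [slash_heckeMatrix_apply 2 hN, slash_heckeDiagMatrix_apply 2 hN,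
    heckeDiagMatrix_smul_heckeMatrix_zero hN, show (2 : ℤ) - 1 = 1 by norm_num, zpow_one]
  field_simp

/-- **`E ∣ W = −E`**, in the form `eis2 N ∣[2] S = −(eis2 N ∣[2] [[1,0],[0,N]])`, i.e.
`z⁻² · eis2 N (−1/z) = −N⁻¹ · eis2 N (z / N)`. -/
theorem eis2_slash_S {N : ℕ} (hN : N ≠ 0) :
    eis2 N ∣[(2 : ℤ)] ModularGroup.S = -(eis2 N ∣[(2 : ℤ)] heckeMatrix N 0) := by
  have h1 : (E2 ∣[(2 : ℤ)] heckeDiagMatrix N) ∣[(2 : ℤ)] ModularGroup.S =
      E2 ∣[(2 : ℤ)] heckeMatrix N 0 - (1 / (2 * riemannZeta 2)) • D2 ModularGroup.S := by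
    rw [SL_slash, ← SlashAction.slash_mul, heckeDiagMatrix_mul_S hN, SlashAction.slash_mul,
      ← SL_slash, E2_slash_action, sub_eq_add_neg, SlashAction.add_slash, SlashAction.neg_slash,
      ModularForm.smul_slash, σ_heckeMatrix, D2_S_slash hN, ← sub_eq_add_neg]
    rfl
  rw [eis2, sub_eq_add_neg, SlashAction.add_slash, SlashAction.neg_slash, h1, E2_slash_action,
    SlashAction.add_slash, SlashAction.neg_slash, E2_slash_diag_slash_heckeMatrix_zero hN]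
  abel

theorem eis2_slash_S_apply {N : ℕ} (hN : N ≠ 0) (z : ℍ) :
    (eis2 N ∣[(2 : ℤ)] ModularGroup.S) z = -((N : ℂ)⁻¹ * eis2 N (heckeMatrix N 0 • z)) := by
  rw [eis2_slash_S hN, Pi.neg_apply, slash_heckeMatrix_apply 2 hN]

/-! ### Holomorphy -/

theorem eis2_mdifferentiable (N : ℕ) : MDiff (eis2 N) :=
  (E2_mdifferentiable.slash 2 (heckeDiagMatrix N)).sub E2_mdifferentiable

/-! ### Boundedness at the cusps -/

theorem isBoundedAtImInfty_D2 (γ : SL(2, ℤ)) : IsBoundedAtImInfty (D2 γ) := by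
  rw [isBoundedAtImInfty_iff]
  refine ⟨2 * Real.pi, 1, fun z hz => ?_⟩
  rw [D2]
  by_cases hc : γ 1 0 = 0
  · simp [hc, Real.pi_pos.le]
  · have hc' : ((γ 1 0 : ℤ) : ℂ) ≠ 0 := by exact_mod_cast hc
    have hden : ‖((γ 1 0 : ℤ) : ℂ)‖ ≤ ‖denom γ z‖ := by
      have him : (denom γ z).im = ((γ 1 0 : ℤ) : ℝ) * z.im := by
        simp [denom]
      calc ‖((γ 1 0 : ℤ) : ℂ)‖ = |((γ 1 0 : ℤ) : ℝ)| := by
            rw [← Complex.ofReal_intCast, Complex.norm_real, Real.norm_eq_abs]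
        _ ≤ |((γ 1 0 : ℤ) : ℝ)| * z.im := le_mul_of_one_le_right (abs_nonneg _) hz
        _ = |(denom γ z).im| := by rw [him, abs_mul, abs_of_pos z.im_pos]
        _ ≤ ‖denom γ z‖ := Complex.abs_im_le_norm _
    have hpos : 0 < ‖denom γ z‖ := lt_of_lt_of_le (norm_pos_iff.mpr hc') hden
    rw [norm_div, div_le_iff₀ hpos]
    calc ‖2 * (Real.pi : ℂ) * Complex.I * ((γ 1 0 : ℤ) : ℂ)‖
        = 2 * Real.pi * ‖((γ 1 0 : ℤ) : ℂ)‖ := by
          simp [abs_of_pos Real.pi_pos]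
      _ ≤ 2 * Real.pi * ‖denom γ z‖ :=
          mul_le_mul_of_nonneg_left hden (by positivity)

/-- `E₂` is bounded at every cusp of `SL(2, ℤ)`. -/
theorem isBoundedAt_E2 {c : OnePoint ℝ} (hc : IsCusp c 𝒮ℒ) : c.IsBoundedAt E2 2 := by
  obtain ⟨γ, rfl⟩ := isCusp_SL2Z_iff'.mp hc
  rw [OnePoint.isBoundedAt_iff (g := mapGL ℝ γ) rfl]
  have h := E2_slash_action γ
  rw [SL_slash] at h
  have h' : E2 ∣[(2 : ℤ)] (mapGL ℝ γ) = E2 - (1 / (2 * riemannZeta 2)) • D2 γ := h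
  rw [h']
  exact isBoundedAtImInfty_E2.sub ((isBoundedAtImInfty_D2 γ).const_smul_left _)

theorem isCusp_ratCast_smul' {c : OnePoint ℝ} (hc : IsCusp c 𝒮ℒ) (g : GL (Fin 2) ℚ) :
    IsCusp (Matrix.GeneralLinearGroup.map (Rat.castHom ℝ) g • c) 𝒮ℒ := by
  rw [isCusp_SL2Z_iff] at hc ⊢
  obtain ⟨c, rfl⟩ := hc
  exact ⟨g • c, by rw [← Rat.coe_castHom, OnePoint.map_smul]⟩

def ratDiagGL (N : ℕ) (hN : N ≠ 0) : GL (Fin 2) ℚ :=
  Matrix.GeneralLinearGroup.mkOfDetNeZero !![(N : ℚ), 0; 0, 1]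
    (by rw [Matrix.det_fin_two_of]; simpa using hN)

theorem heckeDiagMatrix_eq_map {N : ℕ} (hN : N ≠ 0) :
    heckeDiagMatrix N = Matrix.GeneralLinearGroup.map (Rat.castHom ℝ) (ratDiagGL N hN) := by
  ext i j
  fin_cases i <;> fin_cases j <;>
    simp [heckeDiagMatrix, hN, ratDiagGL, upperTriangularGL,
      Matrix.GeneralLinearGroup.mkOfDetNeZero]

/-- `E₂ ∣[2] diag(N,1)` is bounded at every cusp of `SL(2, ℤ)`. -/
theorem isBoundedAt_E2_slash_diag {N : ℕ} (hN : N ≠ 0) {c : OnePoint ℝ} (hc : IsCusp c 𝒮ℒ) :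
    c.IsBoundedAt (E2 ∣[(2 : ℤ)] heckeDiagMatrix N) 2 := by
  rw [heckeDiagMatrix_eq_map hN]
  exact OnePoint.IsBoundedAt.smul_iff.mp (isBoundedAt_E2 (isCusp_ratCast_smul' hc _))

theorem isBoundedAt_neg {c : OnePoint ℝ} {f : ℍ → ℂ} {k : ℤ} (hf : c.IsBoundedAt f k) :
    c.IsBoundedAt (-f) k := fun g hg => by
  rw [SlashAction.neg_slash]
  exact (hf g hg).neg

theorem isBoundedAt_eis2 {N : ℕ} (hN : N ≠ 0) {c : OnePoint ℝ} (hc : IsCusp c 𝒮ℒ) :
    c.IsBoundedAt (eis2 N) 2 := by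
  rw [eis2, sub_eq_add_neg]
  exact (isBoundedAt_E2_slash_diag hN hc).add (isBoundedAt_neg (isBoundedAt_E2 hc))

/-! ### The modular form -/

/-- The Eisenstein series `N·E₂(N·) − E₂` as a modular form of weight `2` on `Γ₀(N)`. -/
def eisP (N : ℕ) [NeZero N] : ModularForm (CongruenceSubgroup.Gamma0 N) 2 where
  toFun := eis2 N
  slash_action_eq' := by
    intro γ hγ
    obtain ⟨γ', hγ', rfl⟩ := Subgroup.mem_map.mp hγ
    have hdvd : (N : ℤ) ∣ γ' 1 0 := by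
      have := (CongruenceSubgroup.Gamma0_mem).mp hγ'
      exact (ZMod.intCast_zmod_eq_zero_iff_dvd _ _).mp this
    obtain ⟨e, he⟩ := hdvd
    have := eis2_slash_of_mem_Gamma0 (NeZero.ne N) γ' e he
    rwa [SL_slash] at this
  holo' := eis2_mdifferentiable N
  bdd_at_cusps' := by
    intro c hc
    rw [Subgroup.IsArithmetic.isCusp_iff_isCusp_SL2Z] at hc
    exact isBoundedAt_eis2 (NeZero.ne N) hc

@[simp] theorem coe_eisP (N : ℕ) [NeZero N] : ⇑(eisP N) = eis2 N := rfl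

/-! ### The `q`-expansion -/

open scoped ArithmeticFunction.sigma

/-- Coefficients of `E₂`. -/
def cE2 (m : ℕ) : ℂ := if m = 0 then 1 else -24 * (σ 1 m : ℂ)

/-- Coefficients of `E₂(N·)`. -/
def cE2N (N : ℕ) (n : ℕ) : ℂ := if N ∣ n then cE2 (n / N) else 0

/-- Coefficients of `eis2 N`. -/
def cEis (N : ℕ) (n : ℕ) : ℂ := (N : ℂ) * cE2N N n - cE2 n

theorem hasSum_E2 (z : ℍ) :
    HasSum (fun m : ℕ ↦ cE2 m • Function.Periodic.qParam 1 z ^ m) (E2 z) := by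
  have h := hasSum_qExpansion_E2 (z := z)
  simpa only [cE2, Function.Periodic.qParam, Complex.ofReal_one, div_one] using h

theorem qParam_diag {N : ℕ} (hN : N ≠ 0) (z : ℍ) :
    Function.Periodic.qParam 1 ((heckeDiagMatrix N • z : ℍ) : ℂ) =
      Function.Periodic.qParam 1 z ^ N := by
  rw [coe_heckeDiagMatrix_smul hN, Function.Periodic.qParam, Function.Periodic.qParam,
    ← Complex.exp_nat_mul]
  congr 1
  simp only [Complex.ofReal_one, div_one]
  ring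

theorem hasSum_E2_diag {N : ℕ} (hN : N ≠ 0) (z : ℍ) :
    HasSum (fun n : ℕ ↦ cE2N N n • Function.Periodic.qParam 1 z ^ n)
      (E2 (heckeDiagMatrix N • z)) := by
  have h := hasSum_E2 (heckeDiagMatrix N • z)
  simp only [qParam_diag hN, ← pow_mul] at h
  have hinj : Function.Injective (fun m : ℕ => N * m) := fun a b hab =>
    Nat.eq_of_mul_eq_mul_left (Nat.pos_of_ne_zero hN) hab
  refine (Function.Injective.hasSum_iff hinj ?_).mp ?_
  · intro n hn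
    have : ¬ N ∣ n := fun ⟨m, hm⟩ => hn ⟨m, hm.symm⟩
    simp [cE2N, this]
  · convert h using 2 with m
    simp [cE2N, Nat.mul_div_cancel_left _ (Nat.pos_of_ne_zero hN)]

theorem hasSum_eis2 {N : ℕ} (hN : N ≠ 0) (z : ℍ) :
    HasSum (fun n : ℕ ↦ cEis N n • Function.Periodic.qParam 1 z ^ n) (eis2 N z) := by
  rw [eis2_apply hN]
  have h1 := (hasSum_E2_diag hN z).mul_left (N : ℂ)
  have h2 := hasSum_E2 z
  have h3 := h1.sub h2
  have hfun : (fun n : ℕ ↦ cEis N n • Function.Periodic.qParam 1 z ^ n) =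
      fun n : ℕ ↦ (N : ℂ) * cE2N N n • Function.Periodic.qParam 1 z ^ n -
        cE2 n • Function.Periodic.qParam 1 z ^ n := by
    funext n
    simp only [cEis, smul_eq_mul]
    ring
  rw [hfun]
  exact h3

theorem qExpansion_eisP_coeff (N : ℕ) [NeZero N] (n : ℕ) :
    (qExpansion 1 (eisP N)).coeff n = cEis N n :=
  (ModularFormClass.qExpansion_coeff_unique one_pos
    (CongruenceSubgroup.one_mem_strictPeriods_Gamma0 N) (f := eisP N)
    (fun z => hasSum_eis2 (NeZero.ne N) z) n).symm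

/-! ### Closed form of the coefficients -/

theorem cEis_zero (N : ℕ) : cEis N 0 = (N : ℂ) - 1 := by
  simp [cEis, cE2N, cE2]

/-- `σ'(n)`: the sum of the divisors of `n` prime to `p`. -/
def sigmaPrime (p n : ℕ) : ℕ := ∑ d ∈ n.divisors.filter (fun d => ¬ p ∣ d), d

theorem sum_divisors_filter_dvd {p n : ℕ} (hp : p ≠ 0) (hn : n ≠ 0) :
    ∑ d ∈ n.divisors.filter (fun d => p ∣ d), d = if p ∣ n then p * σ 1 (n / p) else 0 := by
  split_ifs with hpn
  · obtain ⟨m, rfl⟩ := hpn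
    have hm : m ≠ 0 := fun h => hn (by simp [h])
    rw [Nat.mul_div_cancel_left _ (Nat.pos_of_ne_zero hp), ArithmeticFunction.sigma_one_apply,
      Finset.mul_sum]
    refine (Finset.sum_bij (fun d _ => p * d) ?_ ?_ ?_ ?_).symm
    · intro d hd
      rw [Finset.mem_filter, Nat.mem_divisors]
      exact ⟨⟨Nat.mul_dvd_mul_left p (Nat.mem_divisors.mp hd).1, hn⟩, dvd_mul_right p d⟩
    · intro a _ b _ hab
      exact Nat.eq_of_mul_eq_mul_left (Nat.pos_of_ne_zero hp) hab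
    · intro d hd
      rw [Finset.mem_filter, Nat.mem_divisors] at hd
      obtain ⟨⟨hd1, _⟩, d', rfl⟩ := hd
      exact ⟨d', Nat.mem_divisors.mpr ⟨(Nat.mul_dvd_mul_iff_left (Nat.pos_of_ne_zero hp)).mp hd1,
        hm⟩, rfl⟩
    · intro d _
      rfl
  · apply Finset.sum_eq_zero
    intro d hd
    rw [Finset.mem_filter, Nat.mem_divisors] at hd
    exact absurd (hd.2.trans hd.1.1) hpn

theorem sigma_one_eq_sigmaPrime_add {p n : ℕ} (hp : p ≠ 0) (hn : n ≠ 0) :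
    σ 1 n = sigmaPrime p n + if p ∣ n then p * σ 1 (n / p) else 0 := by
  rw [← sum_divisors_filter_dvd hp hn, sigmaPrime, ArithmeticFunction.sigma_one_apply, add_comm,
    Finset.sum_filter_add_sum_filter_not]

/-- For `n ≥ 1` the `n`-th coefficient of `eis2 N` is `24·σ'(n)`. -/
theorem cEis_of_ne_zero {N n : ℕ} (hN : N ≠ 0) (hn : n ≠ 0) :
    cEis N n = 24 * (sigmaPrime N n : ℂ) := by
  have h := sigma_one_eq_sigmaPrime_add hN hn
  have h' : (σ 1 n : ℂ) = (sigmaPrime N n : ℂ) +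
      if N ∣ n then (N : ℂ) * (σ 1 (n / N) : ℂ) else 0 := by
    rw [h]
    split_ifs <;> push_cast <;> ring
  have hc : cE2 n = -24 * (σ 1 n : ℂ) := by rw [cE2, if_neg hn]
  rw [cEis, cE2N, hc, h']
  split_ifs with hNn
  · have hq : n / N ≠ 0 := by
      obtain ⟨m, rfl⟩ := hNn
      rw [Nat.mul_div_cancel_left _ (Nat.pos_of_ne_zero hN)]
      exact fun h => hn (by simp [h])
    rw [cE2, if_neg hq]
    ring
  · ring

/-- **The `q`-expansion of the level-`N` Eisenstein series**: constant term `N − 1`, and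
`24·σ'(n)` for `n ≥ 1`. -/
theorem qExpansion_eisP_coeff' (N : ℕ) [NeZero N] (n : ℕ) :
    (qExpansion 1 (eisP N)).coeff n =
      if n = 0 then (N : ℂ) - 1 else 24 * (sigmaPrime N n : ℂ) := by
  rw [qExpansion_eisP_coeff]
  split_ifs with hn
  · rw [hn, cEis_zero]
  · exact cEis_of_ne_zero (NeZero.ne N) hn

end Fermat.Agent.S16.EisP
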