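/-
S16 (helper28): the arithmetic of `σ'(k) = Σ_{d ∣ k, p ∤ d} d` (`EisP.sigmaPrime`, helper15):
`σ'(1) = 1`, `σ'(k p) = σ'(k)`, and for a prime `ℓ ≠ p`:
`σ'(k ℓ) + [ℓ ∣ k] ℓ σ'(k/ℓ) = (1 + ℓ) σ'(k)`.
These are exactly the recursions satisfied by the `q`-coefficients of a Hecke eigenform with the
Eisenstein eigenvalues `T_ℓ ↦ 1 + ℓ`, `U_p ↦ 1` (consumed by `S16/Duality.lean`).
-/
import Mathlib
import Fermat.Agent.S16.EisP

set_option autoImplicit false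

namespace Fermat.Agent.S16.SigmaP

open Fermat.Agent.S16.EisP

theorem sigmaPrime_zero (p : ℕ) : sigmaPrime p 0 = 0 := by
  simp [sigmaPrime]

theorem sigmaPrime_one {p : ℕ} (hp : p ≠ 1) : sigmaPrime p 1 = 1 := by
  have h : ¬ p ∣ 1 := by simpa using hp
  simp [sigmaPrime, Finset.filter_singleton, h]

theorem sigmaPrime_mul_self {p : ℕ} (hp : p.Prime) (k : ℕ) :
    sigmaPrime p (k * p) = sigmaPrime p k := by
  rcases Nat.eq_zero_or_pos k with rfl | hk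
  · simp
  unfold sigmaPrime
  congr 1
  ext d
  simp only [Finset.mem_filter, Nat.mem_divisors]
  constructor
  · rintro ⟨⟨hd, _⟩, hpd⟩
    refine ⟨⟨?_, hk.ne'⟩, hpd⟩
    exact Nat.Coprime.dvd_of_dvd_mul_right ((Nat.Prime.coprime_iff_not_dvd hp).mpr hpd).symm hd
  · rintro ⟨⟨hd, _⟩, hpd⟩
    exact ⟨⟨hd.mul_right p, Nat.mul_ne_zero hk.ne' hp.ne_zero⟩, hpd⟩

theorem sum_image_mul {ℓ : ℕ} (hℓ : 0 < ℓ) (s : Finset ℕ) :
    ∑ d ∈ s.image (fun d => ℓ * d), d = ℓ * ∑ d ∈ s, d := by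
  rw [Finset.sum_image, Finset.mul_sum]
  intro a _ b _ hab
  exact Nat.eq_of_mul_eq_mul_left hℓ hab

theorem sigmaPrime_mul_prime {p ℓ : ℕ} (hp : p.Prime) (hℓ : ℓ.Prime) (hℓp : ℓ ≠ p) {k : ℕ}
    (hk : 0 < k) :
    sigmaPrime p (k * ℓ) + (if ℓ ∣ k then ℓ * sigmaPrime p (k / ℓ) else 0)
      = (1 + ℓ) * sigmaPrime p k := by
  classical
  have hpℓ : ¬ p ∣ ℓ := fun h => hℓp ((Nat.prime_dvd_prime_iff_eq hp hℓ).mp h).symm
  set D : ℕ → Finset ℕ := fun n => n.divisors.filter (fun d => ¬ p ∣ d) with hD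
  have hDdef : ∀ n, sigmaPrime p n = ∑ d ∈ D n, d := fun n => rfl
  -- D(kℓ) = D(k) ∪ ℓ D(k)
  have hunion : D (k * ℓ) = D k ∪ (D k).image (fun d => ℓ * d) := by
    ext d
    simp only [hD, Finset.mem_union, Finset.mem_filter, Nat.mem_divisors, Finset.mem_image]
    constructor
    · rintro ⟨⟨hd, _⟩, hpd⟩
      by_cases hℓd : ℓ ∣ d
      · obtain ⟨d', rfl⟩ := hℓd
        right
        refine ⟨d', ⟨⟨?_, hk.ne'⟩, fun h => hpd (h.mul_left ℓ)⟩, rfl⟩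
        rw [mul_comm k ℓ] at hd
        exact (Nat.mul_dvd_mul_iff_left hℓ.pos).mp hd
      · left
        refine ⟨⟨?_, hk.ne'⟩, hpd⟩
        exact Nat.Coprime.dvd_of_dvd_mul_right
          ((Nat.Prime.coprime_iff_not_dvd hℓ).mpr hℓd).symm hd
    · rintro (⟨⟨hd, _⟩, hpd⟩ | ⟨d', ⟨⟨hd, _⟩, hpd⟩, rfl⟩)
      · exact ⟨⟨hd.mul_right ℓ, Nat.mul_ne_zero hk.ne' hℓ.ne_zero⟩, hpd⟩
      · refine ⟨⟨?_, Nat.mul_ne_zero hk.ne' hℓ.ne_zero⟩, ?_⟩
        · rw [mul_comm k ℓ]; exact Nat.mul_dvd_mul_left ℓ hd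
        · intro h
          rcases (Nat.Prime.dvd_mul hp).mp h with h | h
          · exact hpℓ h
          · exact hpd h
  -- D(k) ∩ ℓ D(k)
  have hinter : D k ∩ (D k).image (fun d => ℓ * d)
      = if ℓ ∣ k then (D (k / ℓ)).image (fun d => ℓ * d) else ∅ := by
    split_ifs with hℓk
    · obtain ⟨m, rfl⟩ := hℓk
      have hm : m ≠ 0 := fun h => hk.ne' (by simp [h])
      rw [Nat.mul_div_cancel_left _ hℓ.pos]
      ext d
      simp only [hD, Finset.mem_inter, Finset.mem_filter, Nat.mem_divisors, Finset.mem_image]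
      constructor
      · rintro ⟨⟨⟨hd, _⟩, hpd⟩, d', ⟨⟨hd', _⟩, hpd'⟩, rfl⟩
        exact ⟨d', ⟨⟨(Nat.mul_dvd_mul_iff_left hℓ.pos).mp hd, hm⟩, hpd'⟩, rfl⟩
      · rintro ⟨d', ⟨⟨hd', _⟩, hpd'⟩, rfl⟩
        have hpd : ¬ p ∣ ℓ * d' := by
          intro h
          rcases (Nat.Prime.dvd_mul hp).mp h with h | h
          · exact hpℓ h
          · exact hpd' h
        exact ⟨⟨⟨Nat.mul_dvd_mul_left ℓ hd', hk.ne'⟩, hpd⟩,
          d', ⟨⟨hd'.mul_left ℓ, hk.ne'⟩, hpd'⟩, rfl⟩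
    · ext d
      simp only [hD, Finset.mem_inter, Finset.mem_filter, Nat.mem_divisors, Finset.mem_image,
        Finset.notMem_empty, iff_false, not_and, not_exists]
      rintro ⟨⟨hd, _⟩, _⟩ d' _ rfl
      exact hℓk ((dvd_mul_right ℓ d').trans hd)
  have hsum := Finset.sum_union_inter (s₁ := D k) (s₂ := (D k).image (fun d => ℓ * d))
    (f := fun d => d)
  rw [← hunion, hinter, sum_image_mul hℓ.pos] at hsum
  rw [hDdef, hDdef, hDdef, add_mul, one_mul, ← hsum]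
  congr 1
  split_ifs with hℓk
  · rw [sum_image_mul hℓ.pos]
  · simp

end Fermat.Agent.S16.SigmaP
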