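/-
S16, frozen-definition side, parts (R2) and (R3c): adapters.

* upper bound: a statement about integral cusp forms congruent to the Eisenstein series
  (`exists_killer_of_forms`) gives the operator form `hB''` consumed by
  `Reduction.card_eq_of_lower_of_upper`;
* lower bound: an Eisenstein eigenvector of exact order `n` in any `HeckeAlg`-module killed by
  `ker phi` gives `hA''` (`dvd_eps_of_eigenvector`).
* `card_eq_of_eigenvector_of_forms`: the S16 cardinality from both.
-/
import Fermat.Agent.S16.Duality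
import Fermat.Agent.S16.SigmaP

set_option autoImplicit false

noncomputable section

namespace Fermat.Agent.S16.Adapters

open CuspForm ModularCurve ModularFormClass CongruenceSubgroup
open Fermat.Agent.S16.DualityAbstract Fermat.Agent.S16.Duality Fermat.Agent.S16.Reduction
open Fermat.Agent.S16.SigmaP Fermat.Agent.S16.EisP

variable (p : ℕ) [Fact p.Prime]

theorem tau_eq_phi (ℓ : Nat.Primes) : tau p ℓ = phi p (heckeGen ℓ) := by
  rw [phi, RingHom.comp_apply, heckeEvalForms_heckeGen]
  rfl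

theorem prime_dvd_iff (ℓ : Nat.Primes) : (ℓ : ℕ) ∣ p ↔ (ℓ : ℕ) = p :=
  Nat.prime_dvd_prime_iff_eq ℓ.2 Fact.out

/-- **Upper-bound adapter.** If every integral cusp form congruent to the Eisenstein series
`∑ σ'(k) qᵏ` modulo `m` (in all coefficients `k ≥ 1`) forces `m ≠ 0` and `m ∣ n`, then some
element of `ker phi` has Eisenstein value exactly `n`. -/
theorem exists_killer_of_forms
    (h : ∀ (m : ℕ) (f : ↥(intLattice p 2)),
      (∀ k : ℕ, 1 ≤ k → ((aInt p k f : ℤ) : ZMod m) = (sigmaPrime p k : ZMod m)) →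
        m ≠ 0 ∧ m ∣ eisensteinNumerator p) :
    ∃ t : HeckeAlg, phi p t = 0 ∧ eps p t = ((eisensteinNumerator p : ℕ) : ℤ) := by
  have hp : p.Prime := Fact.out
  set J : Ideal ℤ := Ideal.map (eps p) (RingHom.ker (phi p)) with hJ
  obtain ⟨g, hg⟩ := (IsPrincipalIdealRing.principal J).principal
  set m₀ : ℕ := g.natAbs with hm₀
  have hJm : J = Ideal.span {(m₀ : ℤ)} := by
    rw [hm₀, Int.span_natAbs]
    exact hg
  have hA' : ∀ t : HeckeAlg, phi p t = 0 → (m₀ : ℤ) ∣ eps p t := by
    intro t ht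
    have : eps p t ∈ J := Ideal.mem_map_of_mem _ (RingHom.mem_ker.2 ht)
    rw [hJm, Ideal.mem_span_singleton] at this
    exact this
  set χ := eisChar p m₀ hA' with hχ
  -- lift to a linear form
  obtain ⟨lam, hlam⟩ := Module.projective_lifting_property
    ((Int.castAddHom (ZMod m₀)).toIntLinearMap) (χ.toAddMonoidHom.toIntLinearMap)
    (fun z => ZMod.intCast_surjective z)
  have hlam' : ∀ t, ((lam t : ℤ) : ZMod m₀) = χ t := fun t => LinearMap.congr_fun hlam t
  obtain ⟨f, hf⟩ := exists_form_of_dual p lam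
  -- all coefficients
  have hcoef := coeff_eq_of_pairing (coeffData p) (R := ZMod m₀) (fun t => χ t)
    (fun ℓ t => map_mul χ _ _) (fun k => (sigmaPrime p k : ZMod m₀))
    (by rw [sigmaPrime_one hp.ne_one, Nat.cast_one])
    (by
      intro ℓ n hn
      have hχτ : χ (tau p ℓ) = ((eisensteinSystem p ℓ : ℤ) : ZMod m₀) := by
        rw [tau_eq_phi, hχ, eisChar_phi, eps_heckeGen]
      rw [hχτ]
      by_cases hℓ : (ℓ : ℕ) ∣ p
      · rw [if_pos hℓ, eisensteinSystem_of_dvd hℓ, sub_zero, Int.cast_one, one_mul,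
          (prime_dvd_iff p ℓ).1 hℓ, sigmaPrime_mul_self hp n]
      · rw [if_neg hℓ, eisensteinSystem_of_not_dvd hℓ]
        have hℓp : (ℓ : ℕ) ≠ p := fun h => hℓ (h ▸ dvd_rfl)
        have h1 := sigmaPrime_mul_prime hp ℓ.2 hℓp hn
        have h2 := congrArg (fun x : ℕ => (x : ZMod m₀)) h1
        simp only [Nat.cast_add, Nat.cast_mul, Nat.cast_one] at h2
        rw [eq_sub_iff_add_eq]
        by_cases hℓn : (ℓ : ℕ) ∣ n
        · rw [if_pos hℓn] at h2 ⊢
          push_cast at h2 ⊢
          exact h2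
        · rw [if_neg hℓn] at h2 ⊢
          push_cast at h2 ⊢
          exact h2)
    f
    (by
      intro t
      rw [aHom_apply, hf t, hlam' t])
  obtain ⟨hm0, c, hc⟩ := h m₀ f (by
    intro k hk
    have := hcoef k hk 1
    rw [one_smul, map_one, one_mul, aHom_apply] at this
    exact this)
  have hmJ : (m₀ : ℤ) ∈ J := by
    rw [hJm]; exact Ideal.mem_span_singleton_self _
  rw [hJ, Ideal.mem_map_iff_of_surjective _ (eps_surjective p)] at hmJ
  obtain ⟨t₀, ht₀, hεt₀⟩ := hmJ
  refine ⟨MvPolynomial.C (c : ℤ) * t₀, ?_, ?_⟩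
  · rw [map_mul, RingHom.mem_ker.1 ht₀, mul_zero]
  · rw [map_mul, eps_C, hεt₀, hc]
    push_cast
    ring

/-- **Upper-bound adapter, `qCoeff` form.** Same as `exists_killer_of_forms`, with the hypothesis
stated for cusp forms with integer `q`-coefficients `c k` and the congruence as divisibility. -/
theorem exists_killer_of_forms'
    (h : ∀ (m : ℕ) (f : CuspForm (Gamma0 p) 2) (c : ℕ → ℤ),
      (∀ k : ℕ, qCoeff ⇑f k = (c k : ℂ)) →
      (∀ k : ℕ, 1 ≤ k → (m : ℤ) ∣ c k - (sigmaPrime p k : ℤ)) →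
        m ≠ 0 ∧ m ∣ eisensteinNumerator p) :
    ∃ t : HeckeAlg, phi p t = 0 ∧ eps p t = ((eisensteinNumerator p : ℕ) : ℤ) := by
  apply exists_killer_of_forms
  intro m f hf
  refine h m (f : CuspForm (Gamma0 p) 2) (fun k => aInt p k f) (fun k => aInt_spec p k f) ?_
  intro k hk
  have := hf k hk
  rw [← ZMod.intCast_zmod_eq_zero_iff_dvd]
  push_cast
  rw [this, sub_self]

/-- **Lower-bound adapter (module form).** An Eisenstein eigenvector of exact additive order `n`
in a `HeckeAlg`-module, killed by `ker phi`, gives `hA''`. -/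
theorem dvd_eps_of_eigenvector {M : Type*} [AddCommGroup M] [Module HeckeAlg M] (n : ℕ) (x : M)
    (hker : ∀ t : HeckeAlg, phi p t = 0 → t • x = 0)
    (hord : addOrderOf x = n)
    (heig : ∀ ℓ : Nat.Primes, heckeGen ℓ • x = (eisensteinSystem p ℓ : ℤ) • x) :
    ∀ t : HeckeAlg, phi p t = 0 → (n : ℤ) ∣ eps p t := by
  have hall : ∀ t : HeckeAlg, t • x = (eps p t : ℤ) • x := by
    intro t
    induction t using MvPolynomial.induction_on with
    | C a =>
      rw [eps_C, ← MvPolynomial.algebraMap_eq, algebraMap_smul]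
    | add s t hs ht =>
      rw [add_smul, hs, ht, map_add, add_smul]
    | mul_X s ℓ hs =>
      have : (MvPolynomial.X ℓ : HeckeAlg) = heckeGen ℓ := rfl
      rw [this, mul_smul, heig ℓ, smul_comm, hs, map_mul, eps_heckeGen, mul_smul]
      exact smul_comm _ _ _
  intro t ht
  have h0 : (eps p t : ℤ) • x = 0 := by rw [← hall t, hker t ht]
  rw [← hord]
  exact (addOrderOf_dvd_iff_zsmul_eq_zero).2 h0

/-- **S16 from a lower-bound eigenvector and the upper-bound statement on forms.** -/
theorem card_eq_of_eigenvector_of_forms {M : Type*} [AddCommGroup M] [Module HeckeAlg M] (x : M)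
    (hker : ∀ t : HeckeAlg, phi p t = 0 → t • x = 0)
    (hord : addOrderOf x = eisensteinNumerator p)
    (heig : ∀ ℓ : Nat.Primes, heckeGen ℓ • x = (eisensteinSystem p ℓ : ℤ) • x)
    (h : ∀ (m : ℕ) (f : ↥(intLattice p 2)),
      (∀ k : ℕ, 1 ≤ k → ((aInt p k f : ℤ) : ZMod m) = (sigmaPrime p k : ZMod m)) →
        m ≠ 0 ∧ m ∣ eisensteinNumerator p) :
    Nat.card (↥(heckeLatticeAlgebra p ∅) ⧸
        Ideal.map ((latticeRestrictHom p ∅).toRingHom.comp (heckeEvalForms p 2))
          (eisensteinIdeal p)) =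
      eisensteinNumerator p :=
  card_eq_of_lower_of_upper p (dvd_eps_of_eigenvector p _ x hker hord heig)
    (exists_killer_of_forms p h)

/-- **S16 from a lower-bound eigenvector and the upper-bound statement on forms (`qCoeff`
form).** -/
theorem card_eq_of_eigenvector_of_forms' {M : Type*} [AddCommGroup M] [Module HeckeAlg M] (x : M)
    (hker : ∀ t : HeckeAlg, phi p t = 0 → t • x = 0)
    (hord : addOrderOf x = eisensteinNumerator p)
    (heig : ∀ ℓ : Nat.Primes, heckeGen ℓ • x = (eisensteinSystem p ℓ : ℤ) • x)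
    (h : ∀ (m : ℕ) (f : CuspForm (Gamma0 p) 2) (c : ℕ → ℤ),
      (∀ k : ℕ, qCoeff ⇑f k = (c k : ℂ)) →
      (∀ k : ℕ, 1 ≤ k → (m : ℤ) ∣ c k - (sigmaPrime p k : ℤ)) →
        m ≠ 0 ∧ m ∣ eisensteinNumerator p) :
    Nat.card (↥(heckeLatticeAlgebra p ∅) ⧸
        Ideal.map ((latticeRestrictHom p ∅).toRingHom.comp (heckeEvalForms p 2))
          (eisensteinIdeal p)) =
      eisensteinNumerator p :=
  card_eq_of_lower_of_upper p (dvd_eps_of_eigenvector p _ x hker hord heig)
    (exists_killer_of_forms' p h)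

end Fermat.Agent.S16.Adapters
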