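import Fermat.Agent.S16.Weight8Mod512

/-!
# S16 / [A2], pure power-series half

`N8 F E4 E6 = F⁴ - 6 F² E4 + 8 F E6 - 3 E4²` (the numerator of the weight-8 form `G8`), `D = S3 + S3²`.

Generic identities in ANY commutative ring `K` (`φ : ℤ⟦X⟧ →+* K` = coefficient change, `q ↦ q^p`, …):

* `N8_inf`  : `N8 (1 + 8u) (1 + 240 φ S3) (1 - 504 φ S5) = 256 (φ D + 2 g)`, `g` explicit;
* `N8_zero` : for `p + 1 = 4 c₀`, `p r = 1`:
  `N8 (-r (1 + 8u')) (1 + 240 φ S3) (1 - 504 φ S5) = 256 (φ D + 2 g')` for some `g' ∈ K`.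

Carrier-agnostic consequences for `V : Subring ℂ` (think `V = ℤ_(2) ⊂ ℂ`), `u, u'` with coefficients in
`V`, `(p:ℂ)⁻¹ ∈ V`, `A = 1 + 8u`, `-p B = 1 + 8u'`:

* `a2_inf`  : `N8 A E4q E6q = 256 (toC D + 2 g)`, `g` with coefficients in `V`;
* `a2_zero` : `N8 B E4q(X^p) E6q(X^p) = 256 (toC D (X^p) + 2 g')`, `g'` with coefficients in `V`;
* coefficientwise: `coeff 0 D = 0`, `coeff 1 D = 1`, hence for `NA := 256⁻¹ N8 A ..`,
  `NB := 256⁻¹ N8 B ..`: all coefficients in `V`, `coeff 0 NA ∈ 2V`, `coeff 1 NA ∈ 1 + 2V`,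
  `coeff n NB ∈ 2V` for `n < p`, `coeff p NB ∈ 1 + 2V`.
-/

set_option autoImplicit false

namespace Fermat.Agent.S16.ArithA2Series

open PowerSeries Fermat.Agent.S16.RamanujanMod3 Fermat.Agent.S16.Weight8Mod512

section generic

variable {K : Type*} [CommRing K]

/-- the weight-8 numerator `F⁴ - 6F²E₄ + 8FE₆ - 3E₄²`. -/
def N8 (F E4 E6 : K) : K := F ^ 4 - 6 * F ^ 2 * E4 + 8 * F * E6 - 3 * E4 ^ 2

lemma map_N8 {L : Type*} [CommRing L] (f : K →+* L) (F E4 E6 : K) :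
    f (N8 F E4 E6) = N8 (f F) (f E4) (f E6) := by
  simp [N8, map_sub, map_add, map_mul, map_pow, map_ofNat]

/-- `D = S3 + S3²`. -/
noncomputable def D : ℤ⟦X⟧ := sig 3 + sig 3 ^ 2

lemma coeff_zero_sig (k : ℕ) : coeff 0 (sig k) = 0 := by simp

lemma coeff_one_sig (k : ℕ) : coeff 1 (sig k) = 1 := by simp

lemma constantCoeff_sig (k : ℕ) : constantCoeff (sig k) = 0 := by
  rw [← coeff_zero_eq_constantCoeff_apply]; simp

lemma coeff_zero_D : coeff 0 D = 0 := by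
  simp [D, pow_two, constantCoeff_sig]

lemma coeff_one_D : coeff 1 D = 1 := by
  simp [D, pow_two, coeff_one_mul, constantCoeff_sig]

/-- the explicit `g` at the cusp `∞`. -/
noncomputable def gInf (φ : ℤ⟦X⟧ →+* K) (u : K) : K :=
  4 * u ^ 3 + 8 * u ^ 4 + gamma (2 * u) (φ (sig 3)) (φ Z8)

/-- **cusp `∞`**: `F = 1 + 8u`. -/
theorem N8_inf (φ : ℤ⟦X⟧ →+* K) (u : K) :
    N8 (1 + 8 * u) (1 + 240 * φ (sig 3)) (1 - 504 * φ (sig 5)) = 256 * (φ D + 2 * gInf φ u) := by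
  have h := weight8_mod512_sig φ (2 * u)
  have h8 : (1 : K) + 4 * (2 * u) = 1 + 8 * u := by ring
  rw [h8] at h
  rw [N8, h, D, map_add, map_pow, gInf]
  ring

/-- the explicit `g'` at the cusp `0`, as a function of `k₀` with `c₀ (3c₀ - 1) = 2 k₀`. -/
noncomputable def gZero (φ : ℤ⟦X⟧ →+* K) (r : K) (c0 k0 : ℤ) (u' : K) : K :=
  (-(r * ((c0 : K) + 2 * u'))) ^ 2 *
      (-(r ^ 2 * (k0 : K)) + (-(r * u')) * (1 + 2 * (-(r * (c0 : K)))) + 2 * (-(r * u')) ^ 2)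
    + gamma (-(r * ((c0 : K) + 2 * u'))) (φ (sig 3)) (φ Z8)

/-- **cusp `0`**, explicit form: `F = -r (1 + 8u')`, `p r = 1`, `p + 1 = 4 c₀`, `c₀ (3 c₀ - 1) = 2 k₀`. -/
theorem N8_zero_explicit (φ : ℤ⟦X⟧ →+* K) (p c0 k0 : ℤ) (hp : p + 1 = 4 * c0)
    (hk0 : c0 * (3 * c0 - 1) = 2 * k0) (r : K) (hr : (p : K) * r = 1) (u' : K) :
    N8 (-r * (1 + 8 * u')) (1 + 240 * φ (sig 3)) (1 - 504 * φ (sig 5)) =
      256 * (φ D + 2 * gZero φ r c0 k0 u') := by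
  set v : K := -(r * ((c0 : K) + 2 * u')) with hv
  have hpK : (p : K) = 4 * (c0 : K) - 1 := by
    have : (p : K) + 1 = 4 * (c0 : K) := by exact_mod_cast congrArg (Int.cast (R := K)) hp
    linear_combination this
  have hkK : (c0 : K) * (3 * (c0 : K) - 1) = 2 * (k0 : K) := by
    exact_mod_cast congrArg (Int.cast (R := K)) hk0
  have hr' : (4 * (c0 : K) - 1) * r = 1 := by rw [← hpK]; exact hr
  have hF : -r * (1 + 8 * u') = 1 + 4 * v := by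
    rw [hv]; linear_combination hr'
  -- `v (1 + v) = 2 (…)`
  have hc : (-(r * (c0 : K))) * (1 + (-(r * (c0 : K)))) = 2 * (-(r ^ 2 * (k0 : K))) := by
    linear_combination (r * (c0 : K)) * hr' - r ^ 2 * hkK
  have hvv : v * (1 + v) =
      2 * (-(r ^ 2 * (k0 : K)) + (-(r * u')) * (1 + 2 * (-(r * (c0 : K)))) + 2 * (-(r * u')) ^ 2) := by
    rw [hv]; linear_combination hc
  have h := weight8_mod512_sig φ v
  rw [hF, N8, h, D, map_add, map_pow, gZero, ← hv]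
  linear_combination (256 * v ^ 2) * hvv

/-- `c₀ (3c₀ - 1)` is even. -/
lemma exists_k0 (c0 : ℤ) : ∃ k0 : ℤ, c0 * (3 * c0 - 1) = 2 * k0 := by
  obtain ⟨m, hm⟩ := Int.even_mul_pred_self c0
  exact ⟨c0 ^ 2 + m, by linear_combination hm⟩

/-- **cusp `0`**: `F = -r (1 + 8u')`, `p r = 1`, `p ≡ 3 mod 4`. -/
theorem N8_zero (φ : ℤ⟦X⟧ →+* K) (p c0 : ℕ) (hp : p + 1 = 4 * c0)
    (r : K) (hr : (p : K) * r = 1) (u' : K) :
    ∃ g : K, N8 (-r * (1 + 8 * u')) (1 + 240 * φ (sig 3)) (1 - 504 * φ (sig 5)) =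
      256 * (φ D + 2 * g) := by
  obtain ⟨k0, hk0⟩ := exists_k0 (c0 : ℤ)
  refine ⟨gZero φ r c0 k0 u', N8_zero_explicit φ (p : ℤ) c0 k0 (by exact_mod_cast hp) hk0 r ?_ u'⟩
  simpa using hr

end generic

/-! ### Carrier-agnostic form: coefficients in a subring `V` of `K` -/

section subring

variable {K : Type*} [CommRing K] (V : Subring K)

/-- coefficientwise cast `ℤ⟦X⟧ → K⟦X⟧`. -/
noncomputable abbrev toK (K : Type*) [CommRing K] : ℤ⟦X⟧ →+* K⟦X⟧ :=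
  PowerSeries.map (Int.castRingHom K)

/-- a series with coefficients in `V`, as a series over `V`. -/
noncomputable def liftV (f : K⟦X⟧) (hf : ∀ n, coeff n f ∈ V) : (V : Type _)⟦X⟧ :=
  PowerSeries.mk fun n => ⟨coeff n f, hf n⟩

lemma map_liftV (f : K⟦X⟧) (hf : ∀ n, coeff n f ∈ V) :
    PowerSeries.map V.subtype (liftV V f hf) = f := by
  ext n; simp [liftV]

lemma coeff_map_subtype_mem (g : (V : Type _)⟦X⟧) (n : ℕ) :
    coeff n (PowerSeries.map V.subtype g) ∈ V := by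
  simp

lemma map_subtype_toK (f : ℤ⟦X⟧) :
    PowerSeries.map V.subtype (toK V f) = toK K f := by
  ext n; simp

/-- **[A2], cusp `∞`.** -/
theorem a2_inf (u : K⟦X⟧) (hu : ∀ n, coeff n u ∈ V) (A : K⟦X⟧) (hA : A = 1 + 8 * u) :
    ∃ g : K⟦X⟧, (∀ n, coeff n g ∈ V) ∧
      N8 A (toK K (1 + 240 * sig 3)) (toK K (1 - 504 * sig 5)) = 256 * (toK K D + 2 * g) := by
  have h := N8_inf (toK V) (liftV V u hu)
  refine ⟨PowerSeries.map V.subtype (gInf (toK V) (liftV V u hu)),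
    coeff_map_subtype_mem V _, ?_⟩
  have h' := congrArg (PowerSeries.map V.subtype) h
  rw [map_N8] at h'
  simp only [map_add, map_sub, map_mul, map_one, map_ofNat, map_subtype_toK, map_liftV] at h'
  rw [hA, map_add, map_sub, map_mul, map_mul, map_one, map_ofNat, map_ofNat]
  exact h'

/-- **[A2], cusp `0`.** `p ≡ 3 mod 4`, `r = 1/p ∈ V`, `-p B = 1 + 8u'`. -/
theorem a2_zero (p c0 : ℕ) (hp0 : p ≠ 0) (hp : p + 1 = 4 * c0) (r : K) (hr : (p : K) * r = 1)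
    (hrV : r ∈ V) (u' : K⟦X⟧) (hu' : ∀ n, coeff n u' ∈ V) (B : K⟦X⟧)
    (hB : -(p : K⟦X⟧) * B = 1 + 8 * u') :
    ∃ g : K⟦X⟧, (∀ n, coeff n g ∈ V) ∧
      N8 B (PowerSeries.expand p hp0 (toK K (1 + 240 * sig 3)))
          (PowerSeries.expand p hp0 (toK K (1 - 504 * sig 5))) =
        256 * (PowerSeries.expand p hp0 (toK K D) + 2 * g) := by
  set φ : ℤ⟦X⟧ →+* (V : Type _)⟦X⟧ :=
    ((PowerSeries.expand p hp0 : (V : Type _)⟦X⟧ →ₐ[V] (V : Type _)⟦X⟧) : _ →+* _).comp (toK V)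
    with hφ
  have hmapφ : ∀ f : ℤ⟦X⟧, PowerSeries.map V.subtype (φ f) = PowerSeries.expand p hp0 (toK K f) := by
    intro f
    rw [hφ, RingHom.comp_apply, RingHom.coe_coe, map_expand, map_subtype_toK]
  have hr0 : ((p : ℕ) : (V : Type _)⟦X⟧) * C (⟨r, hrV⟩ : V) = 1 := by
    have h1 : ((p : ℕ) : (V : Type _)⟦X⟧) = C ((p : ℕ) : V) := by simp
    rw [h1, ← map_mul]
    have h2 : ((p : ℕ) : V) * (⟨r, hrV⟩ : V) = 1 := by
      apply Subtype.ext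
      simpa using hr
    rw [h2, map_one]
  obtain ⟨g0, hg0⟩ := N8_zero φ p c0 hp (C (⟨r, hrV⟩ : V)) hr0 (liftV V u' hu')
  refine ⟨PowerSeries.map V.subtype g0, coeff_map_subtype_mem V _, ?_⟩
  have h' := congrArg (PowerSeries.map V.subtype) hg0
  rw [map_N8] at h'
  have hCr : PowerSeries.map V.subtype (C (⟨r, hrV⟩ : V)) = C r := by
    ext n; simp [coeff_C]
  simp only [map_add, map_sub, map_mul, map_neg, map_one, map_ofNat, hmapφ, map_liftV, hCr] at h'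
  -- `B = - C r * (1 + 8 u')`
  have hBr : B = -C r * (1 + 8 * u') := by
    have h1 : (C r : K⟦X⟧) * (p : K⟦X⟧) = 1 := by
      have h1 : ((p : ℕ) : K⟦X⟧) = C ((p : ℕ) : K) := by simp
      rw [h1, ← map_mul, mul_comm, hr, map_one]
    calc B = (C r * (p : K⟦X⟧)) * B := by rw [h1, one_mul]
      _ = -C r * (-(p : K⟦X⟧) * B) := by ring
      _ = -C r * (1 + 8 * u') := by rw [hB]
  rw [hBr]
  simp only [map_add, map_sub, map_mul, map_one, map_ofNat] at h' ⊢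
  exact h'

end subring

/-! ### Coefficientwise consequences over `ℂ` -/

section complex

variable (V : Subring ℂ)

lemma coeff_smul_N8_of_eq (N Dq g : ℂ⟦X⟧) (h : N = 256 * (Dq + 2 * g)) (n : ℕ) :
    coeff n ((256 : ℂ)⁻¹ • N) = coeff n Dq + 2 * coeff n g := by
  have h256 : (256 : ℂ⟦X⟧) = C (256 : ℂ) := (map_ofNat (C (R := ℂ)) 256).symm
  have h2 : (2 : ℂ⟦X⟧) = C (2 : ℂ) := (map_ofNat (C (R := ℂ)) 2).symm
  rw [h, h256, h2, coeff_smul, coeff_C_mul, map_add, coeff_C_mul, smul_eq_mul]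
  field_simp

/-- **[A2], cusp `∞`, coefficientwise**: `NA := 256⁻¹ • N8 A E₄(q) E₆(q)` has coefficients in `V`,
`coeff 0 NA ∈ 2V`, `coeff 1 NA ∈ 1 + 2V`. -/
theorem a2_inf_coeff (u : ℂ⟦X⟧) (hu : ∀ n, coeff n u ∈ V) (A : ℂ⟦X⟧) (hA : A = 1 + 8 * u) :
    (∀ n, coeff n ((256 : ℂ)⁻¹ • N8 A (toK ℂ (1 + 240 * sig 3)) (toK ℂ (1 - 504 * sig 5))) ∈ V) ∧
    (∃ a ∈ V, coeff 0 ((256 : ℂ)⁻¹ • N8 A (toK ℂ (1 + 240 * sig 3)) (toK ℂ (1 - 504 * sig 5)))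
      = 2 * a) ∧
    (∃ a ∈ V, coeff 1 ((256 : ℂ)⁻¹ • N8 A (toK ℂ (1 + 240 * sig 3)) (toK ℂ (1 - 504 * sig 5)))
      = 1 + 2 * a) := by
  obtain ⟨g, hg, h⟩ := a2_inf V u hu A hA
  have hc := coeff_smul_N8_of_eq _ _ _ h
  refine ⟨fun n => ?_, ⟨coeff 0 g, hg 0, ?_⟩, ⟨coeff 1 g, hg 1, ?_⟩⟩
  · rw [hc n]
    refine V.add_mem ?_ (V.mul_mem (by exact_mod_cast natCast_mem V 2) (hg n))
    simp only [coeff_map, eq_intCast]
    exact intCast_mem V _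
  · rw [hc 0]; simp [coeff_zero_D]
  · rw [hc 1]; simp [coeff_one_D]

/-- **[A2], cusp `0`, coefficientwise**: `NB := 256⁻¹ • N8 B E₄(x^p) E₆(x^p)` has coefficients in
`V`, `coeff n NB ∈ 2V` for `n < p`, `coeff p NB ∈ 1 + 2V`. -/
theorem a2_zero_coeff (p c0 : ℕ) (hp0 : p ≠ 0) (hp : p + 1 = 4 * c0) (hpV : (p : ℂ)⁻¹ ∈ V)
    (u' : ℂ⟦X⟧) (hu' : ∀ n, coeff n u' ∈ V) (B : ℂ⟦X⟧) (hB : -(p : ℂ⟦X⟧) * B = 1 + 8 * u') :
    (∀ n, coeff n ((256 : ℂ)⁻¹ • N8 B (PowerSeries.expand p hp0 (toK ℂ (1 + 240 * sig 3)))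
          (PowerSeries.expand p hp0 (toK ℂ (1 - 504 * sig 5)))) ∈ V) ∧
    (∀ n < p, ∃ a ∈ V, coeff n ((256 : ℂ)⁻¹ • N8 B (PowerSeries.expand p hp0 (toK ℂ (1 + 240 * sig 3)))
          (PowerSeries.expand p hp0 (toK ℂ (1 - 504 * sig 5)))) = 2 * a) ∧
    (∃ a ∈ V, coeff p ((256 : ℂ)⁻¹ • N8 B (PowerSeries.expand p hp0 (toK ℂ (1 + 240 * sig 3)))
          (PowerSeries.expand p hp0 (toK ℂ (1 - 504 * sig 5)))) = 1 + 2 * a) := by
  have hpC : (p : ℂ) ≠ 0 := by exact_mod_cast hp0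
  obtain ⟨g, hg, h⟩ := a2_zero V p c0 hp0 hp (p : ℂ)⁻¹ (mul_inv_cancel₀ hpC) hpV u' hu' B hB
  have hc := coeff_smul_N8_of_eq _ _ _ h
  refine ⟨fun n => ?_, fun n hn => ⟨coeff n g, hg n, ?_⟩, ⟨coeff p g, hg p, ?_⟩⟩
  · rw [hc n]
    refine V.add_mem ?_ (V.mul_mem (by exact_mod_cast natCast_mem V 2) (hg n))
    rw [coeff_expand]
    split_ifs
    · simp only [coeff_map, eq_intCast]
      exact intCast_mem V _
    · exact V.zero_mem
  · rw [hc n, coeff_expand]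
    split_ifs with hd
    · have hn0 : n = 0 := Nat.eq_zero_of_dvd_of_lt hd hn
      subst hn0
      simp [coeff_zero_D]
    · simp
  · rw [hc p, coeff_expand, if_pos dvd_rfl, Nat.div_self (Nat.pos_of_ne_zero hp0)]
    simp [coeff_one_D]

/-- `1 + 2a ∉ 2V` as soon as `1/2 ∉ V`. -/
lemma one_add_two_mul_ne (h2 : (2 : ℂ)⁻¹ ∉ V) {a b : ℂ} (ha : a ∈ V) (hb : b ∈ V) :
    1 + 2 * a ≠ 2 * b := by
  intro h
  apply h2
  have : (2 : ℂ)⁻¹ = b - a := by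
    have h' : (1 : ℂ) = 2 * (b - a) := by linear_combination h
    field_simp
    linear_combination h'
  rw [this]
  exact V.sub_mem hb ha

end complex

end Fermat.Agent.S16.ArithA2Series
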