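/-
S16, block [X2] (helper18), file 1: THE DEFINITIONS of the two-cusp expansion calculus on
`M_k(Γ₀(p))` and the consumer interface `EisCong`.

* `expInf F := qExpansion 1 F`  — the `q`-expansion at the cusp `∞` (`q = e^{2πiz}`);
* `expZero F := qExpansion p (F ∣[k] S)` — the expansion of `F ∣[k] S` in `x = e^{2πiz/p}`
  (the cusp `0`, width `p`); this is the series `B'` of the Norm–Sturm lemma;
* `CoeffsIn R P` : all coefficients of `P : ℂ⟦X⟧` lie in the subring `R ⊆ ℂ`;
* `EisCong p R ℓ t` : a weight-2 form `FF` on `Γ₀(p)` with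
  `expInf FF = 1 + ℓ^t • u` and `(-p) • expZero FF = 1 + ℓ^t • u'`, `u, u'` with coefficients in `R`
  (in the application `R = ℤ_(ℓ) ⊂ ℂ`).

This file contains definitions only (Mathlib-only); the calculus is in `S16/TwoExp.lean`.
-/
import Mathlib

set_option autoImplicit false

open UpperHalfPlane ModularForm Matrix.SpecialLinearGroup CongruenceSubgroup ModularGroup
open scoped MatrixGroups ModularForm

noncomputable section

namespace Fermat.Agent.S16.EisCong

/-- `Γ₀(p)` as a subgroup of `GL(2, ℝ)` (this is what the coercion of `Gamma0 p` unfolds to, so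
`ModularForm (Gamma0 p) k` and `ModularForm (GammaP p) k` are the same type). -/
abbrev GammaP (p : ℕ) : Subgroup (GL (Fin 2) ℝ) := (Gamma0 p).map (mapGL ℝ)

/-- The expansion at `∞`: the `q`-expansion (`q = e^{2πiz}`) of a function on `ℍ`. -/
def expInf (f : ℍ → ℂ) : PowerSeries ℂ := qExpansion 1 f

/-- The expansion at the cusp `0` of a weight-`k` function `f` for `Γ₀(p)`: the expansion of
`f ∣[k] S` in `x = e^{2πiz/p}`. -/
def expZero (p : ℕ) (k : ℤ) (f : ℍ → ℂ) : PowerSeries ℂ :=
  qExpansion (p : ℝ) (f ∣[k] (mapGL ℝ S))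

theorem expInf_def (f : ℍ → ℂ) : expInf f = qExpansion 1 f := rfl

theorem expZero_def (p : ℕ) (k : ℤ) (f : ℍ → ℂ) :
    expZero p k f = qExpansion (p : ℝ) (f ∣[k] (mapGL ℝ S)) := rfl

/-- `SL(2, ℤ)`-slash form of `expZero`. -/
theorem expZero_def' (p : ℕ) (k : ℤ) (f : ℍ → ℂ) :
    expZero p k f = qExpansion (p : ℝ) (f ∣[k] S) := rfl

/-- All coefficients of the complex power series `P` lie in the subring `R`. -/
def CoeffsIn (R : Subring ℂ) (P : PowerSeries ℂ) : Prop := ∀ n, PowerSeries.coeff n P ∈ R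

/-- **The consumer interface of (A5), (A3), (A2), (TC).**  A weight-2 form `FF` on `Γ₀(p)` which is
`≡ 1` at `∞` and `≡ -1/p` at `0` modulo `ℓ^t`, with `R`-integral error terms:
`expInf FF = 1 + ℓ^t • u`, `(-p) • expZero FF = 1 + ℓ^t • u'`. -/
structure EisCongData (p : ℕ) (R : Subring ℂ) (ℓ t : ℕ) where
  /-- the form `FF = (E - f)/c` -/
  FF : ModularForm (GammaP p) 2
  /-- the error term at `∞` -/
  u : PowerSeries ℂ
  /-- the error term at `0` -/
  u' : PowerSeries ℂ
  hu : CoeffsIn R u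
  hu' : CoeffsIn R u'
  expInf_eq : expInf FF = 1 + ((ℓ : ℂ) ^ t) • u
  expZero_eq : (-(p : ℂ)) • expZero p 2 FF = 1 + ((ℓ : ℂ) ^ t) • u'

/-- Propositional form: such data exist. -/
def EisCong (p : ℕ) (R : Subring ℂ) (ℓ t : ℕ) : Prop := Nonempty (EisCongData p R ℓ t)

end Fermat.Agent.S16.EisCong
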