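/-
S16, block [LI] (helper17): **the shared vocabulary of `ℓ`-integral complex power series.**

* `ZLoc ℓ : Subring ℂ` : the image of `ℤ_(ℓ) = GaloisRep.ratLocalizedAt ℓ` in `ℂ`
  (`mem_ZLoc_iff : x ∈ ZLoc ℓ ↔ ∃ r : ℚ, ¬ ℓ ∣ r.den ∧ x = r`);
* `ZLocPow ℓ t : AddSubgroup ℂ` : `ℓ ^ t • ℤ_(ℓ)`; `ZLocMax ℓ := ZLocPow ℓ 1`; `ZLocMaxIdeal ℓ`;
* `redZ ℓ : ZLoc ℓ →+* ZMod ℓ` with kernel `ZLocMax`;
* for an arbitrary subring `V` of a commutative ring: `coeffSubring V : Subring R⟦X⟧` (series with all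
  coefficients in `V`), `coeffEquiv V : coeffSubring V ≃+* V⟦X⟧`, closure under `C`, `X`, `expand`,
  `rescale`, `map`-images;
* `lIntSeries ℓ := coeffSubring (ZLoc ℓ)`, `red ℓ : lIntSeries ℓ →+* (ZMod ℓ)⟦X⟧`, compatibility with
  `expand`, integer series, orders (`(ZMod ℓ)⟦X⟧` is a domain), and the congruence predicate
  `CongPow ℓ t P Q` (`P ≡ Q mod ℓ ^ t`, coefficientwise).
-/
import Mathlib
import Fermat.Prelude.Def_GaloisRep_Flat
import Fermat.Agent.S28.LocalizedInt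

set_option autoImplicit false
set_option linter.unusedSectionVars false
set_option linter.unusedVariables false
set_option linter.style.haveILetI false

open PowerSeries

noncomputable section

namespace Fermat.Agent.S16.LInt

/-! ### Series with coefficients in a subring -/

section CoeffSubring

variable {R : Type*} [CommRing R]

/-- The power series all of whose coefficients lie in the subring `V`. -/
def coeffSubring (V : Subring R) : Subring R⟦X⟧ where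
  carrier := {P | ∀ n, coeff n P ∈ V}
  mul_mem' {P Q} hP hQ n := by
    rw [coeff_mul]
    exact Subring.sum_mem _ fun x _ => V.mul_mem (hP _) (hQ _)
  one_mem' n := by
    rw [coeff_one]
    split_ifs
    · exact V.one_mem
    · exact V.zero_mem
  add_mem' {P Q} hP hQ n := by
    rw [map_add]
    exact V.add_mem (hP n) (hQ n)
  zero_mem' n := by
    rw [map_zero]
    exact V.zero_mem
  neg_mem' {P} hP n := by
    rw [map_neg]
    exact V.neg_mem (hP n)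

theorem mem_coeffSubring {V : Subring R} {P : R⟦X⟧} :
    P ∈ coeffSubring V ↔ ∀ n, coeff n P ∈ V := Iff.rfl

theorem coeff_mem {V : Subring R} {P : R⟦X⟧} (hP : P ∈ coeffSubring V) (n : ℕ) :
    coeff n P ∈ V := hP n

theorem C_mem {V : Subring R} {a : R} (ha : a ∈ V) : C a ∈ coeffSubring V := by
  intro n
  rw [coeff_C]
  split_ifs
  · exact ha
  · exact V.zero_mem

theorem X_mem (V : Subring R) : (X : R⟦X⟧) ∈ coeffSubring V := by
  intro n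
  rw [coeff_X]
  split_ifs
  · exact V.one_mem
  · exact V.zero_mem

theorem monomial_mem {V : Subring R} {a : R} (ha : a ∈ V) (d : ℕ) :
    monomial d a ∈ coeffSubring V := by
  intro n
  rw [coeff_monomial]
  split_ifs
  · exact ha
  · exact V.zero_mem

theorem smul_mem {V : Subring R} {a : R} (ha : a ∈ V) {P : R⟦X⟧} (hP : P ∈ coeffSubring V) :
    a • P ∈ coeffSubring V := by
  intro n
  rw [coeff_smul]
  exact V.mul_mem ha (hP n)

theorem mk_mem {V : Subring R} {f : ℕ → R} (hf : ∀ n, f n ∈ V) : mk f ∈ coeffSubring V := by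
  intro n
  rw [coeff_mk]
  exact hf n

theorem expand_mem {V : Subring R} (p : ℕ) (hp : p ≠ 0) {P : R⟦X⟧} (hP : P ∈ coeffSubring V) :
    expand p hp P ∈ coeffSubring V := by
  intro n
  rw [coeff_expand]
  split_ifs
  · exact hP _
  · exact V.zero_mem

theorem rescale_mem {V : Subring R} {a : R} (ha : a ∈ V) {P : R⟦X⟧} (hP : P ∈ coeffSubring V) :
    rescale a P ∈ coeffSubring V := by
  intro n
  rw [coeff_rescale]
  exact V.mul_mem (V.pow_mem ha n) (hP n)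

/-- The image of a series over `A` under a ring hom with values in `V`. -/
theorem map_mem {A : Type*} [CommRing A] {V : Subring R} (f : A →+* R) (hf : ∀ a, f a ∈ V)
    (P : A⟦X⟧) : map f P ∈ coeffSubring V := by
  intro n
  rw [coeff_map]
  exact hf _

theorem map_intCast_mem (V : Subring R) (P : ℤ⟦X⟧) :
    map (Int.castRingHom R) P ∈ coeffSubring V :=
  map_mem _ (fun a => by simp) P

theorem coeffSubring_mono {V W : Subring R} (h : V ≤ W) : coeffSubring V ≤ coeffSubring W :=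
  fun _ hP n => h (hP n)

/-- The series over `V` attached to a series with coefficients in `V`. -/
def toSub (V : Subring R) (P : coeffSubring V) : (V : Type _)⟦X⟧ :=
  mk fun n => ⟨coeff n P.1, P.2 n⟩

@[simp]
theorem coeff_toSub (V : Subring R) (P : coeffSubring V) (n : ℕ) :
    ((coeff n (toSub V P) : V) : R) = coeff n P.1 := by
  rw [toSub, coeff_mk]

@[simp]
theorem map_subtype_toSub (V : Subring R) (P : coeffSubring V) :
    map V.subtype (toSub V P) = P.1 := by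
  ext n
  rw [coeff_map, Subring.subtype_apply, coeff_toSub]

theorem map_subtype_injective (V : Subring R) :
    Function.Injective (map V.subtype : (V : Type _)⟦X⟧ → R⟦X⟧) := by
  intro P Q h
  ext n
  have := congrArg (coeff n) h
  rw [coeff_map, coeff_map] at this
  exact congrArg Subtype.val (Subtype.ext this)

theorem map_subtype_mem (V : Subring R) (P : (V : Type _)⟦X⟧) :
    map V.subtype P ∈ coeffSubring V := by
  intro n
  rw [coeff_map]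
  exact (coeff n P).2

/-- **`coeffSubring V ≃+* V⟦X⟧`.** -/
def coeffEquiv (V : Subring R) : coeffSubring V ≃+* (V : Type _)⟦X⟧ where
  toFun := toSub V
  invFun P := ⟨map V.subtype P, map_subtype_mem V P⟩
  left_inv P := Subtype.ext (map_subtype_toSub V P)
  right_inv P := by
    apply map_subtype_injective V
    rw [map_subtype_toSub]
  map_mul' P Q := by
    apply map_subtype_injective V
    rw [map_mul, map_subtype_toSub, map_subtype_toSub, map_subtype_toSub, Subring.coe_mul]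
  map_add' P Q := by
    apply map_subtype_injective V
    rw [map_add, map_subtype_toSub, map_subtype_toSub, map_subtype_toSub, Subring.coe_add]

@[simp]
theorem coeff_coeffEquiv (V : Subring R) (P : coeffSubring V) (n : ℕ) :
    ((coeff n (coeffEquiv V P) : V) : R) = coeff n P.1 :=
  coeff_toSub V P n

@[simp]
theorem map_subtype_coeffEquiv (V : Subring R) (P : coeffSubring V) :
    map V.subtype (coeffEquiv V P) = P.1 :=
  map_subtype_toSub V P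

/-- Reduction of the series with coefficients in `V` along a ring hom `V →+* k`. -/
def redHom (V : Subring R) {k : Type*} [CommRing k] (f : V →+* k) : coeffSubring V →+* k⟦X⟧ :=
  (map f).comp (coeffEquiv V : coeffSubring V →+* (V : Type _)⟦X⟧)

@[simp]
theorem coeff_redHom (V : Subring R) {k : Type*} [CommRing k] (f : V →+* k) (P : coeffSubring V)
    (n : ℕ) : coeff n (redHom V f P) = f ⟨coeff n P.1, P.2 n⟩ := by
  rw [redHom, RingHom.comp_apply, coeff_map]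
  congr 1
  exact Subtype.ext (coeff_coeffEquiv V P n)

/-- Coefficient of the reduction, with the coefficient given by any other name. -/
theorem coeff_redHom_of_eq (V : Subring R) {k : Type*} [CommRing k] (f : V →+* k)
    (P : coeffSubring V) (n : ℕ) {x : R} (hx : x ∈ V) (h : coeff n P.1 = x) :
    coeff n (redHom V f P) = f ⟨x, hx⟩ := by
  subst h
  exact coeff_redHom V f P n

theorem redHom_expand (V : Subring R) {k : Type*} [CommRing k] (f : V →+* k) (p : ℕ) (hp : p ≠ 0)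
    (P : coeffSubring V) :
    redHom V f ⟨expand p hp P.1, expand_mem p hp P.2⟩ = expand p hp (redHom V f P) := by
  ext n
  by_cases h : p ∣ n
  · rw [coeff_expand, if_pos h, coeff_redHom V f P (n / p)]
    exact coeff_redHom_of_eq V f ⟨expand p hp P.1, expand_mem p hp P.2⟩ n (P.2 (n / p))
      (by rw [coeff_expand, if_pos h])
  · rw [coeff_expand, if_neg h]
    rw [coeff_redHom_of_eq V f ⟨expand p hp P.1, expand_mem p hp P.2⟩ n V.zero_mem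
      (by rw [coeff_expand, if_neg h])]
    exact map_zero f

theorem redHom_eq_zero_iff (V : Subring R) {k : Type*} [CommRing k] (f : V →+* k)
    (P : coeffSubring V) :
    redHom V f P = 0 ↔ ∀ n, f ⟨coeff n P.1, P.2 n⟩ = 0 := by
  constructor
  · intro h n
    rw [← coeff_redHom, h, map_zero]
  · intro h
    ext n
    rw [coeff_redHom, h n, map_zero]

/-- `m ≤ order (red P)` iff the first `m` coefficients reduce to zero. -/
theorem le_order_redHom_iff (V : Subring R) {k : Type*} [CommRing k] (f : V →+* k)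
    (P : coeffSubring V) (m : ℕ) :
    (m : ℕ∞) ≤ (redHom V f P).order ↔ ∀ i < m, f ⟨coeff i P.1, P.2 i⟩ = 0 := by
  constructor
  · intro h i hi
    rw [← coeff_redHom]
    exact coeff_of_lt_order i (lt_of_lt_of_le (by exact_mod_cast hi) h)
  · intro h
    apply nat_le_order
    intro i hi
    rw [coeff_redHom]
    exact h i hi

end CoeffSubring

/-! ### `ℤ_(ℓ)` inside `ℂ` -/

section ZLoc

variable (ℓ : ℕ)

/-- `ℤ_(ℓ) ⊂ ℂ`: the image of `GaloisRep.ratLocalizedAt ℓ`. -/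
def ZLoc : Subring ℂ := (GaloisRep.ratLocalizedAt ℓ).map (algebraMap ℚ ℂ)

theorem mem_ZLoc_iff_coprime {x : ℂ} :
    x ∈ ZLoc ℓ ↔ ∃ r : ℚ, r.den.Coprime ℓ ∧ x = (r : ℂ) := by
  constructor
  · rintro ⟨r, hr, rfl⟩
    exact ⟨r, hr, rfl⟩
  · rintro ⟨r, hr, rfl⟩
    exact ⟨r, hr, rfl⟩

theorem ratCast_mem_ZLoc_iff_coprime {r : ℚ} : (r : ℂ) ∈ ZLoc ℓ ↔ r.den.Coprime ℓ := by
  rw [mem_ZLoc_iff_coprime]
  constructor
  · rintro ⟨s, hs, h⟩
    have : r = s := by exact_mod_cast h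
    rwa [this]
  · intro h
    exact ⟨r, h, rfl⟩

theorem intCast_mem_ZLoc (n : ℤ) : (n : ℂ) ∈ ZLoc ℓ := intCast_mem (ZLoc ℓ) n

theorem natCast_mem_ZLoc (n : ℕ) : (n : ℂ) ∈ ZLoc ℓ := natCast_mem (ZLoc ℓ) n

/-- `ℓ ^ t • ℤ_(ℓ) ⊂ ℂ`, as an additive subgroup. -/
def ZLocPow (t : ℕ) : AddSubgroup ℂ :=
  (ZLoc ℓ).toAddSubgroup.map (AddMonoidHom.mulLeft ((ℓ : ℂ) ^ t))

theorem mem_ZLocPow_iff {t : ℕ} {x : ℂ} :
    x ∈ ZLocPow ℓ t ↔ ∃ y ∈ ZLoc ℓ, x = (ℓ : ℂ) ^ t * y := by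
  constructor
  · rintro ⟨y, hy, rfl⟩
    exact ⟨y, hy, rfl⟩
  · rintro ⟨y, hy, rfl⟩
    exact ⟨y, hy, rfl⟩

/-- `ℓ • ℤ_(ℓ) ⊂ ℂ`, as an additive subgroup. -/
def ZLocMax : AddSubgroup ℂ := ZLocPow ℓ 1

theorem mem_ZLocMax_iff' {x : ℂ} : x ∈ ZLocMax ℓ ↔ ∃ y ∈ ZLoc ℓ, x = (ℓ : ℂ) * y := by
  rw [ZLocMax, mem_ZLocPow_iff, pow_one]

theorem ZLocPow_zero : ZLocPow ℓ 0 = (ZLoc ℓ).toAddSubgroup := by
  ext x
  rw [mem_ZLocPow_iff]
  constructor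
  · rintro ⟨y, hy, rfl⟩
    simpa using hy
  · intro hx
    exact ⟨x, hx, by simp⟩

theorem ZLocPow_le_ZLoc (t : ℕ) {x : ℂ} (hx : x ∈ ZLocPow ℓ t) : x ∈ ZLoc ℓ := by
  obtain ⟨y, hy, rfl⟩ := (mem_ZLocPow_iff ℓ).1 hx
  exact (ZLoc ℓ).mul_mem ((ZLoc ℓ).pow_mem (natCast_mem_ZLoc ℓ ℓ) t) hy

theorem ZLocPow_anti {s t : ℕ} (hst : s ≤ t) : ZLocPow ℓ t ≤ ZLocPow ℓ s := by
  intro x hx
  obtain ⟨y, hy, rfl⟩ := (mem_ZLocPow_iff ℓ).1 hx
  refine (mem_ZLocPow_iff ℓ).2 ⟨(ℓ : ℂ) ^ (t - s) * y,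
    (ZLoc ℓ).mul_mem ((ZLoc ℓ).pow_mem (natCast_mem_ZLoc ℓ ℓ) _) hy, ?_⟩
  rw [← mul_assoc, ← pow_add, Nat.add_sub_cancel' hst]

/-- `ℤ_(ℓ) · ℓ^t ℤ_(ℓ) ⊆ ℓ^t ℤ_(ℓ)`. -/
theorem mul_mem_ZLocPow {t : ℕ} {a x : ℂ} (ha : a ∈ ZLoc ℓ) (hx : x ∈ ZLocPow ℓ t) :
    a * x ∈ ZLocPow ℓ t := by
  obtain ⟨y, hy, rfl⟩ := (mem_ZLocPow_iff ℓ).1 hx
  exact (mem_ZLocPow_iff ℓ).2 ⟨a * y, (ZLoc ℓ).mul_mem ha hy, by ring⟩

theorem mul_mem_ZLocPow_add {s t : ℕ} {x y : ℂ} (hx : x ∈ ZLocPow ℓ s) (hy : y ∈ ZLocPow ℓ t) :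
    x * y ∈ ZLocPow ℓ (s + t) := by
  obtain ⟨a, ha, rfl⟩ := (mem_ZLocPow_iff ℓ).1 hx
  obtain ⟨b, hb, rfl⟩ := (mem_ZLocPow_iff ℓ).1 hy
  exact (mem_ZLocPow_iff ℓ).2 ⟨a * b, (ZLoc ℓ).mul_mem ha hb, by ring⟩

theorem pow_mul_mem_ZLocPow (t : ℕ) {y : ℂ} (hy : y ∈ ZLoc ℓ) : (ℓ : ℂ) ^ t * y ∈ ZLocPow ℓ t :=
  (mem_ZLocPow_iff ℓ).2 ⟨y, hy, rfl⟩

theorem pow_smul_mem_ZLocPow (t : ℕ) {y : ℂ} (hy : y ∈ ZLoc ℓ) : ℓ ^ t • y ∈ ZLocPow ℓ t := by
  rw [nsmul_eq_mul]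
  push_cast
  exact pow_mul_mem_ZLocPow ℓ t hy

/-- The ideal `ℓ • ℤ_(ℓ)` of `ZLoc ℓ`. -/
def ZLocMaxIdeal : Ideal (ZLoc ℓ) := Ideal.span {(ℓ : ZLoc ℓ)}

theorem coe_mem_ZLocMax_iff (a : ZLoc ℓ) : (a : ℂ) ∈ ZLocMax ℓ ↔ a ∈ ZLocMaxIdeal ℓ := by
  rw [mem_ZLocMax_iff', ZLocMaxIdeal, Ideal.mem_span_singleton]
  constructor
  · rintro ⟨y, hy, h⟩
    exact ⟨⟨y, hy⟩, Subtype.ext (by simpa using h)⟩
  · rintro ⟨b, rfl⟩
    exact ⟨b, b.2, by simp⟩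

variable [hℓ : Fact ℓ.Prime]

theorem coprime_iff_not_dvd (n : ℕ) : n.Coprime ℓ ↔ ¬ ℓ ∣ n :=
  Fermat.Agent.S28.LocalizedInt.coprime_iff_not_dvd ℓ n

/-- **Membership in `ZLoc ℓ`** (the shape of the consumers). -/
theorem mem_ZLoc_iff {x : ℂ} : x ∈ ZLoc ℓ ↔ ∃ r : ℚ, ¬ ℓ ∣ r.den ∧ x = (r : ℂ) := by
  rw [mem_ZLoc_iff_coprime]
  simp only [coprime_iff_not_dvd]

theorem ratCast_mem_ZLoc_iff {r : ℚ} : (r : ℂ) ∈ ZLoc ℓ ↔ ¬ ℓ ∣ r.den := by
  rw [ratCast_mem_ZLoc_iff_coprime, coprime_iff_not_dvd]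

/-- `1 / u ∈ ℤ_(ℓ)` for an integer `u` prime to `ℓ`. -/
theorem inv_intCast_mem_ZLoc {u : ℤ} (hu : ¬ (ℓ : ℤ) ∣ u) : ((u : ℂ))⁻¹ ∈ ZLoc ℓ := by
  have hu0 : u ≠ 0 := by
    rintro rfl
    exact hu (dvd_zero _)
  have h : (((u : ℚ)⁻¹ : ℚ) : ℂ) ∈ ZLoc ℓ := by
    rw [ratCast_mem_ZLoc_iff, Rat.inv_intCast_den, if_neg hu0]
    intro h
    exact hu (Int.natCast_dvd.mpr h)
  simpa using h

theorem inv_natCast_mem_ZLoc {u : ℕ} (hu : ¬ ℓ ∣ u) : ((u : ℂ))⁻¹ ∈ ZLoc ℓ := by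
  have := inv_intCast_mem_ZLoc ℓ (u := (u : ℤ)) (by exact_mod_cast hu)
  simpa using this

theorem div_intCast_mem_ZLoc {a : ℂ} (ha : a ∈ ZLoc ℓ) {u : ℤ} (hu : ¬ (ℓ : ℤ) ∣ u) :
    a / (u : ℂ) ∈ ZLoc ℓ := by
  rw [div_eq_mul_inv]
  exact (ZLoc ℓ).mul_mem ha (inv_intCast_mem_ZLoc ℓ hu)

/-- A rational number lies in `ℓ^t ℤ_(ℓ)` iff `ℓ ∤ den` and `ℓ^t ∣ num`. -/
theorem ratCast_mem_ZLocPow_iff {t : ℕ} {r : ℚ} :
    (r : ℂ) ∈ ZLocPow ℓ t ↔ ¬ ℓ ∣ r.den ∧ ((ℓ : ℤ) ^ t) ∣ r.num := by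
  have hp : Nat.Prime ℓ := hℓ.out
  have hℓ0 : (ℓ : ℚ) ≠ 0 := by exact_mod_cast hp.ne_zero
  rw [mem_ZLocPow_iff]
  constructor
  · rintro ⟨y, hy, h⟩
    obtain ⟨s, hs, rfl⟩ := (mem_ZLoc_iff ℓ).1 hy
    have h1 : r = (ℓ : ℚ) ^ t * s := by exact_mod_cast h
    -- r * s.den = ℓ^t * s.num
    have h2 : r.num * (s.den : ℤ) = (ℓ : ℤ) ^ t * s.num * (r.den : ℤ) := by
      have hs' : s = (s.num : ℚ) / (s.den : ℚ) := (Rat.num_div_den s).symm
      have hr' : r = (r.num : ℚ) / (r.den : ℚ) := (Rat.num_div_den r).symm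
      have hsd : (s.den : ℚ) ≠ 0 := by exact_mod_cast s.den_ne_zero
      have hrd : (r.den : ℚ) ≠ 0 := by exact_mod_cast r.den_ne_zero
      have : (r.num : ℚ) * (s.den : ℚ) = (ℓ : ℚ) ^ t * (s.num : ℚ) * (r.den : ℚ) := by
        have e1 : (r.num : ℚ) = r * (r.den : ℚ) := (Rat.mul_den_eq_num r).symm
        have e2 : (s.num : ℚ) = s * (s.den : ℚ) := (Rat.mul_den_eq_num s).symm
        rw [e1, e2, h1]
        ring
      exact_mod_cast this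
    have hcop : IsCoprime ((ℓ : ℤ) ^ t) (s.den : ℤ) := by
      apply IsCoprime.pow_left
      rw [Int.isCoprime_iff_gcd_eq_one]
      have : Nat.Coprime ℓ s.den := (Nat.Prime.coprime_iff_not_dvd hp).2 hs
      simpa [Int.gcd] using this
    refine ⟨?_, ?_⟩
    · -- r.den ∣ s.den
      intro hd
      apply hs
      have h3 : (r.den : ℤ) ∣ r.num * (s.den : ℤ) := ⟨(ℓ : ℤ) ^ t * s.num, by rw [h2]; ring⟩
      have hcop2 : IsCoprime (r.den : ℤ) r.num := by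
        rw [Int.isCoprime_iff_gcd_eq_one]
        have := r.reduced
        rw [Nat.Coprime, Nat.gcd_comm] at this
        simpa [Int.gcd] using this
      have h4 : (r.den : ℤ) ∣ (s.den : ℤ) := hcop2.dvd_of_dvd_mul_left h3
      have h5 : r.den ∣ s.den := by exact_mod_cast h4
      exact dvd_trans hd h5
    · have h3 : (ℓ : ℤ) ^ t ∣ r.num * (s.den : ℤ) := ⟨s.num * (r.den : ℤ), by rw [h2]; ring⟩
      exact hcop.dvd_of_dvd_mul_right h3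
  · rintro ⟨hd, c, hc⟩
    refine ⟨((c : ℚ) / (r.den : ℚ) : ℚ), ?_, ?_⟩
    · have hinv : (((r.den : ℚ))⁻¹ : ℚ) = (((r.den : ℤ) : ℚ))⁻¹ := by push_cast; rfl
      have h1 : ((((r.den : ℤ) : ℂ))⁻¹) ∈ ZLoc ℓ :=
        inv_intCast_mem_ZLoc ℓ (u := (r.den : ℤ)) (by exact_mod_cast hd)
      have h2 : ((c : ℚ) / (r.den : ℚ) : ℚ) = (c : ℚ) * ((r.den : ℚ))⁻¹ := div_eq_mul_inv _ _
      rw [h2]
      push_cast
      exact (ZLoc ℓ).mul_mem (intCast_mem_ZLoc ℓ c) (by simpa using h1)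
    · have hr' : r = (r.num : ℚ) / (r.den : ℚ) := (Rat.num_div_den r).symm
      have : r = (ℓ : ℚ) ^ t * ((c : ℚ) / (r.den : ℚ)) := by
        conv_lhs => rw [hr', hc]
        push_cast
        ring
      exact_mod_cast this

/-- **Membership in `ZLocMax ℓ`** (the shape of the consumers). -/
theorem mem_ZLocMax_iff {x : ℂ} :
    x ∈ ZLocMax ℓ ↔ ∃ r : ℚ, ¬ ℓ ∣ r.den ∧ (ℓ : ℤ) ∣ r.num ∧ x = (r : ℂ) := by
  constructor
  · intro hx
    have hx' := ZLocPow_le_ZLoc ℓ 1 hx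
    obtain ⟨r, hr, rfl⟩ := (mem_ZLoc_iff ℓ).1 hx'
    have := (ratCast_mem_ZLocPow_iff ℓ (t := 1)).1 hx
    rw [pow_one] at this
    exact ⟨r, this.1, this.2, rfl⟩
  · rintro ⟨r, h1, h2, rfl⟩
    exact (ratCast_mem_ZLocPow_iff ℓ (t := 1)).2 ⟨h1, by rwa [pow_one]⟩

/-- An integer lies in `ℓ^t ℤ_(ℓ)` iff it is divisible by `ℓ^t`. -/
theorem intCast_mem_ZLocPow_iff {t : ℕ} {n : ℤ} : (n : ℂ) ∈ ZLocPow ℓ t ↔ (ℓ : ℤ) ^ t ∣ n := by
  have := ratCast_mem_ZLocPow_iff ℓ (t := t) (r := (n : ℚ))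
  rw [Rat.cast_intCast] at this
  rw [this, Rat.den_intCast, Rat.num_intCast]
  constructor
  · exact fun h => h.2
  · exact fun h => ⟨fun h1 => hℓ.out.one_lt.ne' (Nat.dvd_one.1 h1), h⟩

theorem natCast_mem_ZLocPow_iff {t : ℕ} {n : ℕ} : (n : ℂ) ∈ ZLocPow ℓ t ↔ ℓ ^ t ∣ n := by
  have := intCast_mem_ZLocPow_iff ℓ (t := t) (n := (n : ℤ))
  rw [Int.cast_natCast] at this
  rw [this]
  exact_mod_cast Iff.rfl

theorem intCast_mem_ZLocMax_iff {n : ℤ} : (n : ℂ) ∈ ZLocMax ℓ ↔ (ℓ : ℤ) ∣ n := by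
  rw [ZLocMax, intCast_mem_ZLocPow_iff, pow_one]

theorem one_notMem_ZLocMax : (1 : ℂ) ∉ ZLocMax ℓ := by
  intro h
  have h1 : ((1 : ℤ) : ℂ) ∈ ZLocMax ℓ := by simpa using h
  rw [intCast_mem_ZLocMax_iff] at h1
  have : (ℓ : ℤ) = 1 ∨ (ℓ : ℤ) = -1 := Int.isUnit_iff.1 (isUnit_of_dvd_one h1)
  rcases this with h2 | h2
  · exact hℓ.out.one_lt.ne' (by exact_mod_cast h2)
  · have : (0 : ℤ) ≤ (ℓ : ℤ) := Int.natCast_nonneg _
    omega

end ZLoc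

/-! ### The reduction `ZLoc ℓ → ZMod ℓ` -/

section Red

variable (ℓ : ℕ) [hℓ : Fact ℓ.Prime]

/-- `ZLoc ℓ ≃+* ℤ_(ℓ)`. -/
noncomputable def ZLocEquiv : GaloisRep.ratLocalizedAt ℓ ≃+* ZLoc ℓ :=
  (GaloisRep.ratLocalizedAt ℓ).equivMapOfInjective (algebraMap ℚ ℂ) (algebraMap ℚ ℂ).injective

@[simp]
theorem coe_ZLocEquiv (a : GaloisRep.ratLocalizedAt ℓ) : ((ZLocEquiv ℓ a : ZLoc ℓ) : ℂ) = ((a : ℚ) : ℂ) :=
  rfl

/-- The reduction `ℤ_(ℓ) → 𝔽_ℓ` on the rational side. -/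
noncomputable def redQ : GaloisRep.ratLocalizedAt ℓ →+* ZMod ℓ :=
  IsLocalization.lift (M := (Ideal.span {(ℓ : ℤ)}).primeCompl) (g := Int.castRingHom (ZMod ℓ))
    (by
      rintro ⟨y, hy⟩
      have hy' : ¬ (ℓ : ℤ) ∣ y := fun h => hy (Ideal.mem_span_singleton.mpr h)
      have : ((y : ℤ) : ZMod ℓ) ≠ 0 := by
        rw [Ne, ZMod.intCast_zmod_eq_zero_iff_dvd]
        exact hy'
      exact IsUnit.mk0 _ this)

theorem redQ_intCast (n : ℤ) : redQ ℓ (algebraMap ℤ _ n) = (n : ZMod ℓ) := by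
  rw [redQ, IsLocalization.lift_eq]
  rfl

/-- **The reduction `ZLoc ℓ →+* ZMod ℓ`.** -/
noncomputable def redZ : ZLoc ℓ →+* ZMod ℓ :=
  (redQ ℓ).comp ((ZLocEquiv ℓ).symm : ZLoc ℓ →+* GaloisRep.ratLocalizedAt ℓ)

theorem redZ_intCast (n : ℤ) : redZ ℓ ⟨(n : ℂ), intCast_mem_ZLoc ℓ n⟩ = (n : ZMod ℓ) := by
  have : (⟨(n : ℂ), intCast_mem_ZLoc ℓ n⟩ : ZLoc ℓ) = ZLocEquiv ℓ (algebraMap ℤ _ n) := by
    apply Subtype.ext
    rw [coe_ZLocEquiv]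
    simp
  rw [redZ, RingHom.comp_apply, this]
  have h2 : ((ZLocEquiv ℓ).symm : ZLoc ℓ →+* GaloisRep.ratLocalizedAt ℓ)
      (ZLocEquiv ℓ (algebraMap ℤ _ n)) = algebraMap ℤ _ n := (ZLocEquiv ℓ).symm_apply_apply _
  rw [h2, redQ_intCast]

theorem redZ_natCast (n : ℕ) : redZ ℓ ⟨(n : ℂ), natCast_mem_ZLoc ℓ n⟩ = (n : ZMod ℓ) := by
  have := redZ_intCast ℓ (n : ℤ)
  simpa using this

theorem redZ_surjective : Function.Surjective (redZ ℓ) := by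
  intro x
  obtain ⟨n, rfl⟩ := ZMod.intCast_surjective x
  exact ⟨_, redZ_intCast ℓ n⟩

/-- **The kernel of the reduction is `ℓ ℤ_(ℓ)`.** -/
theorem redZ_eq_zero_iff (a : ZLoc ℓ) : redZ ℓ a = 0 ↔ (a : ℂ) ∈ ZLocMax ℓ := by
  rw [coe_mem_ZLocMax_iff]
  constructor
  · intro h
    -- `a` is not a unit, hence in the maximal ideal `(ℓ)` of `ℤ_(ℓ)`
    set b : GaloisRep.ratLocalizedAt ℓ := (ZLocEquiv ℓ).symm a with hb
    have hb0 : redQ ℓ b = 0 := h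
    have hnu : ¬ IsUnit b := by
      intro hu
      have := hu.map (redQ ℓ)
      rw [hb0] at this
      exact not_isUnit_zero this
    have hmem : b ∈ IsLocalRing.maximalIdeal (GaloisRep.ratLocalizedAt ℓ) :=
      (IsLocalRing.mem_maximalIdeal b).mpr hnu
    rw [Fermat.Agent.S28.LocalizedInt.maximalIdeal_eq, Ideal.mem_span_singleton] at hmem
    obtain ⟨c, hc⟩ := hmem
    rw [ZLocMaxIdeal, Ideal.mem_span_singleton]
    refine ⟨ZLocEquiv ℓ c, ?_⟩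
    have : a = ZLocEquiv ℓ b := ((ZLocEquiv ℓ).apply_symm_apply a).symm
    rw [this, hc, map_mul, map_natCast]
  · intro h
    rw [ZLocMaxIdeal, Ideal.mem_span_singleton] at h
    obtain ⟨c, rfl⟩ := h
    rw [map_mul, map_natCast, ZMod.natCast_self, zero_mul]

theorem redZ_eq_zero_iff' {x : ℂ} (hx : x ∈ ZLoc ℓ) : redZ ℓ ⟨x, hx⟩ = 0 ↔ x ∈ ZLocMax ℓ :=
  redZ_eq_zero_iff ℓ ⟨x, hx⟩

/-- `ℓ ℤ_(ℓ)` is a prime ideal, elementwise in `ℂ`. -/
theorem mem_or_mem_of_mul_mem_ZLocMax {a b : ℂ} (ha : a ∈ ZLoc ℓ) (hb : b ∈ ZLoc ℓ)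
    (hab : a * b ∈ ZLocMax ℓ) : a ∈ ZLocMax ℓ ∨ b ∈ ZLocMax ℓ := by
  have h1 : redZ ℓ (⟨a, ha⟩ * ⟨b, hb⟩) = 0 := (redZ_eq_zero_iff ℓ _).2 hab
  rw [map_mul] at h1
  rcases mul_eq_zero.1 h1 with h | h
  · exact Or.inl ((redZ_eq_zero_iff ℓ _).1 h)
  · exact Or.inr ((redZ_eq_zero_iff ℓ _).1 h)

end Red

/-! ### `ℓ`-integral series and their reduction -/

section Series

variable (ℓ : ℕ)

/-- **The `ℓ`-integral complex power series**: all coefficients in `ZLoc ℓ`. -/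
abbrev lIntSeries : Subring ℂ⟦X⟧ := coeffSubring (ZLoc ℓ)

theorem mem_lIntSeries {P : ℂ⟦X⟧} : P ∈ lIntSeries ℓ ↔ ∀ n, coeff n P ∈ ZLoc ℓ := Iff.rfl

/-- Integer series are `ℓ`-integral. -/
theorem map_intCast_mem_lIntSeries (P : ℤ⟦X⟧) : map (Int.castRingHom ℂ) P ∈ lIntSeries ℓ :=
  map_intCast_mem (ZLoc ℓ) P

/-- `P ≡ Q mod ℓ ^ t`, coefficientwise. -/
def CongPow (t : ℕ) (P Q : ℂ⟦X⟧) : Prop := ∀ n, coeff n P - coeff n Q ∈ ZLocPow ℓ t

theorem CongPow.refl (t : ℕ) (P : ℂ⟦X⟧) : CongPow ℓ t P P := fun n => by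
  rw [sub_self]
  exact (ZLocPow ℓ t).zero_mem

theorem CongPow.symm {t : ℕ} {P Q : ℂ⟦X⟧} (h : CongPow ℓ t P Q) : CongPow ℓ t Q P := fun n => by
  rw [← neg_sub]
  exact (ZLocPow ℓ t).neg_mem (h n)

theorem CongPow.trans {t : ℕ} {P Q S : ℂ⟦X⟧} (h1 : CongPow ℓ t P Q) (h2 : CongPow ℓ t Q S) :
    CongPow ℓ t P S := fun n => by
  have := (ZLocPow ℓ t).add_mem (h1 n) (h2 n)
  rwa [sub_add_sub_cancel] at this

theorem CongPow.add {t : ℕ} {P Q P' Q' : ℂ⟦X⟧} (h1 : CongPow ℓ t P Q) (h2 : CongPow ℓ t P' Q') :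
    CongPow ℓ t (P + P') (Q + Q') := fun n => by
  have := (ZLocPow ℓ t).add_mem (h1 n) (h2 n)
  rw [map_add, map_add]
  rwa [add_sub_add_comm]

theorem CongPow.mono {s t : ℕ} (hst : s ≤ t) {P Q : ℂ⟦X⟧} (h : CongPow ℓ t P Q) :
    CongPow ℓ s P Q := fun n => ZLocPow_anti ℓ hst (h n)

/-- `P = Q + ℓ^t • u` with `u` integral gives `P ≡ Q mod ℓ^t`. -/
theorem congPow_of_eq_add_smul {t : ℕ} {P Q u : ℂ⟦X⟧} (hu : u ∈ lIntSeries ℓ)
    (h : P = Q + (ℓ : ℂ) ^ t • u) : CongPow ℓ t P Q := fun n => by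
  rw [h, map_add, add_sub_cancel_left, coeff_smul]
  exact pow_mul_mem_ZLocPow ℓ t (hu n)

theorem congPow_iff_exists {t : ℕ} {P Q : ℂ⟦X⟧} :
    CongPow ℓ t P Q ↔ ∃ u ∈ lIntSeries ℓ, P = Q + (ℓ : ℂ) ^ t • u := by
  constructor
  · intro h
    choose y hy hxy using fun n => (mem_ZLocPow_iff ℓ).1 (h n)
    refine ⟨mk y, mk_mem hy, ?_⟩
    ext n
    rw [map_add, coeff_smul, coeff_mk, smul_eq_mul, ← hxy n]
    ring
  · rintro ⟨u, hu, h⟩
    exact congPow_of_eq_add_smul ℓ hu h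

/-- Multiplying a congruence by an integral series. -/
theorem CongPow.mul_left {t : ℕ} {P Q : ℂ⟦X⟧} (h : CongPow ℓ t P Q) {A : ℂ⟦X⟧}
    (hA : A ∈ lIntSeries ℓ) : CongPow ℓ t (A * P) (A * Q) := by
  obtain ⟨u, hu, rfl⟩ := (congPow_iff_exists ℓ).1 h
  refine (congPow_iff_exists ℓ).2 ⟨A * u, (lIntSeries ℓ).mul_mem hA hu, ?_⟩
  rw [mul_add, mul_smul_comm]

theorem CongPow.mul {t : ℕ} {P Q P' Q' : ℂ⟦X⟧} (h1 : CongPow ℓ t P Q) (h2 : CongPow ℓ t P' Q')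
    (hP : P ∈ lIntSeries ℓ) (hQ' : Q' ∈ lIntSeries ℓ) : CongPow ℓ t (P * P') (Q * Q') := by
  have e1 : CongPow ℓ t (P * P') (P * Q') := h2.mul_left ℓ hP
  have e2 : CongPow ℓ t (P * Q') (Q * Q') := by
    have := h1.mul_left ℓ hQ'
    rwa [mul_comm Q' P, mul_comm Q' Q] at this
  exact e1.trans ℓ e2

theorem CongPow.expand {t : ℕ} {P Q : ℂ⟦X⟧} (h : CongPow ℓ t P Q) (p : ℕ) (hp : p ≠ 0) :
    CongPow ℓ t (PowerSeries.expand p hp P) (PowerSeries.expand p hp Q) := fun n => by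
  rw [coeff_expand, coeff_expand]
  split_ifs
  · exact h _
  · rw [sub_self]
    exact (ZLocPow ℓ t).zero_mem

variable [hℓ : Fact ℓ.Prime]

/-- **The reduction `lIntSeries ℓ →+* (ZMod ℓ)⟦X⟧`** (coefficientwise `redZ`). -/
noncomputable def red : lIntSeries ℓ →+* (ZMod ℓ)⟦X⟧ := redHom (ZLoc ℓ) (redZ ℓ)

@[simp]
theorem coeff_red (P : lIntSeries ℓ) (n : ℕ) :
    coeff n (red ℓ P) = redZ ℓ ⟨coeff n P.1, P.2 n⟩ :=
  coeff_redHom (ZLoc ℓ) (redZ ℓ) P n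

theorem coeff_red_eq_zero_iff (P : lIntSeries ℓ) (n : ℕ) :
    coeff n (red ℓ P) = 0 ↔ coeff n P.1 ∈ ZLocMax ℓ := by
  rw [coeff_red, redZ_eq_zero_iff]

/-- `red P = 0` iff all coefficients lie in `ℓ ℤ_(ℓ)`. -/
theorem red_eq_zero_iff (P : lIntSeries ℓ) : red ℓ P = 0 ↔ ∀ n, coeff n P.1 ∈ ZLocMax ℓ := by
  rw [red, redHom_eq_zero_iff]
  exact forall_congr' fun n => redZ_eq_zero_iff ℓ _

/-- `red P ≠ 0` iff some coefficient is not in `ℓ ℤ_(ℓ)`. -/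
theorem red_ne_zero_iff (P : lIntSeries ℓ) : red ℓ P ≠ 0 ↔ ∃ n, coeff n P.1 ∉ ZLocMax ℓ := by
  rw [Ne, red_eq_zero_iff, not_forall]

/-- `m ≤ order (red P)` iff the first `m` coefficients lie in `ℓ ℤ_(ℓ)`. -/
theorem le_order_red_iff (P : lIntSeries ℓ) (m : ℕ) :
    (m : ℕ∞) ≤ (red ℓ P).order ↔ ∀ i < m, coeff i P.1 ∈ ZLocMax ℓ := by
  rw [red, le_order_redHom_iff]
  exact forall_congr' fun n => imp_congr_right fun _ => redZ_eq_zero_iff ℓ _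

/-- The order of `red P` is `m` as soon as the first `m` coefficients are in `ℓ ℤ_(ℓ)` and the
`m`-th is not. -/
theorem order_red_eq (P : lIntSeries ℓ) (m : ℕ) (h1 : ∀ i < m, coeff i P.1 ∈ ZLocMax ℓ)
    (h2 : coeff m P.1 ∉ ZLocMax ℓ) : (red ℓ P).order = m := by
  apply le_antisymm
  · apply order_le
    rw [Ne, coeff_red_eq_zero_iff]
    exact h2
  · exact (le_order_red_iff ℓ P m).2 h1

/-- Orders add: `(ZMod ℓ)⟦X⟧` is a domain. -/
theorem order_red_mul (P Q : lIntSeries ℓ) :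
    (red ℓ (P * Q)).order = (red ℓ P).order + (red ℓ Q).order := by
  rw [map_mul, order_mul]

theorem red_expand (p : ℕ) (hp : p ≠ 0) (P : lIntSeries ℓ) :
    red ℓ ⟨expand p hp P.1, expand_mem p hp P.2⟩ = expand p hp (red ℓ P) :=
  redHom_expand (ZLoc ℓ) (redZ ℓ) p hp P

/-- Reduction of an integer series. -/
theorem red_map_intCast (P : ℤ⟦X⟧) :
    red ℓ ⟨map (Int.castRingHom ℂ) P, map_intCast_mem_lIntSeries ℓ P⟩ =
      map (Int.castRingHom (ZMod ℓ)) P := by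
  ext n
  rw [red, coeff_redHom_of_eq (ZLoc ℓ) (redZ ℓ) _ n (intCast_mem_ZLoc ℓ (coeff n P))
    (by rw [coeff_map]; rfl), redZ_intCast, coeff_map]
  rfl

/-- Congruent integral series have the same reduction. -/
theorem red_eq_of_congPow {t : ℕ} (ht : 0 < t) {P Q : lIntSeries ℓ} (h : CongPow ℓ t P.1 Q.1) :
    red ℓ P = red ℓ Q := by
  rw [← sub_eq_zero, ← map_sub, red_eq_zero_iff]
  intro n
  have := ZLocPow_anti ℓ (Nat.one_le_iff_ne_zero.2 ht.ne') (h n)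
  rw [AddSubgroupClass.coe_sub, map_sub]
  exact this

theorem congPow_one_iff_red_eq {P Q : lIntSeries ℓ} : CongPow ℓ 1 P.1 Q.1 ↔ red ℓ P = red ℓ Q := by
  constructor
  · exact red_eq_of_congPow ℓ one_pos
  · intro h n
    rw [← sub_eq_zero, ← map_sub, red_eq_zero_iff] at h
    have := h n
    rwa [AddSubgroupClass.coe_sub, map_sub] at this

end Series

end Fermat.Agent.S16.LInt

end
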