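import Mathlib
import Fermat.Agent.S24.QExpDelta

/-!
# S16 / [St]: the integral Sturm bound at level one

For an arbitrary additive subgroup `J` of `ℂ` (e.g. the image of an ideal of a subring of `ℂ`,
such as `ℓ ℤ_(ℓ)`, a prime of `ℤ[ζ_p]` localised, or the maximal ideal of a valuation subring of
`ℂ`), a level-one modular form of even weight `w` whose first `w / 12 + 1` `q`-expansion
coefficients lie in `J` has **all** its `q`-expansion coefficients in `J`.

* `sturm_addSubgroup` (`4 ∣ w`), `sturm_addSubgroup_even` (`Even w`) : the main theorem;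
* `sturm_ideal` : the version for an ideal `I` of a subring `V` of `ℂ`; `sturm_subring`;
* `exists_le_notMem` : the contrapositive (`(NS)` shape): if some coefficient is not in `J` then
  already one of index `≤ w / 12` is not in `J`.

Inputs: Mathlib's `CuspForm.discriminantEquiv`, `qExpansion_eq_qExpansion_discriminant_mul`, and
the integrality of the `q`-expansions of `Δ` and `E₄` (S24 `QExpDelta`).
-/

set_option autoImplicit false

namespace Fermat.Agent.S16.SturmIntegral

open PowerSeries ModularForm EisensteinSeries UpperHalfPlane MatrixGroups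

local notation "Δ" => ModularForm.discriminant

/-- coefficientwise cast `ℤ⟦X⟧ → ℂ⟦X⟧`. -/
noncomputable abbrev toC : ℤ⟦X⟧ →+* ℂ⟦X⟧ := PowerSeries.map (Int.castRingHom ℂ)

/-! ### Formal part: additive subgroups of coefficients -/

/-- all coefficients of index `< m` lie in `J` -/
def CoeffsLT (J : AddSubgroup ℂ) (P : ℂ⟦X⟧) (m : ℕ) : Prop := ∀ n < m, coeff n P ∈ J

/-- all coefficients lie in `J` -/
def CoeffsIn (J : AddSubgroup ℂ) (P : ℂ⟦X⟧) : Prop := ∀ n, coeff n P ∈ J

variable {J : AddSubgroup ℂ}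

theorem CoeffsIn.lt {P : ℂ⟦X⟧} (h : CoeffsIn J P) (m : ℕ) : CoeffsLT J P m := fun n _ => h n

theorem coeffsIn_iff_forall_lt {P : ℂ⟦X⟧} : CoeffsIn J P ↔ ∀ m, CoeffsLT J P m :=
  ⟨fun h m => h.lt m, fun h n => h (n + 1) n (Nat.lt_succ_self n)⟩

/-- multiplication by an integral power series preserves `CoeffsLT` -/
theorem CoeffsLT.toC_mul {P : ℂ⟦X⟧} {m : ℕ} (h : CoeffsLT J P m) (Z : ℤ⟦X⟧) :
    CoeffsLT J (toC Z * P) m := by
  intro n hn
  rw [coeff_mul]
  refine J.sum_mem fun ij hij => ?_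
  have hj : ij.2 < m := by
    have := Finset.HasAntidiagonal.mem_antidiagonal.mp hij
    omega
  rw [coeff_map, eq_intCast, ← zsmul_eq_mul]
  exact J.zsmul_mem (h _ hj) _

theorem CoeffsIn.toC_mul {P : ℂ⟦X⟧} (h : CoeffsIn J P) (Z : ℤ⟦X⟧) : CoeffsIn J (toC Z * P) :=
  coeffsIn_iff_forall_lt.mpr fun m => (h.lt m).toC_mul Z

theorem CoeffsLT.add {P Q : ℂ⟦X⟧} {m : ℕ} (hP : CoeffsLT J P m) (hQ : CoeffsLT J Q m) :
    CoeffsLT J (P + Q) m := fun n hn => by
  rw [map_add]; exact J.add_mem (hP n hn) (hQ n hn)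

theorem CoeffsLT.sub {P Q : ℂ⟦X⟧} {m : ℕ} (hP : CoeffsLT J P m) (hQ : CoeffsLT J Q m) :
    CoeffsLT J (P - Q) m := fun n hn => by
  rw [map_sub]; exact J.sub_mem (hP n hn) (hQ n hn)

theorem CoeffsIn.add {P Q : ℂ⟦X⟧} (hP : CoeffsIn J P) (hQ : CoeffsIn J Q) :
    CoeffsIn J (P + Q) := fun n => by
  rw [map_add]; exact J.add_mem (hP n) (hQ n)

/-- `a • Z` has coefficients in `J` for `a ∈ J`, `Z` integral -/
theorem coeffsIn_smul_toC {a : ℂ} (ha : a ∈ J) (Z : ℤ⟦X⟧) : CoeffsIn J (a • toC Z) := by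
  intro n
  rw [coeff_smul, coeff_map, eq_intCast, smul_eq_mul, mul_comm, ← zsmul_eq_mul]
  exact J.zsmul_mem ha _

/-- division by `X * (unit)`: if `H = X * toC U * G` with `U * Uinv = 1`, then the coefficients of
`G` of index `< m` are integral combinations of those of `H` of index `< m + 1`. -/
theorem CoeffsLT.of_X_mul {H G : ℂ⟦X⟧} {U Uinv : ℤ⟦X⟧} (hU : U * Uinv = 1)
    (hH : H = X * toC U * G) {m : ℕ} (h : CoeffsLT J H (m + 1)) : CoeffsLT J G m := by
  have h1 : toC Uinv * H = X * G := by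
    rw [hH]
    have : toC Uinv * (X * toC U * G) = X * (toC (U * Uinv) * G) := by
      rw [map_mul]; ring
    rw [this, hU, map_one, one_mul]
  intro n hn
  have h2 := h.toC_mul Uinv (n + 1) (Nat.succ_lt_succ hn)
  rw [h1, coeff_succ_X_mul] at h2
  exact h2

/-! ### Level one -/

/-- the formal `E₆ = 1 - 504 ∑ σ₅(n) qⁿ` -/
noncomputable def eisenstein6Z : ℤ⟦X⟧ :=
  PowerSeries.mk fun n => if n = 0 then 1 else -504 * (ArithmeticFunction.sigma 5 n : ℤ)

theorem constantCoeff_eisenstein6Z : constantCoeff eisenstein6Z = 1 := by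
  rw [← coeff_zero_eq_constantCoeff_apply, eisenstein6Z, coeff_mk]
  simp

theorem qExpansion_E₆ : qExpansion 1 E₆ = toC eisenstein6Z := by
  ext m
  rw [EisensteinSeries.E_qExpansion_coeff _ ⟨3, rfl⟩, coeff_map, eisenstein6Z, coeff_mk]
  by_cases hm : m = 0
  · simp [hm]
  · simp only [hm, if_false]
    rw [show _root_.bernoulli 6 = 1 / 42 by decide +kernel, ArithmeticFunction.sigma_apply]
    simp only [eq_intCast]
    push_cast
    ring

theorem qExpansion_E₄_pow (a : ℕ) :
    qExpansion 1 (E₄.pow a) = toC (ModularCurve.eisenstein4 ^ a) := by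
  rw [ModularForm.qExpansion_pow one_pos one_mem_strictPeriods_SL,
    Fermat.Agent.S24.QExp.qExpansion_E₄, map_pow]

theorem qExpansion_E₄_pow_mul_E₆ (a : ℕ) :
    qExpansion 1 ((E₄.pow a).mul E₆) = toC (ModularCurve.eisenstein4 ^ a * eisenstein6Z) := by
  rw [ModularForm.qExpansion_mul one_pos one_mem_strictPeriods_SL, qExpansion_E₄_pow,
    qExpansion_E₆, map_mul]

/-- the core induction, generic in the "leading forms" `L a` of weight `4 a + c0` -/
theorem sturm_aux_gen (J : AddSubgroup ℂ) (c0 : ℤ)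
    (L : ∀ a : ℕ, ModularForm 𝒮ℒ ((a : ℤ) * 4 + c0)) (LZ : ℕ → ℤ⟦X⟧)
    (hL : ∀ a, qExpansion 1 (L a) = toC (LZ a)) (hL0 : ∀ a, constantCoeff (LZ a) = 1)
    (hbase : ∀ a : ℕ, a < 3 → ∀ G' : ModularForm 𝒮ℒ ((a : ℤ) * 4 + c0 - 12), G' = 0)
    (bound : ℕ → ℕ) (hbound : ∀ a, 3 ≤ a → bound a = bound (a - 3) + 1) :
    ∀ (a : ℕ) (G : ModularForm 𝒮ℒ ((a : ℤ) * 4 + c0)),
      CoeffsLT J (qExpansion 1 G) (bound a + 1) → CoeffsIn J (qExpansion 1 G) := by
  intro a
  induction a using Nat.strong_induction_on with | _ a ih =>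
  intro G hG
  set a0 : ℂ := coeff 0 (qExpansion 1 G) with ha0
  have ha0J : a0 ∈ J := hG 0 (Nat.succ_pos _)
  set H : ModularForm 𝒮ℒ ((a : ℤ) * 4 + c0) := G - a0 • L a with hH
  have hqH : qExpansion 1 H = qExpansion 1 G - a0 • toC (LZ a) := by
    rw [hH, FunLike.coe_sub, ModularForm.qExpansion_sub one_pos one_mem_strictPeriods_SL,
      FunLike.coe_smul, ModularForm.qExpansion_smul one_pos one_mem_strictPeriods_SL, hL]
  have hqG : qExpansion 1 G = qExpansion 1 H + a0 • toC (LZ a) := by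
    rw [hqH]; ring
  have hc0 : coeff 0 (toC (LZ a)) = 1 := by
    rw [coeff_map, coeff_zero_eq_constantCoeff, hL0, map_one]
  have h0 : (qExpansion 1 H).coeff 0 = 0 := by
    rw [hqH, map_sub, coeff_smul, hc0, smul_eq_mul, mul_one, ← ha0, sub_self]
  have hfac := qExpansion_eq_qExpansion_discriminant_mul H h0
  rw [Fermat.Agent.S24.QExp.qExpansion_discriminant] at hfac
  set G' : ModularForm 𝒮ℒ ((a : ℤ) * 4 + c0 - 12) :=
    CuspForm.discriminantEquiv (toCuspForm H h0) with hG'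
  have hsmul : CoeffsIn J (a0 • toC (LZ a)) := coeffsIn_smul_toC ha0J _
  rcases lt_or_ge a 3 with ha | ha
  · -- base: `G' = 0`
    have hz : G' = 0 := hbase a ha G'
    have : qExpansion 1 H = 0 := by
      rw [hfac, hz]
      simp [UpperHalfPlane.qExpansion_zero]
    rw [hqG, this, zero_add]
    exact hsmul
  · -- induct with `a - 3`
    have hw : (a : ℤ) * 4 + c0 - 12 = ((a - 3 : ℕ) : ℤ) * 4 + c0 := by
      rw [Nat.cast_sub ha]; push_cast; ring
    set G'' : ModularForm 𝒮ℒ (((a - 3 : ℕ) : ℤ) * 4 + c0) := ModularForm.mcast hw G' with hG''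
    have hqG'' : qExpansion 1 G'' = qExpansion 1 G' := rfl
    have hHlt : CoeffsLT J (qExpansion 1 H) (bound a + 1) := by
      rw [hqH]; exact hG.sub (hsmul.lt _)
    have h1 : CoeffsLT J (qExpansion 1 G') (bound (a - 3) + 1) := by
      rw [← hbound a ha]
      exact hHlt.of_X_mul ModularCurve.dedekindEtaUnit_mul_inv hfac
    have h2 : CoeffsIn J (qExpansion 1 G') := ih (a - 3) (by omega) G'' h1
    rw [hqG]
    refine CoeffsIn.add ?_ hsmul
    rw [hfac]
    have : (X : ℂ⟦X⟧) * toC ModularCurve.dedekindEtaUnit =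
        toC (X * ModularCurve.dedekindEtaUnit) := by
      rw [map_mul, map_X]
    rw [this]
    exact h2.toC_mul _

/-- weight `4a` -/
theorem sturm_aux (J : AddSubgroup ℂ) : ∀ (a : ℕ) (G : ModularForm 𝒮ℒ ((a : ℤ) * 4)),
    CoeffsLT J (qExpansion 1 G) (a / 3 + 1) → CoeffsIn J (qExpansion 1 G) := by
  intro a G hG
  have key := sturm_aux_gen J 0
    (fun a => ModularForm.mcast (by ring) (E₄.pow a))
    (fun a => ModularCurve.eisenstein4 ^ a)
    (fun a => qExpansion_E₄_pow a)
    (fun a => by rw [map_pow, ModularCurve.constantCoeff_eisenstein4, one_pow])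
    (fun a ha G' => rank_zero_iff_forall_zero.mp (levelOne_neg_weight_rank_zero (by omega)) G')
    (fun a => a / 3) (fun a ha => by omega)
    a (ModularForm.mcast (by ring) G) hG
  exact key

/-- weight `4a + 6` -/
theorem sturm_aux6 (J : AddSubgroup ℂ) : ∀ (a : ℕ) (G : ModularForm 𝒮ℒ ((a : ℤ) * 4 + 6)),
    CoeffsLT J (qExpansion 1 G) ((4 * a + 6) / 12 + 1) → CoeffsIn J (qExpansion 1 G) := by
  intro a G hG
  refine sturm_aux_gen J 6
    (fun a => (E₄.pow a).mul E₆)
    (fun a => ModularCurve.eisenstein4 ^ a * eisenstein6Z)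
    (fun a => qExpansion_E₄_pow_mul_E₆ a)
    (fun a => by
      rw [map_mul, map_pow, ModularCurve.constantCoeff_eisenstein4, one_pow,
        constantCoeff_eisenstein6Z, one_mul])
    (fun a ha G' => ?_)
    (fun a => (4 * a + 6) / 12) (fun a ha => by omega)
    a G hG
  rcases (show a = 2 ∨ a < 2 by omega) with rfl | ha2
  · have h2 : ((2 : ℕ) : ℤ) * 4 + 6 - 12 = 2 := by norm_num
    have := rank_zero_iff_forall_zero.mp levelOne_weight_two_rank_zero (ModularForm.mcast h2 G')
    exact (ModularForm.mcast_eq_zero_iff h2 rfl G').mp this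
  · exact rank_zero_iff_forall_zero.mp (levelOne_neg_weight_rank_zero (by omega)) G'

/-- **Integral Sturm bound at level one**, additive-subgroup form: if `4 ∣ w` and the
`q`-expansion coefficients of index `≤ w / 12` of `G ∈ M_w(SL₂(ℤ))` lie in the additive subgroup
`J` of `ℂ`, then all of them do.  (The weight is an integer `k` with `k = w`.) -/
theorem sturm_addSubgroup (J : AddSubgroup ℂ) {k : ℤ} {w : ℕ} (hk : k = (w : ℤ)) (hw : 4 ∣ w)
    (G : ModularForm 𝒮ℒ k) (h : ∀ n ≤ w / 12, (qExpansion 1 G).coeff n ∈ J) :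
    ∀ n, (qExpansion 1 G).coeff n ∈ J := by
  obtain ⟨a, rfl⟩ := hw
  have hk' : k = (a : ℤ) * 4 := by rw [hk]; push_cast; ring
  have key := sturm_aux J a (ModularForm.mcast hk' G) (fun n hn => h n (by omega))
  exact key

/-- **Integral Sturm bound at level one**, all even weights (for `w ≡ 2 mod 4` the leading forms
are `E₄^a E₆`). -/
theorem sturm_addSubgroup_even (J : AddSubgroup ℂ) {k : ℤ} {w : ℕ} (hk : k = (w : ℤ))
    (hw : Even w) (G : ModularForm 𝒮ℒ k) (h : ∀ n ≤ w / 12, (qExpansion 1 G).coeff n ∈ J) :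
    ∀ n, (qExpansion 1 G).coeff n ∈ J := by
  obtain ⟨b, hb⟩ := hw
  rcases Nat.even_or_odd b with ⟨c, hc⟩ | ⟨c, hc⟩
  · exact sturm_addSubgroup J hk ⟨c, by omega⟩ G h
  · -- `w = 4 c + 2`
    rcases Nat.eq_zero_or_pos c with rfl | hcpos
    · -- weight two
      have h2 : k = 2 := by rw [hk, hb, hc]; norm_num
      have hz : ModularForm.mcast h2 G = 0 :=
        rank_zero_iff_forall_zero.mp levelOne_weight_two_rank_zero _
      have hG : G = 0 := (ModularForm.mcast_eq_zero_iff h2 rfl G).mp hz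
      intro n
      rw [hG]
      simp [UpperHalfPlane.qExpansion_zero]
    · obtain ⟨a, rfl⟩ : ∃ a, c = a + 1 := ⟨c - 1, by omega⟩
      have hk' : k = (a : ℤ) * 4 + 6 := by rw [hk, hb, hc]; push_cast; ring
      have key := sturm_aux6 J a (ModularForm.mcast hk' G)
        (fun n hn => h n (by omega))
      exact key

/-- the image in `ℂ` of an ideal of a subring of `ℂ`, as an additive subgroup -/
def idealImage (V : Subring ℂ) (I : Ideal V) : AddSubgroup ℂ :=
  I.toAddSubgroup.map V.subtype.toAddMonoidHom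

theorem mem_idealImage {V : Subring ℂ} {I : Ideal V} {x : ℂ} :
    x ∈ idealImage V I ↔ ∃ a : V, a ∈ I ∧ (a : ℂ) = x := by
  unfold idealImage
  rw [AddSubgroup.mem_map]
  constructor
  · rintro ⟨a, ha, rfl⟩
    exact ⟨a, ha, rfl⟩
  · rintro ⟨a, ha, rfl⟩
    exact ⟨a, ha, rfl⟩

theorem mem_idealImage_of_mem {V : Subring ℂ} {I : Ideal V} {a : V} (ha : a ∈ I) :
    (a : ℂ) ∈ idealImage V I := mem_idealImage.mpr ⟨a, ha, rfl⟩

theorem mem_of_mem_idealImage {V : Subring ℂ} {I : Ideal V} {a : V}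
    (ha : (a : ℂ) ∈ idealImage V I) : a ∈ I := by
  obtain ⟨b, hb, hab⟩ := mem_idealImage.mp ha
  rwa [← Subtype.ext hab]

/-- **Integral Sturm bound at level one**, (subring, ideal) form: `V` a subring of `ℂ`, `I` an
ideal of `V`; if the `q`-expansion coefficients of index `≤ w / 12` of `G` are (images of)
elements of `I`, then all of them are. -/
theorem sturm_ideal (V : Subring ℂ) (I : Ideal V) {k : ℤ} {w : ℕ} (hk : k = (w : ℤ))
    (hw : Even w) (G : ModularForm 𝒮ℒ k)
    (h : ∀ n ≤ w / 12, ∃ a : V, a ∈ I ∧ (a : ℂ) = (qExpansion 1 G).coeff n) :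
    ∀ n, ∃ a : V, a ∈ I ∧ (a : ℂ) = (qExpansion 1 G).coeff n := by
  intro n
  exact mem_idealImage.mp
    (sturm_addSubgroup_even (idealImage V I) hk hw G (fun m hm => mem_idealImage.mpr (h m hm)) n)

/-- the subring `V` itself as an additive subgroup: integrality propagates from the first
`w / 12 + 1` coefficients -/
theorem sturm_subring (V : Subring ℂ) {k : ℤ} {w : ℕ} (hk : k = (w : ℤ))
    (hw : Even w) (G : ModularForm 𝒮ℒ k)
    (h : ∀ n ≤ w / 12, (qExpansion 1 G).coeff n ∈ V) :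
    ∀ n, (qExpansion 1 G).coeff n ∈ V :=
  sturm_addSubgroup_even V.toAddSubgroup hk hw G h

/-- Contrapositive (`(NS)` shape): if some `q`-expansion coefficient of `G` is not in `J`, then
already one of index `≤ w / 12` is not in `J`. -/
theorem exists_le_notMem (J : AddSubgroup ℂ) {k : ℤ} {w : ℕ} (hk : k = (w : ℤ)) (hw : Even w)
    (G : ModularForm 𝒮ℒ k) {n : ℕ} (hn : (qExpansion 1 G).coeff n ∉ J) :
    ∃ m ≤ w / 12, (qExpansion 1 G).coeff m ∉ J := by
  by_contra hcon
  refine hn (sturm_addSubgroup_even J hk hw G (fun m hm => ?_) n)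
  by_contra hm'
  exact hcon ⟨m, hm, hm'⟩

/-- `(NS)` shape with an order: if all coefficients of index `< m` lie in `J` and some coefficient
does not, then `m ≤ w / 12`. -/
theorem le_of_coeffsLT_of_notMem (J : AddSubgroup ℂ) {k : ℤ} {w : ℕ} (hk : k = (w : ℤ))
    (hw : Even w) (G : ModularForm 𝒮ℒ k) {m n : ℕ} (hm : ∀ i < m, (qExpansion 1 G).coeff i ∈ J)
    (hn : (qExpansion 1 G).coeff n ∉ J) : m ≤ w / 12 := by
  obtain ⟨i, hi, hiJ⟩ := exists_le_notMem J hk hw G hn
  by_contra hcon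
  exact hiJ (hm i (by omega))

end Fermat.Agent.S16.SturmIntegral
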