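import Mathlib
import Fermat.Agent.S16.SturmIntegral

/-!
# S16 / (NS), algebra of the valuation-subring variant: "orders of reductions add"

`V` is a valuation subring of `ℂ` (later: one with `ℤ ⊆ V` and `ℓ ∈ 𝔪_V`, which exists for every
prime `ℓ`: `exists_valuationSubring_prime`).  For `P : ℂ⟦X⟧` and `a : ℕ`,

`LeadAt V P a` : all coefficients of `P` lie in `V`, those of index `< a` in `𝔪_V`, and the `a`-th
one is a unit of `V` -- i.e. the reduction of `P` in `k_V⟦X⟧` is non-zero of order exactly `a`.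

* `LeadAt.mul`, `LeadAt.prod` : orders add (`k_V⟦X⟧` is a domain), by a direct Gauss-lemma
  computation, no residue field needed;
* `LeadAt.rescale` (by `ζ` with `v ζ = 1`, e.g. a root of unity), `LeadAt.expand`,
  `LeadAt.of_expand`;
* `ratCast_*` : rationals with denominator prime to `ℓ` lie in `V`, and in `𝔪_V` iff `ℓ ∣ num`;
* `LeadAt.le_sturm` : level-one integral Sturm (`SturmIntegral`) for `J = 𝔪_V`;
* `norm_sturm_V` / `norm_sturm_rat` : the abstract `(NS)` conclusion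
  `a + b ≤ w / 12` from the `x`-expansion identity of the norm form.
-/

set_option autoImplicit false

namespace Fermat.Agent.S16.ValRed

open PowerSeries ModularForm UpperHalfPlane MatrixGroups

variable (V : ValuationSubring ℂ)

local notation "v" => ValuationSubring.valuation V

/-- reduction of `P` is non-zero of order exactly `a` -/
structure LeadAt (P : ℂ⟦X⟧) (a : ℕ) : Prop where
  int : ∀ n, v (coeff n P) ≤ 1
  small : ∀ n < a, v (coeff n P) < 1
  lead : v (coeff a P) = 1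

variable {V}

theorem LeadAt.unique {P : ℂ⟦X⟧} {a a' : ℕ} (h : LeadAt V P a) (h' : LeadAt V P a') : a = a' := by
  rcases lt_trichotomy a a' with hlt | heq | hgt
  · exact absurd h.lead (ne_of_lt (h'.small a hlt))
  · exact heq
  · exact absurd h'.lead (ne_of_lt (h.small a' hgt))

theorem LeadAt.one : LeadAt V (1 : ℂ⟦X⟧) 0 where
  int n := by
    rw [coeff_one]
    split_ifs <;> simp
  small n hn := absurd hn (Nat.not_lt_zero n)
  lead := by simp

/-- orders of reductions add -/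
theorem LeadAt.mul {P Q : ℂ⟦X⟧} {a b : ℕ} (hP : LeadAt V P a) (hQ : LeadAt V Q b) :
    LeadAt V (P * Q) (a + b) where
  int n := by
    rw [coeff_mul]
    refine Valuation.map_sum_le _ fun ij _ => ?_
    rw [map_mul]
    exact mul_le_one' (hP.int _) (hQ.int _)
  small n hn := by
    rw [coeff_mul]
    refine Valuation.map_sum_lt _ one_ne_zero fun ij hij => ?_
    have hsum := Finset.HasAntidiagonal.mem_antidiagonal.mp hij
    rw [map_mul]
    rcases lt_or_ge ij.1 a with h1 | h1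
    · exact mul_lt_one_of_lt_of_le (hP.small _ h1) (hQ.int _)
    · have h2 : ij.2 < b := by omega
      rw [mul_comm]
      exact mul_lt_one_of_lt_of_le (hQ.small _ h2) (hP.int _)
  lead := by
    rw [coeff_mul]
    have hmem : (a, b) ∈ Finset.HasAntidiagonal.antidiagonal (a + b) :=
      Finset.HasAntidiagonal.mem_antidiagonal.mpr rfl
    rw [← Finset.add_sum_erase _ _ hmem]
    have h1 : v (coeff a P * coeff b Q) = 1 := by rw [map_mul, hP.lead, hQ.lead, one_mul]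
    have h2 : v (∑ ij ∈ (Finset.HasAntidiagonal.antidiagonal (a + b)).erase (a, b),
        coeff ij.1 P * coeff ij.2 Q) < 1 := by
      refine Valuation.map_sum_lt _ one_ne_zero fun ij hij => ?_
      have hne := Finset.ne_of_mem_erase hij
      have hsum := Finset.HasAntidiagonal.mem_antidiagonal.mp (Finset.mem_of_mem_erase hij)
      rw [map_mul]
      rcases lt_or_ge ij.1 a with h1 | h1
      · exact mul_lt_one_of_lt_of_le (hP.small _ h1) (hQ.int _)
      · have h2 : ij.2 < b := by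
          by_contra hcon
          apply hne
          ext <;> simp <;> omega
        rw [mul_comm]
        exact mul_lt_one_of_lt_of_le (hQ.small _ h2) (hP.int _)
    rw [Valuation.map_add_eq_of_lt_left _ (by rw [h1]; exact h2), h1]

theorem LeadAt.prod {ι : Type*} (s : Finset ι) (f : ι → ℂ⟦X⟧) (a : ι → ℕ)
    (h : ∀ i ∈ s, LeadAt V (f i) (a i)) : LeadAt V (∏ i ∈ s, f i) (∑ i ∈ s, a i) := by
  classical
  induction s using Finset.induction_on with
  | empty => simpa using LeadAt.one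
  | insert i s hi ih =>
    rw [Finset.prod_insert hi, Finset.sum_insert hi]
    exact (h i (Finset.mem_insert_self i s)).mul
      (ih fun j hj => h j (Finset.mem_insert_of_mem hj))

/-- rescaling by an element of valuation one (e.g. a root of unity) -/
theorem LeadAt.rescale {P : ℂ⟦X⟧} {a : ℕ} (hP : LeadAt V P a) {ζ : ℂ} (hζ : v ζ = 1) :
    LeadAt V (PowerSeries.rescale ζ P) a where
  int n := by rw [coeff_rescale, map_mul, map_pow, hζ, one_pow, one_mul]; exact hP.int n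
  small n hn := by
    rw [coeff_rescale, map_mul, map_pow, hζ, one_pow, one_mul]; exact hP.small n hn
  lead := by rw [coeff_rescale, map_mul, map_pow, hζ, one_pow, one_mul]; exact hP.lead

/-- `X ↦ X ^ p` -/
theorem LeadAt.expand {P : ℂ⟦X⟧} {a : ℕ} (hP : LeadAt V P a) (p : ℕ) (hp : p ≠ 0) :
    LeadAt V (PowerSeries.expand p hp P) (p * a) where
  int n := by
    rw [coeff_expand]
    split_ifs
    · exact hP.int _
    · simp
  small n hn := by
    rw [coeff_expand]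
    split_ifs with hd
    · refine hP.small _ ?_
      obtain ⟨m, rfl⟩ := hd
      rw [Nat.mul_div_cancel_left _ (Nat.pos_of_ne_zero hp)]
      exact lt_of_mul_lt_mul_left hn (Nat.zero_le p)
    · simp
  lead := by
    rw [coeff_expand_mul]
    exact hP.lead

theorem LeadAt.of_expand {P : ℂ⟦X⟧} {a : ℕ} {p : ℕ} {hp : p ≠ 0}
    (h : LeadAt V (PowerSeries.expand p hp P) (p * a)) : LeadAt V P a where
  int n := by
    have := h.int (p * n)
    rwa [coeff_expand_mul] at this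
  small n hn := by
    have := h.small (p * n) (Nat.mul_lt_mul_of_pos_left hn (Nat.pos_of_ne_zero hp))
    rwa [coeff_expand_mul] at this
  lead := by
    have := h.lead
    rwa [coeff_expand_mul] at this

/-- a `V`-integral series with some unit coefficient has a leading index -/
theorem exists_leadAt {P : ℂ⟦X⟧} (hint : ∀ n, v (coeff n P) ≤ 1) {n : ℕ}
    (hn : ¬ v (coeff n P) < 1) : ∃ a ≤ n, LeadAt V P a := by
  classical
  have hex : ∃ m, ¬ v (coeff m P) < 1 := ⟨n, hn⟩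
  refine ⟨Nat.find hex, Nat.find_min' hex hn, hint, fun m hm => ?_, ?_⟩
  · exact not_not.mp (Nat.find_min hex hm)
  · exact le_antisymm (hint _) (not_lt.mp (Nat.find_spec hex))

/-! ### roots of unity, integers, rationals -/

theorem valuation_eq_one_of_pow_eq_one {ζ : ℂ} {p : ℕ} (hp : p ≠ 0) (hζ : ζ ^ p = 1) :
    v ζ = 1 := by
  have h : (v ζ) ^ p = 1 := by rw [← map_pow, hζ, map_one]
  exact (pow_eq_one_iff.mp h).resolve_right hp

theorem valuation_intCast_le_one (n : ℤ) : v (n : ℂ) ≤ 1 :=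
  (V.valuation_le_one_iff _).mpr (intCast_mem V n)

/-- an integer prime to `ℓ` is a unit of `V` as soon as `ℓ ∈ 𝔪_V` -/
theorem valuation_intCast_eq_one {ℓ : ℕ} (hℓ : v (ℓ : ℂ) < 1) {n : ℤ}
    (hn : IsCoprime n (ℓ : ℤ)) : v (n : ℂ) = 1 := by
  obtain ⟨a, b, hab⟩ := hn
  have h1 : (a : ℂ) * (n : ℂ) = 1 - (b : ℂ) * (ℓ : ℂ) := by
    have : ((a * n + b * (ℓ : ℤ) : ℤ) : ℂ) = 1 := by rw [hab]; simp
    push_cast at this
    linear_combination this
  have h2 : v ((b : ℂ) * (ℓ : ℂ)) < 1 := by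
    rw [map_mul, mul_comm]
    exact mul_lt_one_of_lt_of_le hℓ (valuation_intCast_le_one b)
  have h3 : v ((a : ℂ) * (n : ℂ)) = 1 := by
    rw [h1, sub_eq_add_neg, Valuation.map_add_eq_of_lt_left _ (by rwa [Valuation.map_neg, map_one]),
      map_one]
  rw [map_mul] at h3
  refine le_antisymm (valuation_intCast_le_one n) ?_
  by_contra hlt
  rw [not_le] at hlt
  have : v (a : ℂ) * v (n : ℂ) < 1 := by
    rw [mul_comm]
    exact mul_lt_one_of_lt_of_le hlt (valuation_intCast_le_one a)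
  exact absurd h3 (ne_of_lt this)

theorem valuation_natCast_lt_one_of_dvd {ℓ : ℕ} (hℓ : v (ℓ : ℂ) < 1) {n : ℤ}
    (hn : (ℓ : ℤ) ∣ n) : v (n : ℂ) < 1 := by
  obtain ⟨m, rfl⟩ := hn
  push_cast
  rw [map_mul]
  exact mul_lt_one_of_lt_of_le hℓ (valuation_intCast_le_one m)

/-- rationals with denominator prime to `ℓ` lie in `V` -/
theorem valuation_ratCast {ℓ : ℕ} (hprime : ℓ.Prime) (hℓ : v (ℓ : ℂ) < 1) {r : ℚ}
    (hr : ¬ ℓ ∣ r.den) : v (r : ℂ) = v (r.num : ℂ) := by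
  have hden : v ((r.den : ℤ) : ℂ) = 1 := by
    refine valuation_intCast_eq_one hℓ ?_
    rw [Int.isCoprime_iff_gcd_eq_one, Int.gcd_natCast_natCast]
    exact (Nat.Coprime.symm ((Nat.Prime.coprime_iff_not_dvd hprime).mpr hr))
  have hr' : (r : ℂ) = (r.num : ℂ) / ((r.den : ℤ) : ℂ) := by
    conv_lhs => rw [← Rat.num_div_den r]
    push_cast
    rfl
  rw [hr', map_div₀, hden, div_one]

theorem valuation_ratCast_le_one {ℓ : ℕ} (hprime : ℓ.Prime) (hℓ : v (ℓ : ℂ) < 1) {r : ℚ}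
    (hr : ¬ ℓ ∣ r.den) : v (r : ℂ) ≤ 1 := by
  rw [valuation_ratCast hprime hℓ hr]
  exact valuation_intCast_le_one _

theorem valuation_ratCast_lt_one_iff {ℓ : ℕ} (hprime : ℓ.Prime) (hℓ : v (ℓ : ℂ) < 1) {r : ℚ}
    (hr : ¬ ℓ ∣ r.den) : v (r : ℂ) < 1 ↔ (ℓ : ℤ) ∣ r.num := by
  rw [valuation_ratCast hprime hℓ hr]
  constructor
  · intro h
    by_contra hnd
    have hcop : IsCoprime r.num (ℓ : ℤ) :=
      (((Nat.prime_iff_prime_int.mp hprime).coprime_iff_not_dvd).mpr hnd).symm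
    exact absurd (valuation_intCast_eq_one hℓ hcop) (ne_of_lt h)
  · exact valuation_natCast_lt_one_of_dvd hℓ

/-! ### existence -/

/-- for every prime `ℓ` there is a valuation subring of `ℂ` with `ℓ` in its maximal ideal -/
theorem exists_valuationSubring_prime {ℓ : ℕ} (hprime : ℓ.Prime) :
    ∃ W : ValuationSubring ℂ, W.valuation (ℓ : ℂ) < 1 := by
  let A : Subring ℂ := (Int.castRingHom ℂ).range
  let x : A := ⟨(ℓ : ℂ), ⟨(ℓ : ℤ), by simp⟩⟩
  have hI : Ideal.span {x} ≠ ⊤ := by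
    intro htop
    rw [Ideal.span_singleton_eq_top] at htop
    obtain ⟨⟨y, ⟨m, rfl⟩⟩, hy⟩ := htop.exists_right_inv
    have h1 : ((ℓ : ℂ)) * ((m : ℤ) : ℂ) = 1 := by
      have := congrArg Subtype.val hy
      simpa [x] using this
    have h2 : (ℓ : ℤ) * m = 1 := by exact_mod_cast h1
    have h3 : (ℓ : ℤ) ∣ 1 := ⟨m, h2.symm⟩
    have h4 : ℓ ∣ 1 := by exact_mod_cast h3
    exact hprime.one_lt.ne' (Nat.dvd_one.mp h4)
  obtain ⟨W, -, hW⟩ := Ideal.image_subset_nonunits_valuationSubring (Ideal.span {x}) hI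
  exact ⟨W, W.mem_nonunits_iff.mp (hW ⟨x, Ideal.subset_span rfl, rfl⟩)⟩

/-! ### the Sturm glue -/

variable (V) in
/-- the maximal ideal of `V` as an additive subgroup of `ℂ` -/
def maxAddSubgroup : AddSubgroup ℂ where
  carrier := {x | v x < 1}
  zero_mem' := by simp
  add_mem' := fun {a b} ha hb => by
    show v (a + b) < 1
    exact Valuation.map_add_lt _ ha hb
  neg_mem' := fun {a} ha => by
    show v (-a) < 1
    rw [Valuation.map_neg]
    exact ha

theorem mem_maxAddSubgroup {x : ℂ} : x ∈ maxAddSubgroup V ↔ v x < 1 := Iff.rfl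

/-- **Sturm for `𝔪_V`**: a level-one form whose `q`-expansion has a reduction of exact order `m`
has `m ≤ w / 12`. -/
theorem LeadAt.le_sturm {k : ℤ} {w : ℕ} (hk : k = (w : ℤ)) (hw : Even w)
    (G : ModularForm 𝒮ℒ k) {m : ℕ} (h : LeadAt V (qExpansion 1 G) m) : m ≤ w / 12 :=
  SturmIntegral.le_of_coeffsLT_of_notMem (maxAddSubgroup V) hk hw G (m := m) (n := m)
    (fun i hi => h.small i hi) (fun hcon => absurd h.lead (ne_of_lt hcon))

/-- **(NS), valuation-subring form.**  `G` a level-one form of even weight `w`, whose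
`x`-expansion (`x = q^{1/p}`) factors as `A(x^p) · ∏_{j<p} B(ζ^j x)` with `ζ^p = 1`; if the
reductions of `A`, `B` modulo `𝔪_V` are non-zero of orders `a`, `b`, then `a + b ≤ w / 12`. -/
theorem norm_sturm_V {p : ℕ} (hp : p ≠ 0) {ζ : ℂ} (hζ : ζ ^ p = 1) {k : ℤ} {w : ℕ}
    (hk : k = (w : ℤ)) (hw : Even w) (G : ModularForm 𝒮ℒ k) {A B : ℂ⟦X⟧}
    (hG : PowerSeries.expand p hp (qExpansion 1 G) =
      PowerSeries.expand p hp A * ∏ j ∈ Finset.range p, PowerSeries.rescale (ζ ^ j) B)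
    {a b : ℕ} (hA : LeadAt V A a) (hB : LeadAt V B b) : a + b ≤ w / 12 := by
  have hζ1 : v ζ = 1 := valuation_eq_one_of_pow_eq_one hp hζ
  have h1 : LeadAt V (∏ j ∈ Finset.range p, PowerSeries.rescale (ζ ^ j) B)
      (∑ _j ∈ Finset.range p, b) :=
    LeadAt.prod _ _ _ fun j _ => hB.rescale (by rw [map_pow, hζ1, one_pow])
  have h2 := (hA.expand p hp).mul h1
  rw [← hG, Finset.sum_const, Finset.card_range, smul_eq_mul, ← mul_add] at h2
  exact h2.of_expand.le_sturm hk hw G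

/-! ### rational `ℓ`-integral coefficients -/

/-- `x` is a rational number with denominator prime to `ℓ` -/
def IsLInt (ℓ : ℕ) (x : ℂ) : Prop := ∃ r : ℚ, ¬ ℓ ∣ r.den ∧ x = r

/-- `x ∈ ℓ · ℤ_(ℓ)` -/
def IsLSmall (ℓ : ℕ) (x : ℂ) : Prop := ∃ y : ℂ, IsLInt ℓ y ∧ x = (ℓ : ℂ) * y

theorem isLInt_intCast {ℓ : ℕ} (hprime : ℓ.Prime) (n : ℤ) : IsLInt ℓ (n : ℂ) := by
  refine ⟨(n : ℚ), ?_, by simp⟩
  rw [Rat.den_intCast]
  exact fun h => hprime.one_lt.ne' (Nat.dvd_one.mp h)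

theorem IsLInt.valuation_le_one {ℓ : ℕ} (hprime : ℓ.Prime) (hℓ : v (ℓ : ℂ) < 1) {x : ℂ}
    (hx : IsLInt ℓ x) : v x ≤ 1 := by
  obtain ⟨r, hr, rfl⟩ := hx
  exact valuation_ratCast_le_one hprime hℓ hr

theorem IsLSmall.valuation_lt_one {ℓ : ℕ} (hprime : ℓ.Prime) (hℓ : v (ℓ : ℂ) < 1) {x : ℂ}
    (hx : IsLSmall ℓ x) : v x < 1 := by
  obtain ⟨y, hy, rfl⟩ := hx
  rw [map_mul]
  exact mul_lt_one_of_lt_of_le hℓ (hy.valuation_le_one hprime hℓ)

/-- an `ℓ`-integral rational which is not in `ℓ ℤ_(ℓ)` is a unit of `V` -/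
theorem IsLInt.valuation_eq_one {ℓ : ℕ} (hprime : ℓ.Prime) (hℓ : v (ℓ : ℂ) < 1) {x : ℂ}
    (hx : IsLInt ℓ x) (hns : ¬ IsLSmall ℓ x) : v x = 1 := by
  obtain ⟨r, hr, rfl⟩ := hx
  refine le_antisymm (valuation_ratCast_le_one hprime hℓ hr) (not_lt.mp fun hlt => hns ?_)
  rw [valuation_ratCast_lt_one_iff hprime hℓ hr] at hlt
  obtain ⟨m, hm⟩ := hlt
  have hden : ((r.den : ℤ) : ℚ) ≠ 0 := by
    have := r.den_pos
    exact_mod_cast this.ne'
  refine ⟨(((m : ℚ) / ((r.den : ℤ) : ℚ) : ℚ) : ℂ), ⟨(m : ℚ) / ((r.den : ℤ) : ℚ), ?_, rfl⟩, ?_⟩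
  · intro hdvd
    have h1 : (((m : ℚ) / ((r.den : ℤ) : ℚ)).den : ℤ) ∣ (r.den : ℤ) := by
      rw [← Rat.divInt_eq_div]
      exact Rat.den_dvd m (r.den : ℤ)
    have h2 : (ℓ : ℤ) ∣ (r.den : ℤ) := (Int.natCast_dvd_natCast.mpr hdvd).trans h1
    exact hr (Int.natCast_dvd_natCast.mp h2)
  · have hr' : r = (ℓ : ℚ) * ((m : ℚ) / ((r.den : ℤ) : ℚ)) := by
      conv_lhs => rw [← Rat.num_div_den r, hm]
      push_cast
      ring
    conv_lhs => rw [hr']
    push_cast
    ring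

/-- rational version of `LeadAt`: coefficients in `ℤ_(ℓ)`, those of index `< a` in `ℓ ℤ_(ℓ)`,
the `a`-th one not in `ℓ ℤ_(ℓ)` -/
structure LeadAtRat (ℓ : ℕ) (P : ℂ⟦X⟧) (a : ℕ) : Prop where
  int : ∀ n, IsLInt ℓ (coeff n P)
  small : ∀ n < a, IsLSmall ℓ (coeff n P)
  lead : ¬ IsLSmall ℓ (coeff a P)

theorem LeadAtRat.leadAt {ℓ : ℕ} (hprime : ℓ.Prime) (hℓ : v (ℓ : ℂ) < 1) {P : ℂ⟦X⟧} {a : ℕ}
    (h : LeadAtRat ℓ P a) : LeadAt V P a where
  int n := (h.int n).valuation_le_one hprime hℓ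
  small n hn := (h.small n hn).valuation_lt_one hprime hℓ
  lead := (h.int a).valuation_eq_one hprime hℓ h.lead

/-- an `ℓ`-integral series which is not `≡ 0 mod ℓ` has a leading index -/
theorem exists_leadAtRat {ℓ : ℕ} {P : ℂ⟦X⟧} (hint : ∀ n, IsLInt ℓ (coeff n P)) {n : ℕ}
    (hn : ¬ IsLSmall ℓ (coeff n P)) : ∃ a ≤ n, LeadAtRat ℓ P a := by
  classical
  have hex : ∃ m, ¬ IsLSmall ℓ (coeff m P) := ⟨n, hn⟩
  exact ⟨Nat.find hex, Nat.find_min' hex hn, hint,
    fun m hm => not_not.mp (Nat.find_min hex hm), Nat.find_spec hex⟩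

/-- **(NS), rational `ℓ`-integral form.**  `ℓ` prime; `G` a level-one form of even weight `w`
whose `x`-expansion factors as `A(x^p) · ∏_{j<p} B(ζ^j x)` (`ζ^p = 1`); `A`, `B` have
coefficients in `ℤ_(ℓ)` and are non-zero modulo `ℓ` of orders `a`, `b`.  Then `a + b ≤ w / 12`. -/
theorem norm_sturm_rat {ℓ : ℕ} (hprime : ℓ.Prime) {p : ℕ} (hp : p ≠ 0) {ζ : ℂ} (hζ : ζ ^ p = 1)
    {k : ℤ} {w : ℕ} (hk : k = (w : ℤ)) (hw : Even w) (G : ModularForm 𝒮ℒ k) {A B : ℂ⟦X⟧}
    (hG : PowerSeries.expand p hp (qExpansion 1 G) =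
      PowerSeries.expand p hp A * ∏ j ∈ Finset.range p, PowerSeries.rescale (ζ ^ j) B)
    {a b : ℕ} (hA : LeadAtRat ℓ A a) (hB : LeadAtRat ℓ B b) : a + b ≤ w / 12 := by
  obtain ⟨W, hW⟩ := exists_valuationSubring_prime hprime
  exact norm_sturm_V (V := W) hp hζ hk hw G hG (hA.leadAt hprime hW) (hB.leadAt hprime hW)

theorem LeadAtRat.le_of_small {ℓ : ℕ} {P : ℂ⟦X⟧} {a a' : ℕ} (h : LeadAtRat ℓ P a')
    (hs : ∀ n < a, IsLSmall ℓ (coeff n P)) : a ≤ a' := by
  by_contra hcon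
  exact h.lead (hs a' (not_le.mp hcon))

/-- **(NS), "either/or" form**: if the first `a` coefficients of `A` and the first `b`
coefficients of `B` vanish modulo `ℓ` and `w / 12 < a + b`, then `A ≡ 0` or `B ≡ 0` modulo `ℓ`. -/
theorem norm_sturm_rat_or {ℓ : ℕ} (hprime : ℓ.Prime) {p : ℕ} (hp : p ≠ 0) {ζ : ℂ}
    (hζ : ζ ^ p = 1) {k : ℤ} {w : ℕ} (hk : k = (w : ℤ)) (hw : Even w) (G : ModularForm 𝒮ℒ k)
    {A B : ℂ⟦X⟧}
    (hG : PowerSeries.expand p hp (qExpansion 1 G) =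
      PowerSeries.expand p hp A * ∏ j ∈ Finset.range p, PowerSeries.rescale (ζ ^ j) B)
    (hAint : ∀ n, IsLInt ℓ (coeff n A)) (hBint : ∀ n, IsLInt ℓ (coeff n B)) {a b : ℕ}
    (hAa : ∀ n < a, IsLSmall ℓ (coeff n A)) (hBb : ∀ n < b, IsLSmall ℓ (coeff n B))
    (hab : w / 12 < a + b) :
    (∀ n, IsLSmall ℓ (coeff n A)) ∨ (∀ n, IsLSmall ℓ (coeff n B)) := by
  by_contra hcon
  rw [not_or] at hcon
  obtain ⟨hA, hB⟩ := hcon
  rw [not_forall] at hA hB
  obtain ⟨n, hn⟩ := hA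
  obtain ⟨m, hm⟩ := hB
  obtain ⟨a', -, ha'⟩ := exists_leadAtRat hAint hn
  obtain ⟨b', -, hb'⟩ := exists_leadAtRat hBint hm
  have h1 := norm_sturm_rat hprime hp hζ hk hw G hG ha' hb'
  have h2 := ha'.le_of_small hAa
  have h3 := hb'.le_of_small hBb
  omega

end Fermat.Agent.S16.ValRed
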