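import Fermat.Agent.S16.NormQExp
import Fermat.Agent.S16.ValRed
import Fermat.Agent.S16.EisCong

/-!
# S16 / (NS) : the Norm–Sturm lemma in consumer shape

`norm_sturm` : for `F : ModularForm (GammaP p) k` (`k = w` even) with `ℓ`-integral expansions,
if the reduction mod `ℓ` of `expInf F` has exact order `a` and that of `expZero p k F` has exact
order `b`, then `a + b ≤ w (p + 1) / 12`.  This is `ValRed.norm_sturm_rat` (helper9) applied to
`G = NormQExp.normOne F` through `NormQExp.expand_qExpansion_normOne`.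
-/

set_option autoImplicit false

open UpperHalfPlane ModularForm CongruenceSubgroup Matrix.SpecialLinearGroup PowerSeries
open scoped MatrixGroups ModularForm
open Fermat.Agent.S16 Fermat.Agent.S16.EisCong Fermat.Agent.S16.ValRed

namespace Fermat.Agent.S16.NormSturmQ

/-- **(NS)** in consumer shape (helper14 #1575 / helper8 #1578). -/
theorem norm_sturm {p : ℕ} [hp : Fact p.Prime] {ℓ : ℕ} (hℓ : ℓ.Prime) {k : ℤ} {w : ℕ}
    (hk : k = (w : ℤ)) (hw : Even w) (F : ModularForm (GammaP p) k) {a b : ℕ}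
    (hA : LeadAtRat ℓ (expInf F) a) (hB : LeadAtRat ℓ (expZero p k F) b) :
    a + b ≤ w * (p + 1) / 12 :=
  norm_sturm_rat hℓ hp.out.ne_zero
    ((NormQExp.isPrimitiveRoot_zeta hp.out.ne_zero).pow_eq_one)
    (show k * ((p : ℤ) + 1) = ((w * (p + 1) : ℕ) : ℤ) by rw [hk]; push_cast; ring)
    (hw.mul_right _) (NormQExp.normOne F)
    (NormQExp.expand_qExpansion_normOne F) hA hB

/-- **(NS)**, either/or form. -/
theorem norm_sturm_or {p : ℕ} [hp : Fact p.Prime] {ℓ : ℕ} (hℓ : ℓ.Prime) {k : ℤ} {w : ℕ}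
    (hk : k = (w : ℤ)) (hw : Even w) (F : ModularForm (GammaP p) k)
    (hAint : ∀ n, IsLInt ℓ (coeff n (expInf F)))
    (hBint : ∀ n, IsLInt ℓ (coeff n (expZero p k F))) {a b : ℕ}
    (hAa : ∀ n < a, IsLSmall ℓ (coeff n (expInf F)))
    (hBb : ∀ n < b, IsLSmall ℓ (coeff n (expZero p k F)))
    (hab : w * (p + 1) / 12 < a + b) :
    (∀ n, IsLSmall ℓ (coeff n (expInf F))) ∨ (∀ n, IsLSmall ℓ (coeff n (expZero p k F))) :=
  norm_sturm_rat_or hℓ hp.out.ne_zero
    ((NormQExp.isPrimitiveRoot_zeta hp.out.ne_zero).pow_eq_one)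
    (show k * ((p : ℤ) + 1) = ((w * (p + 1) : ℕ) : ℤ) by rw [hk]; push_cast; ring)
    (hw.mul_right _) (NormQExp.normOne F)
    (NormQExp.expand_qExpansion_normOne F) hAint hBint hAa hBb hab

end Fermat.Agent.S16.NormSturmQ
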