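import Fermat.Agent.S16.RamanujanMod3
import Fermat.Agent.S24.QExpDelta

/-!
# S16 / K(9), step (2): the two level-one inputs of `RamanujanMod3`, and the final congruence

* `eq_a` : `1728 · X · dedekindEtaUnit = (1 + 240 sig 3)³ - (1 - 504 sig 5)²` in `ℤ⟦X⟧`
  (`1728 Δ = E₄³ - E₆²`, Mathlib, + S24 `qExpansion_discriminant`);
* `eq_b` : `120 (sig 3)² = sig 7 - sig 3` in `ℤ⟦X⟧` (`E₄² = E₈`, level-one Sturm bound);
* `delta_congr` : `X · dedekindEtaUnit = P - P³ + 3 R` in `ℤ⟦X⟧`, `P = sig 1`;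
* `delta_mod_three` : the same in `(ZMod 3)⟦X⟧`.
-/

set_option autoImplicit false

namespace Fermat.Agent.S16.RamanujanMod3

open PowerSeries ModularForm EisensteinSeries UpperHalfPlane MatrixGroups
open scoped ArithmeticFunction.sigma

local notation "Δ" => ModularForm.discriminant

/-- coefficientwise cast `ℤ⟦X⟧ → ℂ⟦X⟧`. -/
noncomputable abbrev toC : ℤ⟦X⟧ →+* ℂ⟦X⟧ := PowerSeries.map (Int.castRingHom ℂ)

lemma toC_injective : Function.Injective toC := by
  intro f g h
  ext n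
  have := congrArg (coeff (R := ℂ) n) h
  simpa using this

lemma eisenstein4_eq : ModularCurve.eisenstein4 = 1 + 240 * sig 3 := by
  ext n
  have h240 : (240 : ℤ⟦X⟧) = C (240 : ℤ) := by simp
  rw [h240]
  simp only [ModularCurve.eisenstein4, coeff_mk, map_add, coeff_one, coeff_C_mul, coeff_sig]
  by_cases hn : n = 0
  · simp [hn]
  · simp [hn]

/-- The `q`-expansion of `E₆`. -/
theorem qExpansion_E₆ : qExpansion 1 E₆ = toC (1 - 504 * sig 5) := by
  ext m
  rw [EisensteinSeries.E_qExpansion_coeff _ ⟨3, rfl⟩]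
  have h504 : (504 : ℤ⟦X⟧) = C (504 : ℤ) := by simp
  rw [h504]
  simp only [coeff_map, map_sub, coeff_one, coeff_C_mul, coeff_sig]
  by_cases hm : m = 0
  · simp [hm]
  · simp only [hm, if_false]
    rw [show _root_.bernoulli 6 = 1 / 42 by decide +kernel, ArithmeticFunction.sigma_apply]
    simp only [eq_intCast]
    push_cast
    ring

/-- `E₈`. -/
noncomputable abbrev E₈ : ModularForm 𝒮ℒ 8 := E (by norm_num : 3 ≤ 8)

/-- The `q`-expansion of `E₈`. -/
theorem qExpansion_E₈ : qExpansion 1 E₈ = toC (1 + 480 * sig 7) := by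
  ext m
  rw [EisensteinSeries.E_qExpansion_coeff _ ⟨4, rfl⟩]
  have h480 : (480 : ℤ⟦X⟧) = C (480 : ℤ) := by simp
  rw [h480]
  simp only [coeff_map, map_add, coeff_one, coeff_C_mul, coeff_sig]
  by_cases hm : m = 0
  · simp [hm]
  · simp only [hm, if_false]
    rw [show _root_.bernoulli 8 = -1 / 30 by decide +kernel, ArithmeticFunction.sigma_apply]
    simp only [eq_intCast]
    push_cast
    ring

theorem qExpansion_E₄' : qExpansion 1 E₄ = toC (1 + 240 * sig 3) := by
  rw [Fermat.Agent.S24.QExp.qExpansion_E₄, eisenstein4_eq]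

/-- `1728 Δ = E₄³ - E₆²` on `q`-expansions. -/
theorem qExpansion_identity_a :
    (1728 : ℂ) • qExpansion 1 Δ = qExpansion 1 E₄ ^ 3 - qExpansion 1 E₆ ^ 2 := by
  set F : ModularForm 𝒮ℒ 12 :=
    ModularForm.mcast (by decide) (E₄.pow 3) - ModularForm.mcast (by decide) (E₆.pow 2) with hF
  have hFq : qExpansion 1 F = qExpansion 1 E₄ ^ 3 - qExpansion 1 E₆ ^ 2 := by
    simp only [hF, FunLike.coe_sub, coe_mcast,
      ModularForm.qExpansion_sub one_pos one_mem_strictPeriods_SL,
      ModularForm.qExpansion_pow one_pos one_mem_strictPeriods_SL]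
  have hfun : (F : ℍ → ℂ) = ((1728 : ℂ) • CuspForm.discriminant : CuspForm 𝒮ℒ 12) := by
    funext z
    have h := discriminant_eq_E₄_cube_sub_E₆_sq z
    simp only [hF, coe_mcast, ModularForm.coe_pow, sub_apply, Pi.pow_apply]
    show _ = (1728 : ℂ) * Δ z
    rw [h]
    ring
  have h2 := ModularForm.qExpansion_smul one_pos one_mem_strictPeriods_SL (1728 : ℂ)
    CuspForm.discriminant
  rw [← hFq, hfun]
  exact h2.symm

/-- `E₄² = E₈` on `q`-expansions. -/
theorem qExpansion_identity_b : qExpansion 1 E₄ ^ 2 = qExpansion 1 E₈ := by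
  set G : ModularForm 𝒮ℒ ((8 : ℕ) : ℤ) :=
    ModularForm.mcast (by decide) (E₄.pow 2) - E₈ with hG
  have hGq : qExpansion 1 G = qExpansion 1 E₄ ^ 2 - qExpansion 1 E₈ := by
    simp only [hG, FunLike.coe_sub, coe_mcast,
      ModularForm.qExpansion_sub one_pos one_mem_strictPeriods_SL,
      ModularForm.qExpansion_pow one_pos one_mem_strictPeriods_SL]
  have h0 : (qExpansion 1 G).coeff 0 = 0 := by
    rw [hGq, map_sub, pow_two, coeff_mul]
    simp [E_qExpansion_coeff_zero _ ⟨2, rfl⟩, E_qExpansion_coeff_zero _ ⟨4, rfl⟩]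
  have hzero : G = 0 := by
    apply sturm_bound_levelOne_nat
    have : (1 : ℕ∞) ≤ (qExpansion 1 G).order :=
      one_le_order_iff_constCoeff_eq_zero.mpr (by simpa using h0)
    exact lt_of_lt_of_le (by norm_num) this
  have : qExpansion 1 G = 0 := by rw [hzero]; exact qExpansion_zero 1
  rw [hGq] at this
  exact sub_eq_zero.mp this

/-- (a) in `ℤ⟦X⟧`. -/
theorem eq_a :
    1728 * (X * ModularCurve.dedekindEtaUnit) =
      (1 + 240 * sig 3) ^ 3 - (1 - 504 * sig 5) ^ 2 := by
  apply toC_injective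
  have h := qExpansion_identity_a
  rw [Fermat.Agent.S24.QExp.qExpansion_discriminant, qExpansion_E₄', qExpansion_E₆] at h
  rw [map_sub, map_pow, map_pow, ← h, map_mul, map_mul, PowerSeries.map_X, map_ofNat,
    Algebra.smul_def]
  congr 1

/-- (b) in `ℤ⟦X⟧`. -/
theorem eq_b : 120 * sig 3 ^ 2 = sig 7 - sig 3 := by
  have h := qExpansion_identity_b
  rw [qExpansion_E₄', qExpansion_E₈, ← map_pow] at h
  have h' := toC_injective h
  have h480 : (480 : ℤ⟦X⟧) ≠ 0 := by
    intro h
    have := congrArg (constantCoeff (R := ℤ)) h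
    rw [map_ofNat] at this
    norm_num at this
  apply mul_left_cancel₀ h480
  linear_combination h'

/-- **Ramanujan's congruence mod 3** for the prelude's formal `Δ = X · ∏ (1 - Xⁿ)²⁴`:
`Δ = P - P³ + 3 R` in `ℤ⟦X⟧`, `P = ∑ σ₁(n) Xⁿ`. -/
theorem delta_congr :
    X * ModularCurve.dedekindEtaUnit = sig 1 - sig 1 ^ 3 + 3 * R :=
  delta_eq_of_identities _ eq_a eq_b

/-- The same congruence in `(ZMod 3)⟦X⟧`. -/
theorem delta_mod_three :
    PowerSeries.map (Int.castRingHom (ZMod 3)) (X * ModularCurve.dedekindEtaUnit) =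
      PowerSeries.map (Int.castRingHom (ZMod 3)) (sig 1) -
        PowerSeries.map (Int.castRingHom (ZMod 3)) (sig 1) ^ 3 := by
  rw [delta_congr, map_add, map_sub, map_pow, map_mul]
  have h3 : PowerSeries.map (Int.castRingHom (ZMod 3)) (3 : ℤ⟦X⟧) = 0 := by
    rw [map_ofNat]
    have h : (3 : (ZMod 3)⟦X⟧) = C (3 : ZMod 3) := (map_ofNat (C (R := ZMod 3)) 3).symm
    rw [h, show (3 : ZMod 3) = 0 from by decide, map_zero]
  rw [h3, zero_mul, add_zero]

/-- The Artin–Schreier equation `P̄³ - P̄ + Δ̄ = 0` in `(ZMod 3)⟦X⟧`. -/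
theorem artinSchreier_mod_three :
    PowerSeries.map (Int.castRingHom (ZMod 3)) (sig 1) ^ 3 -
        PowerSeries.map (Int.castRingHom (ZMod 3)) (sig 1) +
      PowerSeries.map (Int.castRingHom (ZMod 3)) (X * ModularCurve.dedekindEtaUnit) = 0 := by
  rw [delta_mod_three]
  ring

end Fermat.Agent.S16.RamanujanMod3
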