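/-
S16, block (i) (helper20): **`f|w_p = −U_p f` for weight-2 forms of level `Γ₀(p)`**, in the prelude's
own operators (`ModularForm.heckeU`, `heckeULin`).

`w_p = [[0, −1], [p, 0]]`.  For `f ∈ M₂(Γ₀(p))` the translate `g = f|w_p` is again a form on `Γ₀(p)`
(`w_p` normalises `Γ₀(p)`), its trace to `SL₂(ℤ)` is a level-one form of weight 2, hence `0`
(Mathlib `levelOne_weight_two_rank_zero`).  With the coset representatives `1, (S Tʲ)⁻¹` (`j < p`)
of `SL₂(ℤ)/Γ₀(p)` and `w_p · S Tʲ = −[[1, j], [0, p]]` the trace is `f|w_p + U_p f`.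
-/
import Mathlib
import Fermat.Prelude.Def_ModularForm_HeckeOperatorForms
import Fermat.Prelude.Def_FLTPrelim_Modularity
import Fermat.Prelude.Thm_ModularFormClass_qCoeff_heckeU
import Fermat.Prelude.Thm_CongruenceSubgroup_one_mem_strictPeriods_Gamma0

set_option autoImplicit false
set_option linter.unusedSectionVars false
set_option linter.unusedVariables false
set_option linter.style.longLine false
set_option linter.style.haveILetI false

open UpperHalfPlane ModularForm MatrixGroups CongruenceSubgroup Matrix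
open scoped ModularForm

noncomputable section

namespace Fermat.Agent.S16.AtkinLehnerU

/-! ### Slash by `−g` in even weight -/

/-- In even weight, slashing by `g'` with matrix `−g` is slashing by `g`. -/
theorem slash_eq_of_neg {k : ℤ} (hk : Even k) (f : ℍ → ℂ) {g g' : GL (Fin 2) ℝ}
    (h : (g' : Matrix (Fin 2) (Fin 2) ℝ) = -(g : Matrix (Fin 2) (Fin 2) ℝ)) :
    f ∣[k] g' = f ∣[k] g := by
  have hdet : (g'.det : ℝ) = (g.det : ℝ) := by
    rw [Matrix.GeneralLinearGroup.val_det_apply, Matrix.GeneralLinearGroup.val_det_apply, h,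
      Matrix.det_neg]
    simp
  have hσ : σ g' = σ g := by
    unfold UpperHalfPlane.σ
    rw [hdet]
  have hnum : ∀ z : ℂ, num g' z = -num g z := by
    intro z
    simp only [UpperHalfPlane.num, h, Matrix.neg_apply, Complex.ofReal_neg]
    ring
  have hden : ∀ z : ℂ, denom g' z = -denom g z := by
    intro z
    simp only [UpperHalfPlane.denom, h, Matrix.neg_apply, Complex.ofReal_neg]
    ring
  have hsmul : ∀ τ : ℍ, g' • τ = g • τ := by
    intro τ
    apply UpperHalfPlane.ext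
    rw [UpperHalfPlane.coe_smul, UpperHalfPlane.coe_smul, hσ, hnum, hden, neg_div_neg_eq]
  ext τ
  rw [ModularForm.slash_apply, ModularForm.slash_apply, hσ, hsmul, hdet, hden]
  congr 1
  rw [Even.neg_zpow hk.neg]

/-! ### The Atkin–Lehner matrix -/

variable (p : ℕ) [NeZero p]

/-- The Atkin–Lehner (Fricke) matrix `[[0, −1], [p, 0]]`. -/
def wP : GL (Fin 2) ℝ :=
  Matrix.GeneralLinearGroup.mkOfDetNeZero !![0, -1; (p : ℝ), 0]
    (by rw [Matrix.det_fin_two_of]; simpa using NeZero.ne p)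

@[simp] theorem val_wP :
    ((wP p : GL (Fin 2) ℝ) : Matrix (Fin 2) (Fin 2) ℝ) = !![0, -1; (p : ℝ), 0] := rfl

theorem det_wP : ((wP p).det : ℝ) = p := by
  rw [Matrix.GeneralLinearGroup.val_det_apply, val_wP, Matrix.det_fin_two_of]; ring

theorem det_wP_pos : 0 < ((wP p).det : ℝ) := by
  rw [det_wP]; exact_mod_cast Nat.pos_of_ne_zero (NeZero.ne p)

/-- The matrix of the image of `γ ∈ SL₂(ℤ)` in `GL₂(ℝ)`. -/
theorem val_mapGL (γ : SL(2, ℤ)) :
    ((Matrix.SpecialLinearGroup.mapGL ℝ γ : GL (Fin 2) ℝ) : Matrix (Fin 2) (Fin 2) ℝ) =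
      !![((γ 0 0 : ℤ) : ℝ), ((γ 0 1 : ℤ) : ℝ); ((γ 1 0 : ℤ) : ℝ), ((γ 1 1 : ℤ) : ℝ)] := by
  rw [Matrix.SpecialLinearGroup.mapGL_coe_matrix]
  ext i j
  fin_cases i <;> fin_cases j <;> simp

/-- `w_p · S Tʲ = −[[1, j], [0, p]]`. -/
theorem val_wP_mul_ST (j : ℕ) :
    ((wP p * Matrix.SpecialLinearGroup.mapGL ℝ (ModularGroup.S * ModularGroup.T ^ (j : ℤ)) :
      GL (Fin 2) ℝ) : Matrix (Fin 2) (Fin 2) ℝ) =
      -((heckeMatrix p j : GL (Fin 2) ℝ) : Matrix (Fin 2) (Fin 2) ℝ) := by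
  rw [Matrix.GeneralLinearGroup.coe_mul, val_wP, val_mapGL, val_heckeMatrix (NeZero.ne p)]
  have hST : ((ModularGroup.S * ModularGroup.T ^ (j : ℤ) : SL(2, ℤ)) : Matrix (Fin 2) (Fin 2) ℤ) =
      !![0, -1; 1, (j : ℤ)] := by
    rw [Matrix.SpecialLinearGroup.coe_mul, ModularGroup.coe_T_zpow, ModularGroup.coe_S]
    ext a b
    fin_cases a <;> fin_cases b <;> simp [Matrix.mul_apply, Fin.sum_univ_two]
  have h00 : (ModularGroup.S * ModularGroup.T ^ (j : ℤ) : SL(2, ℤ)) 0 0 = 0 := by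
    have := congrFun (congrFun hST 0) 0; simpa using this
  have h01 : (ModularGroup.S * ModularGroup.T ^ (j : ℤ) : SL(2, ℤ)) 0 1 = -1 := by
    have := congrFun (congrFun hST 0) 1; simpa using this
  have h10 : (ModularGroup.S * ModularGroup.T ^ (j : ℤ) : SL(2, ℤ)) 1 0 = 1 := by
    have := congrFun (congrFun hST 1) 0; simpa using this
  have h11 : (ModularGroup.S * ModularGroup.T ^ (j : ℤ) : SL(2, ℤ)) 1 1 = (j : ℤ) := by
    have := congrFun (congrFun hST 1) 1; simpa using this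
  rw [h00, h01, h10, h11]
  ext a b
  fin_cases a <;> fin_cases b <;> simp [Matrix.mul_apply, Fin.sum_univ_two]

/-- `f|(w_p · S Tʲ) = f|[[1, j], [0, p]]` in even weight. -/
theorem slash_wP_mul_ST {k : ℤ} (hk : Even k) (f : ℍ → ℂ) (j : ℕ) :
    f ∣[k] (wP p * Matrix.SpecialLinearGroup.mapGL ℝ (ModularGroup.S * ModularGroup.T ^ (j : ℤ))) =
      f ∣[k] heckeMatrix p j :=
  slash_eq_of_neg hk f (val_wP_mul_ST p j)

/-- `w_p² = −p`, a scalar: `(f|w_p)|w_p = f` in weight 2. -/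
theorem slash_wP_wP (f : ℍ → ℂ) : (f ∣[(2 : ℤ)] wP p) ∣[(2 : ℤ)] wP p = f := by
  have hp0 : (p : ℝ) ≠ 0 := by exact_mod_cast NeZero.ne p
  have hpc : (p : ℂ) ≠ 0 := by exact_mod_cast NeZero.ne p
  rw [← SlashAction.slash_mul]
  have hval : ((wP p * wP p : GL (Fin 2) ℝ) : Matrix (Fin 2) (Fin 2) ℝ) =
      !![-(p : ℝ), 0; 0, -(p : ℝ)] := by
    rw [Matrix.GeneralLinearGroup.coe_mul, val_wP]
    ext a b
    fin_cases a <;> fin_cases b <;> simp [Matrix.mul_apply, Fin.sum_univ_two]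
  have hdet : ((wP p * wP p).det : ℝ) = (p : ℝ) ^ 2 := by
    rw [Matrix.GeneralLinearGroup.val_det_apply, hval, Matrix.det_fin_two_of]; ring
  have hdetpos : 0 < ((wP p * wP p).det : ℝ) := by rw [hdet]; positivity
  have hσ : σ (wP p * wP p) = .refl ℝ ℂ := by
    rw [UpperHalfPlane.σ, if_pos hdetpos]
  have hden : ∀ z : ℂ, denom (wP p * wP p) z = -(p : ℂ) := by
    intro z
    simp [UpperHalfPlane.denom, hval]
  have hnum : ∀ z : ℂ, num (wP p * wP p) z = -(p : ℂ) * z := by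
    intro z
    simp [UpperHalfPlane.num, hval]
  have hsmul : ∀ τ : ℍ, (wP p * wP p) • τ = τ := by
    intro τ
    apply UpperHalfPlane.ext
    rw [UpperHalfPlane.coe_smul, hσ, hnum, hden]
    simp only [ContinuousAlgEquiv.refl_apply]
    field_simp
  ext τ
  rw [ModularForm.slash_apply, hσ, hsmul, hdet, hden]
  simp only [ContinuousAlgEquiv.refl_apply]
  have : |(p : ℝ) ^ 2| = (p : ℝ) ^ 2 := abs_of_nonneg (by positivity)
  rw [this]
  push_cast
  have hz : (-(p : ℂ)) ^ (-2 : ℤ) = ((p : ℂ) ^ 2)⁻¹ := by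
    rw [_root_.zpow_neg, show ((2 : ℤ)) = ((2 : ℕ) : ℤ) from rfl, zpow_natCast, neg_sq]
  rw [hz]
  rw [zpow_one]; field_simp

/-! ### `w_p` normalises `Γ₀(p)` -/

theorem dvd_of_mem_Gamma0 {γ : SL(2, ℤ)} (hγ : γ ∈ Gamma0 p) : (p : ℤ) ∣ γ 1 0 := by
  rw [Gamma0_mem] at hγ
  exact (ZMod.intCast_zmod_eq_zero_iff_dvd _ _).mp hγ

/-- The conjugate `w_p γ w_p⁻¹ = [[d, −c/p], [−p b, a]]` of `γ = [[a, b], [c, d]] ∈ Γ₀(p)`. -/
def conjW (γ : SL(2, ℤ)) (hγ : γ ∈ Gamma0 p) : SL(2, ℤ) :=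
  ⟨!![γ 1 1, -(γ 1 0 / (p : ℤ)); -((p : ℤ) * γ 0 1), γ 0 0], by
    obtain ⟨c, hc⟩ := dvd_of_mem_Gamma0 p hγ
    have hp : (p : ℤ) ≠ 0 := by exact_mod_cast NeZero.ne p
    have hdet := Matrix.SpecialLinearGroup.det_coe γ
    rw [Matrix.det_fin_two] at hdet
    rw [Matrix.det_fin_two_of, hc, Int.mul_ediv_cancel_left _ hp]
    rw [hc] at hdet
    linarith [hdet]⟩

theorem conjW_mem (γ : SL(2, ℤ)) (hγ : γ ∈ Gamma0 p) : conjW p γ hγ ∈ Gamma0 p := by
  rw [Gamma0_mem]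
  show (((-((p : ℤ) * γ 0 1) : ℤ)) : ZMod p) = 0
  simp

theorem conjW_conjW (γ : SL(2, ℤ)) (hγ : γ ∈ Gamma0 p) :
    conjW p (conjW p γ hγ) (conjW_mem p γ hγ) = γ := by
  obtain ⟨c, hc⟩ := dvd_of_mem_Gamma0 p hγ
  have hp : (p : ℤ) ≠ 0 := by exact_mod_cast NeZero.ne p
  apply Subtype.ext
  ext a b
  fin_cases a <;> fin_cases b
  · show γ 0 0 = γ 0 0
    rfl
  · show -(-((p : ℤ) * γ 0 1) / (p : ℤ)) = γ 0 1
    have h1 : -((p : ℤ) * γ 0 1) = (p : ℤ) * -(γ 0 1) := by ring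
    rw [h1, Int.mul_ediv_cancel_left _ hp]
    ring
  · show -((p : ℤ) * -(γ 1 0 / (p : ℤ))) = γ 1 0
    rw [hc, Int.mul_ediv_cancel_left _ hp]
    ring
  · show γ 1 1 = γ 1 1
    rfl

/-- `w_p γ = (w_p γ w_p⁻¹) w_p` in `GL₂(ℝ)`. -/
theorem wP_mul_mapGL (γ : SL(2, ℤ)) (hγ : γ ∈ Gamma0 p) :
    wP p * Matrix.SpecialLinearGroup.mapGL ℝ γ =
      Matrix.SpecialLinearGroup.mapGL ℝ (conjW p γ hγ) * wP p := by
  obtain ⟨c, hc⟩ := dvd_of_mem_Gamma0 p hγ
  have hp : (p : ℤ) ≠ 0 := by exact_mod_cast NeZero.ne p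
  apply Matrix.GeneralLinearGroup.ext
  intro a b
  rw [Matrix.GeneralLinearGroup.coe_mul, Matrix.GeneralLinearGroup.coe_mul, val_wP, val_mapGL,
    val_mapGL]
  have h00 : (conjW p γ hγ) 0 0 = γ 1 1 := rfl
  have h01 : (conjW p γ hγ) 0 1 = -(γ 1 0 / (p : ℤ)) := rfl
  have h10 : (conjW p γ hγ) 1 0 = -((p : ℤ) * γ 0 1) := rfl
  have h11 : (conjW p γ hγ) 1 1 = γ 0 0 := rfl
  rw [h00, h01, h10, h11, hc, Int.mul_ediv_cancel_left _ hp]
  fin_cases a <;> fin_cases b <;>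
    simp [Matrix.mul_apply, Fin.sum_univ_two] <;> ring

open ConjAct Pointwise in
/-- `w_p⁻¹ Γ₀(p) w_p = Γ₀(p)` as subgroups of `GL₂(ℝ)`. -/
theorem conj_Gamma0 :
    toConjAct (wP p)⁻¹ • (Gamma0 p : Subgroup (GL (Fin 2) ℝ)) =
      (Gamma0 p : Subgroup (GL (Fin 2) ℝ)) := by
  ext x
  rw [Subgroup.mem_pointwise_smul_iff_inv_smul_mem, ← map_inv, inv_inv, toConjAct_smul]
  constructor
  · rintro ⟨γ, hγ, hx⟩
    refine ⟨conjW p γ hγ, conjW_mem p γ hγ, ?_⟩
    have h := wP_mul_mapGL p (conjW p γ hγ) (conjW_mem p γ hγ)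
    rw [conjW_conjW] at h
    -- `w_p · mapGL (conjW γ) = mapGL γ · w_p`, and `mapGL γ = w_p x w_p⁻¹`
    have hx' : Matrix.SpecialLinearGroup.mapGL ℝ γ = wP p * x * (wP p)⁻¹ := hx
    rw [hx'] at h
    have : wP p * Matrix.SpecialLinearGroup.mapGL ℝ (conjW p γ hγ) = wP p * x := by
      rw [h]; group
    exact mul_left_cancel this
  · rintro ⟨γ, hγ, rfl⟩
    refine ⟨conjW p γ hγ, conjW_mem p γ hγ, ?_⟩
    show Matrix.SpecialLinearGroup.mapGL ℝ (conjW p γ hγ) = _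
    rw [wP_mul_mapGL p γ hγ]
    group

/-! ### `f|w_p` as a form of level `Γ₀(p)` -/

/-- `f|w_p` for a modular form of level `Γ₀(p)`, as a modular form of level `Γ₀(p)`. -/
def slashW {k : ℤ} (f : ModularForm (Gamma0 p) k) : ModularForm (Gamma0 p) k where
  toFun := ⇑f ∣[k] wP p
  slash_action_eq' γ hγ :=
    (ModularForm.translate f (wP p)).slash_action_eq' γ ((conj_Gamma0 p).symm ▸ hγ)
  holo' := (ModularForm.translate f (wP p)).holo'
  bdd_at_cusps' hc := (ModularForm.translate f (wP p)).bdd_at_cusps' ((conj_Gamma0 p).symm ▸ hc)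

@[simp] theorem coe_slashW {k : ℤ} (f : ModularForm (Gamma0 p) k) :
    ⇑(slashW p f) = ⇑f ∣[k] wP p := rfl

/-- `f|w_p` for a cusp form of level `Γ₀(p)`, as a cusp form of level `Γ₀(p)`. -/
def slashWCusp {k : ℤ} (f : CuspForm (Gamma0 p) k) : CuspForm (Gamma0 p) k where
  toFun := ⇑f ∣[k] wP p
  slash_action_eq' γ hγ :=
    (CuspForm.translate f (wP p)).slash_action_eq' γ ((conj_Gamma0 p).symm ▸ hγ)
  holo' := (CuspForm.translate f (wP p)).holo'
  zero_at_cusps' hc := (CuspForm.translate f (wP p)).zero_at_cusps' ((conj_Gamma0 p).symm ▸ hc)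

@[simp] theorem coe_slashWCusp {k : ℤ} (f : CuspForm (Gamma0 p) k) :
    ⇑(slashWCusp p f) = ⇑f ∣[k] wP p := rfl

/-! ### Coset representatives of `SL₂(ℤ)/Γ₀(p)` -/

section Cosets

variable [hp : Fact p.Prime]

/-- `S Tʲ` in `SL₂(ℤ)`. -/
def stj (j : ℕ) : SL(2, ℤ) := ModularGroup.S * ModularGroup.T ^ (j : ℤ)

theorem coe_stj (j : ℕ) : ((stj j : SL(2, ℤ)) : Matrix (Fin 2) (Fin 2) ℤ) = !![0, -1; 1, (j : ℤ)] := by
  unfold stj
  rw [Matrix.SpecialLinearGroup.coe_mul, ModularGroup.coe_T_zpow, ModularGroup.coe_S]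
  ext a b
  fin_cases a <;> fin_cases b <;> simp [Matrix.mul_apply, Fin.sum_univ_two]

theorem stj_apply (j : ℕ) : (stj j) 0 0 = 0 ∧ (stj j) 0 1 = -1 ∧ (stj j) 1 0 = 1 ∧
    (stj j) 1 1 = (j : ℤ) := by
  have h := coe_stj j
  refine ⟨?_, ?_, ?_, ?_⟩
  · simpa using congrFun (congrFun h 0) 0
  · simpa using congrFun (congrFun h 0) 1
  · simpa using congrFun (congrFun h 1) 0
  · simpa using congrFun (congrFun h 1) 1

/-- The `(1,0)`-entry of `S Tʲ · h` is `a + j c`. -/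
theorem stj_mul_apply_one_zero (j : ℕ) (h : SL(2, ℤ)) :
    (stj j * h) 1 0 = h 0 0 + (j : ℤ) * h 1 0 := by
  obtain ⟨-, -, h10, h11⟩ := stj_apply j
  rw [Matrix.SpecialLinearGroup.coe_mul, Matrix.mul_apply, Fin.sum_univ_two, h10, h11]
  ring

/-- The `(1,0)`-entry of `S Tⁱ · (S Tʲ)⁻¹` is `j − i`. -/
theorem stj_mul_inv_apply_one_zero (i j : ℕ) :
    (stj i * (stj j)⁻¹) 1 0 = (j : ℤ) - (i : ℤ) := by
  obtain ⟨-, -, h10, h11⟩ := stj_apply i
  obtain ⟨-, -, k10, k11⟩ := stj_apply j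
  rw [Matrix.SpecialLinearGroup.coe_mul, Matrix.mul_apply, Fin.sum_univ_two, h10, h11,
    Matrix.SpecialLinearGroup.coe_inv, Matrix.adjugate_fin_two]
  simp only [Matrix.of_apply, Matrix.cons_val', Matrix.cons_val_zero, Matrix.cons_val_one,
    Matrix.cons_val_fin_one]
  rw [k10, k11]
  ring

/-- The image of `Γ₀(p)` in `GL₂(ℝ)`. -/
abbrev Gp : Subgroup (GL (Fin 2) ℝ) := (Gamma0 p : Subgroup (GL (Fin 2) ℝ))

/-- The coset space `SL₂(ℤ)/Γ₀(p)` in Mathlib's trace shape. -/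
abbrev Qp : Type := 𝒮ℒ ⧸ ((Gamma0 p : Subgroup (GL (Fin 2) ℝ)).subgroupOf 𝒮ℒ)

theorem mapGL_injective :
    Function.Injective (Matrix.SpecialLinearGroup.mapGL ℝ : SL(2, ℤ) →* GL (Fin 2) ℝ) := by
  intro a b hab
  have h := congrArg (fun g : GL (Fin 2) ℝ => (g : Matrix (Fin 2) (Fin 2) ℝ)) hab
  simp only [val_mapGL] at h
  apply Subtype.ext
  ext i j
  have hij := congrFun (congrFun h i) j
  fin_cases i <;> fin_cases j <;> simpa using hij

/-- Membership in the image of `Γ₀(p)` in `GL₂(ℝ)`. -/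
theorem mapGL_mem_iff (h : SL(2, ℤ)) :
    Matrix.SpecialLinearGroup.mapGL ℝ h ∈ Gp p ↔ h ∈ Gamma0 p := by
  constructor
  · rintro ⟨γ, hγ, hγh⟩
    rwa [← mapGL_injective hγh]
  · intro hh
    exact ⟨h, hh, rfl⟩

/-- The coset representatives `1, (S Tʲ)⁻¹` of `SL₂(ℤ)/Γ₀(p)`. -/
def rep : Option (Fin p) → 𝒮ℒ
  | none => 1
  | some j => ⟨Matrix.SpecialLinearGroup.mapGL ℝ (stj (j : ℕ))⁻¹, ⟨_, rfl⟩⟩

/-- The classes of the representatives. -/
def repQ (o : Option (Fin p)) : Qp p := QuotientGroup.mk (rep p o)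

theorem repQ_eq_iff (o o' : Option (Fin p)) :
    repQ p o = repQ p o' ↔ (((rep p o)⁻¹ * rep p o' : 𝒮ℒ) : GL (Fin 2) ℝ) ∈ Gp p := by
  unfold repQ
  rw [QuotientGroup.eq, Subgroup.mem_subgroupOf]

theorem one_ne_zero_zmod : ((1 : ℤ) : ZMod p) ≠ 0 := by
  haveI : Fact (1 < p) := ⟨hp.out.one_lt⟩
  simp

theorem repQ_injective : Function.Injective (repQ p) := by
  intro o o' h
  rw [repQ_eq_iff] at h
  rcases o with _ | i <;> rcases o' with _ | j
  · rfl
  · exfalso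
    have h' : Matrix.SpecialLinearGroup.mapGL ℝ (stj (j : ℕ))⁻¹ ∈ Gp p := by
      simpa [rep] using h
    rw [mapGL_mem_iff] at h'
    have h'' := inv_mem h'
    rw [inv_inv, Gamma0_mem, (stj_apply (j : ℕ)).2.2.1] at h''
    exact one_ne_zero_zmod p h''
  · exfalso
    have h' : Matrix.SpecialLinearGroup.mapGL ℝ (stj (i : ℕ)) ∈ Gp p := by
      have : (((rep p (some i))⁻¹ * rep p none : 𝒮ℒ) : GL (Fin 2) ℝ) =
          Matrix.SpecialLinearGroup.mapGL ℝ (stj (i : ℕ)) := by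
        simp [rep]
      rwa [this] at h
    rw [mapGL_mem_iff, Gamma0_mem, (stj_apply (i : ℕ)).2.2.1] at h'
    exact one_ne_zero_zmod p h'
  · have h' : Matrix.SpecialLinearGroup.mapGL ℝ (stj (i : ℕ) * (stj (j : ℕ))⁻¹) ∈ Gp p := by
      have : (((rep p (some i))⁻¹ * rep p (some j) : 𝒮ℒ) : GL (Fin 2) ℝ) =
          Matrix.SpecialLinearGroup.mapGL ℝ (stj (i : ℕ) * (stj (j : ℕ))⁻¹) := by
        simp [rep]
      rwa [this] at h
    rw [mapGL_mem_iff, Gamma0_mem, stj_mul_inv_apply_one_zero] at h'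
    have h2 : ((j : ℕ) : ZMod p) = ((i : ℕ) : ZMod p) := by
      have : (((j : ℕ) : ℤ) : ZMod p) - (((i : ℕ) : ℤ) : ZMod p) = 0 := by
        simpa using h'
      simpa using sub_eq_zero.mp this
    have h3 := (ZMod.natCast_eq_natCast_iff' _ _ _).mp h2
    rw [Nat.mod_eq_of_lt j.2, Nat.mod_eq_of_lt i.2] at h3
    exact congrArg some (Fin.ext h3.symm)

theorem repQ_surjective : Function.Surjective (repQ p) := by
  intro q
  induction q using QuotientGroup.induction_on with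
  | H x =>
    obtain ⟨x, h, rfl⟩ := x
    by_cases hc : ((h 1 0 : ℤ) : ZMod p) = 0
    · refine ⟨none, ?_⟩
      unfold repQ
      rw [QuotientGroup.eq, Subgroup.mem_subgroupOf]
      have : (((rep p none)⁻¹ * ⟨Matrix.SpecialLinearGroup.mapGL ℝ h, ⟨h, rfl⟩⟩ : 𝒮ℒ) :
          GL (Fin 2) ℝ) = Matrix.SpecialLinearGroup.mapGL ℝ h := by
        simp [rep]
      rw [this, mapGL_mem_iff, Gamma0_mem]
      exact hc
    · -- `j ≡ -a / c`
      set jz : ZMod p := -((h 0 0 : ℤ) : ZMod p) * ((h 1 0 : ℤ) : ZMod p)⁻¹ with hjz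
      haveI : NeZero p := ⟨hp.out.ne_zero⟩
      refine ⟨some ⟨jz.val, ZMod.val_lt jz⟩, ?_⟩
      unfold repQ
      rw [QuotientGroup.eq, Subgroup.mem_subgroupOf]
      have : (((rep p (some ⟨jz.val, ZMod.val_lt jz⟩))⁻¹ *
          ⟨Matrix.SpecialLinearGroup.mapGL ℝ h, ⟨h, rfl⟩⟩ : 𝒮ℒ) : GL (Fin 2) ℝ) =
          Matrix.SpecialLinearGroup.mapGL ℝ (stj jz.val * h) := by
        simp [rep]
      rw [this, mapGL_mem_iff, Gamma0_mem, stj_mul_apply_one_zero]
      push_cast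
      rw [ZMod.natCast_zmod_val, hjz]
      field_simp
      ring

theorem repQ_bijective : Function.Bijective (repQ p) := ⟨repQ_injective p, repQ_surjective p⟩

/-! ### The trace of `f|w_p` and the main theorem -/

theorem quotientFunc_repQ_none {k : ℤ} (g : ModularForm (Gamma0 p) k) :
    SlashInvariantForm.quotientFunc g (repQ p none) = ⇑g := by
  unfold repQ
  show SlashInvariantForm.quotientFunc g ⟦rep p none⟧ = _
  rw [SlashInvariantForm.quotientFunc_mk]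
  simp [rep]

theorem quotientFunc_repQ_some {k : ℤ} (g : ModularForm (Gamma0 p) k) (j : Fin p) :
    SlashInvariantForm.quotientFunc g (repQ p (some j)) =
      ⇑g ∣[k] (Matrix.SpecialLinearGroup.mapGL ℝ (stj (j : ℕ))) := by
  unfold repQ
  show SlashInvariantForm.quotientFunc g ⟦rep p (some j)⟧ = _
  rw [SlashInvariantForm.quotientFunc_mk]
  simp [rep]

/-- The trace of a form of level `Γ₀(p)` to `SL₂(ℤ)`, on the explicit representatives. -/
theorem coe_trace_eq {k : ℤ} (g : ModularForm (Gamma0 p) k) :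
    ⇑(ModularForm.trace 𝒮ℒ g) =
      ⇑g + ∑ j ∈ Finset.range p, ⇑g ∣[k] (Matrix.SpecialLinearGroup.mapGL ℝ (stj j)) := by
  letI := Fintype.ofFinite (Qp p)
  rw [ModularForm.coe_trace]
  rw [← Function.Bijective.sum_comp (repQ_bijective p)
    (fun q => SlashInvariantForm.quotientFunc g q)]
  rw [Fintype.sum_option, quotientFunc_repQ_none]
  congr 1
  rw [Finset.sum_range]
  exact Finset.sum_congr rfl fun j _ => quotientFunc_repQ_some p g j

/-- **`f|w_p = −U_p f`** for a modular form of weight 2 and level `Γ₀(p)`. -/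
theorem slash_wP_eq_neg_heckeU (f : ModularForm (Gamma0 p) 2) :
    ⇑f ∣[(2 : ℤ)] wP p = -(heckeU 2 p ⇑f) := by
  haveI : NeZero p := ⟨hp.out.ne_zero⟩
  have h0 : ModularForm.trace 𝒮ℒ (slashW p f) = 0 :=
    rank_zero_iff_forall_zero.mp ModularForm.levelOne_weight_two_rank_zero _
  have h1 := coe_trace_eq p (slashW p f)
  rw [h0, coe_slashW] at h1
  have h2 : ∀ j ∈ Finset.range p,
      (⇑f ∣[(2 : ℤ)] wP p) ∣[(2 : ℤ)] (Matrix.SpecialLinearGroup.mapGL ℝ (stj j)) =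
        ⇑f ∣[(2 : ℤ)] heckeMatrix p j := by
    intro j _
    rw [← SlashAction.slash_mul]
    exact slash_wP_mul_ST p (by decide) ⇑f j
  rw [Finset.sum_congr rfl h2] at h1
  rw [heckeU_def]
  exact eq_neg_of_add_eq_zero_left h1.symm

/-- The same for cusp forms. -/
theorem slash_wP_eq_neg_heckeU_cusp (f : CuspForm (Gamma0 p) 2) :
    ⇑f ∣[(2 : ℤ)] wP p = -(heckeU 2 p ⇑f) := by
  haveI : NeZero p := ⟨hp.out.ne_zero⟩
  let f' : ModularForm (Gamma0 p) 2 :=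
    { toFun := ⇑f
      slash_action_eq' := f.slash_action_eq'
      holo' := f.holo'
      bdd_at_cusps' := fun hc => ModularFormClass.bdd_at_cusps f hc }
  exact slash_wP_eq_neg_heckeU p f'

/-! ### Bundled forms and `q`-coefficients -/

/-- `f|w_p = −U_p f` with the prelude's bundled `U_p` (modular forms). -/
theorem coe_slashW_eq_neg_heckeULin (f : ModularForm (Gamma0 p) 2) :
    haveI : NeZero p := ⟨hp.out.ne_zero⟩
    slashW p f = -(ModularForm.heckeULin 2 (dvd_refl p) f) := by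
  haveI : NeZero p := ⟨hp.out.ne_zero⟩
  apply DFunLike.coe_injective
  rw [coe_slashW, slash_wP_eq_neg_heckeU]
  rfl

/-- `f|w_p = −U_p f` with the prelude's bundled `U_p` (cusp forms). -/
theorem coe_slashWCusp_eq_neg_heckeULin (f : CuspForm (Gamma0 p) 2) :
    haveI : NeZero p := ⟨hp.out.ne_zero⟩
    slashWCusp p f = -(CuspForm.heckeULin 2 (dvd_refl p) f) := by
  haveI : NeZero p := ⟨hp.out.ne_zero⟩
  apply DFunLike.coe_injective
  rw [coe_slashWCusp, slash_wP_eq_neg_heckeU_cusp]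
  rfl

/-- **`a_n(f|w_p) = −a_{np}(f)`** for a cusp form of weight 2 and level `Γ₀(p)`. -/
theorem qCoeff_slash_wP (f : CuspForm (Gamma0 p) 2) (n : ℕ) :
    ModularFormClass.qCoeff (⇑f ∣[(2 : ℤ)] wP p) n = -ModularFormClass.qCoeff (⇑f) (n * p) := by
  haveI : NeZero p := ⟨hp.out.ne_zero⟩
  have hΓ := one_mem_strictPeriods_Gamma0 p
  rw [slash_wP_eq_neg_heckeU_cusp]
  have h1 : -(heckeU 2 p ⇑f) = (-1 : ℂ) • ⇑(CuspForm.heckeULin 2 (dvd_refl p) f) := by
    rw [CuspForm.coe_heckeULin_apply]; simp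
  have h2 := ModularForm.qExpansion_smul (h := 1) one_pos hΓ (-1 : ℂ)
    (CuspForm.heckeULin 2 (dvd_refl p) f)
  rw [ModularFormClass.qCoeff, h1, h2, CuspForm.coe_heckeULin_apply]
  have h3 := ModularFormClass.qCoeff_heckeU f hΓ hp.out.ne_zero n
  rw [ModularFormClass.qCoeff, ModularForm.coeffHeckeU_apply] at h3
  simp only [PowerSeries.coeff_smul, smul_eq_mul, neg_mul, one_mul]
  rw [h3]

end Cosets

end Fermat.Agent.S16.AtkinLehnerU
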