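/-
S16, block [X2] (helper18), file 2: THE TWO-CUSP EXPANSION CALCULUS on `M_k(Γ₀(p))`.

* `Nice h f` : `f : ℍ → ℂ` is `h`-periodic, holomorphic and bounded at `i∞` — exactly what the
  function-level `q`-expansion lemmas of Mathlib need; closed under `+ - * • ^ ∏`;
* `TwoNice p k f` : `f` is nice of width `1` and `f ∣[k] S` is nice of width `p` (every modular form
  of weight `k` on `Γ₀(p)` is, `TwoNice.of_form`; every level-one form too, `TwoNice.of_levelOne`);
  closed under `mul` (weights add), `add`, `sub`, `smul`, `neg`, `pow`;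
* `expInf`/`expZero` are additive and multiplicative on `TwoNice` functions;
* level one: `expZero p k G = expand p (qExpansion 1 G)`;
* the rescaling lemma `qExpansion 1 (g (p·)) = qExpansion p g` and the Fricke link
  `qExpansion 1 (f ∣[k] wP p) = p ^ (k-1) • expZero p k f`;
* weight 2: `expZero p 2 F = -p⁻¹ • qExpansion 1 (heckeU 2 p F)` and coefficientwise
  `coeff n (expZero p 2 F) = -p⁻¹ * qCoeff F (n * p)`;
* `expZero p 2 (eisP p) = -p⁻¹ • expInf (eisP p)`.
-/
import Mathlib
import Fermat.Prelude.Def_ModularForm_HeckeOperator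
import Fermat.Prelude.Thm_CongruenceSubgroup_one_mem_strictPeriods_Gamma0
import Fermat.Prelude.Thm_UpperHalfPlane_qExpansion_coeff_nat_mul
import Fermat.Prelude.Thm_UpperHalfPlane_qExpansion_prod
import Fermat.Agent.S16.EisCong
import Fermat.Agent.S16.AtkinLehnerU
import Fermat.Agent.S16.EisP
import Fermat.Agent.S16.SigmaP

set_option autoImplicit false

open UpperHalfPlane ModularForm Matrix.SpecialLinearGroup CongruenceSubgroup ModularGroup
open scoped MatrixGroups ModularForm Manifold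

noncomputable section

namespace Fermat.Agent.S16.TwoExp

open Fermat.Agent.S16.EisCong

/-! ### Nice functions -/

/-- `f` is `h`-periodic, holomorphic and bounded at `i∞`. -/
structure Nice (h : ℝ) (f : ℍ → ℂ) : Prop where
  per : Function.Periodic (f ∘ ofComplex) h
  hol : MDiff f
  bdd : IsBoundedAtImInfty f

namespace Nice

variable {h : ℝ} {f g : ℍ → ℂ}

theorem analyticAt (hf : Nice h f) (hh : 0 < h) : AnalyticAt ℂ (cuspFunction h f) 0 :=
  analyticAt_cuspFunction_zero hh hf.per hf.hol hf.bdd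

theorem mul (hf : Nice h f) (hg : Nice h g) : Nice h (f * g) where
  per := by
    intro w
    have h1 := hf.per w
    have h2 := hg.per w
    simp only [Function.comp_apply, Pi.mul_apply] at h1 h2 ⊢
    rw [h1, h2]
  hol := hf.hol.mul hg.hol
  bdd := hf.bdd.mul hg.bdd

theorem add (hf : Nice h f) (hg : Nice h g) : Nice h (f + g) where
  per := by
    intro w
    have h1 := hf.per w
    have h2 := hg.per w
    simp only [Function.comp_apply, Pi.add_apply] at h1 h2 ⊢
    rw [h1, h2]
  hol := hf.hol.add hg.hol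
  bdd := hf.bdd.add hg.bdd

theorem smul (hf : Nice h f) (c : ℂ) : Nice h (c • f) where
  per := by
    intro w
    have h1 := hf.per w
    simp only [Function.comp_apply, Pi.smul_apply] at h1 ⊢
    rw [h1]
  hol := hf.hol.const_smul c
  bdd := hf.bdd.const_smul_left c

theorem neg (hf : Nice h f) : Nice h (-f) := by
  have := hf.smul (-1)
  simpa using this

theorem sub (hf : Nice h f) (hg : Nice h g) : Nice h (f - g) := by
  rw [sub_eq_add_neg]
  exact hf.add hg.neg

theorem one : Nice h (1 : ℍ → ℂ) where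
  per := fun w => by
    simp only [Function.comp_apply, Pi.one_apply]
  hol := mdifferentiable_const
  bdd := Filter.const_boundedAtFilter _ (1 : ℂ)

theorem pow (hf : Nice h f) (n : ℕ) : Nice h (f ^ n) := by
  induction n with
  | zero => simpa using (one : Nice h (1 : ℍ → ℂ))
  | succ n ih => rw [pow_succ]; exact ih.mul hf

theorem natMul (hf : Nice h f) (n : ℕ) : Nice ((n : ℝ) * h) f where
  per := by
    have := hf.per.nat_mul n
    simpa using this
  hol := hf.hol
  bdd := hf.bdd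

end Nice

/-! ### `q`-expansion calculus for nice functions -/

section calculus

variable {h : ℝ} {f g : ℍ → ℂ}

theorem qExpansion_mul' (hh : 0 < h) (hf : Nice h f) (hg : Nice h g) :
    qExpansion h (f * g) = qExpansion h f * qExpansion h g :=
  UpperHalfPlane.qExpansion_mul (hf.analyticAt hh) (hg.analyticAt hh)

theorem qExpansion_add' (hh : 0 < h) (hf : Nice h f) (hg : Nice h g) :
    qExpansion h (f + g) = qExpansion h f + qExpansion h g :=
  UpperHalfPlane.qExpansion_add (hf.analyticAt hh) (hg.analyticAt hh)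

theorem qExpansion_sub' (hh : 0 < h) (hf : Nice h f) (hg : Nice h g) :
    qExpansion h (f - g) = qExpansion h f - qExpansion h g :=
  UpperHalfPlane.qExpansion_sub (hf.analyticAt hh) (hg.analyticAt hh)

theorem qExpansion_smul' (hh : 0 < h) (hf : Nice h f) (c : ℂ) :
    qExpansion h (c • f) = c • qExpansion h f :=
  UpperHalfPlane.qExpansion_smul (hf.analyticAt hh) c

theorem qExpansion_neg' (hh : 0 < h) (hf : Nice h f) :
    qExpansion h (-f) = -qExpansion h f :=
  UpperHalfPlane.qExpansion_neg (hf.analyticAt hh)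

theorem qExpansion_pow' (hh : 0 < h) (hf : Nice h f) (n : ℕ) :
    qExpansion h (f ^ n) = qExpansion h f ^ n := by
  induction n with
  | zero => simp [UpperHalfPlane.qExpansion_one]
  | succ n ih => rw [pow_succ, qExpansion_mul' hh (hf.pow n) hf, ih, pow_succ]

/-- Passing from width `h` to width `n * h`. -/
theorem qExpansion_natMul (hh : 0 < h) (hf : Nice h f) {n : ℕ} (hn : n ≠ 0) :
    qExpansion ((n : ℝ) * h) f = PowerSeries.expand n hn (qExpansion h f) := by
  ext m
  rw [UpperHalfPlane.qExpansion_coeff_nat_mul hh hf.per hf.hol hf.bdd (Nat.pos_of_ne_zero hn) m,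
    PowerSeries.coeff_expand]

end calculus


/-! ### Modular forms are nice -/

section forms

open ConjAct Pointwise

variable {Γ : Subgroup (GL (Fin 2) ℝ)} {k : ℤ} {F : Type*} [FunLike F ℍ ℂ]

/-- A modular form is nice at every positive strict period of its level. -/
theorem nice_of_form [ModularFormClass F Γ k] (f : F) {h : ℝ} (hh : 0 < h)
    (hΓ : h ∈ Γ.strictPeriods) : Nice h (⇑f) := by
  have : Fact (IsCusp OnePoint.infty Γ) := ⟨Γ.isCusp_of_mem_strictPeriods hh hΓ⟩
  exact ⟨SlashInvariantFormClass.periodic_comp_ofComplex f hΓ, ModularFormClass.holo f,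
    ModularFormClass.bdd_at_infty f⟩

/-- The element `S T^p S⁻¹ = !![1, 0; -p, 1]` of `Γ₀(p)`. -/
def lowerP (p : ℕ) : SL(2, ℤ) := ⟨!![1, 0; -(p : ℤ), 1], by simp [Matrix.det_fin_two]⟩

theorem lowerP_mem (p : ℕ) : lowerP p ∈ Gamma0 p := by
  rw [Gamma0_mem]
  simp [lowerP]

theorem mapGL_S_mul_upperRight (p : ℕ) :
    mapGL ℝ S * Matrix.GeneralLinearGroup.upperRightHom ((p : ℕ) : ℝ) =
      mapGL ℝ (lowerP p) * mapGL ℝ S := by
  apply Units.ext
  rw [Matrix.GeneralLinearGroup.coe_mul, Matrix.GeneralLinearGroup.coe_mul,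
    AtkinLehnerU.val_mapGL, AtkinLehnerU.val_mapGL]
  have h1 : (lowerP p) 0 0 = 1 := rfl
  have h2 : (lowerP p) 0 1 = 0 := rfl
  have h3 : (lowerP p) 1 0 = -(p : ℤ) := rfl
  have h4 : (lowerP p) 1 1 = 1 := rfl
  have s1 : (S : SL(2, ℤ)) 0 0 = 0 := rfl
  have s2 : (S : SL(2, ℤ)) 0 1 = -1 := rfl
  have s3 : (S : SL(2, ℤ)) 1 0 = 1 := rfl
  have s4 : (S : SL(2, ℤ)) 1 1 = 0 := rfl
  rw [h1, h2, h3, h4, s1, s2, s3, s4]
  ext i j
  fin_cases i <;> fin_cases j <;>
    simp [Matrix.mul_apply, Fin.sum_univ_two, Matrix.GeneralLinearGroup.upperRightHom]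

/-- `p` is a strict period of `S⁻¹ Γ₀(p) S`. -/
theorem natCast_mem_strictPeriods_conj (p : ℕ) :
    ((p : ℕ) : ℝ) ∈ (toConjAct (mapGL ℝ S)⁻¹ • GammaP p).strictPeriods := by
  rw [Subgroup.mem_strictPeriods_iff, map_inv, Subgroup.mem_inv_pointwise_smul_iff,
    ConjAct.toConjAct_smul, mapGL_S_mul_upperRight, mul_assoc, mul_inv_cancel, mul_one]
  exact Subgroup.mem_map_of_mem _ (lowerP_mem p)

/-- For a modular form `f` of weight `k` on `Γ₀(p)`, `f ∣[k] S` is nice of width `p`. -/
theorem nice_slash_S {p : ℕ} (hp : p ≠ 0) [ModularFormClass F (GammaP p) k] (f : F) :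
    Nice (p : ℝ) (⇑f ∣[k] S) := by
  have h := nice_of_form (ModularForm.translate f (mapGL ℝ S))
    (by exact_mod_cast Nat.pos_of_ne_zero hp : (0 : ℝ) < (p : ℝ))
    (natCast_mem_strictPeriods_conj p)
  rw [ModularForm.coe_translate] at h
  exact h

end forms

/-! ### Two-cusp nice functions -/

/-- `f` behaves like a weight-`k` form on `Γ₀(p)` at both cusps: `f` is nice of width `1` and
`f ∣[k] S` is nice of width `p`. -/
structure TwoNice (p : ℕ) (k : ℤ) (f : ℍ → ℂ) : Prop where
  inf : Nice 1 f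
  zero : Nice (p : ℝ) (f ∣[k] S)

namespace TwoNice

variable {p : ℕ} {k k' : ℤ} {f g : ℍ → ℂ}

/-- Every modular form of weight `k` on `Γ₀(p)` is two-cusp nice. -/
theorem of_form {F : Type*} [FunLike F ℍ ℂ] (hp : p ≠ 0) [ModularFormClass F (GammaP p) k]
    (f : F) : TwoNice p k (⇑f) :=
  ⟨nice_of_form f one_pos (one_mem_strictPeriods_Gamma0 p), nice_slash_S hp f⟩

/-- Every level-one modular form is two-cusp nice (for every `p`). -/
theorem of_levelOne {F : Type*} [FunLike F ℍ ℂ] [ModularFormClass F 𝒮ℒ k] (f : F) :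
    TwoNice p k (⇑f) := by
  have h1 : Nice 1 (⇑f) := nice_of_form f one_pos (by simp)
  refine ⟨h1, ?_⟩
  have hS : (⇑f) ∣[k] S = ⇑f :=
    SlashInvariantFormClass.slash_action_eq f _ ⟨S, rfl⟩
  rw [hS]
  simpa using h1.natMul p

theorem mul (hf : TwoNice p k f) (hg : TwoNice p k' g) : TwoNice p (k + k') (f * g) :=
  ⟨hf.inf.mul hg.inf, by rw [mul_slash_SL2]; exact hf.zero.mul hg.zero⟩

theorem add (hf : TwoNice p k f) (hg : TwoNice p k g) : TwoNice p k (f + g) :=
  ⟨hf.inf.add hg.inf, by rw [SlashAction.add_slash]; exact hf.zero.add hg.zero⟩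

theorem smul (hf : TwoNice p k f) (c : ℂ) : TwoNice p k (c • f) :=
  ⟨hf.inf.smul c, by rw [SL_smul_slash]; exact hf.zero.smul c⟩

theorem neg (hf : TwoNice p k f) : TwoNice p k (-f) :=
  ⟨hf.inf.neg, by rw [SlashAction.neg_slash]; exact hf.zero.neg⟩

theorem sub (hf : TwoNice p k f) (hg : TwoNice p k g) : TwoNice p k (f - g) := by
  rw [sub_eq_add_neg]; exact hf.add hg.neg

theorem cast (hf : TwoNice p k f) (hk : k = k') : TwoNice p k' f := hk ▸ hf

end TwoNice

/-! ### The calculus of `expInf` and `expZero` -/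

section expcalc

variable {p : ℕ} {k k' : ℤ} {f g : ℍ → ℂ}

theorem expInf_mul (hf : TwoNice p k f) (hg : TwoNice p k' g) :
    expInf (f * g) = expInf f * expInf g :=
  qExpansion_mul' one_pos hf.inf hg.inf

theorem expInf_add (hf : TwoNice p k f) (hg : TwoNice p k g) :
    expInf (f + g) = expInf f + expInf g :=
  qExpansion_add' one_pos hf.inf hg.inf

theorem expInf_sub (hf : TwoNice p k f) (hg : TwoNice p k g) :
    expInf (f - g) = expInf f - expInf g :=
  qExpansion_sub' one_pos hf.inf hg.inf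

theorem expInf_smul (hf : TwoNice p k f) (c : ℂ) : expInf (c • f) = c • expInf f :=
  qExpansion_smul' one_pos hf.inf c

theorem expInf_neg (hf : TwoNice p k f) : expInf (-f) = -expInf f :=
  qExpansion_neg' one_pos hf.inf

theorem expInf_pow (hf : TwoNice p k f) (n : ℕ) : expInf (f ^ n) = expInf f ^ n :=
  qExpansion_pow' one_pos hf.inf n

variable (hp : p ≠ 0)
include hp

theorem expZero_mul (hf : TwoNice p k f) (hg : TwoNice p k' g) :
    expZero p (k + k') (f * g) = expZero p k f * expZero p k' g := by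
  have hpos : (0 : ℝ) < (p : ℝ) := by exact_mod_cast Nat.pos_of_ne_zero hp
  rw [expZero_def', expZero_def', expZero_def', mul_slash_SL2]
  exact qExpansion_mul' hpos hf.zero hg.zero

theorem expZero_add (hf : TwoNice p k f) (hg : TwoNice p k g) :
    expZero p k (f + g) = expZero p k f + expZero p k g := by
  have hpos : (0 : ℝ) < (p : ℝ) := by exact_mod_cast Nat.pos_of_ne_zero hp
  rw [expZero_def', expZero_def', expZero_def', SlashAction.add_slash]
  exact qExpansion_add' hpos hf.zero hg.zero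

theorem expZero_smul (hf : TwoNice p k f) (c : ℂ) :
    expZero p k (c • f) = c • expZero p k f := by
  have hpos : (0 : ℝ) < (p : ℝ) := by exact_mod_cast Nat.pos_of_ne_zero hp
  rw [expZero_def', expZero_def', SL_smul_slash]
  exact qExpansion_smul' hpos hf.zero c

theorem expZero_neg (hf : TwoNice p k f) : expZero p k (-f) = -expZero p k f := by
  have hpos : (0 : ℝ) < (p : ℝ) := by exact_mod_cast Nat.pos_of_ne_zero hp
  rw [expZero_def', expZero_def', SlashAction.neg_slash]
  exact qExpansion_neg' hpos hf.zero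

theorem expZero_sub (hf : TwoNice p k f) (hg : TwoNice p k g) :
    expZero p k (f - g) = expZero p k f - expZero p k g := by
  rw [sub_eq_add_neg, expZero_add hp hf hg.neg, expZero_neg hp hg, sub_eq_add_neg]

/-- **Level one.**  For a level-one form `G` (so `G ∣[k] S = G`), the expansion at `0` is
`(qExpansion 1 G)(X^p)`. -/
theorem expZero_levelOne {F : Type*} [FunLike F ℍ ℂ] [ModularFormClass F 𝒮ℒ k] (G : F) :
    expZero p k (⇑G) = PowerSeries.expand p hp (qExpansion 1 (⇑G)) := by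
  have h1 : Nice 1 (⇑G) := nice_of_form G one_pos (by simp)
  have hS : (⇑G) ∣[k] S = ⇑G :=
    SlashInvariantFormClass.slash_action_eq G _ ⟨S, rfl⟩
  rw [expZero_def', hS]
  have := qExpansion_natMul one_pos h1 hp
  simpa using this

end expcalc


/-! ### Uniqueness and the two rescalings -/

section rescale

local notation "𝕢" => Function.Periodic.qParam

/-- A bare function `ℍ → ℂ` wrapped into a `FunLike` type (Mathlib's uniqueness lemma is stated for
`FunLike` types only). -/
structure FnWrap where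
  /-- the underlying function -/
  toFun : ℍ → ℂ

instance : FunLike FnWrap ℍ ℂ := ⟨FnWrap.toFun, fun a b _ => by cases a; cases b; congr⟩

/-- Function-level uniqueness of `q`-expansion coefficients. -/
theorem coeff_unique_fun {h : ℝ} (hh : 0 < h) {f : ℍ → ℂ}
    (hfanalytic : AnalyticAt ℂ (cuspFunction h f) 0) (c : ℕ → ℂ)
    (hf : ∀ τ : ℍ, HasSum (fun m : ℕ => c m • 𝕢 h τ ^ m) (f τ)) (m : ℕ) :
    c m = (qExpansion h f).coeff m :=
  UpperHalfPlane.qExpansion_coeff_unique (⟨f⟩ : FnWrap) hh hfanalytic hf m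

/-- A nice function whose values are given by a convergent series in `𝕢 h τ` has that series as its
`q`-expansion. -/
theorem qExpansion_eq_mk_of_hasSum {h : ℝ} (hh : 0 < h) {f : ℍ → ℂ} (hf : Nice h f) (c : ℕ → ℂ)
    (hsum : ∀ τ : ℍ, HasSum (fun m : ℕ => c m • 𝕢 h τ ^ m) (f τ)) :
    qExpansion h f = PowerSeries.mk c := by
  ext m
  rw [PowerSeries.coeff_mk]
  exact (coeff_unique_fun hh (hf.analyticAt hh) c hsum m).symm

theorem hasSum_of_nice {h : ℝ} (hh : 0 < h) {f : ℍ → ℂ} (hf : Nice h f) (τ : ℍ) :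
    HasSum (fun m : ℕ => (qExpansion h f).coeff m • 𝕢 h τ ^ m) (f τ) :=
  UpperHalfPlane.hasSum_qExpansion hh hf.per hf.hol hf.bdd τ

theorem qParam_heckeDiagMatrix_smul {p : ℕ} (hp : p ≠ 0) (τ : ℍ) :
    𝕢 (p : ℝ) ((heckeDiagMatrix p • τ : ℍ) : ℂ) = 𝕢 1 (τ : ℂ) := by
  have hp' : (p : ℂ) ≠ 0 := by exact_mod_cast hp
  rw [coe_heckeDiagMatrix_smul hp, Function.Periodic.qParam, Function.Periodic.qParam]
  congr 1
  push_cast
  field_simp

theorem qParam_heckeMatrix_zero_smul {p : ℕ} (hp : p ≠ 0) (τ : ℍ) :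
    𝕢 1 ((heckeMatrix p 0 • τ : ℍ) : ℂ) = 𝕢 (p : ℝ) (τ : ℂ) := by
  have hp' : (p : ℂ) ≠ 0 := by exact_mod_cast hp
  rw [coe_heckeMatrix_smul hp, Function.Periodic.qParam, Function.Periodic.qParam]
  congr 1
  push_cast
  field_simp
  simp

end rescale

/-! ### The Fricke link -/

section fricke

open Fermat.Agent.S16.AtkinLehnerU

variable (p : ℕ) [NeZero p]

/-- `w_p = S · diag(p, 1)` in `GL(2, ℝ)`. -/
theorem wP_eq_S_mul_diag : wP p = mapGL ℝ S * heckeDiagMatrix p := by
  apply Units.ext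
  rw [Matrix.GeneralLinearGroup.coe_mul, val_wP, val_mapGL, val_heckeDiagMatrix (NeZero.ne p)]
  have s1 : (S : SL(2, ℤ)) 0 0 = 0 := rfl
  have s2 : (S : SL(2, ℤ)) 0 1 = -1 := rfl
  have s3 : (S : SL(2, ℤ)) 1 0 = 1 := rfl
  have s4 : (S : SL(2, ℤ)) 1 1 = 0 := rfl
  rw [s1, s2, s3, s4]
  ext i j
  fin_cases i <;> fin_cases j <;> simp [Matrix.mul_apply, Fin.sum_univ_two]

/-- `(f ∣[k] w_p)(τ) = p^(k-1) · (f ∣[k] S)(p τ)`. -/
theorem slash_wP_apply (k : ℤ) (f : ℍ → ℂ) (τ : ℍ) :
    (f ∣[k] wP p) τ = (p : ℂ) ^ (k - 1) * (f ∣[k] S) (heckeDiagMatrix p • τ) := by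
  rw [wP_eq_S_mul_diag, SlashAction.slash_mul, slash_heckeDiagMatrix_apply k (NeZero.ne p)]
  rfl

/-- **(TC-c) The Fricke link**: the `q`-expansion of `f ∣[k] w_p` is `p^(k-1)` times the expansion
of `f` at the cusp `0` (Mathlib's `GL`-slash normalisation, `|det|^(k-1)`). -/
theorem qExpansion_slash_wP {k : ℤ} (f : ModularForm (GammaP p) k) :
    qExpansion 1 (⇑f ∣[k] wP p) = ((p : ℂ) ^ (k - 1)) • expZero p k (⇑f) := by
  have hp := NeZero.ne p
  have hpos : (0 : ℝ) < (p : ℝ) := by exact_mod_cast Nat.pos_of_ne_zero hp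
  have hW : Nice 1 (⇑f ∣[k] wP p) := by
    have := nice_of_form (slashW p f) one_pos (one_mem_strictPeriods_Gamma0 p)
    rwa [coe_slashW] at this
  have hS : Nice (p : ℝ) (⇑f ∣[k] S) := nice_slash_S hp f
  rw [qExpansion_eq_mk_of_hasSum one_pos hW
    (fun m => (p : ℂ) ^ (k - 1) * (expZero p k (⇑f)).coeff m)]
  · ext m
    simp [PowerSeries.coeff_mk]
  · intro τ
    rw [slash_wP_apply]
    have h1 := (hasSum_of_nice hpos hS (heckeDiagMatrix p • τ)).mul_left ((p : ℂ) ^ (k - 1))
    rw [qParam_heckeDiagMatrix_smul hp] at h1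
    simpa [expZero_def', smul_eq_mul, mul_assoc] using h1

variable [hpp : Fact p.Prime]

/-- **Weight 2**: `p • expZero F = -(q-expansion of U_p F)`. -/
theorem expZero_weight_two (F : ModularForm (GammaP p) 2) :
    expZero p 2 (⇑F) = (-(p : ℂ)⁻¹) • qExpansion 1 (heckeU 2 p (⇑F)) := by
  have hp' : (p : ℂ) ≠ 0 := by exact_mod_cast NeZero.ne p
  have h1 := qExpansion_slash_wP p F
  rw [slash_wP_eq_neg_heckeU p F, show (2 : ℤ) - 1 = 1 by norm_num, zpow_one] at h1
  have hU : Nice 1 (heckeU 2 p (⇑F)) := by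
    have := nice_of_form (ModularForm.heckeULin 2 (dvd_refl p) F) one_pos
      (one_mem_strictPeriods_Gamma0 p)
    rwa [ModularForm.coe_heckeULin_apply] at this
  rw [qExpansion_neg' one_pos hU] at h1
  have h2 : qExpansion 1 (heckeU 2 p (⇑F)) = -((p : ℂ) • expZero p 2 (⇑F)) := by
    rw [← h1, neg_neg]
  rw [h2]
  ext n
  simp only [PowerSeries.coeff_smul, map_neg, smul_eq_mul]
  field_simp

/-- Coefficientwise: `coeff n (expZero p 2 F) = -p⁻¹ · a_{np}(F)`. -/
theorem coeff_expZero_weight_two (F : ModularForm (GammaP p) 2) (n : ℕ) :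
    (expZero p 2 (⇑F)).coeff n = -(p : ℂ)⁻¹ * (qExpansion 1 (⇑F)).coeff (n * p) := by
  rw [expZero_weight_two, PowerSeries.coeff_smul]
  have := ModularFormClass.qCoeff_heckeU F (one_mem_strictPeriods_Gamma0 p) (NeZero.ne p) n
  simp only [ModularFormClass.qCoeff, coeffHeckeU_apply] at this
  rw [this, smul_eq_mul]

/-- The same for cusp forms. -/
theorem coeff_expZero_cusp (f : CuspForm (GammaP p) 2) (n : ℕ) :
    (expZero p 2 (⇑f)).coeff n = -(p : ℂ)⁻¹ * (qExpansion 1 (⇑f)).coeff (n * p) := by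
  let f' : ModularForm (GammaP p) 2 :=
    { toFun := ⇑f
      slash_action_eq' := f.slash_action_eq'
      holo' := f.holo'
      bdd_at_cusps' := fun hc => ModularFormClass.bdd_at_cusps f hc }
  exact coeff_expZero_weight_two p f' n

/-- **The Eisenstein series at the cusp `0`**: `expZero (eisP p) = -p⁻¹ • expInf (eisP p)`
(i.e. `E ∣ w_p = -E`). -/
theorem expZero_eisP :
    expZero p 2 (⇑(EisP.eisP p)) = (-(p : ℂ)⁻¹) • expInf (⇑(EisP.eisP p)) := by
  ext n
  rw [coeff_expZero_weight_two p (EisP.eisP p) n, PowerSeries.coeff_smul, expInf_def,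
    EisP.qExpansion_eisP_coeff', EisP.qExpansion_eisP_coeff', smul_eq_mul]
  by_cases hn : n = 0
  · subst hn
    simp
  · have hnp : n * p ≠ 0 := Nat.mul_ne_zero hn (NeZero.ne p)
    rw [if_neg hnp, if_neg hn, SigmaP.sigmaPrime_mul_self hpp.out n]

end fricke

/-! ### Level-one forms as forms on `Γ₀(p)` -/

section restrict

theorem GammaP_le_SL (p : ℕ) : GammaP p ≤ 𝒮ℒ := Subgroup.map_le_range _ _

/-- A level-one modular form, viewed as a modular form on `Γ₀(p)`. -/
def restrict (p : ℕ) {k : ℤ} (G : ModularForm 𝒮ℒ k) : ModularForm (GammaP p) k where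
  toFun := ⇑G
  slash_action_eq' γ hγ := G.slash_action_eq' γ (GammaP_le_SL p hγ)
  holo' := G.holo'
  bdd_at_cusps' hc := G.bdd_at_cusps' (hc.mono (GammaP_le_SL p))

@[simp] theorem coe_restrict (p : ℕ) {k : ℤ} (G : ModularForm 𝒮ℒ k) : ⇑(restrict p G) = ⇑G := rfl

theorem expInf_restrict (p : ℕ) {k : ℤ} (G : ModularForm 𝒮ℒ k) :
    expInf (⇑(restrict p G)) = qExpansion 1 (⇑G) := rfl

theorem expZero_restrict {p : ℕ} (hp : p ≠ 0) {k : ℤ} (G : ModularForm 𝒮ℒ k) :
    expZero p k (⇑(restrict p G)) = PowerSeries.expand p hp (qExpansion 1 (⇑G)) :=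
  expZero_levelOne hp G

end restrict

end Fermat.Agent.S16.TwoExp
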