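/-
S16 block [A2], final step (lead's backup of `S16/ArithA2.lean`): the application (A2) of the
Norm–Sturm lemma.

`p ≡ 3 mod 4` prime.  There is no weight-2 form `FF` on `Γ₀(p)` with `expInf FF ≡ 1` and
`(-p)·expZero FF ≡ 1` modulo `8` (coefficients in `ℤ_(2)`): the weight-8 form
`G8 = (FF⁴ - 6 FF² E₄ + 8 FF E₆ - 3 E₄²)/256` has `expInf G8 ≡ D = q + …` and
`expZero G8 ≡ D(x^p)` modulo `2`, contradicting `ord + ord ≤ 8(p+1)/12`.
-/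
import Fermat.Agent.S16.ArithA2Series
import Fermat.Agent.S16.RamanujanInputs
import Fermat.Agent.S16.EisCong
import Fermat.Agent.S16.ValRed
import Fermat.Agent.S16.TwoExp
import Fermat.Agent.S16.NormSturmQ
import Fermat.Agent.S16.LInt

set_option autoImplicit false

namespace Fermat.Agent.S16.ArithA2Lead

open PowerSeries ModularForm EisensteinSeries UpperHalfPlane MatrixGroups CongruenceSubgroup
open Fermat.Agent.S16.EisCong Fermat.Agent.S16.ArithA2Series Fermat.Agent.S16.ValRed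
open Fermat.Agent.S16.TwoExp Fermat.Agent.S16.RamanujanMod3

/-- The weight-8 form `G8 = (FF⁴ - 6 FF² E₄ + 8 FF E₆ - 3 E₄²)/256` on `Γ₀(p)`. -/
noncomputable def G8 (p : ℕ) (FF : ModularForm (GammaP p) 2) : ModularForm (GammaP p) 8 :=
  (256 : ℂ)⁻¹ •
    (ModularForm.mcast (by norm_num : ((2 : ℤ) + 2) + (2 + 2) = 8) ((FF.mul FF).mul (FF.mul FF))
      + (-6 : ℂ) • ModularForm.mcast (by norm_num : ((2 : ℤ) + 2) + 4 = 8)
          ((FF.mul FF).mul (restrict p E₄))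
      + (8 : ℂ) • ModularForm.mcast (by norm_num : (2 : ℤ) + 6 = 8) (FF.mul (restrict p E₆))
      + (-3 : ℂ) • ModularForm.mcast (by norm_num : (4 : ℤ) + 4 = 8)
          ((restrict p E₄).mul (restrict p E₄)))

theorem coe_G8 (p : ℕ) (FF : ModularForm (GammaP p) 2) :
    ⇑(G8 p FF) = (256 : ℂ)⁻¹ • ((⇑FF * ⇑FF) * (⇑FF * ⇑FF) + (-6 : ℂ) • ((⇑FF * ⇑FF) * ⇑E₄)
      + (8 : ℂ) • (⇑FF * ⇑E₆) + (-3 : ℂ) • (⇑E₄ * ⇑E₄)) := rfl

theorem expZero_mul' {p : ℕ} (hp : p ≠ 0) {k k' k'' : ℤ} {f g : ℍ → ℂ} (hf : TwoNice p k f)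
    (hg : TwoNice p k' g) (hk : k + k' = k'') :
    expZero p k'' (f * g) = expZero p k f * expZero p k' g := by
  subst hk; exact expZero_mul hp hf hg

theorem expInf_G8 {p : ℕ} (hp0 : p ≠ 0) (FF : ModularForm (GammaP p) 2) :
    expInf (G8 p FF) = (256 : ℂ)⁻¹ • N8 (expInf FF) (qExpansion 1 E₄) (qExpansion 1 E₆) := by
  have hFF : TwoNice p 2 ⇑FF := TwoNice.of_form hp0 FF
  have hE4 : TwoNice p 4 ⇑E₄ := TwoNice.of_levelOne E₄
  have hE6 : TwoNice p 6 ⇑E₆ := TwoNice.of_levelOne E₆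
  have h2 : TwoNice p 4 (⇑FF * ⇑FF) := (hFF.mul hFF).cast (by norm_num)
  have t1 : TwoNice p 8 ((⇑FF * ⇑FF) * (⇑FF * ⇑FF)) := (h2.mul h2).cast (by norm_num)
  have t2 : TwoNice p 8 ((⇑FF * ⇑FF) * ⇑E₄) := (h2.mul hE4).cast (by norm_num)
  have t3 : TwoNice p 8 (⇑FF * ⇑E₆) := (hFF.mul hE6).cast (by norm_num)
  have t4 : TwoNice p 8 (⇑E₄ * ⇑E₄) := (hE4.mul hE4).cast (by norm_num)
  rw [coe_G8, expInf_smul (((t1.add (t2.smul _)).add (t3.smul _)).add (t4.smul _)),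
    expInf_add ((t1.add (t2.smul _)).add (t3.smul _)) (t4.smul _),
    expInf_add (t1.add (t2.smul _)) (t3.smul _), expInf_add t1 (t2.smul _),
    expInf_smul t2, expInf_smul t3, expInf_smul t4,
    expInf_mul h2 h2, expInf_mul h2 hE4, expInf_mul hFF hE6, expInf_mul hE4 hE4,
    expInf_mul hFF hFF]
  simp only [expInf_def, N8, smul_eq_C_mul, map_neg, map_ofNat]
  ring

theorem expZero_G8 {p : ℕ} (hp0 : p ≠ 0) (FF : ModularForm (GammaP p) 2) :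
    expZero p 8 (G8 p FF) = (256 : ℂ)⁻¹ • N8 (expZero p 2 FF)
      (expand p hp0 (qExpansion 1 E₄)) (expand p hp0 (qExpansion 1 E₆)) := by
  have hFF : TwoNice p 2 ⇑FF := TwoNice.of_form hp0 FF
  have hE4 : TwoNice p 4 ⇑E₄ := TwoNice.of_levelOne E₄
  have hE6 : TwoNice p 6 ⇑E₆ := TwoNice.of_levelOne E₆
  have h2 : TwoNice p 4 (⇑FF * ⇑FF) := (hFF.mul hFF).cast (by norm_num)
  have t1 : TwoNice p 8 ((⇑FF * ⇑FF) * (⇑FF * ⇑FF)) := (h2.mul h2).cast (by norm_num)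
  have t2 : TwoNice p 8 ((⇑FF * ⇑FF) * ⇑E₄) := (h2.mul hE4).cast (by norm_num)
  have t3 : TwoNice p 8 (⇑FF * ⇑E₆) := (hFF.mul hE6).cast (by norm_num)
  have t4 : TwoNice p 8 (⇑E₄ * ⇑E₄) := (hE4.mul hE4).cast (by norm_num)
  have e0 : expZero p 4 (⇑FF * ⇑FF) = expZero p 2 ⇑FF * expZero p 2 ⇑FF :=
    expZero_mul' hp0 hFF hFF (by norm_num)
  have e1 : expZero p 8 ((⇑FF * ⇑FF) * (⇑FF * ⇑FF))
      = expZero p 4 (⇑FF * ⇑FF) * expZero p 4 (⇑FF * ⇑FF) :=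
    expZero_mul' hp0 h2 h2 (by norm_num)
  have e2 : expZero p 8 ((⇑FF * ⇑FF) * ⇑E₄) = expZero p 4 (⇑FF * ⇑FF) * expZero p 4 ⇑E₄ :=
    expZero_mul' hp0 h2 hE4 (by norm_num)
  have e3 : expZero p 8 (⇑FF * ⇑E₆) = expZero p 2 ⇑FF * expZero p 6 ⇑E₆ :=
    expZero_mul' hp0 hFF hE6 (by norm_num)
  have e4 : expZero p 8 (⇑E₄ * ⇑E₄) = expZero p 4 ⇑E₄ * expZero p 4 ⇑E₄ :=
    expZero_mul' hp0 hE4 hE4 (by norm_num)
  rw [coe_G8, expZero_smul hp0 (((t1.add (t2.smul _)).add (t3.smul _)).add (t4.smul _)),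
    expZero_add hp0 ((t1.add (t2.smul _)).add (t3.smul _)) (t4.smul _),
    expZero_add hp0 (t1.add (t2.smul _)) (t3.smul _), expZero_add hp0 t1 (t2.smul _),
    expZero_smul hp0 t2, expZero_smul hp0 t3, expZero_smul hp0 t4,
    e1, e2, e3, e4, e0, expZero_levelOne hp0 E₄, expZero_levelOne hp0 E₆]
  simp only [N8, smul_eq_C_mul, map_neg, map_ofNat]
  ring

/-- `1/2 ∉ ℤ_(2)`. -/
theorem half_notMem_ZLoc : (2 : ℂ)⁻¹ ∉ Fermat.Agent.S16.LInt.ZLoc 2 := by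
  haveI : Fact (Nat.Prime 2) := ⟨Nat.prime_two⟩
  intro h
  have h1 : (((2 : ℚ)⁻¹ : ℚ) : ℂ) ∈ Fermat.Agent.S16.LInt.ZLoc 2 := by
    push_cast; exact h
  rw [Fermat.Agent.S16.LInt.ratCast_mem_ZLoc_iff] at h1
  apply h1
  have : ((2 : ℚ)⁻¹).den = 2 := by norm_num
  rw [this]

/-- **(A2).**  `p ≡ 3 mod 4` prime, `R` a subring of `ℂ` consisting of `2`-integral rationals:
there is no `EisCongData p R 2 3`. -/
theorem false_of_eisCongData {p : ℕ} [Fact p.Prime] (hp4 : p % 4 = 3) (R : Subring ℂ)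
    (hR : ∀ x ∈ R, IsLInt 2 x) (D : EisCongData p R 2 3) : False := by
  have hpP : p.Prime := Fact.out
  have hp0 : p ≠ 0 := hpP.ne_zero
  haveI : Fact (Nat.Prime 2) := ⟨Nat.prime_two⟩
  set W : Subring ℂ := Fermat.Agent.S16.LInt.ZLoc 2 with hW
  have hRW : ∀ x ∈ R, x ∈ W := fun x hx => (Fermat.Agent.S16.LInt.mem_ZLoc_iff 2).mpr (hR x hx)
  have hWI : ∀ x ∈ W, IsLInt 2 x := fun x hx => (Fermat.Agent.S16.LInt.mem_ZLoc_iff 2).mp hx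
  have hu : ∀ n, coeff n D.u ∈ W := fun n => hRW _ (D.hu n)
  have hu' : ∀ n, coeff n D.u' ∈ W := fun n => hRW _ (D.hu' n)
  have h8 : (C (((2 : ℕ) : ℂ) ^ 3) : ℂ⟦X⟧) = 8 := by
    have : (((2 : ℕ) : ℂ) ^ 3) = 8 := by norm_num
    rw [this, map_ofNat]
  have hA : expInf D.FF = 1 + 8 * D.u := by
    rw [D.expInf_eq, smul_eq_C_mul, h8]
  have hB : -(p : ℂ⟦X⟧) * expZero p 2 D.FF = 1 + 8 * D.u' := by
    have h := D.expZero_eq
    rw [smul_eq_C_mul, smul_eq_C_mul, h8, map_neg, map_natCast] at h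
    exact h
  have hc0 : p + 1 = 4 * ((p + 1) / 4) := by omega
  have hodd : ¬ 2 ∣ p := by omega
  have hpV : ((p : ℂ))⁻¹ ∈ W := Fermat.Agent.S16.LInt.inv_natCast_mem_ZLoc 2 hodd
  obtain ⟨hAint, ⟨a0, ha0, hA0⟩, ⟨a1, ha1, hA1⟩⟩ := a2_inf_coeff W D.u hu (expInf D.FF) hA
  obtain ⟨hBint, hBsmall, ⟨b1, hb1, hB1⟩⟩ :=
    a2_zero_coeff W p ((p + 1) / 4) hp0 hc0 hpV D.u' hu' (expZero p 2 D.FF) hB
  have h2 := half_notMem_ZLoc
  have hLA : LeadAtRat 2 (expInf (G8 p D.FF)) 1 := by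
    rw [expInf_G8 hp0, qExpansion_E₄', qExpansion_E₆]
    refine ⟨fun n => hWI _ (hAint n), fun n hn => ?_, ?_⟩
    · have hn0 : n = 0 := by omega
      subst hn0
      exact ⟨a0, hWI _ ha0, by rw [hA0]; norm_num⟩
    · rintro ⟨y, hy, hy'⟩
      rw [hA1] at hy'
      refine one_add_two_mul_ne W h2 ha1 ((Fermat.Agent.S16.LInt.mem_ZLoc_iff 2).mpr hy) ?_
      rw [hy']; norm_num
  have hLB : LeadAtRat 2 (expZero p 8 (G8 p D.FF)) p := by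
    rw [expZero_G8 hp0, qExpansion_E₄', qExpansion_E₆]
    refine ⟨fun n => hWI _ (hBint n), fun n hn => ?_, ?_⟩
    · obtain ⟨a, ha, hna⟩ := hBsmall n hn
      exact ⟨a, hWI _ ha, by rw [hna]; norm_num⟩
    · rintro ⟨y, hy, hy'⟩
      rw [hB1] at hy'
      refine one_add_two_mul_ne W h2 hb1 ((Fermat.Agent.S16.LInt.mem_ZLoc_iff 2).mpr hy) ?_
      rw [hy']; norm_num
  have := Fermat.Agent.S16.NormSturmQ.norm_sturm Nat.prime_two (k := 8) (w := 8) (by norm_num)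
    (by decide) (G8 p D.FF) hLA hLB
  omega

theorem not_eisCong {p : ℕ} [Fact p.Prime] (hp4 : p % 4 = 3) (R : Subring ℂ)
    (hR : ∀ x ∈ R, IsLInt 2 x) : ¬ EisCong p R 2 3 :=
  fun ⟨D⟩ => false_of_eisCongData hp4 R hR D

/-- **(A2) in the shape of `UpperGlue.upperB_of_inputs`** (`hA2`), carrier `LInt.ZLoc 2`. -/
theorem not_eisCong_ZLoc {p : ℕ} [Fact p.Prime] (hp4 : p % 4 = 3) :
    ¬ EisCong p (Fermat.Agent.S16.LInt.ZLoc 2) 2 3 := by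
  haveI : Fact (Nat.Prime 2) := ⟨Nat.prime_two⟩
  exact not_eisCong hp4 _ (fun x hx => (Fermat.Agent.S16.LInt.mem_ZLoc_iff 2).mp hx)

end Fermat.Agent.S16.ArithA2Lead
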