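import Mathlib

/-!
# S16 / [A3], power-series half (helper3)

Pure power-series bookkeeping for the case `ℓ = 3`, `p ≢ 0 mod 3`, congruence modulo `9`, of lead's
Norm–Sturm argument.  `R` is an arbitrary subring of `ℂ` in which `3` is not invertible
(in the application `R = ℤ_(3)`), `threeMul R = 3 R`.

With `Finf = 1 + 9 u` (expansion of `FF` at `∞`), `(-p) F0 = 1 + 9 u'` (expansion of `FF ∣ S`
in `x = q^{1/p}`), `E4q = 1 + 240 (q + …)` and `E4p = E4q(x^p)`, the two expansions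

* `A = (Finf² - (2 - p²) E4q) / 3`   (weight-4 form `Y = (FF² - (2 - p²) E₄)/3` at `∞`),
* `B = (F0² - (2 - p²) E4p) / 3`     (`Y ∣ S` at width `p`)

have all coefficients in `R`; the `q¹`-coefficient of `A` is `≡ 1 mod 3`; the coefficients of `B`
of index `< p` are in `3 R` and its `x^p`-coefficient is a unit multiple of `1 mod 3`.
(`a3_infty`, `a3_zero`.)
-/

set_option autoImplicit false

namespace Fermat.Agent.S16.ArithA3Series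

open PowerSeries

/-- the additive subgroup `3 R` of `ℂ`, for a subring `R` of `ℂ`. -/
def threeMul (R : Subring ℂ) : AddSubgroup ℂ where
  carrier := {x | ∃ r ∈ R, x = 3 * r}
  zero_mem' := ⟨0, R.zero_mem, by simp⟩
  add_mem' := by
    rintro _ _ ⟨r, hr, rfl⟩ ⟨s, hs, rfl⟩
    exact ⟨r + s, R.add_mem hr hs, by ring⟩
  neg_mem' := by
    rintro _ ⟨r, hr, rfl⟩
    exact ⟨-r, R.neg_mem hr, by ring⟩

variable {R : Subring ℂ}

theorem mem_threeMul {x : ℂ} : x ∈ threeMul R ↔ ∃ r ∈ R, x = 3 * r := Iff.rfl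

theorem three_mul_mem {r : ℂ} (hr : r ∈ R) : 3 * r ∈ threeMul R := ⟨r, hr, rfl⟩

theorem mem_of_mem_threeMul {x : ℂ} (hx : x ∈ threeMul R) : x ∈ R := by
  obtain ⟨r, hr, rfl⟩ := hx
  exact R.mul_mem (ofNat_mem R 3) hr

theorem mul_mem_threeMul {x y : ℂ} (hx : x ∈ R) (hy : y ∈ threeMul R) : x * y ∈ threeMul R := by
  obtain ⟨r, hr, rfl⟩ := hy
  exact ⟨x * r, R.mul_mem hx hr, by ring⟩

theorem one_add_notMem (h3 : (3 : ℂ)⁻¹ ∉ R) {r : ℂ} (hr : r ∈ R) : 1 + 3 * r ∉ threeMul R := by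
  rintro ⟨s, hs, h⟩
  apply h3
  have : (3 : ℂ)⁻¹ = s - r := by
    have h' : (1 : ℂ) = 3 * (s - r) := by linear_combination h
    field_simp
    linear_combination h'
  rw [this]
  exact R.sub_mem hs hr

theorem intCast_mem' (z : ℤ) : (z : ℂ) ∈ R := intCast_mem R z

/-- coefficients of a product of two series with coefficients in `R` -/
theorem coeff_mul_mem {f g : ℂ⟦X⟧} (hf : ∀ n, coeff n f ∈ R) (hg : ∀ n, coeff n g ∈ R) (n : ℕ) :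
    coeff n (f * g) ∈ R := by
  rw [coeff_mul]
  exact R.sum_mem fun ij _ => R.mul_mem (hf _) (hg _)

/-- `(1 + 9 u)^2`, coefficientwise -/
theorem coeff_sq (u : ℂ⟦X⟧) (n : ℕ) :
    coeff n ((1 + (9 : ℂ) • u) * (1 + (9 : ℂ) • u)) =
      coeff n (1 : ℂ⟦X⟧) + 18 * coeff n u + 81 * coeff n (u * u) := by
  have : (1 + (9 : ℂ) • u) * (1 + (9 : ℂ) • u) = 1 + (18 : ℂ) • u + (81 : ℂ) • (u * u) := by
    simp only [smul_eq_C_mul]
    have h18 : (C (18 : ℂ) : ℂ⟦X⟧) = C 9 + C 9 := by rw [← map_add]; norm_num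
    have h81 : (C (81 : ℂ) : ℂ⟦X⟧) = C 9 * C 9 := by rw [← map_mul]; norm_num
    rw [h18, h81]; ring
  rw [this]
  simp

/-- arithmetic: `p^2 = 3 κ + 1` when `3 ∤ p`. -/
theorem exists_kappa {p : ℕ} (hp : ¬ 3 ∣ p) : ∃ κ : ℤ, ((p : ℂ)) ^ 2 = 3 * κ + 1 := by
  have h : (p : ℤ) ^ 2 % 3 = 1 := by
    have h1 : (p : ℤ) % 3 = 1 ∨ (p : ℤ) % 3 = 2 := by omega
    rcases h1 with h1 | h1
    · rw [pow_two, Int.mul_emod, h1]; rfl
    · rw [pow_two, Int.mul_emod, h1]; rfl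
  refine ⟨(p : ℤ) ^ 2 / 3, ?_⟩
  have h2 : (p : ℤ) ^ 2 = 3 * ((p : ℤ) ^ 2 / 3) + 1 := by omega
  have := congrArg (Int.cast : ℤ → ℂ) h2
  push_cast at this
  exact this

/-- **(A3), the cusp `∞`.**  With `Finf = 1 + 9 u` (`u` having coefficients in `R`) and
`E4q = 1 + 240 (q + …)` integral, the series `A = (Finf² - (2 - p²) E4q) / 3` has all its
coefficients in `R` and its `q`-coefficient is not in `3 R`. -/
theorem a3_infty (h3 : (3 : ℂ)⁻¹ ∉ R) {p : ℕ} (hp : ¬ 3 ∣ p)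
    {u Finf E4q : ℂ⟦X⟧} (hu : ∀ n, coeff n u ∈ R)
    (hFinf : Finf = 1 + (9 : ℂ) • u)
    (hE0 : coeff 0 E4q = 1) (hE1 : coeff 1 E4q = 240)
    (hE : ∀ n, 0 < n → ∃ z : ℤ, coeff n E4q = 240 * z) :
    (∀ n, coeff n ((3 : ℂ)⁻¹ • (Finf * Finf - (2 - (p : ℂ) ^ 2) • E4q)) ∈ R) ∧
      coeff 1 ((3 : ℂ)⁻¹ • (Finf * Finf - (2 - (p : ℂ) ^ 2) • E4q)) ∉ threeMul R := by
  obtain ⟨κ, hκ⟩ := exists_kappa hp
  have huu : ∀ n, coeff n (u * u) ∈ R := coeff_mul_mem hu hu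
  have key : ∀ n, coeff n ((3 : ℂ)⁻¹ • (Finf * Finf - (2 - (p : ℂ) ^ 2) • E4q)) =
      (3 : ℂ)⁻¹ * (coeff n (1 : ℂ⟦X⟧) - (1 - 3 * κ) * coeff n E4q) +
        3 * (2 * coeff n u + 9 * coeff n (u * u)) := by
    intro n
    rw [coeff_smul, map_sub, coeff_smul, hFinf, coeff_sq, hκ, smul_eq_mul, smul_eq_mul]
    field_simp
    ring
  constructor
  · intro n
    rw [key]
    refine R.add_mem ?_ (mem_of_mem_threeMul
      (three_mul_mem (R.add_mem (R.mul_mem (ofNat_mem R 2) (hu n))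
        (R.mul_mem (ofNat_mem R 9) (huu n)))))
    rcases Nat.eq_zero_or_pos n with rfl | hn
    · rw [hE0]
      have : (3 : ℂ)⁻¹ * (coeff 0 (1 : ℂ⟦X⟧) - (1 - 3 * (κ : ℂ)) * 1) = ((κ : ℤ) : ℂ) := by
        simp
      rw [this]
      exact intCast_mem R κ
    · obtain ⟨z, hz⟩ := hE n hn
      rw [hz]
      have : (3 : ℂ)⁻¹ * (coeff n (1 : ℂ⟦X⟧) - (1 - 3 * (κ : ℂ)) * (240 * z)) =
          ((-80 * (1 - 3 * κ) * z : ℤ) : ℂ) := by
        rw [coeff_one, if_neg hn.ne']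
        push_cast
        ring
      rw [this]
      exact intCast_mem R _
  · rw [key, hE1]
    have : (3 : ℂ)⁻¹ * (coeff 1 (1 : ℂ⟦X⟧) - (1 - 3 * (κ : ℂ)) * 240) +
        3 * (2 * coeff 1 u + 9 * coeff 1 (u * u)) =
        1 + 3 * (((-27 + 80 * κ : ℤ) : ℂ) + (2 * coeff 1 u + 9 * coeff 1 (u * u))) := by
      rw [coeff_one, if_neg one_ne_zero]
      push_cast
      ring
    rw [this]
    exact one_add_notMem h3 (R.add_mem (intCast_mem R _)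
      (R.add_mem (R.mul_mem (ofNat_mem R 2) (hu 1))
        (R.mul_mem (ofNat_mem R 9) (huu 1))))

/-- **(A3), the cusp `0`.**  With `(-p) F0 = 1 + 9 u'` and `E4p = E4q(x^p)`, the series
`B = (F0² - (2 - p²) E4p) / 3` has all its coefficients in `R`, those of index `< p` in `3 R`,
and its `x^p`-coefficient is not in `3 R`. -/
theorem a3_zero (h3 : (3 : ℂ)⁻¹ ∉ R) {p : ℕ} (hp : ¬ 3 ∣ p) (hpR : (p : ℂ)⁻¹ ∈ R)
    {u' F0 E4q E4p : ℂ⟦X⟧} (hu' : ∀ n, coeff n u' ∈ R)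
    (hF0 : (-(p : ℂ)) • F0 = 1 + (9 : ℂ) • u')
    (hE0 : coeff 0 E4q = 1) (hE1 : coeff 1 E4q = 240)
    (hE : ∀ n, 0 < n → ∃ z : ℤ, coeff n E4q = 240 * z)
    (hE4p : ∀ n, coeff n E4p = if p ∣ n then coeff (n / p) E4q else 0) :
    (∀ n, coeff n ((3 : ℂ)⁻¹ • (F0 * F0 - (2 - (p : ℂ) ^ 2) • E4p)) ∈ R) ∧
      (∀ n < p, coeff n ((3 : ℂ)⁻¹ • (F0 * F0 - (2 - (p : ℂ) ^ 2) • E4p)) ∈ threeMul R) ∧
      coeff p ((3 : ℂ)⁻¹ • (F0 * F0 - (2 - (p : ℂ) ^ 2) • E4p)) ∉ threeMul R := by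
  obtain ⟨κ, hκ⟩ := exists_kappa hp
  have hp0 : p ≠ 0 := fun h => hp (h ▸ dvd_zero 3)
  have hpC : (p : ℂ) ≠ 0 := Nat.cast_ne_zero.mpr hp0
  have huu : ∀ n, coeff n (u' * u') ∈ R := coeff_mul_mem hu' hu'
  have hpR2 : ((p : ℂ)⁻¹) ^ 2 ∈ R := R.pow_mem hpR 2
  have hpmem : (p : ℂ) ∈ R := natCast_mem R p
  have hF0' : F0 * F0 = ((p : ℂ)⁻¹ ^ 2) • ((1 + (9 : ℂ) • u') * (1 + (9 : ℂ) • u')) := by
    rw [← hF0]
    simp only [smul_eq_C_mul]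
    have : (C ((p : ℂ)⁻¹ ^ 2) : ℂ⟦X⟧) * (C (-(p : ℂ)) * F0 * (C (-(p : ℂ)) * F0)) =
        C ((p : ℂ)⁻¹ ^ 2 * (-(p : ℂ)) * (-(p : ℂ))) * (F0 * F0) := by
      simp only [map_mul]; ring
    rw [this]
    have : (p : ℂ)⁻¹ ^ 2 * (-(p : ℂ)) * (-(p : ℂ)) = 1 := by field_simp
    rw [this, map_one, one_mul]
  have key : ∀ n, coeff n ((3 : ℂ)⁻¹ • (F0 * F0 - (2 - (p : ℂ) ^ 2) • E4p)) =
      (p : ℂ)⁻¹ ^ 2 * ((3 : ℂ)⁻¹ * (coeff n (1 : ℂ⟦X⟧) -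
        (1 - 3 * κ) * (3 * κ + 1) * coeff n E4p) +
        3 * (2 * coeff n u' + 9 * coeff n (u' * u'))) := by
    intro n
    rw [coeff_smul, map_sub, coeff_smul, hF0', coeff_smul, coeff_sq, smul_eq_mul, smul_eq_mul,
      smul_eq_mul]
    have h2 : (2 : ℂ) - (p : ℂ) ^ 2 = (p : ℂ)⁻¹ ^ 2 * ((1 - 3 * κ) * (3 * κ + 1)) := by
      rw [← hκ]; field_simp; rw [hκ]; ring
    rw [h2]
    ring
  -- the bracket
  have hmain : ∀ n, ((3 : ℂ)⁻¹ * (coeff n (1 : ℂ⟦X⟧) -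
        (1 - 3 * κ) * (3 * κ + 1) * coeff n E4p) +
        3 * (2 * coeff n u' + 9 * coeff n (u' * u')) ∈ R) ∧
      (n < p → (3 : ℂ)⁻¹ * (coeff n (1 : ℂ⟦X⟧) -
        (1 - 3 * κ) * (3 * κ + 1) * coeff n E4p) +
        3 * (2 * coeff n u' + 9 * coeff n (u' * u')) ∈ threeMul R) := by
    intro n
    have h3u : 3 * (2 * coeff n u' + 9 * coeff n (u' * u')) ∈ threeMul R :=
      three_mul_mem (R.add_mem (R.mul_mem (ofNat_mem R 2) (hu' n))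
        (R.mul_mem (ofNat_mem R 9) (huu n)))
    rcases Nat.eq_zero_or_pos n with rfl | hn
    · have h0 : coeff 0 E4p = 1 := by rw [hE4p, if_pos (dvd_zero p), Nat.zero_div, hE0]
      have : (3 : ℂ)⁻¹ * (coeff 0 (1 : ℂ⟦X⟧) - (1 - 3 * (κ : ℂ)) * (3 * κ + 1) * coeff 0 E4p) =
          3 * ((κ ^ 2 : ℤ) : ℂ) := by
        rw [h0]; simp; ring
      rw [this]
      have hm : 3 * ((κ ^ 2 : ℤ) : ℂ) ∈ threeMul R := three_mul_mem (intCast_mem R _)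
      exact ⟨R.add_mem (mem_of_mem_threeMul hm) (mem_of_mem_threeMul h3u),
        fun _ => (threeMul R).add_mem hm h3u⟩
    · by_cases hd : p ∣ n
      · have hnp : 0 < n / p := Nat.div_pos (Nat.le_of_dvd hn hd) (Nat.pos_of_ne_zero hp0)
        obtain ⟨z, hz⟩ := hE (n / p) hnp
        have : (3 : ℂ)⁻¹ * (coeff n (1 : ℂ⟦X⟧) - (1 - 3 * (κ : ℂ)) * (3 * κ + 1) * coeff n E4p) =
            ((-80 * (1 - 3 * κ) * (3 * κ + 1) * z : ℤ) : ℂ) := by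
          rw [hE4p, if_pos hd, hz, coeff_one, if_neg hn.ne']
          push_cast
          ring
        rw [this]
        refine ⟨R.add_mem (intCast_mem R _) (mem_of_mem_threeMul h3u), fun hlt => ?_⟩
        exact absurd (Nat.le_of_dvd hn hd) (not_le.mpr hlt)
      · have : (3 : ℂ)⁻¹ * (coeff n (1 : ℂ⟦X⟧) - (1 - 3 * (κ : ℂ)) * (3 * κ + 1) * coeff n E4p) =
            0 := by
          rw [hE4p, if_neg hd, coeff_one, if_neg hn.ne']
          ring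
        rw [this, zero_add]
        exact ⟨mem_of_mem_threeMul h3u, fun _ => h3u⟩
  refine ⟨fun n => ?_, fun n hn => ?_, ?_⟩
  · rw [key]; exact R.mul_mem hpR2 (hmain n).1
  · rw [key]; exact mul_mem_threeMul hpR2 ((hmain n).2 hn)
  · rw [key]
    have hpp : coeff p E4p = 240 := by
      rw [hE4p, if_pos dvd_rfl, Nat.div_self (Nat.pos_of_ne_zero hp0), hE1]
    have : (3 : ℂ)⁻¹ * (coeff p (1 : ℂ⟦X⟧) - (1 - 3 * (κ : ℂ)) * (3 * κ + 1) * coeff p E4p) +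
        3 * (2 * coeff p u' + 9 * coeff p (u' * u')) =
        1 + 3 * (((-27 + 240 * κ ^ 2 : ℤ) : ℂ) + (2 * coeff p u' + 9 * coeff p (u' * u'))) := by
      rw [hpp, coeff_one, if_neg hp0]
      push_cast
      ring
    rw [this]
    intro hmem
    have hr : ((-27 + 240 * κ ^ 2 : ℤ) : ℂ) + (2 * coeff p u' + 9 * coeff p (u' * u')) ∈ R :=
      R.add_mem (intCast_mem R _)
        (R.add_mem (R.mul_mem (ofNat_mem R 2) (hu' p))
          (R.mul_mem (ofNat_mem R 9) (huu p)))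
    refine one_add_notMem h3 hr ?_
    have h2 := mul_mem_threeMul (R.pow_mem hpmem 2) hmem
    have h4 : (p : ℂ) ^ 2 * ((p : ℂ)⁻¹ ^ 2 * (1 + 3 * (((-27 + 240 * κ ^ 2 : ℤ) : ℂ) +
        (2 * coeff p u' + 9 * coeff p (u' * u'))))) =
        1 + 3 * (((-27 + 240 * κ ^ 2 : ℤ) : ℂ) + (2 * coeff p u' + 9 * coeff p (u' * u'))) := by
      field_simp
    rwa [h4] at h2

end Fermat.Agent.S16.ArithA3Series
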