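/-
S16, block [N], part (N0) (helper1): explicit coset representatives `1, (S T^j)⁻¹` (`j < p`) of
`Γ₀(p)` in `SL(2, ℤ)`, transported to Mathlib's quotient `𝒮ℒ ⧸ (Γ₀(p)).subgroupOf 𝒮ℒ`, and the
resulting product / sum formulas for Mathlib's `ModularForm.norm` / `ModularForm.trace`.
-/
import Mathlib

set_option autoImplicit false
set_option linter.unusedSectionVars false
set_option linter.style.haveILetI false

open UpperHalfPlane ModularForm Matrix.SpecialLinearGroup CongruenceSubgroup ModularGroup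
open scoped MatrixGroups ModularForm

noncomputable section

namespace Fermat.Agent.S16.NormCosets

/-- The matrix `S T^j = !![0, -1; 1, j]`. -/
def stMat (j : ℤ) : SL(2, ℤ) := ⟨!![0, -1; 1, j], by simp [Matrix.det_fin_two]⟩

theorem stMat_eq (j : ℤ) : stMat j = S * T ^ j := by
  ext a b
  rw [stMat, Matrix.SpecialLinearGroup.coe_mul, coe_T_zpow, S]
  fin_cases a <;> fin_cases b <;> simp [Matrix.mul_apply, Fin.sum_univ_two]

theorem stMat_eq_nat (j : ℕ) : stMat j = S * T ^ j := by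
  rw [stMat_eq, zpow_natCast]

@[simp] theorem stMat_zero_zero (j : ℤ) : (stMat j) 0 0 = 0 := rfl
@[simp] theorem stMat_zero_one (j : ℤ) : (stMat j) 0 1 = -1 := rfl
@[simp] theorem stMat_one_zero (j : ℤ) : (stMat j) 1 0 = 1 := rfl
@[simp] theorem stMat_one_one (j : ℤ) : (stMat j) 1 1 = j := rfl

/-- lower-left entry of `stMat j * g`. -/
theorem stMat_mul_one_zero (j : ℤ) (g : SL(2, ℤ)) :
    (stMat j * g) 1 0 = g 0 0 + j * g 1 0 := by
  rw [Matrix.SpecialLinearGroup.coe_mul]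
  simp [Matrix.mul_apply, Fin.sum_univ_two]

/-- lower-left entry of `stMat j * (stMat j')⁻¹`. -/
theorem stMat_mul_inv_one_zero (j j' : ℤ) :
    (stMat j * (stMat j')⁻¹) 1 0 = j' - j := by
  rw [Matrix.SpecialLinearGroup.coe_mul, SL2_inv_expl]
  simp [Matrix.mul_apply, Fin.sum_univ_two]
  ring

theorem stMat_inv_one_zero (j : ℤ) : ((stMat j)⁻¹) 1 0 = -1 := by
  rw [SL2_inv_expl]
  simp


/-! ### Coset representatives in `SL(2, ℤ)` -/

variable (p : ℕ)

/-- Representatives of `SL(2, ℤ) ⧸ Γ₀(p)`: `1` and `(S T^j)⁻¹`, `j < p`. -/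
def repZ : Option (Fin p) → SL(2, ℤ)
  | none => 1
  | some j => (stMat ((j : ℕ) : ℤ))⁻¹

@[simp] theorem repZ_none : repZ p none = 1 := rfl
@[simp] theorem repZ_some (j : Fin p) : repZ p (some j) = (stMat ((j : ℕ) : ℤ))⁻¹ := rfl

theorem mem_Gamma0_iff_dvd (g : SL(2, ℤ)) : g ∈ Gamma0 p ↔ (p : ℤ) ∣ g 1 0 := by
  rw [Gamma0_mem, ZMod.intCast_zmod_eq_zero_iff_dvd]

theorem repZ_rel_iff [hp : Fact p.Prime] (c c' : Option (Fin p)) :
    (repZ p c)⁻¹ * repZ p c' ∈ Gamma0 p ↔ c = c' := by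
  have hp1 : (1 : ℤ) < p := by exact_mod_cast hp.out.one_lt
  rw [mem_Gamma0_iff_dvd]
  rcases c with _ | j <;> rcases c' with _ | j'
  · simp
  · simp only [repZ_none, repZ_some, inv_one, one_mul, stMat_inv_one_zero, reduceCtorEq,
      iff_false]
    intro h
    have := Int.le_of_dvd (by norm_num) ((dvd_neg).mp h)
    omega
  · simp only [repZ_none, repZ_some, inv_inv, mul_one, stMat_one_zero, reduceCtorEq, iff_false]
    intro h
    have := Int.le_of_dvd (by norm_num) h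
    omega
  · simp only [repZ_some, inv_inv, stMat_mul_inv_one_zero, Option.some.injEq]
    constructor
    · intro h
      have h1 : ((j' : ℕ) : ℤ) % p = ((j : ℕ) : ℤ) % p :=
        Int.emod_eq_emod_iff_emod_sub_eq_zero.mpr (Int.emod_eq_zero_of_dvd h)
      have hj : ((j : ℕ) : ℤ) < p := by exact_mod_cast j.2
      have hj' : ((j' : ℕ) : ℤ) < p := by exact_mod_cast j'.2
      rw [Int.emod_eq_of_lt (by positivity) hj, Int.emod_eq_of_lt (by positivity) hj'] at h1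
      exact Fin.ext (by exact_mod_cast h1.symm)
    · rintro rfl
      simp

theorem exists_repZ [hp : Fact p.Prime] (g : SL(2, ℤ)) :
    ∃ c, (repZ p c)⁻¹ * g ∈ Gamma0 p := by
  haveI : NeZero p := ⟨hp.out.ne_zero⟩
  by_cases h : (p : ℤ) ∣ g 1 0
  · exact ⟨none, by rw [mem_Gamma0_iff_dvd]; simpa using h⟩
  · -- `j = -a/c mod p`
    have hc : ((g 1 0 : ℤ) : ZMod p) ≠ 0 := by
      rwa [Ne, ZMod.intCast_zmod_eq_zero_iff_dvd]
    set j : ZMod p := -((g 0 0 : ℤ) : ZMod p) * ((g 1 0 : ℤ) : ZMod p)⁻¹ with hj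
    refine ⟨some ⟨j.val, ZMod.val_lt j⟩, ?_⟩
    rw [mem_Gamma0_iff_dvd, repZ_some, inv_inv, stMat_mul_one_zero,
      ← ZMod.intCast_zmod_eq_zero_iff_dvd]
    push_cast
    rw [ZMod.natCast_zmod_val, hj]
    field_simp
    ring


/-! ### Transport to Mathlib's quotient `𝒮ℒ ⧸ Γ₀(p).subgroupOf 𝒮ℒ` -/

/-- The image of `Γ₀(p)` in `GL(2, ℝ)`. -/
abbrev GammaP : Subgroup (GL (Fin 2) ℝ) := (Gamma0 p).map (mapGL ℝ)

/-- Mathlib's index set for `ModularForm.norm 𝒮ℒ` / `ModularForm.trace 𝒮ℒ` at level `Γ₀(p)`. -/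
abbrev Q : Type := 𝒮ℒ ⧸ (GammaP p).subgroupOf 𝒮ℒ

/-- The representatives, as elements of `𝒮ℒ`. -/
def rep (c : Option (Fin p)) : 𝒮ℒ := ⟨mapGL ℝ (repZ p c), ⟨_, rfl⟩⟩

@[simp] theorem coe_rep (c : Option (Fin p)) : (rep p c : GL (Fin 2) ℝ) = mapGL ℝ (repZ p c) := rfl

/-- The enumeration of Mathlib's quotient. -/
def cosetMap (c : Option (Fin p)) : Q p := QuotientGroup.mk (rep p c)

theorem mapGL_mem_GammaP_iff (g : SL(2, ℤ)) : mapGL ℝ g ∈ GammaP p ↔ g ∈ Gamma0 p := by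
  constructor
  · rintro ⟨g', hg', h⟩
    rwa [← mapGL_injective h]
  · exact fun h => ⟨g, h, rfl⟩

theorem cosetMap_injective [hp : Fact p.Prime] : Function.Injective (cosetMap p) := by
  intro c c' h
  rw [cosetMap, cosetMap, QuotientGroup.eq, Subgroup.mem_subgroupOf] at h
  have h2 : ((rep p c)⁻¹ * rep p c' : 𝒮ℒ).1 = mapGL ℝ ((repZ p c)⁻¹ * repZ p c') := by
    simp [map_mul, map_inv]
  rw [h2, mapGL_mem_GammaP_iff] at h
  exact (repZ_rel_iff p c c').mp h

theorem cosetMap_surjective [hp : Fact p.Prime] : Function.Surjective (cosetMap p) := by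
  intro q
  induction q using QuotientGroup.induction_on with
  | H x =>
    obtain ⟨x, g, rfl⟩ := x
    obtain ⟨c, hc⟩ := exists_repZ p g
    refine ⟨c, ?_⟩
    rw [cosetMap, QuotientGroup.eq, Subgroup.mem_subgroupOf]
    have h2 : ((rep p c)⁻¹ * ⟨mapGL ℝ g, ⟨g, rfl⟩⟩ : 𝒮ℒ).1 = mapGL ℝ ((repZ p c)⁻¹ * g) := by
      simp [map_mul, map_inv]
    rw [h2, mapGL_mem_GammaP_iff]
    exact hc

/-- `Option (Fin p) ≃ 𝒮ℒ ⧸ Γ₀(p)`. -/
def cosetEquiv [hp : Fact p.Prime] : Option (Fin p) ≃ Q p :=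
  Equiv.ofBijective (cosetMap p) ⟨cosetMap_injective p, cosetMap_surjective p⟩

@[simp] theorem cosetEquiv_apply [hp : Fact p.Prime] (c : Option (Fin p)) :
    cosetEquiv p c = cosetMap p c := rfl

theorem natCard_Q [hp : Fact p.Prime] : Nat.card (Q p) = p + 1 := by
  rw [← Nat.card_congr (cosetEquiv p)]
  simp


/-! ### The translates indexed by the cosets -/

section forms

variable {p} {k : ℤ} {F : Type*} [FunLike F ℍ ℂ]

theorem quotientFunc_cosetMap_none [SlashInvariantFormClass F (GammaP p) k] (f : F) :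
    SlashInvariantForm.quotientFunc f (cosetMap p none) = ⇑f := by
  show (⇑f) ∣[k] ((rep p none : 𝒮ℒ) : GL (Fin 2) ℝ)⁻¹ = ⇑f
  simp

theorem quotientFunc_cosetMap_some [SlashInvariantFormClass F (GammaP p) k] (f : F)
    (j : Fin p) :
    SlashInvariantForm.quotientFunc f (cosetMap p (some j)) =
      (⇑f) ∣[k] (mapGL ℝ (stMat ((j : ℕ) : ℤ))) := by
  show (⇑f) ∣[k] ((rep p (some j) : 𝒮ℒ) : GL (Fin 2) ℝ)⁻¹ = _
  simp [map_inv]

instance instFiniteIndexGamma0 [hp : Fact p.Prime] : (Gamma0 p).FiniteIndex := by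
  haveI : NeZero p := ⟨hp.out.ne_zero⟩
  infer_instance

/-- **Norm to level one as an explicit product over `1, S T^j`.** -/
theorem coe_norm_eq [hp : Fact p.Prime] (f : F) [ModularFormClass F (GammaP p) k] :
    ⇑(ModularForm.norm 𝒮ℒ f) =
      ⇑f * ∏ j : Fin p, ((⇑f) ∣[k] (mapGL ℝ (stMat ((j : ℕ) : ℤ)))) := by
  rw [ModularForm.coe_norm]
  letI := Fintype.ofFinite (Q p)
  rw [← Equiv.prod_comp (cosetEquiv p), Fintype.prod_option]
  simp only [cosetEquiv_apply, quotientFunc_cosetMap_none, quotientFunc_cosetMap_some]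

/-- **Trace to level one as an explicit sum over `1, S T^j`.** -/
theorem coe_trace_eq [hp : Fact p.Prime] (f : F) [ModularFormClass F (GammaP p) k] :
    ⇑(ModularForm.trace 𝒮ℒ f) =
      ⇑f + ∑ j : Fin p, ((⇑f) ∣[k] (mapGL ℝ (stMat ((j : ℕ) : ℤ)))) := by
  rw [ModularForm.coe_trace]
  letI := Fintype.ofFinite (Q p)
  rw [← Equiv.sum_comp (cosetEquiv p), Fintype.sum_option]
  simp only [cosetEquiv_apply, quotientFunc_cosetMap_none, quotientFunc_cosetMap_some]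

/-- `coe_norm_eq` with `Finset.range p` and `S * T ^ j`. -/
theorem coe_norm_eq_range [hp : Fact p.Prime] (f : F) [ModularFormClass F (GammaP p) k] :
    ⇑(ModularForm.norm 𝒮ℒ f) =
      ⇑f * ∏ j ∈ Finset.range p, ((⇑f) ∣[k] (mapGL ℝ (S * T ^ j))) := by
  rw [coe_norm_eq, ← Fin.prod_univ_eq_prod_range
    (fun j : ℕ => (⇑f) ∣[k] (mapGL ℝ (S * T ^ j))) p]
  simp only [stMat_eq_nat]

/-- `coe_trace_eq` with `Finset.range p` and `S * T ^ j`. -/
theorem coe_trace_eq_range [hp : Fact p.Prime] (f : F) [ModularFormClass F (GammaP p) k] :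
    ⇑(ModularForm.trace 𝒮ℒ f) =
      ⇑f + ∑ j ∈ Finset.range p, ((⇑f) ∣[k] (mapGL ℝ (S * T ^ j))) := by
  rw [coe_trace_eq, ← Fin.sum_univ_eq_sum_range
    (fun j : ℕ => (⇑f) ∣[k] (mapGL ℝ (S * T ^ j))) p]
  simp only [stMat_eq_nat]

/-- The norm to level one, with its weight written as `k * (p + 1)`. -/
def normLevelOne [hp : Fact p.Prime] (f : F) [ModularFormClass F (GammaP p) k] :
    ModularForm 𝒮ℒ (k * ((p : ℤ) + 1)) :=
  ModularForm.mcast (by rw [natCard_Q]; push_cast; ring) (ModularForm.norm 𝒮ℒ f)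

theorem coe_normLevelOne [hp : Fact p.Prime] (f : F) [ModularFormClass F (GammaP p) k] :
    ⇑(normLevelOne f) = ⇑f * ∏ j : Fin p, ((⇑f) ∣[k] (mapGL ℝ (stMat ((j : ℕ) : ℤ)))) := by
  rw [← coe_norm_eq]
  rfl

end forms

end Fermat.Agent.S16.NormCosets
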