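import Mathlib
import Fermat.Agent.S16.NormCosets
import Fermat.Agent.S16.ArithA3Series
import Fermat.Agent.S24.QExpDelta
import Fermat.Prelude.Thm_UpperHalfPlane_qExpansion_coeff_nat_mul

/-!
# S16 / [A3], analytic half (helper3)

`FF` a weight-2 modular form on `Γ₀(p)`, `p ≠ 3` prime, with
`qExpansion 1 FF = 1 + 9 u` and `(-p) • qExpansion p (FF ∣[2] S) = 1 + 9 u'`
(`u, u'` with coefficients in a subring `R ⊂ ℂ` in which `3` is not invertible, `p⁻¹ ∈ R`).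

The weight-4 form `Y = (FF² - (2 - p²) E₄) / 3` on `Γ₀(p)` (`Yform`) then has

* `qExpansion 1 Y` with coefficients in `R`, `q¹`-coefficient not in `3 R`;
* `qExpansion p (Y ∣[4] S)` with coefficients in `R`, those of index `< p` in `3 R`, the
  `x^p`-coefficient not in `3 R`

(`a3_expansions`).  With the Norm–Sturm lemma (`0 + p ≤ 4 (p + 1) / 12` is false) this is absurd.

Tools: `restr` (level one → `Γ₀(p)`), `analyticAt_slash_S` (the `S`-translate of a form on `Γ₀(p)`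
has an analytic cusp function at width `p`), `coeff_qExpansion_levelOne` (width-`p` expansion of a
level-one form), `qExpansion_Yform`, `qExpansion_Yform_slash`.
-/

set_option autoImplicit false

namespace Fermat.Agent.S16.ArithA3Forms

open UpperHalfPlane ModularForm CongruenceSubgroup ModularGroup Matrix.SpecialLinearGroup
open PowerSeries EisensteinSeries
open scoped MatrixGroups ModularForm Pointwise
open Fermat.Agent.S16.NormCosets (GammaP)
open Fermat.Agent.S16.ArithA3Series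

noncomputable section

variable (p : ℕ)

/-! ### Level restriction -/

theorem gammaP_le : GammaP p ≤ 𝒮ℒ := by
  rintro _ ⟨g, -, rfl⟩
  exact ⟨g, rfl⟩

/-- restriction of a level-one form to `Γ₀(p)`. -/
def restr {k : ℤ} (G : ModularForm 𝒮ℒ k) : ModularForm (GammaP p) k where
  toFun := G
  slash_action_eq' A hA := G.slash_action_eq' A (gammaP_le p hA)
  holo' := G.holo'
  bdd_at_cusps' hc := G.bdd_at_cusps' (hc.mono (gammaP_le p))

@[simp] theorem coe_restr {k : ℤ} (G : ModularForm 𝒮ℒ k) : ⇑(restr p G) = ⇑G := rfl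

/-! ### Periods -/

theorem one_mem_strictPeriods : (1 : ℝ) ∈ (GammaP p).strictPeriods := by
  rw [strictPeriods_Gamma0]
  exact AddSubgroup.mem_zmultiples 1

theorem natCast_mem_strictPeriods_SL :
    (p : ℝ) ∈ (𝒮ℒ : Subgroup (GL (Fin 2) ℝ)).strictPeriods := by
  rw [Subgroup.strictPeriods_SL2Z]
  exact AddSubgroup.mem_zmultiples_iff.mpr ⟨p, by simp⟩

/-- `[[1,0],[-p,1]] ∈ Γ₀(p)`. -/
def lowerP : SL(2, ℤ) := ⟨!![1, 0; -(p : ℤ), 1], by simp [Matrix.det_fin_two]⟩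

theorem lowerP_mem : lowerP p ∈ Gamma0 p := by
  rw [Gamma0_mem]
  simp [lowerP]

theorem val_mapGL_eq (γ : SL(2, ℤ)) :
    ((mapGL ℝ γ : GL (Fin 2) ℝ) : Matrix (Fin 2) (Fin 2) ℝ) =
      !![((γ 0 0 : ℤ) : ℝ), ((γ 0 1 : ℤ) : ℝ); ((γ 1 0 : ℤ) : ℝ), ((γ 1 1 : ℤ) : ℝ)] := by
  rw [mapGL_coe_matrix]
  ext i j
  fin_cases i <;> fin_cases j <;> simp

theorem conj_upperRight :
    mapGL ℝ S * Matrix.GeneralLinearGroup.upperRightHom (p : ℝ) * (mapGL ℝ S)⁻¹ =
      mapGL ℝ (lowerP p) := by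
  rw [mul_inv_eq_iff_eq_mul]
  apply Units.ext
  rw [Matrix.GeneralLinearGroup.coe_mul, Matrix.GeneralLinearGroup.coe_mul, val_mapGL_eq,
    val_mapGL_eq]
  ext i j
  fin_cases i <;> fin_cases j <;>
    simp [lowerP, S, Matrix.GeneralLinearGroup.upperRightHom, Matrix.mul_apply, Fin.sum_univ_two]

/-- `p` is a strict period of `S⁻¹ Γ₀(p) S`. -/
theorem natCast_mem_strictPeriods_conj :
    (p : ℝ) ∈ (ConjAct.toConjAct (mapGL ℝ S)⁻¹ • GammaP p).strictPeriods := by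
  rw [Subgroup.mem_strictPeriods_iff, Subgroup.mem_pointwise_smul_iff_inv_smul_mem, ← map_inv,
    inv_inv, ConjAct.toConjAct_smul, conj_upperRight]
  exact ⟨lowerP p, lowerP_mem p, rfl⟩

/-- the translate by `S` of a form on `Γ₀(p)` has an analytic cusp function at width `p`. -/
theorem analyticAt_slash_S [NeZero p] {k : ℤ} (G : ModularForm (GammaP p) k) :
    AnalyticAt ℂ (cuspFunction (p : ℝ) (⇑G ∣[k] S)) 0 := by
  have hp : (0 : ℝ) < p := by exact_mod_cast Nat.pos_of_ne_zero (NeZero.ne p)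
  exact ModularFormClass.analyticAt_cuspFunction_zero (ModularForm.translate G (mapGL ℝ S)) hp
    (natCast_mem_strictPeriods_conj p)

/-- the width-`p` expansion of a level-one form is its `q`-expansion in `x^p`. -/
theorem coeff_qExpansion_levelOne [NeZero p] {k : ℤ} (G : ModularForm 𝒮ℒ k) (n : ℕ) :
    coeff n (qExpansion (p : ℝ) ⇑G) = if p ∣ n then coeff (n / p) (qExpansion 1 ⇑G) else 0 := by
  have h1 : (1 : ℝ) ∈ (𝒮ℒ : Subgroup (GL (Fin 2) ℝ)).strictPeriods := by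
    rw [Subgroup.strictPeriods_SL2Z]
    exact AddSubgroup.mem_zmultiples 1
  have := UpperHalfPlane.qExpansion_coeff_nat_mul one_pos
    (SlashInvariantFormClass.periodic_comp_ofComplex G h1) (ModularFormClass.holo G)
    (ModularFormClass.bdd_at_infty G) (Nat.pos_of_ne_zero (NeZero.ne p)) n
  rw [mul_one] at this
  exact this

/-! ### The form `Y` and its two expansions -/

/-- the weight `4` form `Y = (FF² - (2 - p²) E₄) / 3` on `Γ₀(p)`. -/
def Yform (FF : ModularForm (GammaP p) 2) : ModularForm (GammaP p) 4 :=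
  (3 : ℂ)⁻¹ • (ModularForm.mcast (by norm_num) (FF.mul FF) - (2 - (p : ℂ) ^ 2) • restr p E₄)

theorem coe_Yform (FF : ModularForm (GammaP p) 2) :
    ⇑(Yform p FF) = (3 : ℂ)⁻¹ • (⇑FF * ⇑FF - (2 - (p : ℂ) ^ 2) • ⇑E₄) := rfl

/-- function-level `q`-expansion of `(f² - c e)/3`. -/
theorem qExpansion_combo {h : ℝ} {f e : ℍ → ℂ} (c : ℂ)
    (hf : AnalyticAt ℂ (cuspFunction h f) 0) (he : AnalyticAt ℂ (cuspFunction h e) 0) :
    qExpansion h ((3 : ℂ)⁻¹ • (f * f - c • e)) =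
      (3 : ℂ)⁻¹ • (qExpansion h f * qExpansion h f - c • qExpansion h e) := by
  have hff : AnalyticAt ℂ (cuspFunction h (f * f)) 0 := by
    rw [cuspFunction_mul hf.continuousAt hf.continuousAt]; exact hf.mul hf
  have hce : AnalyticAt ℂ (cuspFunction h (c • e)) 0 := by
    rw [cuspFunction_smul he.continuousAt]; exact he.const_smul
  have hd : AnalyticAt ℂ (cuspFunction h (f * f - c • e)) 0 := by
    rw [cuspFunction_sub hff.continuousAt hce.continuousAt]; exact hff.sub hce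
  rw [qExpansion_smul hd, qExpansion_sub hff hce, qExpansion_mul hf hf, qExpansion_smul he]

theorem qExpansion_Yform (FF : ModularForm (GammaP p) 2) :
    qExpansion 1 (Yform p FF) =
      (3 : ℂ)⁻¹ • (qExpansion 1 FF * qExpansion 1 FF - (2 - (p : ℂ) ^ 2) • qExpansion 1 E₄) := by
  rw [coe_Yform]
  exact qExpansion_combo _
    (ModularFormClass.analyticAt_cuspFunction_zero FF one_pos (one_mem_strictPeriods p))
    (ModularFormClass.analyticAt_cuspFunction_zero (restr p E₄) one_pos (one_mem_strictPeriods p))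

theorem Yform_slash_S (FF : ModularForm (GammaP p) 2) :
    ⇑(Yform p FF) ∣[(4 : ℤ)] S =
      (3 : ℂ)⁻¹ • ((⇑FF ∣[(2 : ℤ)] S) * (⇑FF ∣[(2 : ℤ)] S) - (2 - (p : ℂ) ^ 2) • ⇑E₄) := by
  rw [coe_Yform, SL_smul_slash, sub_eq_add_neg, SlashAction.add_slash, SlashAction.neg_slash,
    SL_smul_slash, ← sub_eq_add_neg]
  have h1 : (⇑FF * ⇑FF) ∣[(4 : ℤ)] S = (⇑FF ∣[(2 : ℤ)] S) * (⇑FF ∣[(2 : ℤ)] S) :=
    mul_slash_SL2 2 2 S ⇑FF ⇑FF
  have h2 : ⇑E₄ ∣[(4 : ℤ)] S = ⇑E₄ :=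
    SlashInvariantForm.slash_action_eqn E₄ (mapGL ℝ S) ⟨S, rfl⟩
  rw [h1, h2]

theorem qExpansion_Yform_slash [NeZero p] (FF : ModularForm (GammaP p) 2) :
    qExpansion (p : ℝ) (⇑(Yform p FF) ∣[(4 : ℤ)] S) =
      (3 : ℂ)⁻¹ • (qExpansion (p : ℝ) (⇑FF ∣[(2 : ℤ)] S) * qExpansion (p : ℝ) (⇑FF ∣[(2 : ℤ)] S) -
        (2 - (p : ℂ) ^ 2) • qExpansion (p : ℝ) ⇑E₄) := by
  have hp : (0 : ℝ) < p := by exact_mod_cast Nat.pos_of_ne_zero (NeZero.ne p)
  rw [Yform_slash_S]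
  exact qExpansion_combo _ (analyticAt_slash_S p FF)
    (ModularFormClass.analyticAt_cuspFunction_zero E₄ hp (natCast_mem_strictPeriods_SL p))

/-! ### `E₄` -/

theorem coeff_zero_E4 : coeff 0 (qExpansion 1 E₄) = 1 := by
  rw [Fermat.Agent.S24.QExp.qExpansion_E₄, coeff_map, ModularCurve.eisenstein4, coeff_mk]
  simp

theorem coeff_one_E4 : coeff 1 (qExpansion 1 E₄) = 240 := by
  rw [Fermat.Agent.S24.QExp.qExpansion_E₄, coeff_map, ModularCurve.eisenstein4, coeff_mk]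
  simp

theorem coeff_E4 (n : ℕ) (hn : 0 < n) : ∃ z : ℤ, coeff n (qExpansion 1 E₄) = 240 * z := by
  refine ⟨∑ d ∈ n.divisors, (d : ℤ) ^ 3, ?_⟩
  rw [Fermat.Agent.S24.QExp.qExpansion_E₄, coeff_map, ModularCurve.eisenstein4, coeff_mk,
    if_neg hn.ne', eq_intCast]
  push_cast
  rfl

/-! ### The statement -/

/-- **(A3), expansions.**  See the module docstring. -/
theorem a3_expansions [NeZero p] (hp3 : ¬ 3 ∣ p) {R : Subring ℂ} (h3 : (3 : ℂ)⁻¹ ∉ R)
    (hpR : (p : ℂ)⁻¹ ∈ R) (FF : ModularForm (GammaP p) 2) {u u' : ℂ⟦X⟧}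
    (hu : ∀ n, coeff n u ∈ R) (hu' : ∀ n, coeff n u' ∈ R)
    (hinf : qExpansion 1 FF = 1 + (9 : ℂ) • u)
    (hzero : (-(p : ℂ)) • qExpansion (p : ℝ) (⇑FF ∣[(2 : ℤ)] S) = 1 + (9 : ℂ) • u') :
    ((∀ n, coeff n (qExpansion 1 (Yform p FF)) ∈ R) ∧
      coeff 1 (qExpansion 1 (Yform p FF)) ∉ threeMul R) ∧
    ((∀ n, coeff n (qExpansion (p : ℝ) (⇑(Yform p FF) ∣[(4 : ℤ)] S)) ∈ R) ∧
      (∀ n < p, coeff n (qExpansion (p : ℝ) (⇑(Yform p FF) ∣[(4 : ℤ)] S)) ∈ threeMul R) ∧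
      coeff p (qExpansion (p : ℝ) (⇑(Yform p FF) ∣[(4 : ℤ)] S)) ∉ threeMul R) := by
  rw [qExpansion_Yform, qExpansion_Yform_slash]
  exact ⟨a3_infty h3 hp3 hu hinf coeff_zero_E4 coeff_one_E4 coeff_E4,
    a3_zero h3 hp3 hpR hu' hzero coeff_zero_E4 coeff_one_E4 coeff_E4
      (coeff_qExpansion_levelOne p E₄)⟩

end

end Fermat.Agent.S16.ArithA3Forms
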