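import Mathlib
import Fermat.Agent.S16.ArithA3Forms
import Fermat.Agent.S16.EisCong
import Fermat.Agent.S16.LInt
import Fermat.Agent.S16.ValRed
import Fermat.Agent.S16.NormSturmQ

/-!
# S16 / [A3] (helper3): no Eisenstein congruence modulo `9` at a prime level `p ≠ 3`

`false_of_eisCongData` : for a prime `p ≠ 3` there is no weight-2 form `FF` on `Γ₀(p)` with
`expInf FF = 1 + 9 u` and `(-p) • expZero p 2 FF = 1 + 9 u'`, `u, u'` having `3`-integral
coefficients.  `not_eisCong : ¬ EisCong p (ZLoc 3) 3 2` (hypothesis `hA3` of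
`UpperGlue.upperB_of_inputs`, valid for every prime `p ≠ 3`).

Proof: the weight-4 form `Y = (FF² - (2 - p²) E₄) / 3` (`ArithA3Forms.Yform`) is `3`-integral at
both cusps, its reduction at `∞` has order `≤ 1` and its reduction at `0` has order exactly `p`
(`ArithA3Forms.a3_expansions`); the Norm–Sturm lemma (`NormSturmQ.norm_sturm`) gives
`p ≤ 4 (p + 1) / 12`, absurd.
-/

set_option autoImplicit false

namespace Fermat.Agent.S16.ArithA3

open UpperHalfPlane ModularForm CongruenceSubgroup ModularGroup Matrix.SpecialLinearGroup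
open PowerSeries
open scoped MatrixGroups ModularForm
open Fermat.Agent.S16.EisCong Fermat.Agent.S16.ArithA3Forms Fermat.Agent.S16.ArithA3Series
open Fermat.Agent.S16.LInt Fermat.Agent.S16.ValRed

theorem three_inv_notMem : (3 : ℂ)⁻¹ ∉ ZLoc 3 := by
  have : Fact (Nat.Prime 3) := ⟨Nat.prime_three⟩
  intro h
  rw [show (3 : ℂ)⁻¹ = (((3 : ℚ)⁻¹ : ℚ) : ℂ) by push_cast; rfl, ratCast_mem_ZLoc_iff] at h
  apply h
  norm_num

theorem isLInt_of_mem {x : ℂ} (hx : x ∈ ZLoc 3) : IsLInt 3 x := by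
  have : Fact (Nat.Prime 3) := ⟨Nat.prime_three⟩
  exact (mem_ZLoc_iff 3).mp hx

theorem mem_threeMul_of_isLSmall {x : ℂ} (hx : IsLSmall 3 x) : x ∈ threeMul (ZLoc 3) := by
  have : Fact (Nat.Prime 3) := ⟨Nat.prime_three⟩
  obtain ⟨y, hy, rfl⟩ := hx
  exact ⟨y, (mem_ZLoc_iff 3).mpr hy, by norm_num⟩

theorem isLSmall_of_mem_threeMul {x : ℂ} (hx : x ∈ threeMul (ZLoc 3)) : IsLSmall 3 x := by
  obtain ⟨y, hy, rfl⟩ := hx
  exact ⟨y, isLInt_of_mem hy, by norm_num⟩

/-- **(A3).**  For a prime `p ≠ 3` there is no weight-2 form on `Γ₀(p)` which is `≡ 1` at `∞` and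
`≡ -1/p` at `0` modulo `9` (with `3`-integral error terms). -/
theorem false_of_eisCongData {p : ℕ} [hp : Fact p.Prime] (hp3 : p ≠ 3) (R : Subring ℂ)
    (hR : ∀ x ∈ R, IsLInt 3 x) (D : EisCongData p R 3 2) : False := by
  have : Fact (Nat.Prime 3) := ⟨Nat.prime_three⟩
  have : NeZero p := ⟨hp.out.ne_zero⟩
  have hp3' : ¬ 3 ∣ p := fun h =>
    hp3 ((Nat.prime_dvd_prime_iff_eq Nat.prime_three hp.out).mp h).symm
  have hu : ∀ n, coeff n D.u ∈ ZLoc 3 := fun n => (mem_ZLoc_iff 3).mpr (hR _ (D.hu n))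
  have hu' : ∀ n, coeff n D.u' ∈ ZLoc 3 := fun n => (mem_ZLoc_iff 3).mpr (hR _ (D.hu' n))
  have hinf : qExpansion 1 D.FF = 1 + (9 : ℂ) • D.u := by
    have := D.expInf_eq
    rw [expInf_def] at this
    rw [this]; norm_num
  have hzero : (-(p : ℂ)) • qExpansion (p : ℝ) (⇑D.FF ∣[(2 : ℤ)] S) = 1 + (9 : ℂ) • D.u' := by
    have := D.expZero_eq
    rw [expZero_def'] at this
    rw [this]; norm_num
  obtain ⟨⟨hA, hA1⟩, hB, hBs, hBp⟩ := a3_expansions p hp3' three_inv_notMem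
    (inv_natCast_mem_ZLoc 3 hp3') D.FF hu hu' hinf hzero
  obtain ⟨a, -, hLA⟩ := exists_leadAtRat (ℓ := 3) (P := expInf (Yform p D.FF))
    (fun n => isLInt_of_mem (hA n)) (n := 1) (fun h => hA1 (mem_threeMul_of_isLSmall h))
  have hLB : LeadAtRat 3 (expZero p 4 (Yform p D.FF)) p :=
    ⟨fun n => isLInt_of_mem (hB n), fun n hn => isLSmall_of_mem_threeMul (hBs n hn),
      fun h => hBp (mem_threeMul_of_isLSmall h)⟩
  have := NormSturmQ.norm_sturm (p := p) Nat.prime_three (k := 4) (w := 4) rfl (by decide)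
    (Yform p D.FF) hLA hLB
  have hp1 : 1 ≤ p := hp.out.one_le
  omega

/-- **(A3)** in the shape of `UpperGlue.upperB_of_inputs` (for every prime `p ≠ 3`). -/
theorem not_eisCong {p : ℕ} [Fact p.Prime] (hp3 : p ≠ 3) : ¬ EisCong p (ZLoc 3) 3 2 := by
  rintro ⟨D⟩
  exact false_of_eisCongData hp3 (ZLoc 3) (fun _ hx => isLInt_of_mem hx) D

/-- **(A3)**, literally hypothesis `hA3` of `UpperGlue.upperB_of_inputs`. -/
theorem not_eisCong_of_mod {p : ℕ} [Fact p.Prime] (hp : p % 3 = 2) :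
    ¬ EisCong p (ZLoc 3) 3 2 :=
  not_eisCong (by rintro rfl; omega)

end Fermat.Agent.S16.ArithA3
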