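/-
S16 block [A5] (helper8): the application (A5) of the Norm–Sturm lemma.

`p` prime, `ℓ ≥ 5` prime (`ℓ = p` allowed).  There is no weight-2 form `FF` on `Γ₀(p)` with
`expInf FF ≡ 1` and `(-p)·expZero FF ≡ 1` modulo `ℓ` (coefficients in `ℤ_(ℓ)`):
`Φ = p·FF·E₄ + E₆` (weight 6) has `expInf Φ ≡ p E₄ + E₆ ≢ 0` of order `≤ 2` and
`expZero Φ ≡ (E₆ - E₄)(x^p) ≢ 0` of order `≥ p`, contradicting `ord + ord ≤ 6(p+1)/12`.
-/
import Fermat.Agent.S16.ArithA5Core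
import Fermat.Agent.S16.EisCong
import Fermat.Agent.S16.ValRed
import Fermat.Agent.S16.TwoExp
import Fermat.Agent.S16.NormSturmQ
import Fermat.Agent.S16.LInt

set_option autoImplicit false

namespace Fermat.Agent.S16.ArithA5

open PowerSeries ModularForm EisensteinSeries UpperHalfPlane MatrixGroups CongruenceSubgroup
open Fermat.Agent.S16.EisCong Fermat.Agent.S16.ArithA5Core Fermat.Agent.S16.ValRed

/-! ### The carrier: `ℤ_(ℓ) ⊂ ℂ` as a subring, `ℓ ℤ_(ℓ)` as an additive subgroup -/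

theorem isLInt_add {ℓ : ℕ} (hℓ : ℓ.Prime) {x y : ℂ} (hx : IsLInt ℓ x) (hy : IsLInt ℓ y) :
    IsLInt ℓ (x + y) := by
  obtain ⟨r, hr, rfl⟩ := hx
  obtain ⟨s, hs, rfl⟩ := hy
  refine ⟨r + s, fun h => ?_, by push_cast; rfl⟩
  rcases (Nat.Prime.dvd_mul hℓ).mp (h.trans (Rat.add_den_dvd r s)) with h1 | h1
  · exact hr h1
  · exact hs h1

theorem isLInt_mul {ℓ : ℕ} (hℓ : ℓ.Prime) {x y : ℂ} (hx : IsLInt ℓ x) (hy : IsLInt ℓ y) :
    IsLInt ℓ (x * y) := by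
  obtain ⟨r, hr, rfl⟩ := hx
  obtain ⟨s, hs, rfl⟩ := hy
  refine ⟨r * s, fun h => ?_, by push_cast; rfl⟩
  rcases (Nat.Prime.dvd_mul hℓ).mp (h.trans (Rat.mul_den_dvd r s)) with h1 | h1
  · exact hr h1
  · exact hs h1

theorem isLInt_neg {ℓ : ℕ} {x : ℂ} (hx : IsLInt ℓ x) : IsLInt ℓ (-x) := by
  obtain ⟨r, hr, rfl⟩ := hx
  exact ⟨-r, by rwa [Rat.den_neg_eq_den], by push_cast; rfl⟩

/-- `ℤ_(ℓ)` inside `ℂ`. -/
def lIntSubring (ℓ : ℕ) (hℓ : ℓ.Prime) : Subring ℂ where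
  carrier := {x | IsLInt ℓ x}
  mul_mem' := fun hx hy => isLInt_mul hℓ hx hy
  one_mem' := by simpa using isLInt_intCast hℓ 1
  add_mem' := fun hx hy => isLInt_add hℓ hx hy
  zero_mem' := by simpa using isLInt_intCast hℓ 0
  neg_mem' := fun hx => isLInt_neg hx

theorem mem_lIntSubring {ℓ : ℕ} (hℓ : ℓ.Prime) {x : ℂ} :
    x ∈ lIntSubring ℓ hℓ ↔ IsLInt ℓ x := Iff.rfl

/-- `ℓ ℤ_(ℓ)` inside `ℂ`. -/
def lSmallAddSubgroup (ℓ : ℕ) (hℓ : ℓ.Prime) : AddSubgroup ℂ where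
  carrier := {x | IsLSmall ℓ x}
  add_mem' := by
    rintro _ _ ⟨y, hy, rfl⟩ ⟨z, hz, rfl⟩
    exact ⟨y + z, isLInt_add hℓ hy hz, by ring⟩
  zero_mem' := ⟨0, by simpa using isLInt_intCast hℓ 0, by ring⟩
  neg_mem' := by
    rintro _ ⟨y, hy, rfl⟩
    exact ⟨-y, isLInt_neg hy, by ring⟩

theorem mem_lSmallAddSubgroup {ℓ : ℕ} (hℓ : ℓ.Prime) {x : ℂ} :
    x ∈ lSmallAddSubgroup ℓ hℓ ↔ IsLSmall ℓ x := Iff.rfl

theorem lInt_mul_lSmall {ℓ : ℕ} (hℓ : ℓ.Prime) :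
    ∀ v ∈ lIntSubring ℓ hℓ, ∀ x ∈ lSmallAddSubgroup ℓ hℓ, v * x ∈ lSmallAddSubgroup ℓ hℓ := by
  rintro v hv _ ⟨y, hy, rfl⟩
  exact ⟨v * y, isLInt_mul hℓ hv hy, by ring⟩

theorem natCast_self_mem_lSmall {ℓ : ℕ} (hℓ : ℓ.Prime) :
    (ℓ : ℂ) ∈ lSmallAddSubgroup ℓ hℓ :=
  ⟨1, by simpa using isLInt_intCast hℓ 1, by ring⟩

theorem lSmall_le_lInt {ℓ : ℕ} (hℓ : ℓ.Prime) :
    ∀ x ∈ lSmallAddSubgroup ℓ hℓ, x ∈ lIntSubring ℓ hℓ := by
  rintro _ ⟨y, hy, rfl⟩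
  exact isLInt_mul hℓ (by simpa using isLInt_intCast hℓ (ℓ : ℤ)) hy

/-- `24 ∉ ℓ ℤ_(ℓ)` for a prime `ℓ ≥ 5`. -/
theorem twentyFour_notMem_lSmall {ℓ : ℕ} (hℓ : ℓ.Prime) (h5 : 5 ≤ ℓ) :
    (24 : ℂ) ∉ lSmallAddSubgroup ℓ hℓ := by
  rintro ⟨_, ⟨r, hr, rfl⟩, h⟩
  have h1 : (24 : ℚ) = (ℓ : ℚ) * r := by exact_mod_cast h
  have h2 : (24 : ℤ) * (r.den : ℤ) = (ℓ : ℤ) * r.num := by
    have h3 : (24 : ℚ) * (r.den : ℚ) = (ℓ : ℚ) * (r.num : ℚ) := by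
      rw [h1, mul_assoc, Rat.mul_den_eq_num]
    exact_mod_cast h3
  have h4 : (ℓ : ℤ) ∣ 24 * (r.den : ℤ) := ⟨r.num, h2⟩
  have hcop : IsCoprime (ℓ : ℤ) (24 : ℤ) := by
    have : Nat.Coprime ℓ 24 := by
      rw [Nat.Prime.coprime_iff_not_dvd hℓ]
      intro hd
      have hle : ℓ ≤ 24 := Nat.le_of_dvd (by norm_num) hd
      interval_cases ℓ <;> revert hd <;> revert hℓ <;> decide
    exact_mod_cast Nat.isCoprime_iff_coprime.mpr this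
  have h5' : (ℓ : ℤ) ∣ (r.den : ℤ) := hcop.dvd_of_dvd_mul_left h4
  exact hr (Int.natCast_dvd_natCast.mp h5')

/-! ### (A5), hypothesis-driven on the two expansions of `Φ` and on Norm–Sturm -/

/-- **(A5), hypothesis-driven form.**  `ℓ ≥ 5` prime, `p ≥ 2`.  From `EisCongData p V ℓ 1` (`V` any
subring of `ℂ` consisting of `ℓ`-integral rationals), a function `Φ` whose two expansions are
those of `p·FF·E₄ + E₆`, and the Norm–Sturm inequality for `Φ` in weight 6, derive `False`. -/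
theorem false_of_data {p ℓ : ℕ} (hp : 2 ≤ p) (hℓ : ℓ.Prime) (h5 : 5 ≤ ℓ)
    (V : Subring ℂ) (hV : ∀ x ∈ V, IsLInt ℓ x)
    (D : EisCongData p V ℓ 1) (Φ : ℍ → ℂ)
    (hΦinf : expInf Φ
      = (p : ℂ⟦X⟧) * (expInf D.FF * qExpansion 1 E₄) + qExpansion 1 E₆)
    (hΦzero : expZero p 6 Φ
      = (p : ℂ⟦X⟧) * (expZero p 2 D.FF * expand p (by omega) (qExpansion 1 E₄))
        + expand p (by omega) (qExpansion 1 E₆))
    (hNS : ∀ a b : ℕ, LeadAtRat ℓ (expInf Φ) a → LeadAtRat ℓ (expZero p 6 Φ) b →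
      a + b ≤ 6 * (p + 1) / 12) : False := by
  have hp0 : p ≠ 0 := by omega
  set W : Subring ℂ := lIntSubring ℓ hℓ with hW
  set J : AddSubgroup ℂ := lSmallAddSubgroup ℓ hℓ with hJ
  have hVJ := lInt_mul_lSmall hℓ
  have hJV := lSmall_le_lInt hℓ
  have hℓJ := natCast_self_mem_lSmall hℓ
  have h24 := twentyFour_notMem_lSmall hℓ h5
  -- the two normalised expansions of `FF`
  set FI : ℂ⟦X⟧ := expInf D.FF with hFI
  set FZ : ℂ⟦X⟧ := (-(p : ℂ)) • expZero p 2 D.FF with hFZ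
  have hFIJ : ∀ n, coeff n (FI - 1) ∈ J := by
    intro n
    rw [hFI, D.expInf_eq, add_sub_cancel_left, pow_one, coeff_smul, smul_eq_mul, mul_comm]
    exact hVJ _ (hV _ (D.hu n)) _ hℓJ
  have hFZJ : ∀ n, coeff n (FZ - 1) ∈ J := by
    intro n
    rw [hFZ, D.expZero_eq, add_sub_cancel_left, pow_one, coeff_smul, smul_eq_mul, mul_comm]
    exact hVJ _ (hV _ (D.hu' n)) _ hℓJ
  have hB : expZero p 6 Φ = -(FZ * expand p hp0 (qExpansion 1 E₄))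
      + expand p hp0 (qExpansion 1 E₆) := by
    rw [hΦzero, hFZ]
    congr 1
    simp only [smul_eq_C_mul, map_neg, map_natCast]
    ring
  have hD4 : ∀ n, coeff n (expand p hp0 (qExpansion 1 E₄)) ∈ W :=
    coeff_expanded_mem W (E₄_coeff_mem W) (fun m => coeff_expand_mul p hp0 _ m)
      (fun i hi => coeff_expand_of_not_dvd p hp0 _ hi)
  have hD6 : ∀ n, coeff n (expand p hp0 (qExpansion 1 E₆)) ∈ W :=
    coeff_expanded_mem W (E₆_coeff_mem W) (fun m => coeff_expand_mul p hp0 _ m)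
      (fun i hi => coeff_expand_of_not_dvd p hp0 _ hi)
  obtain ⟨a, -, ha, ha'⟩ := exists_order_A W J (p := p) (E6 := qExpansion 1 E₆) hVJ h24
    (E₄_coeff_mem W) hFIJ E₄_coeff_zero E₄_coeff_one E₄_coeff_two
    E₆_coeff_zero E₆_coeff_one E₆_coeff_two
  obtain ⟨b, hpb, hb, hb'⟩ := exists_order_B W J (p := p) hVJ h24 (E₄_coeff_mem W) hFZJ
    E₄_coeff_zero E₄_coeff_one E₄_coeff_two E₆_coeff_zero E₆_coeff_one E₆_coeff_two
    (fun m => coeff_expand_mul p hp0 _ m) (fun i hi => coeff_expand_of_not_dvd p hp0 _ hi)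
    (fun m => coeff_expand_mul p hp0 _ m) (fun i hi => coeff_expand_of_not_dvd p hp0 _ hi)
  have hA : LeadAtRat ℓ (expInf Φ) a := by
    rw [hΦinf]
    exact ⟨fun n => coeff_A_mem_subring W J hJV (E₄_coeff_mem W) (E₆_coeff_mem W) hFIJ n, ha, ha'⟩
  have hBl : LeadAtRat ℓ (expZero p 6 Φ) b := by
    rw [hB]
    exact ⟨fun n => coeff_B_mem_subring W J hJV hD4 hD6 hFZJ n, hb, hb'⟩
  have := hNS a b hA hBl
  omega

/-! ### (A5): the final statement -/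

open Fermat.Agent.S16.TwoExp

/-- The weight-6 form `Φ = p·FF·E₄ + E₆` on `Γ₀(p)`. -/
noncomputable def Phi (p : ℕ) (FF : ModularForm (GammaP p) 2) : ModularForm (GammaP p) 6 :=
  (p : ℂ) • ModularForm.mcast (by norm_num : (2 : ℤ) + 4 = 6) (FF.mul (restrict p E₄))
    + restrict p E₆

theorem coe_Phi (p : ℕ) (FF : ModularForm (GammaP p) 2) :
    ⇑(Phi p FF) = (p : ℂ) • (⇑FF * ⇑E₄) + ⇑E₆ := rfl

theorem twoNice_mul_E₄ {p : ℕ} (hp0 : p ≠ 0) (FF : ModularForm (GammaP p) 2) :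
    TwoNice p 6 (⇑FF * ⇑E₄) :=
  ((TwoNice.of_form hp0 FF).mul (TwoNice.of_levelOne (p := p) E₄)).cast (by norm_num)

theorem expInf_Phi {p : ℕ} (hp0 : p ≠ 0) (FF : ModularForm (GammaP p) 2) :
    expInf (Phi p FF) = (p : ℂ⟦X⟧) * (expInf FF * qExpansion 1 E₄) + qExpansion 1 E₆ := by
  have hFF : TwoNice p 2 ⇑FF := TwoNice.of_form hp0 FF
  have hE4 : TwoNice p 4 ⇑E₄ := TwoNice.of_levelOne E₄
  have hE6 : TwoNice p 6 ⇑E₆ := TwoNice.of_levelOne E₆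
  have hm := twoNice_mul_E₄ hp0 FF
  rw [coe_Phi, expInf_add (hm.smul _) hE6, expInf_smul hm, expInf_mul hFF hE4,
    smul_eq_C_mul, map_natCast]
  rfl

theorem expZero_Phi {p : ℕ} (hp0 : p ≠ 0) (FF : ModularForm (GammaP p) 2) :
    expZero p 6 (Phi p FF) = (p : ℂ⟦X⟧) * (expZero p 2 FF * expand p hp0 (qExpansion 1 E₄))
      + expand p hp0 (qExpansion 1 E₆) := by
  have hFF : TwoNice p 2 ⇑FF := TwoNice.of_form hp0 FF
  have hE4 : TwoNice p 4 ⇑E₄ := TwoNice.of_levelOne E₄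
  have hE6 : TwoNice p 6 ⇑E₆ := TwoNice.of_levelOne E₆
  have hm := twoNice_mul_E₄ hp0 FF
  have h6 : expZero p 6 (⇑FF * ⇑E₄) = expZero p (2 + 4) (⇑FF * ⇑E₄) := by norm_num
  rw [coe_Phi, expZero_add hp0 (hm.smul _) hE6, expZero_smul hp0 hm, h6,
    expZero_mul hp0 hFF hE4, expZero_levelOne hp0 E₄, expZero_levelOne hp0 E₆,
    smul_eq_C_mul, map_natCast]

/-- **(A5).**  `p` prime, `ℓ ≥ 5` prime (`ℓ = p` allowed), `V` a subring of `ℂ` consisting of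
`ℓ`-integral rationals: there is no `EisCongData p V ℓ 1`. -/
theorem false_of_eisCongData {p ℓ : ℕ} [Fact p.Prime] (hℓ : ℓ.Prime) (h5 : 5 ≤ ℓ)
    (V : Subring ℂ) (hV : ∀ x ∈ V, IsLInt ℓ x) (D : EisCongData p V ℓ 1) : False := by
  have hp : p.Prime := Fact.out
  have hp0 : p ≠ 0 := hp.ne_zero
  refine false_of_data hp.two_le hℓ h5 V hV D (Phi p D.FF) (expInf_Phi hp0 D.FF)
    (expZero_Phi hp0 D.FF) (fun a b hA hB => ?_)
  exact Fermat.Agent.S16.NormSturmQ.norm_sturm hℓ (k := 6) (w := 6) (by norm_num) (by decide)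
    (Phi p D.FF) hA hB

theorem not_eisCong {p ℓ : ℕ} [Fact p.Prime] (hℓ : ℓ.Prime) (h5 : 5 ≤ ℓ)
    (V : Subring ℂ) (hV : ∀ x ∈ V, IsLInt ℓ x) : ¬ EisCong p V ℓ 1 :=
  fun ⟨D⟩ => false_of_eisCongData hℓ h5 V hV D

/-- **(A5) in the shape of `UpperGlue.upperB_of_inputs`** (`hA5`), carrier `LInt.ZLoc ℓ`. -/
theorem not_eisCong_ZLoc {p : ℕ} [Fact p.Prime] (ℓ : ℕ) (hℓ : ℓ.Prime) (h5 : 5 ≤ ℓ) :
    ¬ EisCong p (Fermat.Agent.S16.LInt.ZLoc ℓ) ℓ 1 := by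
  have : Fact ℓ.Prime := ⟨hℓ⟩
  exact not_eisCong hℓ h5 _ (fun x hx => (Fermat.Agent.S16.LInt.mem_ZLoc_iff ℓ).mp hx)

end Fermat.Agent.S16.ArithA5
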