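/-
S16, block WU, S-form (helper20): for `f` of weight 2 and level `Γ₀(p)`,
`(f|S)(z) = −p⁻¹ · (U_p f)(z/p)`, and the width-`p` expansion of `f|S` at `∞`:
`qExpansion p (f|S) = −p⁻¹ • qExpansion 1 (U_p f)`, i.e. its `n`-th coefficient is `−p⁻¹ a_{np}(f)`.

`w_p · [[1, 0], [0, p]] = p · S`, and positive scalars act trivially in weight 2, so
`f|S = (f|w_p)|[[1,0],[0,p]] = −(U_p f)|[[1,0],[0,p]]` (`AtkinLehnerU.slash_wP_eq_neg_heckeU`).
-/
import Mathlib
import Fermat.Agent.S16.AtkinLehnerU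

set_option autoImplicit false
set_option linter.unusedSectionVars false
set_option linter.unusedVariables false
set_option linter.style.longLine false
set_option linter.style.haveILetI false

open UpperHalfPlane ModularForm MatrixGroups CongruenceSubgroup Matrix
open scoped ModularForm Manifold

noncomputable section

namespace Fermat.Agent.S16.AtkinLehnerS

open Fermat.Agent.S16.AtkinLehnerU

/-! ### Positive scalars act trivially in weight 2 -/

/-- In weight 2, slashing by `g'` with matrix `c • g`, `c > 0`, is slashing by `g`. -/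
theorem slash_two_eq_of_smul {c : ℝ} (hc : 0 < c) (f : ℍ → ℂ) {g g' : GL (Fin 2) ℝ}
    (h : (g' : Matrix (Fin 2) (Fin 2) ℝ) = c • (g : Matrix (Fin 2) (Fin 2) ℝ)) :
    f ∣[(2 : ℤ)] g' = f ∣[(2 : ℤ)] g := by
  have hc0 : c ≠ 0 := hc.ne'
  have hcc : (c : ℂ) ≠ 0 := by exact_mod_cast hc0
  have hdet : (g'.det : ℝ) = c ^ 2 * (g.det : ℝ) := by
    rw [Matrix.GeneralLinearGroup.val_det_apply, Matrix.GeneralLinearGroup.val_det_apply, h,
      Matrix.det_smul]
    simp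
  have hσ : σ g' = σ g := by
    unfold UpperHalfPlane.σ
    have : (0 < (g'.det : ℝ)) ↔ (0 < (g.det : ℝ)) := by
      rw [hdet]
      constructor
      · intro h0
        by_contra hneg
        have : c ^ 2 * (g.det : ℝ) ≤ 0 :=
          mul_nonpos_of_nonneg_of_nonpos (by positivity) (not_lt.mp hneg)
        linarith
      · intro h0; positivity
    simp only [this]
  have hnum : ∀ z : ℂ, num g' z = c * num g z := by
    intro z
    simp only [UpperHalfPlane.num, h, Matrix.smul_apply, smul_eq_mul, Complex.ofReal_mul]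
    ring
  have hden : ∀ z : ℂ, denom g' z = c * denom g z := by
    intro z
    simp only [UpperHalfPlane.denom, h, Matrix.smul_apply, smul_eq_mul, Complex.ofReal_mul]
    ring
  have hsmul : ∀ τ : ℍ, g' • τ = g • τ := by
    intro τ
    apply UpperHalfPlane.ext
    rw [UpperHalfPlane.coe_smul, UpperHalfPlane.coe_smul, hσ, hnum, hden,
      mul_div_mul_left _ _ hcc]
  ext τ
  rw [ModularForm.slash_apply, ModularForm.slash_apply, hσ, hsmul, hdet, hden]
  have habs : |c ^ 2 * (g.det : ℝ)| = c ^ 2 * |(g.det : ℝ)| := by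
    rw [abs_mul, abs_of_nonneg (by positivity : (0 : ℝ) ≤ c ^ 2)]
  rw [habs]
  have h21 : ((2 : ℤ) - 1) = 1 := by norm_num
  have hz : ∀ w : ℂ, w ^ (-2 : ℤ) = (w ^ 2)⁻¹ := by
    intro w
    rw [_root_.zpow_neg, show ((2 : ℤ)) = ((2 : ℕ) : ℤ) from rfl, zpow_natCast]
  rw [h21, zpow_one, zpow_one, hz, hz]
  push_cast
  rw [mul_pow, mul_inv]
  field_simp

variable (p : ℕ) [NeZero p]

/-- `w_p · [[1, 0], [0, p]] = p · S`. -/
theorem val_wP_mul_heckeMatrix_zero :
    ((wP p * heckeMatrix p 0 : GL (Fin 2) ℝ) : Matrix (Fin 2) (Fin 2) ℝ) =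
      (p : ℝ) • ((Matrix.SpecialLinearGroup.mapGL ℝ ModularGroup.S : GL (Fin 2) ℝ) :
        Matrix (Fin 2) (Fin 2) ℝ) := by
  rw [Matrix.GeneralLinearGroup.coe_mul, val_wP, val_heckeMatrix (NeZero.ne p), val_mapGL]
  ext a b
  fin_cases a <;> fin_cases b <;>
    simp [Matrix.mul_apply, Fin.sum_univ_two, ModularGroup.S]

/-- `(f|w_p)|[[1, 0], [0, p]] = f|S` in weight 2. -/
theorem slash_wP_slash_heckeMatrix_zero (f : ℍ → ℂ) :
    (f ∣[(2 : ℤ)] wP p) ∣[(2 : ℤ)] heckeMatrix p 0 =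
      f ∣[(2 : ℤ)] (Matrix.SpecialLinearGroup.mapGL ℝ ModularGroup.S) := by
  rw [← SlashAction.slash_mul]
  exact slash_two_eq_of_smul (by exact_mod_cast Nat.pos_of_ne_zero (NeZero.ne p)) f
    (val_wP_mul_heckeMatrix_zero p)


/-- `τ/p` as a point of `ℍ`. -/
theorem coe_heckeMatrix_zero_smul (τ : ℍ) :
    ((heckeMatrix p 0 • τ : ℍ) : ℂ) = (τ : ℂ) / p := by
  rw [coe_heckeMatrix_smul (NeZero.ne p)]
  simp

/-- The parameter `q` at `τ/p` is the width-`p` parameter at `τ`. -/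
theorem qParam_heckeMatrix_zero_smul (τ : ℍ) :
    Function.Periodic.qParam 1 ((heckeMatrix p 0 • τ : ℍ) : ℂ) =
      Function.Periodic.qParam (p : ℝ) (τ : ℂ) := by
  rw [coe_heckeMatrix_zero_smul]
  unfold Function.Periodic.qParam
  congr 1
  push_cast
  ring

/-! ### The `S`-form of `f|w_p = −U_p f` -/

section Main

variable [hp : Fact p.Prime]

/-- **`f|S = −(U_p f)|[[1,0],[0,p]]`** for a modular form of weight 2 and level `Γ₀(p)`. -/
theorem slash_S_eq (f : ModularForm (Gamma0 p) 2) :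
    ⇑f ∣[(2 : ℤ)] (Matrix.SpecialLinearGroup.mapGL ℝ ModularGroup.S) =
      -((heckeU 2 p ⇑f) ∣[(2 : ℤ)] heckeMatrix p 0) := by
  rw [← slash_wP_slash_heckeMatrix_zero p, slash_wP_eq_neg_heckeU, SlashAction.neg_slash]

/-- The same for cusp forms. -/
theorem slash_S_eq_cusp (f : CuspForm (Gamma0 p) 2) :
    ⇑f ∣[(2 : ℤ)] (Matrix.SpecialLinearGroup.mapGL ℝ ModularGroup.S) =
      -((heckeU 2 p ⇑f) ∣[(2 : ℤ)] heckeMatrix p 0) := by
  rw [← slash_wP_slash_heckeMatrix_zero p, slash_wP_eq_neg_heckeU_cusp, SlashAction.neg_slash]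

/-- **`(f|S)(τ) = −p⁻¹ (U_p f)(τ/p)`**, with `τ/p = [[1,0],[0,p]] • τ`. -/
theorem slash_S_apply (f : ModularForm (Gamma0 p) 2) (τ : ℍ) :
    (⇑f ∣[(2 : ℤ)] (Matrix.SpecialLinearGroup.mapGL ℝ ModularGroup.S)) τ =
      -((p : ℂ)⁻¹ * heckeU 2 p ⇑f (heckeMatrix p 0 • τ)) := by
  rw [slash_S_eq, Pi.neg_apply, slash_heckeMatrix_apply 2 (NeZero.ne p)]

theorem slash_S_apply_cusp (f : CuspForm (Gamma0 p) 2) (τ : ℍ) :
    (⇑f ∣[(2 : ℤ)] (Matrix.SpecialLinearGroup.mapGL ℝ ModularGroup.S)) τ =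
      -((p : ℂ)⁻¹ * heckeU 2 p ⇑f (heckeMatrix p 0 • τ)) := by
  rw [slash_S_eq_cusp, Pi.neg_apply, slash_heckeMatrix_apply 2 (NeZero.ne p)]

end Main


/-! ### Width-`p` expansions of `τ ↦ c · G(τ/p)` -/

section Expansion

/-- The width-`p` parameter is `p`-periodic. -/
theorem qParam_add_period (z : ℂ) :
    Function.Periodic.qParam (p : ℝ) (z + (p : ℝ)) = Function.Periodic.qParam (p : ℝ) z := by
  have hp0 : (p : ℂ) ≠ 0 := by exact_mod_cast NeZero.ne p
  unfold Function.Periodic.qParam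
  have : 2 * (Real.pi : ℂ) * Complex.I * (z + ((p : ℝ) : ℂ)) / ((p : ℝ) : ℂ) =
      2 * (Real.pi : ℂ) * Complex.I * z / ((p : ℝ) : ℂ) + 2 * (Real.pi : ℂ) * Complex.I := by
    push_cast
    field_simp
  rw [this, Complex.exp_add, Complex.exp_two_pi_mul_I, mul_one]

/-- Function-level uniqueness of `q`-expansion coefficients (Mathlib's statement is phrased for a
`FunLike` type; plain functions `ℍ → ℂ` carry no such instance). -/
theorem qExpansion_coeff_unique_fun {h : ℝ} (f : ℍ → ℂ) {c : ℕ → ℂ} (hh : 0 < h)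
    (hfanalytic : AnalyticAt ℂ (cuspFunction h f) 0)
    (hf : ∀ τ : ℍ, HasSum (fun m => c m • Function.Periodic.qParam h (τ : ℂ) ^ m) (f τ)) (m : ℕ) :
    c m = (qExpansion h f).coeff m := by
  letI : FunLike (ℍ → ℂ) ℍ ℂ := ⟨fun g => g, fun _ _ hg => hg⟩
  exact UpperHalfPlane.qExpansion_coeff_unique (F := ℍ → ℂ) f hh hfanalytic hf m

/-- If `F τ = c · G(τ/p)` and `G` is given by a convergent `q`-series, then `F` is given by the same
series (times `c`) in the width-`p` parameter, and this is its width-`p` `q`-expansion. -/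
theorem expansion_of_comp_div (G F : ℍ → ℂ) (a : ℕ → ℂ) (c : ℂ)
    (hG : ∀ τ : ℍ, HasSum (fun m : ℕ => a m • Function.Periodic.qParam 1 (τ : ℂ) ^ m) (G τ))
    (hF : ∀ τ : ℍ, F τ = c * G (heckeMatrix p 0 • τ)) (hFhol : MDiff F) :
    (∀ τ : ℍ, HasSum (fun m : ℕ => (c * a m) • Function.Periodic.qParam (p : ℝ) (τ : ℂ) ^ m) (F τ)) ∧
      Function.Periodic (F ∘ ofComplex) (p : ℝ) ∧ IsBoundedAtImInfty F ∧
      AnalyticAt ℂ (cuspFunction (p : ℝ) F) 0 ∧
      ∀ m : ℕ, (qExpansion (p : ℝ) F).coeff m = c * a m := by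
  have hpos : (0 : ℝ) < (p : ℝ) := by exact_mod_cast Nat.pos_of_ne_zero (NeZero.ne p)
  have hsum : ∀ τ : ℍ,
      HasSum (fun m : ℕ => (c * a m) • Function.Periodic.qParam (p : ℝ) (τ : ℂ) ^ m) (F τ) := by
    intro τ
    have h1 := (hG (heckeMatrix p 0 • τ)).mul_left c
    rw [qParam_heckeMatrix_zero_smul, ← hF] at h1
    have h3 : (fun m : ℕ => (c * a m) • Function.Periodic.qParam (p : ℝ) (τ : ℂ) ^ m) =
        fun m : ℕ => c * (a m • Function.Periodic.qParam (p : ℝ) (τ : ℂ) ^ m) := by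
      funext m
      simp only [smul_eq_mul, mul_assoc]
    rw [h3]
    exact h1
  have hper : Function.Periodic (F ∘ ofComplex) (p : ℝ) := by
    intro w
    by_cases hw : 0 < w.im
    · have hw' : 0 < (w + ((p : ℝ) : ℂ)).im := by simpa using hw
      simp only [Function.comp_apply, ofComplex_apply_of_im_pos hw', ofComplex_apply_of_im_pos hw]
      have h1 := hsum ⟨w + ((p : ℝ) : ℂ), hw'⟩
      have h2 := hsum ⟨w, hw⟩
      rw [qParam_add_period] at h1
      exact h1.unique h2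
    · have hw0 : w.im ≤ 0 := not_lt.mp hw
      have hw' : (w + ((p : ℝ) : ℂ)).im ≤ 0 := by simpa using hw0
      show F (ofComplex (w + ((p : ℝ) : ℂ))) = F (ofComplex w)
      rw [ofComplex_apply_of_im_nonpos hw', ofComplex_apply_of_im_nonpos hw0]
  have hbdd : IsBoundedAtImInfty F :=
    isBoundedAtImInfty_of_hasSum_qExpansion (c := fun m => c * a m) hpos hsum
  have han : AnalyticAt ℂ (cuspFunction (p : ℝ) F) 0 :=
    analyticAt_cuspFunction_zero hpos hper hFhol hbdd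
  refine ⟨hsum, hper, hbdd, han, fun m => ?_⟩
  exact (qExpansion_coeff_unique_fun (c := fun m => c * a m) F hpos han hsum m).symm

end Expansion


/-! ### The width-`p` expansion of `f|S` -/

section Final

variable [hp : Fact p.Prime]

/-- The `q`-series of a form of level `Γ₀(p)` converges to it. -/
theorem hasSum_qExpansion_one {k : ℤ} (g : ModularForm (Gamma0 p) k) (τ : ℍ) :
    HasSum (fun m : ℕ => (qExpansion 1 ⇑g).coeff m • Function.Periodic.qParam 1 (τ : ℂ) ^ m)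
      (g τ) := by
  have hΓ := one_mem_strictPeriods_Gamma0 p
  haveI : Fact (IsCusp OnePoint.infty ((Gamma0 p : Subgroup SL(2, ℤ)) : Subgroup (GL (Fin 2) ℝ))) :=
    ⟨Subgroup.isCusp_of_mem_strictPeriods one_pos hΓ⟩
  exact ModularForm.hasSum_qExpansion (h := 1) g one_pos hΓ τ

/-- Everything about the expansion of `f|S` at `∞` (width `p`), for a modular form `f` of weight 2
and level `Γ₀(p)`: convergent series, periodicity, boundedness, analyticity of the cusp function,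
and the coefficients `−p⁻¹ a_m(U_p f)`. -/
theorem expansion_slash_S (f : ModularForm (Gamma0 p) 2) :
    (∀ τ : ℍ, HasSum (fun m : ℕ => (-(p : ℂ)⁻¹ * (qExpansion 1 (heckeU 2 p ⇑f)).coeff m) •
        Function.Periodic.qParam (p : ℝ) (τ : ℂ) ^ m)
        ((⇑f ∣[(2 : ℤ)] (Matrix.SpecialLinearGroup.mapGL ℝ ModularGroup.S)) τ)) ∧
      Function.Periodic
        ((⇑f ∣[(2 : ℤ)] (Matrix.SpecialLinearGroup.mapGL ℝ ModularGroup.S)) ∘ ofComplex) (p : ℝ) ∧
      IsBoundedAtImInfty (⇑f ∣[(2 : ℤ)] (Matrix.SpecialLinearGroup.mapGL ℝ ModularGroup.S)) ∧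
      AnalyticAt ℂ (cuspFunction (p : ℝ)
        (⇑f ∣[(2 : ℤ)] (Matrix.SpecialLinearGroup.mapGL ℝ ModularGroup.S))) 0 ∧
      ∀ m : ℕ, (qExpansion (p : ℝ)
        (⇑f ∣[(2 : ℤ)] (Matrix.SpecialLinearGroup.mapGL ℝ ModularGroup.S))).coeff m =
          -(p : ℂ)⁻¹ * (qExpansion 1 (heckeU 2 p ⇑f)).coeff m := by
  apply expansion_of_comp_div p (heckeU 2 p ⇑f) _ _ (-(p : ℂ)⁻¹)
  · intro τ
    exact hasSum_qExpansion_one p (ModularForm.heckeULin 2 (dvd_refl p) f) τ
  · intro τ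
    rw [slash_S_apply, neg_mul]
  · exact (ModularFormClass.holo f).slash 2 _


theorem hasSum_slash_S (f : ModularForm (Gamma0 p) 2) (τ : ℍ) :
    HasSum (fun m : ℕ => (-(p : ℂ)⁻¹ * (qExpansion 1 (heckeU 2 p ⇑f)).coeff m) •
        Function.Periodic.qParam (p : ℝ) (τ : ℂ) ^ m)
      ((⇑f ∣[(2 : ℤ)] (Matrix.SpecialLinearGroup.mapGL ℝ ModularGroup.S)) τ) :=
  (expansion_slash_S p f).1 τ

theorem periodic_slash_S (f : ModularForm (Gamma0 p) 2) :
    Function.Periodic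
      ((⇑f ∣[(2 : ℤ)] (Matrix.SpecialLinearGroup.mapGL ℝ ModularGroup.S)) ∘ ofComplex) (p : ℝ) :=
  (expansion_slash_S p f).2.1

theorem isBoundedAtImInfty_slash_S (f : ModularForm (Gamma0 p) 2) :
    IsBoundedAtImInfty (⇑f ∣[(2 : ℤ)] (Matrix.SpecialLinearGroup.mapGL ℝ ModularGroup.S)) :=
  (expansion_slash_S p f).2.2.1

theorem mdifferentiable_slash_S {k : ℤ} (f : ModularForm (Gamma0 p) k) :
    MDiff (⇑f ∣[k] (Matrix.SpecialLinearGroup.mapGL ℝ ModularGroup.S)) :=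
  (ModularFormClass.holo f).slash k _

theorem analyticAt_cuspFunction_slash_S (f : ModularForm (Gamma0 p) 2) :
    AnalyticAt ℂ (cuspFunction (p : ℝ)
      (⇑f ∣[(2 : ℤ)] (Matrix.SpecialLinearGroup.mapGL ℝ ModularGroup.S))) 0 :=
  (expansion_slash_S p f).2.2.2.1

/-- **`qExpansion p (f|S) = −p⁻¹ • qExpansion 1 (U_p f)`** (the expansion of `f` at the cusp `0`, in
the parameter `x = e^{2πiz/p}`). -/
theorem qExpansion_slash_S (f : ModularForm (Gamma0 p) 2) :
    qExpansion (p : ℝ) (⇑f ∣[(2 : ℤ)] (Matrix.SpecialLinearGroup.mapGL ℝ ModularGroup.S)) =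
      (-(p : ℂ)⁻¹) • qExpansion 1 (heckeU 2 p ⇑f) := by
  ext m
  rw [(expansion_slash_S p f).2.2.2.2 m, PowerSeries.coeff_smul, smul_eq_mul]

/-- **The `n`-th coefficient of `f|S` in `x = e^{2πiz/p}` is `−p⁻¹ a_{np}(f)`.** -/
theorem coeff_qExpansion_slash_S (f : ModularForm (Gamma0 p) 2) (n : ℕ) :
    (qExpansion (p : ℝ)
      (⇑f ∣[(2 : ℤ)] (Matrix.SpecialLinearGroup.mapGL ℝ ModularGroup.S))).coeff n =
        -(p : ℂ)⁻¹ * ModularFormClass.qCoeff (⇑f) (n * p) := by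
  have hΓ := one_mem_strictPeriods_Gamma0 p
  have h3 := ModularFormClass.qCoeff_heckeU f hΓ hp.out.ne_zero n
  rw [ModularFormClass.qCoeff, ModularForm.coeffHeckeU_apply] at h3
  rw [(expansion_slash_S p f).2.2.2.2 n, h3]

/-- The same with the `SL(2, ℤ)` slash action. -/
theorem coeff_qExpansion_slash_S' (f : ModularForm (Gamma0 p) 2) (n : ℕ) :
    (qExpansion (p : ℝ) (⇑f ∣[(2 : ℤ)] ModularGroup.S)).coeff n =
        -(p : ℂ)⁻¹ * ModularFormClass.qCoeff (⇑f) (n * p) :=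
  coeff_qExpansion_slash_S p f n

/-! #### Cusp forms -/

/-- A cusp form as a modular form. -/
def cuspToModular {k : ℤ} (f : CuspForm (Gamma0 p) k) : ModularForm (Gamma0 p) k where
  toFun := ⇑f
  slash_action_eq' := f.slash_action_eq'
  holo' := f.holo'
  bdd_at_cusps' := fun hc => ModularFormClass.bdd_at_cusps f hc

@[simp] theorem coe_cuspToModular {k : ℤ} (f : CuspForm (Gamma0 p) k) :
    ⇑(cuspToModular p f) = ⇑f := rfl

theorem hasSum_slash_S_cusp (f : CuspForm (Gamma0 p) 2) (τ : ℍ) :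
    HasSum (fun m : ℕ => (-(p : ℂ)⁻¹ * (qExpansion 1 (heckeU 2 p ⇑f)).coeff m) •
        Function.Periodic.qParam (p : ℝ) (τ : ℂ) ^ m)
      ((⇑f ∣[(2 : ℤ)] (Matrix.SpecialLinearGroup.mapGL ℝ ModularGroup.S)) τ) :=
  hasSum_slash_S p (cuspToModular p f) τ

theorem periodic_slash_S_cusp (f : CuspForm (Gamma0 p) 2) :
    Function.Periodic
      ((⇑f ∣[(2 : ℤ)] (Matrix.SpecialLinearGroup.mapGL ℝ ModularGroup.S)) ∘ ofComplex) (p : ℝ) :=
  periodic_slash_S p (cuspToModular p f)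

theorem isBoundedAtImInfty_slash_S_cusp (f : CuspForm (Gamma0 p) 2) :
    IsBoundedAtImInfty (⇑f ∣[(2 : ℤ)] (Matrix.SpecialLinearGroup.mapGL ℝ ModularGroup.S)) :=
  isBoundedAtImInfty_slash_S p (cuspToModular p f)

theorem analyticAt_cuspFunction_slash_S_cusp (f : CuspForm (Gamma0 p) 2) :
    AnalyticAt ℂ (cuspFunction (p : ℝ)
      (⇑f ∣[(2 : ℤ)] (Matrix.SpecialLinearGroup.mapGL ℝ ModularGroup.S))) 0 :=
  analyticAt_cuspFunction_slash_S p (cuspToModular p f)

theorem qExpansion_slash_S_cusp (f : CuspForm (Gamma0 p) 2) :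
    qExpansion (p : ℝ) (⇑f ∣[(2 : ℤ)] (Matrix.SpecialLinearGroup.mapGL ℝ ModularGroup.S)) =
      (-(p : ℂ)⁻¹) • qExpansion 1 (heckeU 2 p ⇑f) :=
  qExpansion_slash_S p (cuspToModular p f)

theorem coeff_qExpansion_slash_S_cusp (f : CuspForm (Gamma0 p) 2) (n : ℕ) :
    (qExpansion (p : ℝ)
      (⇑f ∣[(2 : ℤ)] (Matrix.SpecialLinearGroup.mapGL ℝ ModularGroup.S))).coeff n =
        -(p : ℂ)⁻¹ * ModularFormClass.qCoeff (⇑f) (n * p) :=
  coeff_qExpansion_slash_S p (cuspToModular p f) n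

/-- The constant term of `f|S` vanishes for a cusp form... and in general is `−p⁻¹ a_0(f)`. -/
theorem coeff_zero_qExpansion_slash_S (f : ModularForm (Gamma0 p) 2) :
    (qExpansion (p : ℝ)
      (⇑f ∣[(2 : ℤ)] (Matrix.SpecialLinearGroup.mapGL ℝ ModularGroup.S))).coeff 0 =
        -(p : ℂ)⁻¹ * ModularFormClass.qCoeff (⇑f) 0 := by
  simpa using coeff_qExpansion_slash_S p f 0

end Final

end Fermat.Agent.S16.AtkinLehnerS
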