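/-
S16, tool (T2): **uniqueness of the extension of the Gauss valuation** from `K(j)` to the function
field `FF K N = K(j(q^d) : d ∣ N) ⊆ K((q))`, in `ValuationSubring` form.

Setting of N4 (`Setting`): `O ⊆ K` a discrete valuation ring with fraction field `K` (char `0`),
`Rfin` = integral closure of `O[j]` in `FF K N`, `gaussVS K N O` = the valuation subring of elements
of `FF K N` lying in the Gauss ring of `K((q))` (coefficientwise valuation).

* `ExtendsGauss K N O V'` : the valuation subring `V'` of `FF K N` contains `O` and `j`, its maximal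
  ideal contains `𝔪_O`, and every `P(j)`, `P ∈ O[X]` with nonzero reduction, is a unit of `V'`
  (i.e. `V' ∩ K(j)` is the Gauss valuation ring of `K(j)`);
* `eq_gaussVS` : if `𝔪_O Rfin` is prime (this is (∗), `N4.IrreducibleRat.isPrime_fibreIdeal_rat` for
  `(ℚ, ℤ_(ℓ))`, `ℓ ∤ N`), every `V'` with `ExtendsGauss` equals `gaussVS K N O`;
* `comap_eq_gaussVS` : the 'all embeddings' form — for a ring homomorphism `σ : FF K N →+* L` and a
  valuation subring `W` of `L` whose pull-back extends the Gauss valuation, `W.comap σ = gaussVS`;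
* `mem_gaussVS_iff_of_aut`, `map_sub_mem_of_aut` : a ring endomorphism `w` of `FF K N` fixing `O`
  and sending `j` to an element of the Gauss ring with transcendental reduction preserves
  `gaussVS` and congruences modulo `ϖ^r` to constants (the two-cusp lemma's `w(V) = V`).
-/
import Fermat.Agent.N4F.E.GaussDVR
import Fermat.Agent.N4.FibreEmbedding
import Fermat.Agent.N4.FFAlgebraic

set_option autoImplicit false
set_option linter.unusedSectionVars false
set_option linter.style.haveILetI false

open ModularCurve Fermat.Agent.S28.Gauss Fermat.Agent.N4.Chart Fermat.Agent.N4.Setting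
  Fermat.Agent.N4.FibreEmbedding Fermat.Agent.N4F.E.GaussDVR

noncomputable section

namespace Fermat.Agent.S16.GaussUnique

variable (K : Type) [Field K] [CharZero K] (N : ℕ) (O : Subring K) [IsDiscreteValuationRing ↥O]
  [IsFractionRing ↥O K]

set_option quotPrecheck false in
local notation "κ" => IsLocalRing.ResidueField ↥O

/-- `V'` extends the Gauss valuation of `K(j)` (relative to `O`). -/
structure ExtendsGauss (V' : ValuationSubring (FF K N)) : Prop where
  base_mem : ∀ a : ↥O, algebraMap ↥O (FF K N) a ∈ V'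
  jF_mem : jF K N ∈ V'
  max_mem : ∀ a : ↥O, a ∈ IsLocalRing.maximalIdeal ↥O → algebraMap ↥O (FF K N) a ∈ V'.nonunits
  not_mem_nonunits : ∀ P : Polynomial ↥O, P.map (IsLocalRing.residue ↥O) ≠ 0 →
      Polynomial.aeval (jF K N) P ∉ V'.nonunits

variable {K N O}

namespace ExtendsGauss

variable {V' : ValuationSubring (FF K N)} (hV : ExtendsGauss K N O V')
include hV

/-- `V'` as an `O`-subalgebra. -/
def toSubalgebra : Subalgebra ↥O (FF K N) where
  toSubsemiring := V'.toSubring.toSubsemiring
  algebraMap_mem' a := hV.base_mem a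

theorem mem_toSubalgebra {x : FF K N} : x ∈ hV.toSubalgebra ↔ x ∈ V' := Iff.rfl

theorem adjoin_le : Algebra.adjoin ↥O ({jF K N} : Set (FF K N)) ≤ hV.toSubalgebra :=
  Algebra.adjoin_le (Set.singleton_subset_iff.mpr hV.jF_mem)

/-- The finite chart lies in `V'` (valuation rings are integrally closed). -/
theorem Rfin_le {x : FF K N} (hx : x ∈ Rfin K N O) : x ∈ V' := by
  rw [mem_chartAlg_iff] at hx
  let φ : ↥(Algebra.adjoin ↥O ({jF K N} : Set (FF K N))) →+* ↥V' :=
    { toFun := fun a => ⟨(a : FF K N), hV.adjoin_le a.2⟩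
      map_one' := rfl
      map_mul' := fun _ _ => rfl
      map_zero' := rfl
      map_add' := fun _ _ => rfl }
  have h1 : IsIntegral ↥V' ((RingHom.id (FF K N)) x) :=
    hx.map_of_comp_eq φ (RingHom.id (FF K N)) (by ext; rfl)
  obtain ⟨y, hy⟩ := IsIntegrallyClosed.isIntegral_iff.mp h1
  rw [RingHom.id_apply] at hy
  rw [← hy]
  exact y.2

end ExtendsGauss

/-- `aeval j P` computed in the Gauss subalgebra. -/
theorem aeval_jF_mem_gauss (P : Polynomial ↥O) :
    Polynomial.aeval (jF K N) P ∈ gaussSubalgebra K N O := by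
  have h : Polynomial.aeval (jF K N) P =
      ((Polynomial.aeval (⟨jF K N, jF_mem_gaussSubalgebra K N O⟩ : gaussSubalgebra K N O) P :
        gaussSubalgebra K N O) : FF K N) := by
    rw [Polynomial.aeval_subalgebra_coe]
  rw [h]
  exact Subtype.property _

theorem theta_aeval_jF (P : Polynomial ↥O) :
    theta K N O ⟨Polynomial.aeval (jF K N) P, aeval_jF_mem_gauss P⟩ =
      Polynomial.aeval (jqModC κ) (P.map (IsLocalRing.residue ↥O)) := by
  have h1 : (⟨Polynomial.aeval (jF K N) P, aeval_jF_mem_gauss P⟩ : gaussSubalgebra K N O) =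
      Polynomial.aeval (⟨jF K N, jF_mem_gaussSubalgebra K N O⟩ : gaussSubalgebra K N O) P := by
    apply Subtype.ext
    rw [Polynomial.aeval_subalgebra_coe]
  rw [h1, theta_aeval, theta_jF]

theorem transcendental_theta_jF :
    Transcendental κ (theta K N O ⟨jF K N, jF_mem_gaussSubalgebra K N O⟩) := by
  rw [theta_jF]
  exact Fermat.Agent.S24.FFBasics.transcendental_jqModC _

/-- The Gauss valuation subring itself extends the Gauss valuation of `K(j)`. -/
theorem extendsGauss_gaussVS : ExtendsGauss K N O (gaussVS K N O) where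
  base_mem a := (gaussSubalgebra K N O).algebraMap_mem a
  jF_mem := jF_mem_gaussSubalgebra K N O
  max_mem a ha := by
    rw [ValuationSubring.mem_nonunits_iff_exists_mem_maximalIdeal]
    refine ⟨(gaussSubalgebra K N O).algebraMap_mem a, ?_⟩
    rw [IsLocalRing.mem_maximalIdeal, mem_nonunits_iff]
    intro hu
    have h1 : IsUnit (algebraMap ↥O (gaussSubalgebra K N O) a) := hu
    have h2 := theta_ne_zero_of_isUnit K N O _ h1
    rw [theta_algebraMap] at h2
    apply h2
    rw [(IsLocalRing.residue_eq_zero_iff a).mpr ha, map_zero]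
  not_mem_nonunits P hP := by
    intro hmem
    rw [ValuationSubring.mem_nonunits_iff_exists_mem_maximalIdeal] at hmem
    obtain ⟨hm, hmax⟩ := hmem
    rw [IsLocalRing.mem_maximalIdeal, mem_nonunits_iff] at hmax
    apply hmax
    have h1 : theta K N O ⟨Polynomial.aeval (jF K N) P, aeval_jF_mem_gauss P⟩ ≠ 0 := by
      rw [theta_aeval_jF]
      exact fun h0 => hP ((transcendental_iff.mp
        (Fermat.Agent.S24.FFBasics.transcendental_jqModC κ)) _ h0)
    exact isUnit_of_theta_ne_zero K N O _ h1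

section Main

variable {V' : ValuationSubring (FF K N)} (hV : ExtendsGauss K N O V')

/-- The inclusion of the finite chart into `V'`. -/
def ExtendsGauss.incl : ↥(Rfin K N O) →+* ↥V' where
  toFun x := ⟨(x : FF K N), hV.Rfin_le x.2⟩
  map_one' := rfl
  map_mul' _ _ := rfl
  map_zero' := rfl
  map_add' _ _ := rfl

/-- The centre of `V'` on the finite chart. -/
def ExtendsGauss.centre : Ideal ↥(Rfin K N O) :=
  (IsLocalRing.maximalIdeal ↥V').comap hV.incl

theorem ExtendsGauss.mem_centre {x : ↥(Rfin K N O)} :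
    x ∈ hV.centre ↔ (x : FF K N) ∈ V'.nonunits := by
  unfold ExtendsGauss.centre
  rw [Ideal.mem_comap, ← ValuationSubring.coe_mem_nonunits_iff]
  rfl

instance ExtendsGauss.centre_isPrime : hV.centre.IsPrime := by
  unfold ExtendsGauss.centre
  exact Ideal.IsPrime.comap _

theorem ExtendsGauss.fibreIdeal_le_centre : fibreIdeal K N O (Rfin K N O) ≤ hV.centre := by
  obtain ⟨ϖ, hϖ⟩ := IsDiscreteValuationRing.exists_irreducible ↥O
  rw [fibreIdeal_eq_span K N O hϖ, Ideal.span_le, Set.singleton_subset_iff]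
  show algebraMap ↥O ↥(Rfin K N O) ϖ ∈ hV.centre
  rw [hV.mem_centre]
  apply hV.max_mem ϖ
  rw [hϖ.maximalIdeal_eq]
  exact Ideal.mem_span_singleton_self _

/-- **Incomparability.** The centre of `V'` on the finite chart is the fibre ideal `𝔪_O Rfin`. -/
theorem ExtendsGauss.centre_eq (hprime : (fibreIdeal K N O (Rfin K N O)).IsPrime) :
    hV.centre = fibreIdeal K N O (Rfin K N O) := by
  obtain ⟨ϖ, hϖ⟩ := IsDiscreteValuationRing.exists_irreducible ↥O
  set 𝔮 : Ideal ↥(Rfin K N O) := fibreIdeal K N O (Rfin K N O) with h𝔮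
  have le₁ : 𝔮 ≤ hV.centre := hV.fibreIdeal_le_centre
  refine le_antisymm ?_ le₁
  by_contra hnot
  obtain ⟨x, hxc, hxq⟩ := SetLike.not_le_iff_exists.mp hnot
  let f : ↥(Algebra.adjoin ↥O ({jF K N} : Set (FF K N))) →+* ↥(Rfin K N O) :=
    (Subalgebra.inclusion (adjoin_le_chartAlg {jF K N})).toRingHom
  obtain ⟨p, hp, hpx⟩ := (mem_chartAlg_iff).mp x.2
  have hpx' : p.eval₂ f x = 0 := by
    apply Subtype.ext
    have h1 := Polynomial.hom_eval₂ p f (SubringClass.subtype (Rfin K N O)) x
    exact h1.trans hpx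
  have : (𝔮.comap f).IsPrime := Ideal.IsPrime.comap f
  have hp0 : p.map (Ideal.Quotient.mk (𝔮.comap f)) ≠ 0 := Polynomial.map_monic_ne_zero hp
  have hlt := Ideal.comap_lt_comap_of_root_mem_sdiff (f := f) le₁ ⟨hxc, hxq⟩ hp0
    (by rw [hpx']; exact 𝔮.zero_mem)
  obtain ⟨b, hbc, hbq⟩ := SetLike.exists_of_lt hlt
  apply hbq
  have hbmem : (b : FF K N) ∈ (Polynomial.aeval (R := ↥O) (jF K N)).range := by
    rw [← Algebra.adjoin_singleton_eq_range_aeval]
    exact b.2
  obtain ⟨P, hP⟩ := hbmem
  replace hP : Polynomial.aeval (jF K N) P = (b : FF K N) := hP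
  have hbnon : (b : FF K N) ∈ V'.nonunits := by
    have h1 : f b ∈ hV.centre := hbc
    rw [hV.mem_centre] at h1
    exact h1
  have hred : P.map (IsLocalRing.residue ↥O) = 0 := by
    by_contra hne
    exact hV.not_mem_nonunits P hne (by rw [hP]; exact hbnon)
  have hdvd : Polynomial.C ϖ ∣ P := by
    rw [Polynomial.C_dvd_iff_dvd_coeff]
    intro i
    have hi : IsLocalRing.residue ↥O (P.coeff i) = 0 := by
      rw [← Polynomial.coeff_map, hred, Polynomial.coeff_zero]
    rw [IsLocalRing.residue_eq_zero_iff, hϖ.maximalIdeal_eq, Ideal.mem_span_singleton] at hi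
    exact hi
  obtain ⟨P', rfl⟩ := hdvd
  have hb' : Polynomial.aeval (jF K N) P' ∈ Algebra.adjoin ↥O ({jF K N} : Set (FF K N)) := by
    rw [Algebra.adjoin_singleton_eq_range_aeval]
    exact ⟨P', rfl⟩
  have hfb : f b = algebraMap ↥O ↥(Rfin K N O) ϖ * f ⟨_, hb'⟩ := by
    apply Subtype.ext
    show (b : FF K N) = algebraMap ↥O (FF K N) ϖ * Polynomial.aeval (jF K N) P'
    rw [← hP, map_mul, Polynomial.aeval_C]
  show f b ∈ 𝔮
  rw [hfb, h𝔮, fibreIdeal_eq_span K N O hϖ]
  exact Ideal.mul_mem_right _ _ (Ideal.mem_span_singleton_self _)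

/-- Every element of the Gauss valuation ring is a fraction `w / b` with `w, b` in the finite chart
and `b = P(j)`, `P` of nonzero reduction. -/
theorem exists_fraction (hprime : (fibreIdeal K N O (Rfin K N O)).IsPrime)
    {x : FF K N} (hx : x ∈ gaussSubalgebra K N O) :
    ∃ P : Polynomial ↥O, P.map (IsLocalRing.residue ↥O) ≠ 0 ∧
      Polynomial.aeval (jF K N) P * x ∈ Rfin K N O := by
  obtain ⟨ϖ, hϖ⟩ := IsDiscreteValuationRing.exists_irreducible ↥O
  have hs := jF_mem_gaussSubalgebra K N O
  have hker := ker_rho_eq K N O hs transcendental_theta_jF hprime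
  obtain ⟨b₀, hb₀, hb₀z⟩ := Fermat.Agent.N4.FFAlgebraic.exists_mul_mem_chartAlg K N O _
    (Fermat.Agent.N4.FFAlgebraic.transcendental_jF K N)
    (Fermat.Agent.N4.FFAlgebraic.isAlgebraic_jF K N) x
  have hbmem : (b₀ : FF K N) ∈ (Polynomial.aeval (R := ↥O) (jF K N)).range := by
    rw [← Algebra.adjoin_singleton_eq_range_aeval]
    exact b₀.2
  obtain ⟨P₀, hP₀⟩ := hbmem
  replace hP₀ : Polynomial.aeval (jF K N) P₀ = (b₀ : FF K N) := hP₀
  have hP₀ne : P₀ ≠ 0 := by
    rintro rfl
    rw [map_zero] at hP₀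
    exact hb₀ (Subtype.ext hP₀.symm)
  obtain ⟨m, P₁, rfl, hP₁⟩ := exists_C_pow_mul_eq K O hϖ hP₀ne
  refine ⟨P₁, hP₁, ?_⟩
  have hb₁G : Polynomial.aeval (jF K N) P₁ ∈ gaussSubalgebra K N O := aeval_jF_mem_gauss P₁
  have hwG : Polynomial.aeval (jF K N) P₁ * x ∈ gaussSubalgebra K N O :=
    (gaussSubalgebra K N O).mul_mem hb₁G hx
  apply mem_chartAlg_of_pow_mul_mem K N O hs hker hϖ m _ hwG
  rw [← mul_assoc]
  rw [← hP₀, map_mul, Polynomial.aeval_C] at hb₀z
  exact hb₀z

include hV in
/-- The Gauss valuation ring is contained in every valuation ring extending the Gauss valuation. -/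
theorem ExtendsGauss.gaussVS_le (hprime : (fibreIdeal K N O (Rfin K N O)).IsPrime) :
    gaussVS K N O ≤ V' := by
  intro x hx
  obtain ⟨P, hP, hw⟩ := exists_fraction hprime ((mem_gaussVS_iff K N O).mp hx)
  have hb : Polynomial.aeval (jF K N) P ∈ V' :=
    hV.Rfin_le (adjoin_le_chartAlg {jF K N} (by
      rw [Algebra.adjoin_singleton_eq_range_aeval]
      exact ⟨P, rfl⟩))
  have hbn := hV.not_mem_nonunits P hP
  rw [ValuationSubring.mem_nonunits_iff_or, not_or, not_not] at hbn
  obtain ⟨hb0, hbinv⟩ := hbn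
  have hx' : x = (Polynomial.aeval (jF K N) P)⁻¹ * (Polynomial.aeval (jF K N) P * x) := by
    rw [← mul_assoc, inv_mul_cancel₀ hb0, one_mul]
  rw [hx']
  exact V'.mul_mem _ _ hbinv (hV.Rfin_le hw)

include hV in
/-- **Uniqueness of the extension of the Gauss valuation.** -/
theorem ExtendsGauss.eq_gaussVS (hprime : (fibreIdeal K N O (Rfin K N O)).IsPrime) :
    V' = gaussVS K N O := by
  obtain ⟨ϖ, hϖ⟩ := IsDiscreteValuationRing.exists_irreducible ↥O
  refine le_antisymm ?_ (hV.gaussVS_le hprime)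
  intro x hx
  by_contra hxG
  have hx0 : x ≠ 0 := by
    rintro rfl
    exact hxG (gaussVS K N O).zero_mem
  rcases mem_or_inv_mem K N O x hx0 with h | ⟨h, h0⟩
  · exact hxG h
  · obtain ⟨y, hy⟩ := exists_eq_unif_mul K N O hϖ ⟨x⁻¹, h⟩ h0
    have hy' : x⁻¹ = algebraMap ↥O (FF K N) ϖ * (y : FF K N) := congrArg Subtype.val hy
    have hyV : (y : FF K N) ∈ V' := hV.gaussVS_le hprime y.2
    have hϖn : algebraMap ↥O (FF K N) ϖ ∈ V'.nonunits := by
      apply hV.max_mem ϖ
      rw [hϖ.maximalIdeal_eq]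
      exact Ideal.mem_span_singleton_self _
    have hxinv : x⁻¹ ∈ V'.nonunits := by
      rw [hy', ValuationSubring.mem_nonunits_iff, map_mul]
      have h1 := (ValuationSubring.mem_nonunits_iff V').mp hϖn
      have h2 := (ValuationSubring.valuation_le_one_iff V' _).mpr hyV
      exact mul_lt_one_of_lt_of_le h1 h2
    rw [ValuationSubring.inv_mem_nonunits_iff] at hxinv
    rcases hxinv with h1 | h1
    · exact hx0 h1
    · exact h1 hx

end Main

section Comap

variable {L : Type*} [Field L]

theorem mem_nonunits_comap_iff (W : ValuationSubring L) (σ : FF K N →+* L) {x : FF K N} :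
    x ∈ (W.comap σ).nonunits ↔ σ x ∈ W.nonunits := by
  rw [ValuationSubring.mem_nonunits_iff_or, ValuationSubring.mem_nonunits_iff_or,
    ValuationSubring.mem_comap, map_inv₀, map_eq_zero_iff σ σ.injective]

/-- Criterion for the pull-back of a valuation subring along a ring homomorphism out of the function
field to extend the Gauss valuation. -/
theorem extendsGauss_comap (W : ValuationSubring L) (σ : FF K N →+* L)
    (hbase : ∀ a : ↥O, σ (algebraMap ↥O (FF K N) a) ∈ W)
    (hj : σ (jF K N) ∈ W)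
    (hmax : ∀ a : ↥O, a ∈ IsLocalRing.maximalIdeal ↥O → σ (algebraMap ↥O (FF K N) a) ∈ W.nonunits)
    (htr : ∀ P : Polynomial ↥O, P.map (IsLocalRing.residue ↥O) ≠ 0 →
      σ (Polynomial.aeval (jF K N) P) ∉ W.nonunits) :
    ExtendsGauss K N O (W.comap σ) where
  base_mem a := ValuationSubring.mem_comap.mpr (hbase a)
  jF_mem := ValuationSubring.mem_comap.mpr hj
  max_mem a ha := (mem_nonunits_comap_iff W σ).mpr (hmax a ha)
  not_mem_nonunits P hP h := htr P hP ((mem_nonunits_comap_iff W σ).mp h)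

/-- **All-embeddings form of (∗).** If the pull-back of `W` along `σ : FF K N →+* L` extends the
Gauss valuation of `K(j)`, it is the Gauss valuation ring: `σ x ∈ W ↔ x ∈ gaussVS`. -/
theorem comap_eq_gaussVS (hprime : (fibreIdeal K N O (Rfin K N O)).IsPrime)
    (W : ValuationSubring L) (σ : FF K N →+* L)
    (hbase : ∀ a : ↥O, σ (algebraMap ↥O (FF K N) a) ∈ W)
    (hj : σ (jF K N) ∈ W)
    (hmax : ∀ a : ↥O, a ∈ IsLocalRing.maximalIdeal ↥O → σ (algebraMap ↥O (FF K N) a) ∈ W.nonunits)
    (htr : ∀ P : Polynomial ↥O, P.map (IsLocalRing.residue ↥O) ≠ 0 →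
      σ (Polynomial.aeval (jF K N) P) ∉ W.nonunits) :
    W.comap σ = gaussVS K N O :=
  (extendsGauss_comap W σ hbase hj hmax htr).eq_gaussVS hprime

theorem map_mem_iff (hprime : (fibreIdeal K N O (Rfin K N O)).IsPrime)
    (W : ValuationSubring L) (σ : FF K N →+* L)
    (hbase : ∀ a : ↥O, σ (algebraMap ↥O (FF K N) a) ∈ W)
    (hj : σ (jF K N) ∈ W)
    (hmax : ∀ a : ↥O, a ∈ IsLocalRing.maximalIdeal ↥O → σ (algebraMap ↥O (FF K N) a) ∈ W.nonunits)
    (htr : ∀ P : Polynomial ↥O, P.map (IsLocalRing.residue ↥O) ≠ 0 →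
      σ (Polynomial.aeval (jF K N) P) ∉ W.nonunits) (x : FF K N) :
    σ x ∈ W ↔ x ∈ gaussVS K N O := by
  rw [← comap_eq_gaussVS hprime W σ hbase hj hmax htr, ValuationSubring.mem_comap]

end Comap

section Endomorphism

/-- A ring endomorphism of the function field fixing `O` commutes with `aeval`. -/
theorem map_aeval (w : FF K N →+* FF K N)
    (hbase : ∀ a : ↥O, w (algebraMap ↥O (FF K N) a) = algebraMap ↥O (FF K N) a)
    (x : FF K N) (P : Polynomial ↥O) :
    w (Polynomial.aeval x P) = Polynomial.aeval (w x) P := by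
  rw [Polynomial.aeval_def, Polynomial.hom_eval₂, Polynomial.aeval_def]
  congr 1
  exact RingHom.ext fun a => hbase a

/-- The pull-back of the Gauss valuation ring along an endomorphism `w` fixing `O` and sending `j`
to an element with transcendental reduction extends the Gauss valuation. -/
theorem extendsGauss_comap_end (w : FF K N →+* FF K N)
    (hbase : ∀ a : ↥O, w (algebraMap ↥O (FF K N) a) = algebraMap ↥O (FF K N) a)
    (hj : w (jF K N) ∈ gaussSubalgebra K N O)
    (htr : Transcendental (IsLocalRing.ResidueField ↥O)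
      (theta K N O (⟨w (jF K N), hj⟩ : gaussSubalgebra K N O))) :
    ExtendsGauss K N O ((gaussVS K N O).comap w) := by
  refine extendsGauss_comap (gaussVS K N O) w (fun a => ?_) hj (fun a ha => ?_) (fun P hP => ?_)
  · rw [hbase a]
    exact extendsGauss_gaussVS.base_mem a
  · rw [hbase a]
    exact extendsGauss_gaussVS.max_mem a ha
  · rw [map_aeval w hbase]
    have hmem : Polynomial.aeval (w (jF K N)) P ∈ gaussSubalgebra K N O := by
      have h : Polynomial.aeval (w (jF K N)) P =
          ((Polynomial.aeval (⟨w (jF K N), hj⟩ : gaussSubalgebra K N O) P :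
            gaussSubalgebra K N O) : FF K N) := by
        rw [Polynomial.aeval_subalgebra_coe]
      rw [h]
      exact Subtype.property _
    have h1 : theta K N O ⟨Polynomial.aeval (w (jF K N)) P, hmem⟩ ≠ 0 := by
      have h2 : (⟨Polynomial.aeval (w (jF K N)) P, hmem⟩ : gaussSubalgebra K N O) =
          Polynomial.aeval (⟨w (jF K N), hj⟩ : gaussSubalgebra K N O) P := by
        apply Subtype.ext
        rw [Polynomial.aeval_subalgebra_coe]
      rw [h2, theta_aeval]
      exact fun h0 => hP ((transcendental_iff.mp htr) _ h0)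
    intro hnon
    rw [ValuationSubring.mem_nonunits_iff_exists_mem_maximalIdeal] at hnon
    obtain ⟨hm, hmax⟩ := hnon
    rw [IsLocalRing.mem_maximalIdeal, mem_nonunits_iff] at hmax
    exact hmax (isUnit_of_theta_ne_zero K N O ⟨_, hmem⟩ h1)

/-- **`w(V) = V`.**  An endomorphism of the function field fixing `O` and sending `j` to an element of
the Gauss ring with transcendental reduction (e.g. `j ↦ j(q^d)`) preserves the Gauss valuation
ring. -/
theorem map_mem_gaussVS_iff (hprime : (fibreIdeal K N O (Rfin K N O)).IsPrime)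
    (w : FF K N →+* FF K N)
    (hbase : ∀ a : ↥O, w (algebraMap ↥O (FF K N) a) = algebraMap ↥O (FF K N) a)
    (hj : w (jF K N) ∈ gaussSubalgebra K N O)
    (htr : Transcendental (IsLocalRing.ResidueField ↥O)
      (theta K N O (⟨w (jF K N), hj⟩ : gaussSubalgebra K N O))) (x : FF K N) :
    w x ∈ gaussVS K N O ↔ x ∈ gaussVS K N O := by
  have h := (extendsGauss_comap_end w hbase hj htr).eq_gaussVS hprime
  constructor
  · intro hx
    rw [← h]
    exact ValuationSubring.mem_comap.mpr hx
  · intro hx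
    rw [← h] at hx
    exact ValuationSubring.mem_comap.mp hx

/-- `w` preserves congruences to constants modulo `a`, `a ∈ O`. -/
theorem exists_map_sub_eq (hprime : (fibreIdeal K N O (Rfin K N O)).IsPrime)
    (w : FF K N →+* FF K N)
    (hbase : ∀ a : ↥O, w (algebraMap ↥O (FF K N) a) = algebraMap ↥O (FF K N) a)
    (hj : w (jF K N) ∈ gaussSubalgebra K N O)
    (htr : Transcendental (IsLocalRing.ResidueField ↥O)
      (theta K N O (⟨w (jF K N), hj⟩ : gaussSubalgebra K N O))) {x : FF K N} {c a : ↥O}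
    (h : ∃ y ∈ gaussVS K N O, x - algebraMap ↥O (FF K N) c = algebraMap ↥O (FF K N) a * y) :
    ∃ y ∈ gaussVS K N O, w x - algebraMap ↥O (FF K N) c = algebraMap ↥O (FF K N) a * y := by
  obtain ⟨y, hy, hxy⟩ := h
  refine ⟨w y, (map_mem_gaussVS_iff hprime w hbase hj htr y).mpr hy, ?_⟩
  rw [← hbase c, ← hbase a, ← map_sub, ← map_mul, hxy]

end Endomorphism

end Fermat.Agent.S16.GaussUnique
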