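/-
S16, tool (T2) over the rational base: for every prime `ℓ ∤ N` the Gauss valuation ring
`gaussVS ℚ N ℤ_(ℓ)` of `FF ℚ N = ℚ(j(q^d) : d ∣ N)` is the ONLY valuation ring of `FF ℚ N` extending
the Gauss valuation of `ℚ(j)` (all `ℓ`, including `2` and `3`).  Instantiation of
`S16/GaussUnique.lean` with `N4.IrreducibleRat.isPrime_fibreIdeal_rat`.
-/
import Fermat.Agent.S16.GaussUnique
import Fermat.Agent.N4.IrreducibleRat
import Fermat.Agent.N4.FFAlgClosed
import Fermat.Agent.N4.OmegaBase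

set_option autoImplicit false
set_option linter.unusedSectionVars false

open ModularCurve Fermat.Agent.N4.Setting Fermat.Agent.N4F.E.GaussDVR
  Fermat.Agent.S28.LocalizedInt

noncomputable section

namespace Fermat.Agent.S16.GaussUniqueRat

open Fermat.Agent.S16.GaussUnique

variable (N : ℕ) [NeZero N] (ℓ : ℕ) [hℓ : Fact ℓ.Prime]

/-- **(∗) over `ℤ_(ℓ)`**: the special fibre of the finite chart is integral, `ℓ ∤ N`. -/
theorem isPrime_fibreIdeal_Rfin (hℓN : ¬ ℓ ∣ N) :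
    (fibreIdeal ℚ N (GaloisRep.ratLocalizedAt ℓ)
      (Rfin ℚ N (GaloisRep.ratLocalizedAt ℓ))).IsPrime :=
  (Fermat.Agent.N4.IrreducibleRat.isPrime_fibreIdeal_rat
    (fun K _ _ N _ x hx => Fermat.Agent.N4.FFAlgClosed.algebraic_mem_range K N x hx)
    (fun N _ hN => Fermat.Agent.N4.OmegaBase.exists_omega_base N hN) N ℓ hℓN).1

/-- Uniqueness of the extension of the `ℓ`-adic Gauss valuation of `ℚ(j)` to `FF ℚ N`, `ℓ ∤ N`. -/
theorem eq_gaussVS (hℓN : ¬ ℓ ∣ N) {V' : ValuationSubring (FF ℚ N)}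
    (hV : ExtendsGauss ℚ N (GaloisRep.ratLocalizedAt ℓ) V') :
    V' = gaussVS ℚ N (GaloisRep.ratLocalizedAt ℓ) :=
  hV.eq_gaussVS (isPrime_fibreIdeal_Rfin N ℓ hℓN)

end Fermat.Agent.S16.GaussUniqueRat
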