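/-
S16: the ABSTRACT two-cusp lemma (valuation-theoretic core of the two-cusp lemma `TC` and of the
level-`pr` "diamond" lemma `D`).

* `Gauss.exists_pow_smul_eq_of_mul_eq` : in `A((q))`, `A` a DVR with uniformiser `ϖ`: if
  `S * b = ϖ^t • a` with `b̄ ≠ 0` then `ϖ^t` divides `S` coefficientwise;
* `Gauss.exists_pow_smul_eq_of_mem_gaussRing` : if `y` lies in the Gauss ring of `Q((q))` and
  `ϖ^t · y = emb S`, then `ϖ^t` divides `S` coefficientwise;
* `exists_pow_smul_eq_of_map` : **abstract two-cusp lemma**.  Let `w` be a ring endomorphism of the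
  function field `FF K N` fixing `O` and sending `j` to an element of the Gauss ring with
  transcendental reduction (`(W)` of `S16/GaussUnique.lean`; e.g. the Fricke involution
  `j ↦ j(q^N)`), and assume (∗) (`𝔪_O Rfin` prime).  If `x ∈ FF K N` has `q`-expansion in the Gauss
  ring (e.g. with coefficients in `O`) and `ϖ^t · w x` has `q`-expansion `emb S`,
  `S ∈ O((q))`, then every coefficient of `S` is divisible by `ϖ^t`.
-/
import Fermat.Agent.S16.GaussUnique

set_option autoImplicit false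
set_option linter.unusedSectionVars false
set_option linter.style.haveILetI false

open ModularCurve Fermat.Agent.S28.Gauss Fermat.Agent.N4.Chart Fermat.Agent.N4.Setting
  Fermat.Agent.N4.FibreEmbedding Fermat.Agent.N4F.E.GaussDVR

noncomputable section

namespace Fermat.Agent.S16.TwoCusp

namespace Gauss

variable {A : Type*} [CommRing A] [IsDomain A] [IsDiscreteValuationRing A]
  (Q : Type*) [Field Q] [Algebra A Q] [IsFractionRing A Q]

omit [IsDiscreteValuationRing A] in
theorem smul_left_cancel {ϖ : A} (hϖ : ϖ ≠ 0) {a b : LaurentSeries A} (h : ϖ • a = ϖ • b) :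
    a = b := by
  ext n
  have h1 := congrArg (fun x : LaurentSeries A => x.coeff n) h
  simp only [HahnSeries.coeff_smul, smul_eq_mul] at h1
  exact mul_left_cancel₀ hϖ h1

/-- If `S * b = ϖ^t • a` with `b` of nonzero reduction, `ϖ^t` divides `S`. -/
theorem exists_pow_smul_eq_of_mul_eq {ϖ : A} (hϖ : Irreducible ϖ) (t : ℕ) :
    ∀ (S a b : LaurentSeries A), red A b ≠ 0 → S * b = ϖ ^ t • a →
      ∃ S' : LaurentSeries A, S = ϖ ^ t • S' := by
  induction t with
  | zero =>
    intro S a b _ _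
    exact ⟨S, by rw [pow_zero, one_smul]⟩
  | succ t ih =>
    intro S a b hb h
    have hred : red A S * red A b = 0 := by
      rw [← map_mul, h, pow_succ, mul_comm, mul_smul]
      exact red_eq_zero_of_smul hϖ _
    have hS : red A S = 0 := (mul_eq_zero.mp hred).resolve_right hb
    obtain ⟨S₁, rfl⟩ := exists_smul_eq_of_red_eq_zero hϖ hS
    have h1 : ϖ • (S₁ * b) = ϖ • (ϖ ^ t • a) := by
      rw [← HahnSeries.C_mul_eq_smul, ← mul_assoc, HahnSeries.C_mul_eq_smul, h, pow_succ, mul_comm,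
        mul_smul]
    obtain ⟨S', rfl⟩ := ih S₁ a b hb (smul_left_cancel hϖ.ne_zero h1)
    exact ⟨S', by rw [pow_succ, mul_comm, mul_smul]⟩

/-- If `y` lies in the Gauss ring and `ϖ^t · y` is (the image of) a series `S` over `A`, then `ϖ^t`
divides `S` coefficientwise. -/
theorem exists_pow_smul_eq_of_mem_gaussRing {ϖ : A} (hϖ : Irreducible ϖ) (t : ℕ)
    {y : LaurentSeries Q} (hy : y ∈ gaussRing A Q) {S : LaurentSeries A}
    (h : algebraMap A Q (ϖ ^ t) • y = emb A Q S) :
    ∃ S' : LaurentSeries A, S = ϖ ^ t • S' := by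
  obtain ⟨a, b, hb, hab⟩ := hy
  refine exists_pow_smul_eq_of_mul_eq hϖ t S a b hb ?_
  apply emb_injective Q
  rw [map_mul, ← h, ← HahnSeries.C_mul_eq_smul, mul_assoc, hab, HahnSeries.C_mul_eq_smul, emb_smul]

end Gauss

variable {K : Type} [Field K] [CharZero K] {N : ℕ} {O : Subring K} [IsDiscreteValuationRing ↥O]
  [IsFractionRing ↥O K]

/-- **Abstract two-cusp lemma.** -/
theorem exists_pow_smul_eq_of_map (hprime : (fibreIdeal K N O (Rfin K N O)).IsPrime)
    (w : FF K N →+* FF K N)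
    (hbase : ∀ a : ↥O, w (algebraMap ↥O (FF K N) a) = algebraMap ↥O (FF K N) a)
    (hj : w (jF K N) ∈ gaussSubalgebra K N O)
    (htr : Transcendental (IsLocalRing.ResidueField ↥O)
      (theta K N O (⟨w (jF K N), hj⟩ : gaussSubalgebra K N O)))
    {ϖ : ↥O} (hϖ : Irreducible ϖ) (t : ℕ)
    {x : FF K N} (hx : ((x : FF K N) : LaurentSeries K) ∈ gaussRing ↥O K)
    {S : LaurentSeries ↥O}
    (hS : algebraMap ↥O K (ϖ ^ t) • ((w x : FF K N) : LaurentSeries K) = emb ↥O K S) :
    ∃ S' : LaurentSeries ↥O, S = ϖ ^ t • S' := by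
  have hx' : x ∈ gaussVS K N O := (mem_gaussVS_iff K N O).mpr ((mem_gaussSubalgebra_iff K N O).mpr hx)
  have hwx : w x ∈ gaussVS K N O :=
    (Fermat.Agent.S16.GaussUnique.map_mem_gaussVS_iff hprime w hbase hj htr x).mpr hx'
  have hwx' : ((w x : FF K N) : LaurentSeries K) ∈ gaussRing ↥O K :=
    (mem_gaussSubalgebra_iff K N O).mp ((mem_gaussVS_iff K N O).mp hwx)
  exact Gauss.exists_pow_smul_eq_of_mem_gaussRing K hϖ t hwx' hS

/-- Variant: the `q`-expansion of `x` is (the image of) a series over `O`. -/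
theorem exists_pow_smul_eq_of_map_emb (hprime : (fibreIdeal K N O (Rfin K N O)).IsPrime)
    (w : FF K N →+* FF K N)
    (hbase : ∀ a : ↥O, w (algebraMap ↥O (FF K N) a) = algebraMap ↥O (FF K N) a)
    (hj : w (jF K N) ∈ gaussSubalgebra K N O)
    (htr : Transcendental (IsLocalRing.ResidueField ↥O)
      (theta K N O (⟨w (jF K N), hj⟩ : gaussSubalgebra K N O)))
    {ϖ : ↥O} (hϖ : Irreducible ϖ) (t : ℕ)
    {x : FF K N} {X : LaurentSeries ↥O} (hx : ((x : FF K N) : LaurentSeries K) = emb ↥O K X)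
    {S : LaurentSeries ↥O}
    (hS : algebraMap ↥O K (ϖ ^ t) • ((w x : FF K N) : LaurentSeries K) = emb ↥O K S) :
    ∃ S' : LaurentSeries ↥O, S = ϖ ^ t • S' :=
  exists_pow_smul_eq_of_map hprime w hbase hj htr hϖ t (by rw [hx]; exact emb_mem_gaussRing X) hS

end Fermat.Agent.S16.TwoCusp
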