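/-
S16 / [TC] (helper4): the pure power-series endgame of the two-cusp theorem.

`O = ℤ_(ℓ) = GaloisRep.ratLocalizedAt ℓ`, `μ = ℓ^t`.

* `ratio_mem_gaussRing` : for `u, e4, e6, d ∈ O⟦q⟧` with `e6(0) = 1`, `e4 - e6 = μ d`, the quotient
  `((1 + μ u) e4 - e6) / (μ e6)` lies in the Gauss ring of `ℚ((q))` (this is `x = (FF·E₄/E₆ - 1)/μ`).
* `dvd_constantCoeff_of_mem_gaussRing` : if `a'/b'` lies in the Gauss ring and
  `a' · (μ Dd) = b' · Nn` with `Nn, Dd ∈ O⟦q⟧`, `Dd(0)` a unit, then `μ ∣ Nn(0)` in `O`.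
* `pow_dvd_of_dvd_intCast` : `ℓ^t ∣ n` in `ℤ_(ℓ)` implies `ℓ^t ∣ n` in `ℤ`.
* `twoCusp_series` : the combination used by `[TC]`: `ℓ^t ∣ p + 1`.
-/
import Fermat.Agent.S16.TwoCusp
import Fermat.Agent.S28.LocalizedInt

set_option autoImplicit false
set_option linter.unusedSectionVars false
set_option linter.style.haveILetI false

open ModularCurve Fermat.Agent.S28.Gauss Fermat.Agent.S28.LocalizedInt

noncomputable section

namespace Fermat.Agent.S16.TwoCuspSeries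

variable (ℓ : ℕ) [hℓ : Fact ℓ.Prime]

local notation "O" => GaloisRep.ratLocalizedAt ℓ
local notation "ofQ" => HahnSeries.ofPowerSeries ℤ ℚ
set_option quotPrecheck false in
local notation "ofO" => HahnSeries.ofPowerSeries ℤ ↥(GaloisRep.ratLocalizedAt ℓ)
set_option quotPrecheck false in
local notation "ι" => algebraMap ↥(GaloisRep.ratLocalizedAt ℓ) ℚ

theorem emb_ofO (P : PowerSeries ↥O) : emb ↥O ℚ (ofO P) = ofQ (P.map ι) :=
  coeffMap_ofPowerSeries _ P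

theorem red_ofO_ne_zero {P : PowerSeries ↥O} (hP : PowerSeries.constantCoeff P = 1) :
    red ↥O (ofO P) ≠ 0 := by
  intro h
  have h1 := congrArg (fun x : LaurentSeries (IsLocalRing.ResidueField ↥O) => x.coeff 0) h
  simp only [red_coeff, HahnSeries.coeff_zero] at h1
  have h2 : (ofO P).coeff ((0 : ℕ) : ℤ) = PowerSeries.coeff 0 P :=
    HahnSeries.ofPowerSeries_apply_coeff P 0
  rw [Nat.cast_zero] at h2
  rw [h2, PowerSeries.coeff_zero_eq_constantCoeff_apply, hP, map_one] at h1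
  exact one_ne_zero h1

theorem ofQ_injective : Function.Injective (ofQ : PowerSeries ℚ → LaurentSeries ℚ) :=
  HahnSeries.ofPowerSeries_injective

theorem ell_ne_zero : (ℓ : ℚ) ≠ 0 := Nat.cast_ne_zero.mpr hℓ.out.ne_zero

/-- `x = ((1 + μ u) e4 - e6) / (μ e6)` lies in the Gauss ring. -/
theorem ratio_mem_gaussRing (t : ℕ) (u e4 e6 d : PowerSeries ↥O)
    (h6 : PowerSeries.constantCoeff e6 = 1) (hd : e4 - e6 = (ℓ : ↥O) ^ t • d)
    {a b : PowerSeries ℚ} (ha : a = ((1 + (ℓ : ↥O) ^ t • u) * e4 - e6).map ι)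
    (hb : b = ((ℓ : ↥O) ^ t • e6).map ι) :
    (ofQ a / ofQ b : LaurentSeries ℚ) ∈ gaussRing ↥O ℚ := by
  refine ⟨ofO (u * e4 + d), ofO e6, red_ofO_ne_zero ℓ h6, ?_⟩
  have h1 : (1 + (ℓ : ↥O) ^ t • u) * e4 - e6 = (ℓ : ↥O) ^ t • (u * e4 + d) := by
    rw [smul_add, ← hd, add_mul, one_mul, smul_mul_assoc]
    ring
  have hℓt : ((ℓ : ℚ) ^ t) ≠ 0 := pow_ne_zero _ (ell_ne_zero ℓ)
  have he6 : ofQ (e6.map ι) ≠ 0 := by
    rw [← emb_ofO]
    intro h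
    have := (emb_eq_zero_iff (A := ↥O) ℚ).mp h
    exact red_ofO_ne_zero ℓ h6 (by rw [this, map_zero])
  have hιℓ : ι ((ℓ : ↥O) ^ t) = (ℓ : ℚ) ^ t := by
    rw [map_pow, map_natCast]
  have hsm : ∀ P : PowerSeries ↥O, ofQ (((ℓ : ↥O) ^ t • P).map ι) =
      HahnSeries.C ((ℓ : ℚ) ^ t) * ofQ (P.map ι) := by
    intro P
    rw [PowerSeries.smul_eq_C_mul, map_mul, PowerSeries.map_C, hιℓ, map_mul,
      HahnSeries.ofPowerSeries_C]
  have hC : (HahnSeries.C ((ℓ : ℚ) ^ t) : LaurentSeries ℚ) ≠ 0 := by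
    intro h
    exact hℓt (HahnSeries.C_injective (h.trans (map_zero _).symm))
  rw [ha, hb, h1, hsm, hsm, emb_ofO, emb_ofO, mul_div_mul_left _ _ hC, div_mul_cancel₀ _ he6]

/-- If `y` lies in the Gauss ring and `y · (μ Dd) = Nn` with `Nn, Dd ∈ O⟦q⟧`, `Dd(0)` a unit, then
`μ ∣ Nn(0)`. -/
theorem dvd_constantCoeff_of_mem_gaussRing' (t : ℕ) {y : LaurentSeries ℚ}
    (hy : y ∈ gaussRing ↥O ℚ) (Nn Dd : PowerSeries ↥O)
    (hD : IsUnit (PowerSeries.constantCoeff Dd))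
    (hrel : y * ofQ (((ℓ : ↥O) ^ t • Dd).map ι) = ofQ (Nn.map ι)) :
    (ℓ : ↥O) ^ t ∣ PowerSeries.constantCoeff Nn := by
  obtain ⟨Di, hDi⟩ := (PowerSeries.isUnit_iff_constantCoeff.mpr hD).exists_right_inv
  have hιℓ : ι ((ℓ : ↥O) ^ t) = (ℓ : ℚ) ^ t := by
    rw [map_pow, map_natCast]
  have hS : algebraMap ↥O ℚ ((ℓ : ↥O) ^ t) • y = emb ↥O ℚ (ofO (Nn * Di)) := by
    rw [emb_ofO, map_mul, map_mul, ← hrel, PowerSeries.smul_eq_C_mul, map_mul, PowerSeries.map_C,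
      map_mul, HahnSeries.ofPowerSeries_C, ← HahnSeries.C_mul_eq_smul]
    have h1 : ofQ (Dd.map ι) * ofQ (Di.map ι) = 1 := by
      rw [← map_mul, ← map_mul, hDi, map_one, map_one]
    calc HahnSeries.C (ι ((ℓ : ↥O) ^ t)) * y
        = y * HahnSeries.C (ι ((ℓ : ↥O) ^ t)) * (ofQ (Dd.map ι) * ofQ (Di.map ι)) := by
          rw [h1, mul_one, mul_comm]
      _ = y * (HahnSeries.C (ι ((ℓ : ↥O) ^ t)) * ofQ (Dd.map ι)) * ofQ (Di.map ι) := by ring
  obtain ⟨S', hS'⟩ := Fermat.Agent.S16.TwoCusp.Gauss.exists_pow_smul_eq_of_mem_gaussRing ℚ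
    (irreducible_ell ℓ) t hy hS
  have h0 := congrArg (fun x : LaurentSeries ↥O => x.coeff ((0 : ℕ) : ℤ)) hS'
  simp only [HahnSeries.ofPowerSeries_apply_coeff, HahnSeries.coeff_smul, smul_eq_mul] at h0
  rw [PowerSeries.coeff_zero_eq_constantCoeff_apply, map_mul] at h0
  have h2 : PowerSeries.constantCoeff Dd * PowerSeries.constantCoeff Di = 1 := by
    rw [← map_mul, hDi, map_one]
  refine ⟨S'.coeff ((0 : ℕ) : ℤ) * PowerSeries.constantCoeff Dd, ?_⟩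
  calc PowerSeries.constantCoeff Nn
      = PowerSeries.constantCoeff Nn * PowerSeries.constantCoeff Di *
          PowerSeries.constantCoeff Dd := by
        rw [mul_assoc, mul_comm (PowerSeries.constantCoeff Di), h2, mul_one]
    _ = (ℓ : ↥O) ^ t * (S'.coeff ((0 : ℕ) : ℤ) * PowerSeries.constantCoeff Dd) := by
        rw [h0]; ring

/-- Cross-multiplied form for a quotient of two rational power series. -/
theorem dvd_constantCoeff_of_mem_gaussRing (t : ℕ) {a' b' : PowerSeries ℚ} (hb' : b' ≠ 0)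
    (hy : (ofQ a' / ofQ b' : LaurentSeries ℚ) ∈ gaussRing ↥O ℚ) (Nn Dd : PowerSeries ↥O)
    (hD : IsUnit (PowerSeries.constantCoeff Dd))
    (hrel : a' * ((ℓ : ↥O) ^ t • Dd).map ι = b' * Nn.map ι) :
    (ℓ : ↥O) ^ t ∣ PowerSeries.constantCoeff Nn := by
  refine dvd_constantCoeff_of_mem_gaussRing' ℓ t hy Nn Dd hD ?_
  have hb0 : ofQ b' ≠ 0 := fun h => hb' (ofQ_injective (h.trans (map_zero _).symm))
  rw [div_mul_eq_mul_div, div_eq_iff hb0, ← map_mul, hrel, map_mul, mul_comm]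

/-- Divisibility by `ℓ^t` of an integer in `ℤ_(ℓ)` descends to `ℤ`. -/
theorem pow_dvd_of_dvd_intCast (t : ℕ) (n : ℤ) (h : (ℓ : ↥O) ^ t ∣ ((n : ℤ) : ↥O)) :
    (ℓ : ℤ) ^ t ∣ n := by
  obtain ⟨r, hr⟩ := h
  have hℓt : ((ℓ : ℚ) ^ t) ≠ 0 := pow_ne_zero _ (ell_ne_zero ℓ)
  have h1 : (n : ℚ) = (ℓ : ℚ) ^ t * (r : ℚ) := by
    have := congrArg (fun x : ↥O => (x : ℚ)) hr
    simpa using this
  have hr' : (r : ℚ) = (n : ℚ) / ((ℓ ^ t : ℕ) : ℚ) := by
    rw [h1]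
    push_cast
    field_simp
  have hden : (r : ℚ).den ∣ ℓ ^ t := by
    have h2 : ((r : ℚ).den : ℤ) ∣ ((ℓ ^ t : ℕ) : ℤ) := by
      rw [hr']
      have := Rat.den_dvd n ((ℓ ^ t : ℕ) : ℤ)
      rw [Rat.divInt_eq_div] at this
      exact_mod_cast this
    exact_mod_cast h2
  have hcop : (r : ℚ).den.Coprime ℓ := (mem_ratLocalizedAt_iff ℓ (r : ℚ)).mp r.2
  have hden1 : (r : ℚ).den = 1 := by
    have h3 : (r : ℚ).den.Coprime (ℓ ^ t) := Nat.Coprime.pow_right t hcop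
    exact Nat.Coprime.eq_one_of_dvd h3 hden
  refine ⟨(r : ℚ).num, ?_⟩
  have h4 : ((r : ℚ).num : ℚ) = (r : ℚ) := (Rat.den_eq_one_iff _).mp hden1
  have h5 : (n : ℚ) = (((ℓ : ℤ) ^ t * (r : ℚ).num : ℤ) : ℚ) := by
    rw [h1]
    push_cast
    rw [h4]
  exact_mod_cast h5

/-- **Series endgame of the two-cusp theorem.**  `a, b` = `q`-expansions of `FF·E₄ - E₆`, `μ·E₆`;
`a', b'` any rational series with `a'/b' = [-(1 + μ u') e4p - p e6p] / (μ p e6p)`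
(cross-multiplied); if "`a/b` in the Gauss ring implies `a'/b'` in the Gauss ring" (Fricke), then
`ℓ^t ∣ p + 1`. -/
theorem twoCusp_series (p t : ℕ) (hℓp : ¬ ℓ ∣ p) (u u' e4 e6 d e4p e6p : PowerSeries ↥O)
    (h6 : PowerSeries.constantCoeff e6 = 1) (hd : e4 - e6 = (ℓ : ↥O) ^ t • d)
    (h4p : PowerSeries.constantCoeff e4p = 1) (h6p : PowerSeries.constantCoeff e6p = 1)
    {a b a' b' : PowerSeries ℚ} (ha : a = ((1 + (ℓ : ↥O) ^ t • u) * e4 - e6).map ι)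
    (hb : b = ((ℓ : ↥O) ^ t • e6).map ι) (hb' : b' ≠ 0)
    (hrel : a' * ((ℓ : ↥O) ^ t • ((p : ↥O) • e6p)).map ι =
      b' * (-((1 + (ℓ : ↥O) ^ t • u') * e4p) - (p : ↥O) • e6p).map ι)
    (hfricke : (ofQ a / ofQ b : LaurentSeries ℚ) ∈ gaussRing ↥O ℚ →
      (ofQ a' / ofQ b' : LaurentSeries ℚ) ∈ gaussRing ↥O ℚ) :
    ℓ ^ t ∣ p + 1 := by
  have hy := hfricke (ratio_mem_gaussRing ℓ t u e4 e6 d h6 hd ha hb)
  have hpunit : IsUnit (PowerSeries.constantCoeff ((p : ↥O) • e6p)) := by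
    rw [PowerSeries.smul_eq_C_mul, map_mul, PowerSeries.constantCoeff_C, h6p, mul_one]
    have hpO : ((p : ℚ))⁻¹ ∈ O := by
      rw [mem_ratLocalizedAt_iff]
      have hp0 : p ≠ 0 := by
        rintro rfl
        exact hℓp (dvd_zero _)
      have : ((p : ℚ))⁻¹.den = p := by
        simp [hp0]
      rw [this, Nat.coprime_comm, Nat.Prime.coprime_iff_not_dvd hℓ.out]
      exact hℓp
    refine isUnit_iff_exists_inv.mpr ⟨⟨_, hpO⟩, Subtype.ext ?_⟩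
    have hp0 : (p : ℚ) ≠ 0 := by
      intro h
      have : p = 0 := by exact_mod_cast h
      exact hℓp (this ▸ dvd_zero _)
    simp [hp0]
  have hdvd := dvd_constantCoeff_of_mem_gaussRing ℓ t hb' hy _ _ hpunit hrel
  have hconst : PowerSeries.constantCoeff
      (-((1 + (ℓ : ↥O) ^ t • u') * e4p) - (p : ↥O) • e6p) =
      -(((p + 1 : ℕ) : ℤ) : ↥O) - (ℓ : ↥O) ^ t * PowerSeries.constantCoeff u' := by
    rw [map_sub, map_neg, map_mul, map_add, map_one, h4p, mul_one,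
      PowerSeries.smul_eq_C_mul, map_mul, PowerSeries.constantCoeff_C,
      PowerSeries.smul_eq_C_mul, map_mul, PowerSeries.constantCoeff_C, h6p, mul_one]
    push_cast
    ring
  rw [hconst] at hdvd
  have h2 : (ℓ : ↥O) ^ t ∣ ((((p + 1 : ℕ) : ℤ)) : ↥O) := by
    have h3 : (ℓ : ↥O) ^ t ∣ (ℓ : ↥O) ^ t * PowerSeries.constantCoeff u' := dvd_mul_right _ _
    have h4 := (dvd_add hdvd h3)
    have h5 : -(((p + 1 : ℕ) : ℤ) : ↥O) - (ℓ : ↥O) ^ t * PowerSeries.constantCoeff u' +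
        (ℓ : ↥O) ^ t * PowerSeries.constantCoeff u' = -(((p + 1 : ℕ) : ℤ) : ↥O) := by ring
    rw [h5] at h4
    exact (dvd_neg).mp h4
  have h6' := pow_dvd_of_dvd_intCast ℓ t _ h2
  exact_mod_cast h6'

/-! ### The same statements for `ℓ`-integral rational power series -/

/-- `ℓ`-integrality of a rational power series: all coefficients lie in `ℤ_(ℓ)`. -/
def IntAt (P : PowerSeries ℚ) : Prop := ∀ n, PowerSeries.coeff n P ∈ GaloisRep.ratLocalizedAt ℓ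

theorem intAt_map (Po : PowerSeries ↥O) : IntAt ℓ (Po.map ι) := by
  intro n
  rw [PowerSeries.coeff_map]
  exact (PowerSeries.coeff n Po).2

theorem IntAt.exists_lift {P : PowerSeries ℚ} (h : IntAt ℓ P) :
    ∃ Po : PowerSeries ↥O, Po.map ι = P := by
  refine ⟨PowerSeries.mk fun n => ⟨PowerSeries.coeff n P, h n⟩, ?_⟩
  ext n
  rw [PowerSeries.coeff_map, PowerSeries.coeff_mk]
  rfl

theorem map_ι_injective : Function.Injective (PowerSeries.map ι) := by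
  intro P Q h
  ext n
  have := congrArg (PowerSeries.coeff n) h
  rw [PowerSeries.coeff_map, PowerSeries.coeff_map] at this
  exact this

theorem map_ι_smul (c : ↥O) (P : PowerSeries ↥O) :
    (c • P).map ι = ((c : ↥O) : ℚ) • P.map ι := by
  rw [PowerSeries.smul_eq_C_mul, map_mul, PowerSeries.map_C, PowerSeries.smul_eq_C_mul]
  rfl

theorem constantCoeff_lift {P : PowerSeries ℚ} {Po : PowerSeries ↥O} (h : Po.map ι = P)
    (c : PowerSeries.constantCoeff P = 1) : PowerSeries.constantCoeff Po = 1 := by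
  apply Subtype.ext
  have := congrArg PowerSeries.constantCoeff h
  rw [← PowerSeries.coeff_zero_eq_constantCoeff_apply, PowerSeries.coeff_map,
    PowerSeries.coeff_zero_eq_constantCoeff_apply, c] at this
  exact this

theorem IntAt.add {P Q : PowerSeries ℚ} (hP : IntAt ℓ P) (hQ : IntAt ℓ Q) : IntAt ℓ (P + Q) :=
  fun n => by rw [map_add]; exact add_mem (hP n) (hQ n)

theorem IntAt.neg {P : PowerSeries ℚ} (hP : IntAt ℓ P) : IntAt ℓ (-P) :=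
  fun n => by rw [map_neg]; exact neg_mem (hP n)

theorem IntAt.sub {P Q : PowerSeries ℚ} (hP : IntAt ℓ P) (hQ : IntAt ℓ Q) : IntAt ℓ (P - Q) :=
  fun n => by rw [map_sub]; exact sub_mem (hP n) (hQ n)

theorem IntAt.mul {P Q : PowerSeries ℚ} (hP : IntAt ℓ P) (hQ : IntAt ℓ Q) : IntAt ℓ (P * Q) := by
  obtain ⟨Po, rfl⟩ := hP.exists_lift
  obtain ⟨Qo, rfl⟩ := hQ.exists_lift
  rw [← map_mul]
  exact intAt_map ℓ _

theorem IntAt.one : IntAt ℓ 1 := by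
  have := intAt_map ℓ (1 : PowerSeries ↥O)
  rwa [map_one] at this

theorem IntAt.smul {c : ℚ} (hc : c ∈ GaloisRep.ratLocalizedAt ℓ) {P : PowerSeries ℚ}
    (hP : IntAt ℓ P) : IntAt ℓ (c • P) :=
  fun n => by
    rw [PowerSeries.coeff_smul, smul_eq_mul]
    exact mul_mem hc (hP n)

theorem intAt_intCast (Z : PowerSeries ℤ) : IntAt ℓ (Z.map (Int.castRingHom ℚ)) := by
  intro n
  rw [PowerSeries.coeff_map]
  exact intCast_mem _ _

theorem natCast_mem_O (n : ℕ) : (n : ℚ) ∈ GaloisRep.ratLocalizedAt ℓ :=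
  _root_.natCast_mem (GaloisRep.ratLocalizedAt ℓ) n

theorem ell_pow_mem_O (t : ℕ) : (ℓ : ℚ) ^ t ∈ GaloisRep.ratLocalizedAt ℓ :=
  pow_mem (natCast_mem_O ℓ ℓ) t

/-- **(S1)** `x = ((1 + μ u) e4 - e6) / (μ e6)` lies in the Gauss ring (`μ = ℓ^t`). -/
theorem hint_mem (t : ℕ) (u e4 e6 d : PowerSeries ℚ) (hu : IntAt ℓ u) (h4 : IntAt ℓ e4)
    (h6 : IntAt ℓ e6) (hd : IntAt ℓ d) (c6 : PowerSeries.constantCoeff e6 = 1)
    (h46 : e4 - e6 = ((ℓ : ℚ) ^ t) • d) :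
    (ofQ ((1 + ((ℓ : ℚ) ^ t) • u) * e4 - e6) / ofQ (((ℓ : ℚ) ^ t) • e6) : LaurentSeries ℚ) ∈
      gaussRing ↥O ℚ := by
  obtain ⟨uo, rfl⟩ := hu.exists_lift
  obtain ⟨e4o, rfl⟩ := h4.exists_lift
  obtain ⟨e6o, rfl⟩ := h6.exists_lift
  obtain ⟨d', rfl⟩ := hd.exists_lift
  have hℓ' : (((ℓ : ↥O) ^ t : ↥O) : ℚ) = (ℓ : ℚ) ^ t := by push_cast; rfl
  have c6' := constantCoeff_lift ℓ rfl c6
  have hd' : e4o - e6o = (ℓ : ↥O) ^ t • d' := by
    apply map_ι_injective ℓ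
    rw [map_sub, map_ι_smul, hℓ']
    exact h46
  refine ratio_mem_gaussRing ℓ t uo e4o e6o d' c6' hd' ?_ ?_
  · rw [map_sub, map_mul, map_add, map_one, map_ι_smul, hℓ']
  · rw [map_ι_smul, hℓ']

/-- **(S2)** If `[-(1 + μ u') E4p - p E6p] / (μ p E6p)` lies in the Gauss ring, then
`ℓ^t ∣ p + 1`. -/
theorem dvd_succ_of_mem (t p : ℕ) (hℓp : ¬ ℓ ∣ p) (u' E4p E6p : PowerSeries ℚ)
    (hu' : IntAt ℓ u') (h4 : IntAt ℓ E4p) (h6 : IntAt ℓ E6p)
    (c4 : PowerSeries.constantCoeff E4p = 1) (c6 : PowerSeries.constantCoeff E6p = 1)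
    (hmem : (ofQ (-((1 + ((ℓ : ℚ) ^ t) • u') * E4p) - (p : ℚ) • E6p) /
      ofQ ((((ℓ : ℚ) ^ t) * p) • E6p) : LaurentSeries ℚ) ∈ gaussRing ↥O ℚ) :
    ℓ ^ t ∣ p + 1 := by
  obtain ⟨uo, rfl⟩ := hu'.exists_lift
  obtain ⟨e4o, rfl⟩ := h4.exists_lift
  obtain ⟨e6o, rfl⟩ := h6.exists_lift
  have hℓ' : (((ℓ : ↥O) ^ t : ↥O) : ℚ) = (ℓ : ℚ) ^ t := by push_cast; rfl
  have hp' : (((p : ↥O) : ↥O) : ℚ) = (p : ℚ) := by push_cast; rfl
  have c4' := constantCoeff_lift ℓ rfl c4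
  have c6' := constantCoeff_lift ℓ rfl c6
  have hp0 : (p : ℚ) ≠ 0 := by
    intro h
    have : p = 0 := by exact_mod_cast h
    exact hℓp (this ▸ dvd_zero _)
  have hℓt : ((ℓ : ℚ) ^ t) ≠ 0 := pow_ne_zero _ (ell_ne_zero ℓ)
  -- the denominator is nonzero
  have hb' : ((((ℓ : ℚ) ^ t) * p) • e6o.map ι : PowerSeries ℚ) ≠ 0 := by
    intro h
    have h1 := congrArg PowerSeries.constantCoeff h
    rw [← PowerSeries.coeff_zero_eq_constantCoeff_apply, PowerSeries.coeff_smul,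
      PowerSeries.coeff_zero_eq_constantCoeff_apply, c6, smul_eq_mul, mul_one, map_zero] at h1
    exact mul_ne_zero hℓt hp0 h1
  refine twoCusp_series ℓ p t hℓp 0 uo 1 1 0 e4o e6o (map_one _) ?_ c4' c6'
    (a := 0) (b := ((ℓ : ℚ) ^ t) • 1) ?_ ?_ hb' ?_ (fun _ => hmem)
  · rw [sub_self, smul_zero]
  · rw [smul_zero, add_zero, one_mul, sub_self, map_zero]
  · rw [map_ι_smul, hℓ', map_one]
  · rw [map_ι_smul, map_ι_smul, hℓ', hp', map_sub, map_neg, map_mul, map_add, map_one,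
      map_ι_smul, map_ι_smul, hℓ', hp', smul_smul]
    ring

end Fermat.Agent.S16.TwoCuspSeries
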