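/-
S16 / [TC] (helper4), (S3): the bridge from the `ℂ`-side data (`EisCongData`, `q`-expansions of
`E₄`, `E₆`) to the `ℓ`-integral rational power series consumed by `S16/TwoCuspSeries.lean`.
-/
import Fermat.Agent.S16.TwoCuspSeries
import Fermat.Agent.S16.LInt
import Fermat.Agent.S16.EisCong
import Fermat.Agent.S16.SturmIntegral

set_option autoImplicit false
set_option linter.unusedSectionVars false

open ModularCurve PowerSeries ModularForm EisensteinSeries UpperHalfPlane MatrixGroups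
open Fermat.Agent.S16.TwoCuspSeries

noncomputable section

namespace Fermat.Agent.S16.TwoCuspInputs

local notation "toQ" => PowerSeries.map (Int.castRingHom ℚ)
local notation "QtoC" => PowerSeries.map (algebraMap ℚ ℂ)

/-! ### Complex series with `ℤ_(ℓ)`-coefficients come from rational series -/

section Descent

variable (ℓ : ℕ)

/-- A complex power series with coefficients in `ZLoc ℓ` is the image of an `ℓ`-integral rational
power series. -/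
theorem exists_rat_of_coeffsIn {U : PowerSeries ℂ}
    (hU : Fermat.Agent.S16.EisCong.CoeffsIn (Fermat.Agent.S16.LInt.ZLoc ℓ) U) :
    ∃ u : PowerSeries ℚ, IntAt ℓ u ∧ U = QtoC u := by
  have h : ∀ n, ∃ r : ℚ, r ∈ GaloisRep.ratLocalizedAt ℓ ∧ algebraMap ℚ ℂ r = coeff n U := by
    intro n
    obtain ⟨r, hr, hrU⟩ := hU n
    exact ⟨r, hr, hrU⟩
  choose r hr hrU using h
  refine ⟨PowerSeries.mk r, fun n => ?_, ?_⟩
  · rw [coeff_mk]
    exact hr n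
  · ext n
    rw [coeff_map, coeff_mk, hrU]

theorem coeffsIn_of_intAt {u : PowerSeries ℚ} (hu : IntAt ℓ u) :
    Fermat.Agent.S16.EisCong.CoeffsIn (Fermat.Agent.S16.LInt.ZLoc ℓ) (QtoC u) := by
  intro n
  rw [coeff_map]
  exact ⟨coeff n u, hu n, rfl⟩

theorem QtoC_injective : Function.Injective (QtoC : PowerSeries ℚ → PowerSeries ℂ) := by
  intro P Q h
  ext n
  have := congrArg (coeff n) h
  rw [coeff_map, coeff_map] at this
  exact (algebraMap ℚ ℂ).injective this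

theorem QtoC_toQ (Z : PowerSeries ℤ) : QtoC (toQ Z) = PowerSeries.map (Int.castRingHom ℂ) Z := by
  ext n
  simp only [coeff_map, eq_intCast, map_intCast]

theorem QtoC_smul (c : ℚ) (P : PowerSeries ℚ) : QtoC (c • P) = (c : ℂ) • QtoC P := by
  ext n
  simp only [coeff_map, coeff_smul, smul_eq_mul, map_mul, eq_ratCast]

end Descent

/-! ### The Eisenstein series `E₄`, `E₆` as rational power series -/

section Eisenstein

open Fermat.Agent.S16.SturmIntegral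

/-- `E₄ = 1 + 240 ∑ σ₃(n) qⁿ` over `ℚ`. -/
def e4Q : PowerSeries ℚ := toQ eisenstein4

/-- `E₆ = 1 - 504 ∑ σ₅(n) qⁿ` over `ℚ`. -/
def e6Q : PowerSeries ℚ := toQ eisenstein6Z

/-- `(E₄ - E₆)/24 = ∑ (10 σ₃(n) + 21 σ₅(n)) qⁿ` over `ℤ`. -/
def dZ : PowerSeries ℤ :=
  PowerSeries.mk fun n => if n = 0 then 0 else
    10 * ∑ d ∈ n.divisors, (d : ℤ) ^ 3 + 21 * (ArithmeticFunction.sigma 5 n : ℤ)

theorem eisenstein4_sub_eisenstein6Z : eisenstein4 - eisenstein6Z = C (24 : ℤ) * dZ := by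
  ext n
  rw [map_sub, coeff_C_mul, eisenstein4, eisenstein6Z, dZ, coeff_mk, coeff_mk, coeff_mk]
  by_cases hn : n = 0
  · simp [hn]
  · simp only [hn, if_false]
    ring

theorem constantCoeff_e4Q : constantCoeff e4Q = 1 := by
  rw [e4Q, ← coeff_zero_eq_constantCoeff_apply, coeff_map, coeff_zero_eq_constantCoeff_apply,
    constantCoeff_eisenstein4, map_one]

theorem constantCoeff_e6Q : constantCoeff e6Q = 1 := by
  rw [e6Q, ← coeff_zero_eq_constantCoeff_apply, coeff_map, coeff_zero_eq_constantCoeff_apply,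
    constantCoeff_eisenstein6Z, map_one]

theorem intAt_e4Q (ℓ : ℕ) [Fact ℓ.Prime] : IntAt ℓ e4Q := intAt_intCast ℓ _

theorem intAt_e6Q (ℓ : ℕ) [Fact ℓ.Prime] : IntAt ℓ e6Q := intAt_intCast ℓ _

theorem qExpansion_E₄_eq : qExpansion 1 E₄ = QtoC e4Q := by
  rw [e4Q, QtoC_toQ]
  exact Fermat.Agent.S24.QExp.qExpansion_E₄

theorem qExpansion_E₆_eq : qExpansion 1 E₆ = QtoC e6Q := by
  rw [e6Q, QtoC_toQ]
  exact Fermat.Agent.S16.SturmIntegral.qExpansion_E₆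

/-- `k · (E₄ - E₆)/24` over `ℚ`. -/
def dQ (k : ℕ) : PowerSeries ℚ := toQ (C (k : ℤ) * dZ)

theorem intAt_dQ (ℓ : ℕ) [Fact ℓ.Prime] (k : ℕ) : IntAt ℓ (dQ k) := intAt_intCast ℓ _

/-- `e4Q - e6Q = m • dQ k` whenever `m * k = 24`. -/
theorem e4Q_sub_e6Q (m k : ℕ) (hmk : m * k = 24) : e4Q - e6Q = (m : ℚ) • dQ k := by
  rw [e4Q, e6Q, dQ, ← map_sub, eisenstein4_sub_eisenstein6Z]
  ext n
  rw [coeff_map, coeff_C_mul, coeff_smul, coeff_map, coeff_C_mul]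
  have : ((m : ℚ) * (k : ℚ)) = 24 := by exact_mod_cast hmk
  simp only [eq_intCast, Int.cast_mul, Int.cast_natCast, Int.cast_ofNat, smul_eq_mul]
  rw [← mul_assoc, this]

/-- `ℓ = 3`, `t = 1`. -/
theorem e4Q_sub_e6Q_three : e4Q - e6Q = ((3 : ℕ) : ℚ) ^ 1 • dQ 8 := by
  have := e4Q_sub_e6Q 3 8 (by norm_num)
  rw [pow_one]
  exact this

/-- `ℓ = 2`, `t = 2`. -/
theorem e4Q_sub_e6Q_four : e4Q - e6Q = ((2 : ℕ) : ℚ) ^ 2 • dQ 6 := by
  have := e4Q_sub_e6Q 4 6 (by norm_num)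
  have h4 : ((4 : ℕ) : ℚ) = ((2 : ℕ) : ℚ) ^ 2 := by norm_num
  rw [h4] at this
  exact this

/-! ### The substitutions `X ↦ X^p` -/

variable (p : ℕ) (hp : p ≠ 0)

/-- `E₄(q^p)` over `ℚ`. -/
def e4Qp : PowerSeries ℚ := PowerSeries.expand p hp e4Q

/-- `E₆(q^p)` over `ℚ`. -/
def e6Qp : PowerSeries ℚ := PowerSeries.expand p hp e6Q

theorem intAt_expand (ℓ : ℕ) [Fact ℓ.Prime] {P : PowerSeries ℚ} (hP : IntAt ℓ P) :
    IntAt ℓ (PowerSeries.expand p hp P) := by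
  intro n
  rw [PowerSeries.coeff_expand]
  split_ifs
  · exact hP _
  · exact zero_mem _

theorem constantCoeff_expand {P : PowerSeries ℚ} :
    constantCoeff (PowerSeries.expand p hp P) = constantCoeff P := by
  rw [← coeff_zero_eq_constantCoeff_apply, PowerSeries.coeff_expand]
  simp

theorem intAt_e4Qp (ℓ : ℕ) [Fact ℓ.Prime] : IntAt ℓ (e4Qp p hp) :=
  intAt_expand p hp ℓ (intAt_e4Q ℓ)

theorem intAt_e6Qp (ℓ : ℕ) [Fact ℓ.Prime] : IntAt ℓ (e6Qp p hp) :=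
  intAt_expand p hp ℓ (intAt_e6Q ℓ)

theorem constantCoeff_e4Qp : constantCoeff (e4Qp p hp) = 1 := by
  rw [e4Qp, constantCoeff_expand, constantCoeff_e4Q]

theorem constantCoeff_e6Qp : constantCoeff (e6Qp p hp) = 1 := by
  rw [e6Qp, constantCoeff_expand, constantCoeff_e6Q]

theorem QtoC_expand (P : PowerSeries ℚ) :
    QtoC (PowerSeries.expand p hp P) = PowerSeries.expand p hp (QtoC P) := by
  ext n
  rw [coeff_map, PowerSeries.coeff_expand, PowerSeries.coeff_expand]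
  split_ifs
  · rw [coeff_map]
  · rw [map_zero]

theorem QtoC_e4Qp : QtoC (e4Qp p hp) = PowerSeries.expand p hp (qExpansion 1 E₄) := by
  rw [e4Qp, QtoC_expand, qExpansion_E₄_eq]

theorem QtoC_e6Qp : QtoC (e6Qp p hp) = PowerSeries.expand p hp (qExpansion 1 E₆) := by
  rw [e6Qp, QtoC_expand, qExpansion_E₆_eq]

end Eisenstein

/-! ### One-shot consumer form for the form side -/

section OneShot

open Fermat.Agent.S28.Gauss

local notation "ofQ" => HahnSeries.ofPowerSeries ℤ ℚ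

variable (ℓ : ℕ) [hℓ : Fact ℓ.Prime]

theorem ofQ_smul_div_smul {c : ℚ} (hc : c ≠ 0) (P Q : PowerSeries ℚ) :
    (ofQ (c • P) / ofQ (c • Q) : LaurentSeries ℚ) = ofQ P / ofQ Q := by
  have hC : (HahnSeries.C c : LaurentSeries ℚ) ≠ 0 := by
    intro h
    exact hc (HahnSeries.C_injective (h.trans (map_zero _).symm))
  rw [PowerSeries.smul_eq_C_mul, PowerSeries.smul_eq_C_mul, map_mul, map_mul,
    HahnSeries.ofPowerSeries_C, mul_div_mul_left _ _ hC]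

/-- **One-shot rational data for `[TC]`.**  From the two error series `U, U'` (coefficients in
`ZLoc ℓ`) of an `EisCongData p (ZLoc ℓ) ℓ t` with `ℓ^t · k = 24`, `ℓ ∤ p`, and any nonzero rational
normalisation constant `c`: rational power series `a, b, a', b'` whose images in `ℂ⟦X⟧` are the
`q`-expansions of `FF·E₄ - E₆`, `ℓ^t·E₆` and of `c` times the two `W`-transforms
`-(1 + ℓ^t U')·E₄(q^p) - p·E₆(q^p)`, `ℓ^t p·E₆(q^p)`, such that `a/b` lies in the Gauss ring, and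
such that `a'/b'` in the Gauss ring forces `ℓ^t ∣ p + 1`. -/
theorem exists_rat_data (t k p : ℕ) (hp : p ≠ 0) (htk : ℓ ^ t * k = 24) (hℓp : ¬ ℓ ∣ p)
    {U U' : PowerSeries ℂ}
    (hU : Fermat.Agent.S16.EisCong.CoeffsIn (Fermat.Agent.S16.LInt.ZLoc ℓ) U)
    (hU' : Fermat.Agent.S16.EisCong.CoeffsIn (Fermat.Agent.S16.LInt.ZLoc ℓ) U')
    (c : ℚ) (hc : c ≠ 0) :
    ∃ a b a' b' : PowerSeries ℚ,
      QtoC a = (1 + ((ℓ : ℂ) ^ t) • U) * qExpansion 1 E₄ - qExpansion 1 E₆ ∧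
      QtoC b = ((ℓ : ℂ) ^ t) • qExpansion 1 E₆ ∧
      QtoC a' = (c : ℂ) • (-((1 + ((ℓ : ℂ) ^ t) • U') * PowerSeries.expand p hp (qExpansion 1 E₄)) -
        (p : ℂ) • PowerSeries.expand p hp (qExpansion 1 E₆)) ∧
      QtoC b' = (c : ℂ) • ((((ℓ : ℂ) ^ t) * p) • PowerSeries.expand p hp (qExpansion 1 E₆)) ∧
      b ≠ 0 ∧ b' ≠ 0 ∧
      (ofQ a / ofQ b : LaurentSeries ℚ) ∈ gaussRing ↥(GaloisRep.ratLocalizedAt ℓ) ℚ ∧
      ((ofQ a' / ofQ b' : LaurentSeries ℚ) ∈ gaussRing ↥(GaloisRep.ratLocalizedAt ℓ) ℚ →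
        ℓ ^ t ∣ p + 1) := by
  obtain ⟨u, hu, rfl⟩ := exists_rat_of_coeffsIn ℓ hU
  obtain ⟨u', hu', rfl⟩ := exists_rat_of_coeffsIn ℓ hU'
  have hℓ0 : (ℓ : ℚ) ≠ 0 := Nat.cast_ne_zero.mpr hℓ.out.ne_zero
  have hℓt : ((ℓ : ℚ) ^ t) ≠ 0 := pow_ne_zero _ hℓ0
  have hp0 : (p : ℚ) ≠ 0 := Nat.cast_ne_zero.mpr hp
  have hd : e4Q - e6Q = ((ℓ : ℚ) ^ t) • dQ k := by
    have := e4Q_sub_e6Q (ℓ ^ t) k htk
    rw [Nat.cast_pow] at this
    exact this
  have hcast : (((ℓ : ℚ) ^ t : ℚ) : ℂ) = (ℓ : ℂ) ^ t := by push_cast; rfl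
  have hne : ∀ (r : ℚ) (hr : r ≠ 0) (P : PowerSeries ℚ), constantCoeff P = 1 → r • P ≠ 0 := by
    intro r hr P hP h
    have h1 := congrArg constantCoeff h
    rw [← coeff_zero_eq_constantCoeff_apply, coeff_smul, coeff_zero_eq_constantCoeff_apply, hP,
      smul_eq_mul, mul_one, map_zero] at h1
    exact hr h1
  refine ⟨(1 + ((ℓ : ℚ) ^ t) • u) * e4Q - e6Q, ((ℓ : ℚ) ^ t) • e6Q,
    c • (-((1 + ((ℓ : ℚ) ^ t) • u') * e4Qp p hp) - (p : ℚ) • e6Qp p hp),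
    c • ((((ℓ : ℚ) ^ t) * p) • e6Qp p hp), ?_, ?_, ?_, ?_, ?_, ?_, ?_, ?_⟩
  · rw [map_sub, map_mul, map_add, map_one, QtoC_smul, hcast, qExpansion_E₄_eq, qExpansion_E₆_eq]
  · rw [QtoC_smul, hcast, qExpansion_E₆_eq]
  · rw [QtoC_smul, map_sub, map_neg, map_mul, map_add, map_one, QtoC_smul, QtoC_smul, hcast,
      QtoC_e4Qp, QtoC_e6Qp]
    rfl
  · rw [QtoC_smul, QtoC_smul, QtoC_e6Qp]
    push_cast
    rfl
  · exact hne _ hℓt _ constantCoeff_e6Q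
  · rw [smul_smul]
    exact hne _ (mul_ne_zero hc (mul_ne_zero hℓt hp0)) _ (constantCoeff_e6Qp p hp)
  · exact hint_mem ℓ t u e4Q e6Q (dQ k) hu (intAt_e4Q ℓ) (intAt_e6Q ℓ) (intAt_dQ ℓ k)
      constantCoeff_e6Q hd
  · intro hmem
    rw [ofQ_smul_div_smul hc] at hmem
    exact dvd_succ_of_mem ℓ t p hℓp u' (e4Qp p hp) (e6Qp p hp) hu' (intAt_e4Qp p hp ℓ)
      (intAt_e6Qp p hp ℓ) (constantCoeff_e4Qp p hp) (constantCoeff_e6Qp p hp) hmem

end OneShot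

end Fermat.Agent.S16.TwoCuspInputs
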