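/-
S16, block [TC] (helper11): the two-cusp theorem in `EisCong` form, form side.

`FF ∈ M_2(Γ₀(p))` with `expInf FF = 1 + ℓ^t u`, `(-p)·expZero FF = 1 + ℓ^t u'` (`u, u'` with
`ℓ`-integral coefficients), `ℓ ≠ p`, `ℓ^t ∣ 240`, `ℓ^t ∣ 504`  ⇒  `ℓ^t ∣ p + 1`.

Route: `A := FF·E₄ − E₆`, `B := ℓ^t·E₆` (weight 6), `A' := G·E₄(p·) − p·E₆(p·)`,
`B' := ℓ^t p·E₆(p·)` with `G := FF|w_p`; `A'/B' = (A/B)∘W_p`; `A/B` has `ℓ`-integral `q`-expansion,
hence (helper16's `fricke_gauss`, i.e. the `q`-expansion principle for the Fricke involution)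
so has `A'/B'`, whose constant term is `−(1+p)/(ℓ^t p)`.
-/
import Mathlib
import Fermat.Agent.S16.Bridge.SlashW
import Fermat.Agent.S16.AtkinLehnerS
import Fermat.Agent.S16.EisCong
import Fermat.Agent.S16.LInt
import Fermat.Agent.S16.SturmIntegral
import Fermat.Agent.S24.QExpScale
import Fermat.Agent.M2F.LevelRaise
import Fermat.Agent.S16.TwoCuspInputs

set_option autoImplicit false
set_option linter.unusedSectionVars false
set_option linter.style.haveILetI false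

open UpperHalfPlane ModularForm MatrixGroups CongruenceSubgroup
open Fermat.Agent.M2 Fermat.Agent.M2F Fermat.Agent.S24.QExp Fermat.Agent.S16.Bridge
open Fermat.Agent.S16.AtkinLehnerU
open scoped Manifold Topology ModularForm

noncomputable section

namespace Fermat.Agent.S16.TwoCuspForms

/-! ### `IsFormLike`: sums and scalar multiples -/

section FormLike

variable {Γ : Subgroup SL(2, ℤ)} {k : ℤ} {F G : ℍ → ℂ}

theorem isFormLike_add (hF : IsFormLike Γ k F) (hG : IsFormLike Γ k G) :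
    IsFormLike Γ k (F + G) := by
  refine ⟨hF.mdiff.add hG.mdiff, fun γ hγ z => ?_, fun δ => ?_⟩
  · simp only [Pi.add_apply]
    rw [hF.slash γ hγ z, hG.slash γ hγ z]
    ring
  · have := (hF.bdd δ).add (hG.bdd δ)
    have e : (fun z : ℍ => (F + G) (δ • z) * denom δ z ^ (-k)) =
        (fun z : ℍ => F (δ • z) * denom δ z ^ (-k)) + fun z : ℍ => G (δ • z) * denom δ z ^ (-k) := by
      funext z
      simp only [Pi.add_apply]
      ring
    rw [e]
    exact this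

theorem isFormLike_const_smul (c : ℂ) (hF : IsFormLike Γ k F) : IsFormLike Γ k (c • F) := by
  refine ⟨hF.mdiff.const_smul c, fun γ hγ z => ?_, fun δ => ?_⟩
  · simp only [Pi.smul_apply, smul_eq_mul]
    rw [hF.slash γ hγ z]
    ring
  · have := (hF.bdd δ).const_smul_left c
    have e : (fun z : ℍ => (c • F) (δ • z) * denom δ z ^ (-k)) =
        c • fun z : ℍ => F (δ • z) * denom δ z ^ (-k) := by
      funext z
      simp only [Pi.smul_apply, smul_eq_mul]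
      ring
    rw [e]
    exact this

theorem isFormLike_neg (hF : IsFormLike Γ k F) : IsFormLike Γ k (-F) := by
  have := isFormLike_const_smul (-1 : ℂ) hF
  simpa using this

theorem isFormLike_sub (hF : IsFormLike Γ k F) (hG : IsFormLike Γ k G) :
    IsFormLike Γ k (F - G) := by
  rw [sub_eq_add_neg]
  exact isFormLike_add hF (isFormLike_neg hG)

end FormLike

/-! ### Level-one forms at `N z` -/

section LevelOne

variable (N : ℕ) [NeZero N] {k : ℤ} {F : ℍ → ℂ}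

theorem heckeDiag_smul_eq_scaleH (z : ℍ) : heckeDiagMatrix N • z = JN.scaleH N z := by
  apply UpperHalfPlane.ext
  rw [Fermat.Agent.M2F.LevelRaise.coe_heckeDiag_smul, JN.coe_scaleH]

/-- `z ↦ F (N z)` is form-like of level `Γ₀(N)` for a level-one form `F`. -/
theorem isFormLike_comp_scaleH (hF : IsMF ⊤ k F) :
    IsFormLike (Gamma0 N) k (F ∘ JN.scaleH N) := by
  have h := Fermat.Agent.M2F.LevelRaise.isMF_slash_heckeDiag N hF
  have hN : (N : ℂ) ≠ 0 := Nat.cast_ne_zero.mpr (NeZero.ne N)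
  have e : F ∘ JN.scaleH N = (((N : ℂ) ^ (k - 1))⁻¹) • (F ∣[k] heckeDiagMatrix N) := by
    funext z
    simp only [Function.comp_apply, Pi.smul_apply, smul_eq_mul]
    rw [Fermat.Agent.M2F.LevelRaise.slash_heckeDiag_apply, heckeDiag_smul_eq_scaleH,
      ← mul_assoc, inv_mul_cancel₀ (zpow_ne_zero _ hN), one_mul]
  rw [e]
  exact isFormLike_const_smul _ (IsFormLike.ofModularForm (h.toModularForm (Gamma0 N) k))

/-- a level-one form is form-like of every level -/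
theorem isFormLike_of_isMF_top (Γ : Subgroup SL(2, ℤ)) (hF : IsMF ⊤ k F) : IsFormLike Γ k F := by
  have h : IsFormLike ⊤ k F := by
    have := IsFormLike.ofModularForm (Γ := ⊤) ((hF.toModularForm ⊤ k))
    exact this
  exact h.mono le_top

/-- `F(-1/(N z)) = (N z)^k F(N z)` for a level-one form. -/
theorem levelOne_wH (hF : IsMF ⊤ k F) (z : ℍ) :
    F (wH N z) = ((N : ℂ) * z) ^ k * F (JN.scaleH N z) := by
  have h := (isFormLike_of_isMF_top ⊤ hF).slash ModularGroup.S (Subgroup.mem_top _) (JN.scaleH N z)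
  have hd : denom ModularGroup.S (JN.scaleH N z) = (N : ℂ) * z := by
    rw [ModularGroup.denom_S, JN.coe_scaleH]
  rw [hd] at h
  exact h

theorem isHol_of_isMF_top (hF : IsMF ⊤ k F) : IsHol F :=
  IsHol.ofModularForm (toLevelOne hF)

/-- `q`-expansion of `z ↦ F (N z)`. -/
theorem qExpansion_comp_scaleH (hF : IsHol F) :
    qExpansion 1 (F ∘ JN.scaleH N) = PowerSeries.expand N (NeZero.ne N) (qExpansion 1 F) := by
  ext n
  rw [qExpansion_comp_scaleH_coeff N hF, PowerSeries.coeff_expand]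

end LevelOne

/-! ### The Fricke transform of `(FF·E₄ − E₆) / (μ E₆)` -/

section Main

open Fermat.Agent.S28.Gauss Fermat.Agent.S16.EisCong Fermat.Agent.S16.AtkinLehnerS

local notation "ofQ" => HahnSeries.ofPowerSeries ℤ ℚ
local notation "toC" => PowerSeries.map (algebraMap ℚ ℂ)

theorem map_smul_toC (c : ℚ) (P : PowerSeries ℚ) : toC (c • P) = (c : ℂ) • toC P := by
  ext n
  simp [PowerSeries.coeff_map]

theorem toC_injective : Function.Injective (toC : PowerSeries ℚ → PowerSeries ℂ) := by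
  intro P Q h
  ext n
  have := congrArg (PowerSeries.coeff n) h
  rw [PowerSeries.coeff_map, PowerSeries.coeff_map] at this
  exact (algebraMap ℚ ℂ).injective this

variable (p : ℕ) [hp : Fact p.Prime]

/-- `q`-expansion of `FF|w_p = −U_p FF` from the expansion of `FF` at the cusp `0`. -/
theorem qExpansion_slashW_two (FF : ModularForm (Gamma0 p) 2) (X' : PowerSeries ℂ)
    (hx' : (-(p : ℂ)) • expZero p 2 ⇑FF = X') :
    haveI : NeZero p := ⟨hp.out.ne_zero⟩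
    qExpansion 1 ⇑(slashW p FF) = -X' := by
  haveI : NeZero p := ⟨hp.out.ne_zero⟩
  have hpc : (p : ℂ) ≠ 0 := Nat.cast_ne_zero.mpr hp.out.ne_zero
  have hT := T_mem_Gamma0 p
  have hG : IsHol ⇑(slashW p FF) := (IsFormLike.ofModularForm (slashW p FF)).isHol hT
  have hGH : heckeU 2 p ⇑FF = -⇑(slashW p FF) := by
    rw [show ⇑(slashW p FF) = ⇑FF ∣[(2 : ℤ)] wP p from rfl, slash_wP_eq_neg_heckeU, neg_neg]
  have h1 : expZero p 2 ⇑FF = (-(p : ℂ)⁻¹) • qExpansion 1 (heckeU 2 p ⇑FF) :=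
    qExpansion_slash_S p FF
  rw [h1, smul_smul, hGH, UpperHalfPlane.qExpansion_neg hG.analyticAt] at hx'
  have h2 : -(p : ℂ) * -(p : ℂ)⁻¹ = 1 := by field_simp
  rw [h2, one_smul] at hx'
  rw [← hx', neg_neg]

/-- **The `q`-expansion principle for the Fricke involution, applied to
`(FF·E₄ − E₆)/(μ E₆)`.** -/
theorem fricke_ratio_mem (ℓ : ℕ) [Fact ℓ.Prime] (hℓp : ¬ ℓ ∣ p) (FF : ModularForm (Gamma0 p) 2)
    (μ : ℚ) (hμ : μ ≠ 0) (x x' e4 e6 : PowerSeries ℚ)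
    (hx : qExpansion 1 ⇑FF = toC x)
    (hx' : (-(p : ℂ)) • expZero p 2 ⇑FF = toC x')
    (h4 : qExpansion 1 (E₄ : ℍ → ℂ) = toC e4) (h6 : qExpansion 1 (E₆ : ℍ → ℂ) = toC e6)
    (c6 : PowerSeries.constantCoeff e6 = 1)
    (hint : (ofQ (x * e4 - e6) / ofQ (μ • e6) : LaurentSeries ℚ) ∈
      gaussRing ↥(GaloisRep.ratLocalizedAt ℓ) ℚ) :
    (ofQ (-(x' * PowerSeries.expand p hp.out.ne_zero e4) -
        (p : ℚ) • PowerSeries.expand p hp.out.ne_zero e6) /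
      ofQ ((μ * p) • PowerSeries.expand p hp.out.ne_zero e6) : LaurentSeries ℚ) ∈
      gaussRing ↥(GaloisRep.ratLocalizedAt ℓ) ℚ := by
  haveI : NeZero p := ⟨hp.out.ne_zero⟩
  have hp0 : p ≠ 0 := hp.out.ne_zero
  have hpc : (p : ℂ) ≠ 0 := Nat.cast_ne_zero.mpr hp0
  have hμc : (μ : ℂ) ≠ 0 := Rat.cast_ne_zero.mpr hμ
  have hT := T_mem_Gamma0 p
  -- form-likeness
  have fFF : IsFormLike (Gamma0 p) 2 ⇑FF := IsFormLike.ofModularForm FF
  have fG : IsFormLike (Gamma0 p) 2 ⇑(slashW p FF) := IsFormLike.ofModularForm (slashW p FF)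
  have f4 : IsFormLike (Gamma0 p) 4 (E₄ : ℍ → ℂ) := isFormLike_of_isMF_top _ isMF_E₄
  have f6 : IsFormLike (Gamma0 p) 6 (E₆ : ℍ → ℂ) := isFormLike_of_isMF_top _ isMF_E₆
  have f4p : IsFormLike (Gamma0 p) 4 ((E₄ : ℍ → ℂ) ∘ JN.scaleH p) :=
    isFormLike_comp_scaleH p isMF_E₄
  have f6p : IsFormLike (Gamma0 p) 6 ((E₆ : ℍ → ℂ) ∘ JN.scaleH p) :=
    isFormLike_comp_scaleH p isMF_E₆
  have w6 : ((6 : ℕ) : ℤ) = 6 := by norm_num
  have w24 : (2 : ℤ) + 4 = ((6 : ℕ) : ℤ) := by norm_num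
  have hA : IsFormLike (Gamma0 p) ((6 : ℕ) : ℤ) (⇑FF * (E₄ : ℍ → ℂ) - (E₆ : ℍ → ℂ)) :=
    isFormLike_sub ((fFF.mul f4).congr_weight w24) (f6.congr_weight w6.symm)
  have hB : IsFormLike (Gamma0 p) ((6 : ℕ) : ℤ) ((μ : ℂ) • (E₆ : ℍ → ℂ)) :=
    isFormLike_const_smul _ (f6.congr_weight w6.symm)
  have hA' : IsFormLike (Gamma0 p) ((6 : ℕ) : ℤ)
      (⇑(slashW p FF) * ((E₄ : ℍ → ℂ) ∘ JN.scaleH p) - (p : ℂ) • ((E₆ : ℍ → ℂ) ∘ JN.scaleH p)) :=
    isFormLike_sub ((fG.mul f4p).congr_weight w24)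
      (isFormLike_const_smul _ (f6p.congr_weight w6.symm))
  have hB' : IsFormLike (Gamma0 p) ((6 : ℕ) : ℤ)
      (((μ : ℂ) * p) • ((E₆ : ℍ → ℂ) ∘ JN.scaleH p)) :=
    isFormLike_const_smul _ (f6p.congr_weight w6.symm)
  -- holomorphy at infinity
  have iFF : IsHol ⇑FF := fFF.isHol hT
  have iG : IsHol ⇑(slashW p FF) := fG.isHol hT
  have i4 : IsHol (E₄ : ℍ → ℂ) := isHol_of_isMF_top isMF_E₄
  have i6 : IsHol (E₆ : ℍ → ℂ) := isHol_of_isMF_top isMF_E₆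
  have i4p : IsHol ((E₄ : ℍ → ℂ) ∘ JN.scaleH p) := i4.comp_scaleH p
  have i6p : IsHol ((E₆ : ℍ → ℂ) ∘ JN.scaleH p) := i6.comp_scaleH p
  -- `q`-expansions
  have qG : qExpansion 1 ⇑(slashW p FF) = -toC x' := qExpansion_slashW_two p FF _ hx'
  have q4p : qExpansion 1 ((E₄ : ℍ → ℂ) ∘ JN.scaleH p) = toC (PowerSeries.expand p hp0 e4) := by
    rw [qExpansion_comp_scaleH p i4, h4, PowerSeries.map_expand]
  have q6p : qExpansion 1 ((E₆ : ℍ → ℂ) ∘ JN.scaleH p) = toC (PowerSeries.expand p hp0 e6) := by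
    rw [qExpansion_comp_scaleH p i6, h6, PowerSeries.map_expand]
  have ha : HasRatQ (⇑FF * (E₄ : ℍ → ℂ) - (E₆ : ℍ → ℂ)) (x * e4 - e6) := by
    show qExpansion 1 _ = _
    rw [UpperHalfPlane.qExpansion_sub (iFF.mul i4).analyticAt i6.analyticAt,
      iFF.qExpansion_mul i4, hx, h4, h6, map_sub, map_mul]
  have hb : HasRatQ ((μ : ℂ) • (E₆ : ℍ → ℂ)) (μ • e6) := by
    show qExpansion 1 _ = _
    rw [UpperHalfPlane.qExpansion_smul i6.analyticAt, h6, map_smul_toC]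
  have ha' : HasRatQ
      (⇑(slashW p FF) * ((E₄ : ℍ → ℂ) ∘ JN.scaleH p) - (p : ℂ) • ((E₆ : ℍ → ℂ) ∘ JN.scaleH p))
      (-(x' * PowerSeries.expand p hp0 e4) - (p : ℚ) • PowerSeries.expand p hp0 e6) := by
    show qExpansion 1 _ = _
    have i6p' : IsHol ((p : ℂ) • ((E₆ : ℍ → ℂ) ∘ JN.scaleH p)) := by
      have := (IsHol.const (p : ℂ)).mul i6p
      exact this
    rw [UpperHalfPlane.qExpansion_sub (iG.mul i4p).analyticAt i6p'.analyticAt,
      iG.qExpansion_mul i4p, UpperHalfPlane.qExpansion_smul i6p.analyticAt, qG, q4p, q6p,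
      map_sub, map_neg, map_mul, map_smul_toC]
    simp
  have hb' : HasRatQ (((μ : ℂ) * p) • ((E₆ : ℍ → ℂ) ∘ JN.scaleH p))
      ((μ * p) • PowerSeries.expand p hp0 e6) := by
    show qExpansion 1 _ = _
    rw [UpperHalfPlane.qExpansion_smul i6p.analyticAt, q6p, map_smul_toC]
    simp
  -- nonvanishing of the denominators
  have hB0 : ((μ : ℂ) • (E₆ : ℍ → ℂ)) ≠ 0 := by
    intro h0
    have h1 : qExpansion 1 ((μ : ℂ) • (E₆ : ℍ → ℂ)) = toC (μ • e6) := hb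
    rw [h0, UpperHalfPlane.qExpansion_zero] at h1
    have h2 := congrArg PowerSeries.constantCoeff
      (toC_injective (h1.symm.trans (map_zero (PowerSeries.map (algebraMap ℚ ℂ))).symm))
    rw [← PowerSeries.coeff_zero_eq_constantCoeff_apply, PowerSeries.coeff_smul,
      PowerSeries.coeff_zero_eq_constantCoeff_apply, c6, map_zero, smul_eq_mul, mul_one] at h2
    exact hμ h2
  have hB'0 : (((μ : ℂ) * p) • ((E₆ : ℍ → ℂ) ∘ JN.scaleH p)) ≠ 0 := by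
    intro h0
    have h1 : qExpansion 1 (((μ : ℂ) * p) • ((E₆ : ℍ → ℂ) ∘ JN.scaleH p)) =
        toC ((μ * p) • PowerSeries.expand p hp0 e6) := hb'
    rw [h0, UpperHalfPlane.qExpansion_zero] at h1
    have h2 := congrArg PowerSeries.constantCoeff
      (toC_injective (h1.symm.trans (map_zero (PowerSeries.map (algebraMap ℚ ℂ))).symm))
    rw [← PowerSeries.coeff_zero_eq_constantCoeff_apply, PowerSeries.coeff_smul,
      PowerSeries.coeff_zero_eq_constantCoeff_apply, PowerSeries.constantCoeff_expand, c6,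
      map_zero, smul_eq_mul, mul_one] at h2
    have hpq : (p : ℚ) ≠ 0 := Nat.cast_ne_zero.mpr hp0
    exact (mul_ne_zero hμ hpq) h2
  -- the cross-multiplied Fricke identity
  have hcross : ∀ z : ℍ,
      (⇑(slashW p FF) * ((E₄ : ℍ → ℂ) ∘ JN.scaleH p) -
        (p : ℂ) • ((E₆ : ℍ → ℂ) ∘ JN.scaleH p)) z * ((μ : ℂ) • (E₆ : ℍ → ℂ)) (wH p z) =
      (((μ : ℂ) * p) • ((E₆ : ℍ → ℂ) ∘ JN.scaleH p)) z *
        (⇑FF * (E₄ : ℍ → ℂ) - (E₆ : ℍ → ℂ)) (wH p z) := by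
    intro z
    have hz : (z : ℂ) ≠ 0 := z.ne_zero
    have hw : (p : ℂ) * z ≠ 0 := mul_ne_zero hpc hz
    have hGz : (slashW p FF) z = FF (wH p z) * (p : ℂ) ^ ((2 : ℤ) - 1) * ((p : ℂ) * z) ^ (-(2 : ℤ)) :=
      slash_wP_apply p 2 ⇑FF z
    have h4z := levelOne_wH p isMF_E₄ z
    have h6z := levelOne_wH p isMF_E₆ z
    simp only [Pi.mul_apply, Pi.sub_apply, Pi.smul_apply, Function.comp_apply, smul_eq_mul]
    rw [h4z, h6z, hGz]
    have e1 : (p : ℂ) ^ ((2 : ℤ) - 1) = p := by norm_num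
    have e2 : ((p : ℂ) * z) ^ (-(2 : ℤ)) = (((p : ℂ) * z) ^ 2)⁻¹ := by
      rw [zpow_neg]; norm_cast
    have e3 : ((p : ℂ) * z) ^ (4 : ℤ) = ((p : ℂ) * z) ^ 4 := by norm_cast
    have e4' : ((p : ℂ) * z) ^ (6 : ℤ) = ((p : ℂ) * z) ^ 6 := by norm_cast
    rw [e1, e2, e3, e4']
    field_simp
  exact fricke_gauss ℓ hℓp hA hB hA' hB' hB0 hB'0 ha hb ha' hb' hcross hint

end Main

/-! ### The two-cusp theorem in `EisCong` form -/

section Final

open Fermat.Agent.S28.Gauss Fermat.Agent.S16.EisCong Fermat.Agent.S16.LInt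
open Fermat.Agent.S16.TwoCuspSeries Fermat.Agent.S16.TwoCuspInputs

local notation "toC" => PowerSeries.map (algebraMap ℚ ℂ)

variable (p : ℕ) [hp : Fact p.Prime]

/-- **Two-cusp theorem.**  If `FF ∈ M_2(Γ₀(p))` is `≡ 1` at `∞` and `≡ -1/p` at `0` modulo `ℓ^t`
(`ℓ ≠ p`, `ℓ^t ∣ 24`), then `ℓ^t ∣ p + 1`. -/
theorem dvd_succ_of_eisCongData (ℓ t k : ℕ) [hℓ : Fact ℓ.Prime] (hℓp : ¬ ℓ ∣ p)
    (htk : ℓ ^ t * k = 24) (D : EisCongData p (ZLoc ℓ) ℓ t) : ℓ ^ t ∣ p + 1 := by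
  have hp0 : p ≠ 0 := hp.out.ne_zero
  obtain ⟨u, hu, hUu⟩ := exists_rat_of_coeffsIn ℓ D.hu
  obtain ⟨u', hu', hUu'⟩ := exists_rat_of_coeffsIn ℓ D.hu'
  have hμ : ((ℓ : ℚ) ^ t) ≠ 0 := pow_ne_zero _ (Nat.cast_ne_zero.mpr hℓ.out.ne_zero)
  have hcast : (((ℓ : ℚ) ^ t : ℚ) : ℂ) = (ℓ : ℂ) ^ t := by push_cast; rfl
  have h46 : e4Q - e6Q = ((ℓ : ℚ) ^ t) • dQ k := by
    have := e4Q_sub_e6Q (ℓ ^ t) k htk
    rw [this]
    push_cast
    rfl
  have hint := hint_mem ℓ t u e4Q e6Q (dQ k) hu (intAt_e4Q ℓ) (intAt_e6Q ℓ) (intAt_dQ ℓ k)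
    constantCoeff_e6Q h46
  have hx : qExpansion 1 ⇑D.FF = toC (1 + ((ℓ : ℚ) ^ t) • u) := by
    have := D.expInf_eq
    rw [expInf_def] at this
    rw [this, map_add, map_one, QtoC_smul, hcast, hUu]
  have hx' : (-(p : ℂ)) • expZero p 2 ⇑D.FF = toC (1 + ((ℓ : ℚ) ^ t) • u') := by
    rw [D.expZero_eq, map_add, map_one, QtoC_smul, hcast, hUu']
  have hmem := fricke_ratio_mem p ℓ hℓp D.FF ((ℓ : ℚ) ^ t) hμ (1 + ((ℓ : ℚ) ^ t) • u)
    (1 + ((ℓ : ℚ) ^ t) • u') e4Q e6Q hx hx' qExpansion_E₄_eq qExpansion_E₆_eq constantCoeff_e6Q hint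
  exact dvd_succ_of_mem ℓ t p hℓp u' (e4Qp p hp0) (e6Qp p hp0) hu' (intAt_e4Qp p hp0 ℓ)
    (intAt_e6Qp p hp0 ℓ) (constantCoeff_e4Qp p hp0) (constantCoeff_e6Qp p hp0) hmem

/-- `ℓ = 3`, `t = 1`. -/
theorem three_dvd_succ (hp3 : p ≠ 3) (h : EisCong p (ZLoc 3) 3 1) : 3 ∣ p + 1 := by
  haveI : Fact (Nat.Prime 3) := ⟨Nat.prime_three⟩
  obtain ⟨D⟩ := h
  have h3 : ¬ 3 ∣ p := fun h => hp3 ((Nat.prime_dvd_prime_iff_eq Nat.prime_three hp.out).mp h).symm
  have := dvd_succ_of_eisCongData p 3 1 8 h3 (by norm_num) D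
  simpa using this

/-- `ℓ = 2`, `t = 2`. -/
theorem four_dvd_succ (hp2 : p ≠ 2) (h : EisCong p (ZLoc 2) 2 2) : 4 ∣ p + 1 := by
  haveI : Fact (Nat.Prime 2) := ⟨Nat.prime_two⟩
  obtain ⟨D⟩ := h
  have h2 : ¬ 2 ∣ p := fun h => hp2 ((Nat.prime_dvd_prime_iff_eq Nat.prime_two hp.out).mp h).symm
  have := dvd_succ_of_eisCongData p 2 2 6 h2 (by norm_num) D
  simpa using this

end Final

end Fermat.Agent.S16.TwoCuspForms
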