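/-
S16, block [UB] (helper15): THE BUILDER — from a cusp form `f ∈ S_2(Γ₀(p))` with integral
`q`-coefficients `c k` and `ℓ^a ∣ c k - σ'(k)` for all `k ≥ 1` construct helper18's
`EisCong p (ZLoc ℓ) ℓ t` for every `t` with `t + v_ℓ(p - 1) ≤ a + v_ℓ(24)`:

`FF := (eisP p - 24 f) / (p - 1)`;  `expInf FF` has coefficients `a_n(FF)`, and
`(-p) • expZero p 2 FF` has coefficients `a_{np}(FF)` (helper20's `coeff_qExpansion_slash_S`);
`a_0(FF) = 1` and `a_n(FF) = -(24 / (p - 1)) ℓ^a b_n ∈ ℓ^t ℤ_(ℓ)` for `n ≥ 1`.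

`build` is exactly the hypothesis `build` of helper13's `UpperGlue.upperB_of_inputs`.
-/
import Mathlib
import Fermat.Agent.S16.EisP
import Fermat.Agent.S16.EisCong
import Fermat.Agent.S16.LInt
import Fermat.Agent.S16.AtkinLehnerS

set_option autoImplicit false

open UpperHalfPlane ModularForm ModularFormClass CongruenceSubgroup PowerSeries
open scoped MatrixGroups ModularForm

noncomputable section

namespace Fermat.Agent.S16.UpperBuild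

open Fermat.Agent.S16.EisP Fermat.Agent.S16.EisCong Fermat.Agent.S16.LInt
  Fermat.Agent.S16.AtkinLehnerS

/-! ### The arithmetic of `24 ℓ^a / (p - 1)` -/

/-- `24 ℓ^a b / (p - 1) ∈ ℓ^t ℤ_(ℓ)` as soon as `t + v_ℓ(p - 1) ≤ a + v_ℓ(24)`. -/
theorem key_mem_ZLocPow {ℓ : ℕ} [hℓ : Fact ℓ.Prime] {p a t : ℕ} (hp : 2 ≤ p)
    (h : t + padicValNat ℓ (p - 1) ≤ a + padicValNat ℓ 24) (b : ℤ) :
    ((24 : ℂ) * ((p : ℂ) - 1)⁻¹ * (ℓ : ℂ) ^ a * (b : ℂ)) ∈ ZLocPow ℓ t := by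
  have hℓp : ℓ.Prime := hℓ.out
  set s := padicValNat ℓ (p - 1) with hs
  set e := padicValNat ℓ 24 with he
  have hp1 : p - 1 ≠ 0 := by omega
  have h1 : ℓ ^ s * (ordCompl[ℓ] (p - 1)) = p - 1 := by
    rw [hs, ← Nat.factorization_def _ hℓp]
    exact Nat.ordProj_mul_ordCompl_eq_self (p - 1) ℓ
  have h2 : ℓ ^ e * (ordCompl[ℓ] 24) = 24 := by
    rw [he, ← Nat.factorization_def _ hℓp]
    exact Nat.ordProj_mul_ordCompl_eq_self 24 ℓ
  set m := ordCompl[ℓ] (p - 1) with hm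
  set m' := ordCompl[ℓ] 24 with hm'
  have hmdvd : ¬ ℓ ∣ m := Nat.not_dvd_ordCompl hℓp hp1
  have hm0 : (m : ℂ) ≠ 0 := by
    have : m ≠ 0 := fun h0 => hmdvd (h0 ▸ dvd_zero _)
    exact_mod_cast this
  have hℓ0 : (ℓ : ℂ) ≠ 0 := by exact_mod_cast hℓp.ne_zero
  have hpc : (p : ℂ) - 1 = (ℓ : ℂ) ^ s * (m : ℂ) := by
    have : ((p - 1 : ℕ) : ℂ) = (p : ℂ) - 1 := by
      rw [Nat.cast_sub (by omega)]; simp
    rw [← this, ← h1]
    push_cast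
    ring
  have h24 : (24 : ℂ) = (ℓ : ℂ) ^ e * (m' : ℂ) := by
    have : ((24 : ℕ) : ℂ) = 24 := by norm_num
    rw [← this, ← h2]
    push_cast
    ring
  obtain ⟨d, hd⟩ : ∃ d, a + e = t + s + d := ⟨a + e - (t + s), by omega⟩
  rw [mem_ZLocPow_iff]
  refine ⟨(ℓ : ℂ) ^ d * (m' : ℂ) * (m : ℂ)⁻¹ * (b : ℂ), ?_, ?_⟩
  · refine (ZLoc ℓ).mul_mem ((ZLoc ℓ).mul_mem ((ZLoc ℓ).mul_mem ?_ (natCast_mem_ZLoc ℓ m'))
      (inv_natCast_mem_ZLoc ℓ hmdvd)) (intCast_mem_ZLoc ℓ b)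
    exact (ZLoc ℓ).pow_mem (natCast_mem_ZLoc ℓ ℓ) d
  · rw [hpc, h24, mul_inv]
    have hpow : (ℓ : ℂ) ^ e * (ℓ : ℂ) ^ a = (ℓ : ℂ) ^ t * (ℓ : ℂ) ^ s * (ℓ : ℂ) ^ d := by
      rw [← pow_add, ← pow_add, ← pow_add]
      congr 1
      omega
    have hs0 : (ℓ : ℂ) ^ s ≠ 0 := pow_ne_zero _ hℓ0
    field_simp
    linear_combination (m' : ℂ) * (b : ℂ) * hpow

/-! ### The form `FF = (E - 24 f) / (p - 1)` -/

variable (p : ℕ) [hp : Fact p.Prime]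

/-- `FF := (eisP p - 24 f) / (p - 1)`. -/
def FFform (f : CuspForm (Gamma0 p) 2) : ModularForm (GammaP p) 2 :=
  (((p : ℂ) - 1)⁻¹) • (eisP p - (24 : ℂ) • cuspToModular p f)

theorem coe_FFform (f : CuspForm (Gamma0 p) 2) :
    ⇑(FFform p f) = (((p : ℂ) - 1)⁻¹) • (⇑(eisP p) - (24 : ℂ) • ⇑f) := rfl

theorem qCoeff_FFform (f : CuspForm (Gamma0 p) 2) (n : ℕ) :
    qCoeff ⇑(FFform p f) n =
      ((p : ℂ) - 1)⁻¹ * ((qExpansion 1 ⇑(eisP p)).coeff n - 24 * qCoeff ⇑f n) := by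
  have hΓ := one_mem_strictPeriods_Gamma0 p
  have h1 : qExpansion 1 ⇑(FFform p f) = (((p : ℂ) - 1)⁻¹) •
      qExpansion 1 ⇑(eisP p - (24 : ℂ) • cuspToModular p f) :=
    ModularForm.qExpansion_smul one_pos hΓ _ (eisP p - (24 : ℂ) • cuspToModular p f)
  have h2 : qExpansion 1 ⇑(eisP p - (24 : ℂ) • cuspToModular p f) =
      qExpansion 1 ⇑(eisP p) - qExpansion 1 ⇑((24 : ℂ) • cuspToModular p f) :=
    ModularForm.qExpansion_sub one_pos hΓ (eisP p) ((24 : ℂ) • cuspToModular p f)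
  have h3 : qExpansion 1 ⇑((24 : ℂ) • cuspToModular p f) =
      (24 : ℂ) • qExpansion 1 ⇑(cuspToModular p f) :=
    ModularForm.qExpansion_smul one_pos hΓ _ (cuspToModular p f)
  rw [qCoeff, h1, h2, h3, coe_cuspToModular]
  simp only [map_smul, map_sub, smul_eq_mul, qCoeff]

theorem qCoeff_FFform_zero (f : CuspForm (Gamma0 p) 2) : qCoeff ⇑(FFform p f) 0 = 1 := by
  have hΓ := one_mem_strictPeriods_Gamma0 p
  have h0 : qCoeff ⇑f 0 = 0 := CuspFormClass.qExpansion_coeff_zero f one_pos hΓ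
  rw [qCoeff_FFform, h0, qExpansion_eisP_coeff', if_pos rfl, mul_zero, sub_zero]
  have : (p : ℂ) - 1 ≠ 0 := by
    have := hp.out.one_lt
    rw [sub_ne_zero]
    exact_mod_cast this.ne'
  exact inv_mul_cancel₀ this

theorem qCoeff_FFform_pos (f : CuspForm (Gamma0 p) 2) {n : ℕ} (hn : n ≠ 0) (cn : ℂ)
    (hc : qCoeff ⇑f n = cn) :
    qCoeff ⇑(FFform p f) n = -(24 * ((p : ℂ) - 1)⁻¹ * (cn - (sigmaPrime p n : ℂ))) := by
  rw [qCoeff_FFform, hc, qExpansion_eisP_coeff', if_neg hn]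
  ring

/-! ### The two expansions of `FF` -/

theorem coeff_expInf_FFform (f : CuspForm (Gamma0 p) 2) (n : ℕ) :
    coeff n (expInf ⇑(FFform p f)) = qCoeff ⇑(FFform p f) n := rfl

theorem coeff_expZero_FFform (f : CuspForm (Gamma0 p) 2) (n : ℕ) :
    coeff n ((-(p : ℂ)) • expZero p 2 ⇑(FFform p f)) = qCoeff ⇑(FFform p f) (n * p) := by
  rw [coeff_smul, smul_eq_mul, expZero_def, coeff_qExpansion_slash_S p (FFform p f) n]
  have : (p : ℂ) ≠ 0 := by exact_mod_cast hp.out.ne_zero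
  field_simp

/-- **The builder**: a cusp form `f ≡ E'` modulo `ℓ^a` gives `EisCong p (ZLoc ℓ) ℓ t` for every
`t` with `t + v_ℓ(p - 1) ≤ a + v_ℓ(24)`. -/
theorem build (ℓ a t : ℕ) (hℓ : ℓ.Prime) (_ha : 1 ≤ a)
    (ht : t + padicValNat ℓ (p - 1) ≤ a + padicValNat ℓ 24)
    (f : CuspForm (Gamma0 p) 2) (c : ℕ → ℤ)
    (hc : ∀ k : ℕ, qCoeff ⇑f k = (c k : ℂ))
    (hm : ∀ k : ℕ, 1 ≤ k → ((ℓ ^ a : ℕ) : ℤ) ∣ c k - (sigmaPrime p k : ℤ)) :
    EisCong p (ZLoc ℓ) ℓ t := by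
  have : Fact ℓ.Prime := ⟨hℓ⟩
  -- every coefficient of positive index of `FF` lies in `ℓ^t ℤ_(ℓ)`
  have hpos : ∀ n : ℕ, n ≠ 0 → qCoeff ⇑(FFform p f) n ∈ ZLocPow ℓ t := by
    intro n hn
    obtain ⟨b, hb⟩ := hm n (Nat.one_le_iff_ne_zero.mpr hn)
    rw [qCoeff_FFform_pos p f hn _ (hc n)]
    have hb' : ((c n : ℂ) - (sigmaPrime p n : ℂ)) = (ℓ : ℂ) ^ a * (b : ℂ) := by
      have := congrArg (fun x : ℤ => (x : ℂ)) hb
      push_cast at this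
      exact this
    rw [hb']
    have := key_mem_ZLocPow (ℓ := ℓ) (p := p) (a := a) (t := t) hp.out.two_le ht b
    have h2 : (24 * ((p : ℂ) - 1)⁻¹ * ((ℓ : ℂ) ^ a * (b : ℂ))) =
        (24 : ℂ) * ((p : ℂ) - 1)⁻¹ * (ℓ : ℂ) ^ a * (b : ℂ) := by ring
    rw [h2]
    exact (ZLocPow ℓ t).neg_mem this
  have h1 : CongPow ℓ t (expInf ⇑(FFform p f)) 1 := by
    intro n
    rw [coeff_expInf_FFform]
    rcases Nat.eq_zero_or_pos n with rfl | hn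
    · rw [qCoeff_FFform_zero, coeff_zero_eq_constantCoeff, map_one, sub_self]
      exact (ZLocPow ℓ t).zero_mem
    · rw [coeff_one, if_neg hn.ne', sub_zero]
      exact hpos n hn.ne'
  have h2 : CongPow ℓ t ((-(p : ℂ)) • expZero p 2 ⇑(FFform p f)) 1 := by
    intro n
    rw [coeff_expZero_FFform]
    rcases Nat.eq_zero_or_pos n with rfl | hn
    · rw [zero_mul, qCoeff_FFform_zero, coeff_zero_eq_constantCoeff, map_one, sub_self]
      exact (ZLocPow ℓ t).zero_mem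
    · rw [coeff_one, if_neg hn.ne', sub_zero]
      exact hpos (n * p) (Nat.mul_ne_zero hn.ne' hp.out.ne_zero)
  obtain ⟨u, hu, hu1⟩ := (congPow_iff_exists ℓ).mp h1
  obtain ⟨u', hu', hu1'⟩ := (congPow_iff_exists ℓ).mp h2
  exact ⟨{ FF := FFform p f, u := u, u' := u', hu := hu, hu' := hu',
           expInf_eq := hu1, expZero_eq := hu1' }⟩

end Fermat.Agent.S16.UpperBuild
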