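/-
S16, block [UB] (helper21): THE ARITHMETIC SKELETON OF THE UPPER BOUND.  Mathlib only.

* `ne_zero_and_dvd_of_primePowers` : if a divisibility-antitone predicate `P` on `ℕ` satisfies
  `P (ℓ ^ a) → ℓ ^ a ∣ n` for all prime powers (`a ≥ 1`) and `n ≠ 0`, then `P m → m ≠ 0 ∧ m ∣ n`.
  (`P m` = "there is an integral cusp form `≡ E'` mod `m`"; the conclusion is hypothesis `h` of
  `Adapters.card_eq_of_eigenvector_of_forms'`.)
* `primePow_dvd_numerator` : the valuation bookkeeping.  `p ≥ 5` prime, `ℓ` prime, `a ≥ 1`,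
  `EC t` an abstract predicate (= `EisCong p ℓ t`) which holds as soon as
  `t + v_ℓ(p-1) ≤ a + v_ℓ(24)`; the five refutations
  (`ℓ ≥ 5 : ¬ EC 1`; `ℓ = 3 : ¬ EC 2` if `p ≡ 2 (3)`, `EC 1 → 3 ∣ p + 1`;
   `ℓ = 2 : ¬ EC 3` if `p ≡ 3 (4)`, `EC 2 → 4 ∣ p + 1`)
  give `ℓ ^ a ∣ (p - 1) / gcd (p - 1) 12`.
-/
import Mathlib

set_option autoImplicit false
set_option linter.style.haveILetI false

namespace Fermat.Agent.S16.UpperArith

/-- From prime powers to all moduli. -/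
theorem ne_zero_and_dvd_of_primePowers {n : ℕ} (hn : n ≠ 0) (P : ℕ → Prop)
    (hmono : ∀ d m : ℕ, d ∣ m → P m → P d)
    (H : ∀ ℓ : ℕ, ℓ.Prime → ∀ a : ℕ, 1 ≤ a → P (ℓ ^ a) → ℓ ^ a ∣ n) :
    ∀ m : ℕ, P m → m ≠ 0 ∧ m ∣ n := by
  intro m hm
  have hdvd : m ∣ n := by
    rw [Nat.dvd_iff_prime_pow_dvd_dvd]
    intro ℓ k hℓ hk
    rcases Nat.eq_zero_or_pos k with rfl | hk0
    · simp
    · exact H ℓ hℓ k hk0 (hmono _ _ hk hm)
  refine ⟨?_, hdvd⟩
  rintro rfl
  exact hn (Nat.eq_zero_of_zero_dvd hdvd)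

section Bookkeeping

variable {p ℓ a : ℕ}

/-- The `ℓ`-adic valuation of `(p-1)/gcd(p-1,12)`. -/
theorem padicValNat_numerator (hp : 2 ≤ p) (hℓ : ℓ.Prime) :
    padicValNat ℓ ((p - 1) / Nat.gcd (p - 1) 12) =
      padicValNat ℓ (p - 1) - min (padicValNat ℓ (p - 1)) (padicValNat ℓ 12) := by
  haveI : Fact ℓ.Prime := ⟨hℓ⟩
  have hp1 : p - 1 ≠ 0 := by omega
  rw [padicValNat.div_of_dvd (Nat.gcd_dvd_left _ _)]
  congr 1
  have h := Nat.factorization_gcd hp1 (by norm_num : (12 : ℕ) ≠ 0)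
  have h' := congrArg (fun f => f ℓ) h
  simp only [Finsupp.inf_apply] at h'
  rw [Nat.factorization_def _ hℓ, Nat.factorization_def _ hℓ, Nat.factorization_def _ hℓ] at h'
  exact h'

theorem numerator_ne_zero (hp : 2 ≤ p) : (p - 1) / Nat.gcd (p - 1) 12 ≠ 0 := by
  have hp1 : 0 < p - 1 := by omega
  have hg : Nat.gcd (p - 1) 12 ∣ p - 1 := Nat.gcd_dvd_left _ _
  have hgpos : 0 < Nat.gcd (p - 1) 12 := Nat.gcd_pos_of_pos_left _ hp1
  exact (Nat.div_pos (Nat.le_of_dvd hp1 hg) hgpos).ne'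

theorem padicValNat_twelve_of_ge_five (hℓ : ℓ.Prime) (h5 : 5 ≤ ℓ) : padicValNat ℓ 12 = 0 := by
  apply padicValNat.eq_zero_of_not_dvd
  intro h
  have := (Nat.Prime.dvd_mul hℓ).mp (show ℓ ∣ 4 * 3 by norm_num; exact h)
  rcases this with h4 | h3
  · have : ℓ ≤ 4 := Nat.le_of_dvd (by norm_num) h4
    omega
  · have : ℓ ≤ 3 := Nat.le_of_dvd (by norm_num) h3
    omega

theorem padicValNat_twentyfour_of_ge_five (hℓ : ℓ.Prime) (h5 : 5 ≤ ℓ) :
    padicValNat ℓ 24 = 0 := by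
  apply padicValNat.eq_zero_of_not_dvd
  intro h
  have := (Nat.Prime.dvd_mul hℓ).mp (show ℓ ∣ 8 * 3 by norm_num; exact h)
  rcases this with h8 | h3
  · have : ℓ ∣ 2 := hℓ.dvd_of_dvd_pow (show ℓ ∣ 2 ^ 3 by norm_num; exact h8)
    have : ℓ ≤ 2 := Nat.le_of_dvd (by norm_num) this
    omega
  · have : ℓ ≤ 3 := Nat.le_of_dvd (by norm_num) h3
    omega

theorem padicValNat_three_twelve : padicValNat 3 12 = 1 := by
  have : (12 : ℕ) = 3 ^ 1 * 4 := by norm_num
  rw [this]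
  haveI : Fact (Nat.Prime 3) := ⟨by norm_num⟩
  rw [padicValNat.mul (by norm_num) (by norm_num), padicValNat.prime_pow,
    padicValNat.eq_zero_of_not_dvd (by norm_num)]

theorem padicValNat_three_twentyfour : padicValNat 3 24 = 1 := by
  have : (24 : ℕ) = 3 ^ 1 * 8 := by norm_num
  rw [this]
  haveI : Fact (Nat.Prime 3) := ⟨by norm_num⟩
  rw [padicValNat.mul (by norm_num) (by norm_num), padicValNat.prime_pow,
    padicValNat.eq_zero_of_not_dvd (by norm_num)]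

theorem padicValNat_two_twelve : padicValNat 2 12 = 2 := by
  have : (12 : ℕ) = 2 ^ 2 * 3 := by norm_num
  rw [this]
  haveI : Fact (Nat.Prime 2) := ⟨by norm_num⟩
  rw [padicValNat.mul (by norm_num) (by norm_num), padicValNat.prime_pow,
    padicValNat.eq_zero_of_not_dvd (by norm_num)]

theorem padicValNat_two_twentyfour : padicValNat 2 24 = 3 := by
  have : (24 : ℕ) = 2 ^ 3 * 3 := by norm_num
  rw [this]
  haveI : Fact (Nat.Prime 2) := ⟨by norm_num⟩
  rw [padicValNat.mul (by norm_num) (by norm_num), padicValNat.prime_pow,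
    padicValNat.eq_zero_of_not_dvd (by norm_num)]

/-- `v_ℓ(m) = 0` iff `ℓ ∤ m` (for `m ≠ 0`), in the two directions we use. -/
theorem one_le_val_of_dvd {m : ℕ} (hℓ : ℓ.Prime) (hm : m ≠ 0) (h : ℓ ∣ m) :
    1 ≤ padicValNat ℓ m := by
  haveI : Fact ℓ.Prime := ⟨hℓ⟩
  exact _root_.one_le_padicValNat_of_dvd hm h

theorem two_le_val_of_sq_dvd {m : ℕ} (hℓ : ℓ.Prime) (hm : m ≠ 0) (h : ℓ ^ 2 ∣ m) :
    2 ≤ padicValNat ℓ m := by
  haveI : Fact ℓ.Prime := ⟨hℓ⟩
  exact (padicValNat_dvd_iff_le hm).mp h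

/-- **The valuation bookkeeping of the upper bound.** -/
theorem primePow_dvd_numerator (hp : p.Prime) (hp5 : 5 ≤ p) (hℓ : ℓ.Prime) (ha : 1 ≤ a)
    (EC : ℕ → Prop)
    (hEC : ∀ t : ℕ, t + padicValNat ℓ (p - 1) ≤ a + padicValNat ℓ 24 → EC t)
    (h5 : 5 ≤ ℓ → ¬ EC 1)
    (h3a : ℓ = 3 → p % 3 = 2 → ¬ EC 2)
    (h3b : ℓ = 3 → EC 1 → 3 ∣ p + 1)
    (h2a : ℓ = 2 → p % 4 = 3 → ¬ EC 3)
    (h2b : ℓ = 2 → EC 2 → 4 ∣ p + 1) :
    ℓ ^ a ∣ (p - 1) / Nat.gcd (p - 1) 12 := by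
  haveI : Fact ℓ.Prime := ⟨hℓ⟩
  have hp2 : 2 ≤ p := by omega
  have hp1 : p - 1 ≠ 0 := by omega
  rw [padicValNat_dvd_iff_le (numerator_ne_zero hp2), padicValNat_numerator hp2 hℓ]
  set V := padicValNat ℓ (p - 1) with hV
  -- the three kinds of `ℓ`
  have hcases : ℓ = 2 ∨ ℓ = 3 ∨ 5 ≤ ℓ := by
    have h2 := hℓ.two_le
    rcases Nat.lt_or_ge ℓ 5 with h | h
    · interval_cases ℓ
      · exact Or.inl rfl
      · exact Or.inr (Or.inl rfl)
      · exact absurd hℓ (by norm_num)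
    · exact Or.inr (Or.inr h)
  rcases hcases with rfl | rfl | hℓ5
  · -- `ℓ = 2`
    rw [padicValNat_two_twelve]
    rw [padicValNat_two_twentyfour] at hEC
    have hodd : p % 2 = 1 := by
      rcases hp.eq_two_or_odd with h | h
      · omega
      · exact h
    have h2dvd : 2 ∣ p - 1 := by omega
    have hV1 : 1 ≤ V := one_le_val_of_dvd Nat.prime_two hp1 h2dvd
    have hmod : p % 4 = 1 ∨ p % 4 = 3 := by omega
    rcases hmod with h41 | h43
    · -- `p ≡ 1 (4)` : two-cusp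
      have h4dvd : 2 ^ 2 ∣ p - 1 := by
        have : 4 ∣ p - 1 := by omega
        simpa using this
      have hV2 : 2 ≤ V := two_le_val_of_sq_dvd Nat.prime_two hp1 h4dvd
      by_contra hcon
      have hEC2 : EC 2 := hEC 2 (by
        have : min V 2 = 2 := min_eq_right hV2
        rw [this] at hcon
        omega)
      have := h2b rfl hEC2
      omega
    · -- `p ≡ 3 (4)` : `(A2)`
      exfalso
      have hV : V = 1 := by
        apply le_antisymm _ hV1
        by_contra hcon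
        have h2 : 2 ≤ V := by omega
        have : 2 ^ 2 ∣ p - 1 := (padicValNat_dvd_iff_le hp1).mpr h2
        have : 4 ∣ p - 1 := by simpa using this
        omega
      exact h2a rfl h43 (hEC 3 (by omega))
  · -- `ℓ = 3`
    rw [padicValNat_three_twelve]
    rw [padicValNat_three_twentyfour] at hEC
    have hp3 : p % 3 = 1 ∨ p % 3 = 2 := by
      have : ¬ 3 ∣ p := by
        intro h
        have := (Nat.prime_dvd_prime_iff_eq Nat.prime_three hp).mp h
        omega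
      omega
    rcases hp3 with h31 | h32
    · -- `p ≡ 1 (3)` : two-cusp
      have h3dvd : 3 ∣ p - 1 := by omega
      have hV1 : 1 ≤ V := one_le_val_of_dvd Nat.prime_three hp1 h3dvd
      by_contra hcon
      have hEC1 : EC 1 := hEC 1 (by
        have : min V 1 = 1 := min_eq_right hV1
        rw [this] at hcon
        omega)
      have := h3b rfl hEC1
      omega
    · -- `p ≡ 2 (3)` : `(A3)`
      exfalso
      have hV : V = 0 := by
        apply padicValNat.eq_zero_of_not_dvd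
        omega
      exact h3a rfl h32 (hEC 2 (by omega))
  · -- `ℓ ≥ 5` : `(A5)`
    rw [padicValNat_twelve_of_ge_five hℓ hℓ5]
    rw [padicValNat_twentyfour_of_ge_five hℓ hℓ5] at hEC
    by_contra hcon
    have hEC1 : EC 1 := hEC 1 (by
      have : min V 0 = 0 := min_eq_right (Nat.zero_le _)
      rw [this] at hcon
      omega)
    exact h5 hℓ5 hEC1

end Bookkeeping

end Fermat.Agent.S16.UpperArith
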