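/-
S16, block [UB] (helper13): the two ends of the upper bound that do not need the two-cusp
expansion calculus.

Notation: `σ' = EisP.sigmaPrime p`, `n = eisensteinNumerator p`, and helper12's shape `[B]`
(`Adapters.card_eq_of_eigenvector_of_forms'`):
`∀ m f c, (∀ k, qCoeff f k = c k) → (∀ k ≥ 1, (m : ℤ) ∣ c k - σ' k) → m ≠ 0 ∧ m ∣ n`.

* `not_forall_qCoeff_eq`, `ne_zero_of_congr` : the case `m = 0` of `[B]` is impossible:
  `eisP p - 24 f` would be a weight-two form on `Γ₀(p)` with constant `q`-expansion `p - 1 ≠ 0`.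
* `cuspForm_eq_zero_of_genus_zero`, `upper_two`, `upper_three` : `[B]` for `p ∈ {2, 3}`
  (no cusp forms, by S20).
* `upper_of_primePow` : `[B]` follows from its prime-power instances `m = ℓ ^ a`, `a ≥ 1`.
-/
import Mathlib
import Fermat.Agent.S16.EisP
import Fermat.Agent.S16.SigmaP
import Fermat.Agent.S20
import Fermat.Agent.M2.ES.S21Cond
import Fermat.Prelude.Def_FLTPrelim_Modularity
import Fermat.Prelude.Def_ModularCurve_ModularUnit

set_option autoImplicit false
set_option linter.unusedSectionVars false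

open UpperHalfPlane ModularForm Matrix.SpecialLinearGroup ModularFormClass CongruenceSubgroup
open ModularCurve
open scoped MatrixGroups ModularForm Manifold Topology

noncomputable section

namespace Fermat.Agent.S16.UpperEdge

open Fermat.Agent.S16.EisP Fermat.Agent.S16.SigmaP

/-! ### The case `m = 0` -/

section Const

variable (p : ℕ) [Fact p.Prime]

/-- pointwise `q`-expansion of a cusp form of level `Γ₀(p)` at width one -/
theorem hasSum_cusp (f : CuspForm (Gamma0 p) 2) (τ : ℍ) :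
    HasSum (fun m : ℕ ↦ qCoeff ⇑f m * Function.Periodic.qParam 1 τ ^ m) (f τ) := by
  have h1 := CongruenceSubgroup.one_mem_strictPeriods_Gamma0 p
  have : Fact (IsCusp OnePoint.infty ((Gamma0 p : Subgroup SL(2,ℤ)) : Subgroup (GL (Fin 2) ℝ))) :=
    ⟨Subgroup.isCusp_of_mem_strictPeriods one_pos h1⟩
  exact ModularForm.hasSum_qExpansion (f := f) one_pos h1 τ

/-- the constant coefficient of a cusp form vanishes (`qCoeff` form) -/
theorem qCoeff_cusp_zero (f : CuspForm (Gamma0 p) 2) : qCoeff ⇑f 0 = 0 :=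
  CuspFormClass.qExpansion_coeff_zero f one_pos (CongruenceSubgroup.one_mem_strictPeriods_Gamma0 p)

/-- If all higher coefficients of `f` are `σ'`, then `eis2 p - 24 f` is the constant `p - 1`. -/
theorem eis2_sub_eq_const (f : CuspForm (Gamma0 p) 2)
    (h : ∀ k : ℕ, 1 ≤ k → qCoeff ⇑f k = (sigmaPrime p k : ℂ)) (τ : ℍ) :
    eis2 p τ - 24 * f τ = (p : ℂ) - 1 := by
  have hp : p ≠ 0 := (Fact.out : p.Prime).ne_zero
  have h1 := hasSum_eis2 hp τ
  have h2 := (hasSum_cusp p f τ).mul_left (24 : ℂ)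
  have h3 := h1.sub h2
  have h4 : HasSum (fun n : ℕ ↦ cEis p n • Function.Periodic.qParam 1 τ ^ n -
      24 * (qCoeff ⇑f n * Function.Periodic.qParam 1 τ ^ n)) ((p : ℂ) - 1) := by
    have hfun : (fun n : ℕ ↦ cEis p n • Function.Periodic.qParam 1 τ ^ n -
      24 * (qCoeff ⇑f n * Function.Periodic.qParam 1 τ ^ n)) =
        fun n : ℕ ↦ if n = 0 then (p : ℂ) - 1 else 0 := by
      funext n
      by_cases hn : n = 0
      · subst hn
        rw [if_pos rfl, cEis_zero, qCoeff_cusp_zero]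
        simp
      · rw [if_neg hn, cEis_of_ne_zero hp hn, h n (Nat.one_le_iff_ne_zero.2 hn)]
        simp only [smul_eq_mul]
        ring
    rw [hfun]
    exact hasSum_ite_eq 0 _
  exact h3.unique h4

/-- the lower unipotent element `[[1,0],[p,1]]` of `Γ₀(p)` -/
def lowerP : SL(2, ℤ) := ⟨!![1, 0; (p : ℤ), 1], by simp [Matrix.det_fin_two]⟩

theorem lowerP_mem : lowerP p ∈ Gamma0 p := by
  rw [Gamma0_mem]
  simp [lowerP]

theorem denom_lowerP (τ : ℍ) : denom (lowerP p : GL (Fin 2) ℝ) τ = (p : ℂ) * τ + 1 := by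
  rw [denom, coeGL_apply, coeGL_apply]
  simp [lowerP]

/-- A function with the weight-two transformation law under `[[1,0],[p,1]]` that is constant
is zero. -/
theorem const_eq_zero_of_slash {g : ℍ → ℂ} {c : ℂ} (hc : ∀ τ, g τ = c)
    (hg : ∀ τ : ℍ, g ((lowerP p) • τ) = (denom (lowerP p : GL (Fin 2) ℝ) τ) ^ (2 : ℤ) * g τ) :
    c = 0 := by
  have hp : (p : ℝ) ≠ 0 := Nat.cast_ne_zero.2 (Fact.out : p.Prime).ne_zero
  have h := hg I
  rw [hc, hc, denom_lowerP] at h
  by_contra hc0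
  have h1 : ((p : ℂ) * (I : ℍ) + 1) ^ (2 : ℤ) = 1 := by
    have h' : (1 : ℂ) * c = ((p : ℂ) * (I : ℍ) + 1) ^ (2 : ℤ) * c := by rw [one_mul]; exact h
    exact (mul_right_cancel₀ hc0 h').symm
  have h2 := congrArg Complex.im h1
  rw [UpperHalfPlane.coe_I] at h2
  simp [zpow_ofNat, sq, Complex.add_im, Complex.mul_im] at h2
  exact hp (by exact_mod_cast h2)

/-- **The case `m = 0`.** No cusp form of weight two on `Γ₀(p)` has `q`-expansion
`∑_{k ≥ 1} σ'(k) qᵏ`. -/
theorem not_forall_qCoeff_eq (f : CuspForm (Gamma0 p) 2) :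
    ¬ ∀ k : ℕ, 1 ≤ k → qCoeff ⇑f k = (sigmaPrime p k : ℂ) := by
  intro h
  have hconst := eis2_sub_eq_const p f h
  have hslash : ∀ τ : ℍ, (fun τ => eis2 p τ - 24 * f τ) ((lowerP p) • τ) =
      (denom (lowerP p : GL (Fin 2) ℝ) τ) ^ (2 : ℤ) * (fun τ => eis2 p τ - 24 * f τ) τ := by
    intro τ
    have h1 := SlashInvariantForm.slash_action_eqn_SL'' (eisP p) (lowerP_mem p) τ
    have h2 := SlashInvariantForm.slash_action_eqn_SL'' f (lowerP_mem p) τ
    rw [coe_eisP] at h1
    simp only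
    rw [h1, h2]
    ring
  have h0 := const_eq_zero_of_slash p (g := fun τ => eis2 p τ - 24 * f τ) hconst hslash
  have hp1 : (p : ℂ) ≠ 1 := by
    exact_mod_cast (Fact.out : p.Prime).one_lt.ne'
  exact hp1 (sub_eq_zero.1 h0)

/-- `[B]`, first half: `m ≠ 0`. -/
theorem ne_zero_of_congr (m : ℕ) (f : CuspForm (Gamma0 p) 2) (c : ℕ → ℤ)
    (hc : ∀ k : ℕ, qCoeff ⇑f k = (c k : ℂ))
    (hm : ∀ k : ℕ, 1 ≤ k → (m : ℤ) ∣ c k - (sigmaPrime p k : ℤ)) : m ≠ 0 := by
  rintro rfl
  refine not_forall_qCoeff_eq p f fun k hk => ?_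
  have h := hm k hk
  rw [Nat.cast_zero, zero_dvd_iff, sub_eq_zero] at h
  rw [hc k, h]
  simp

end Const

/-! ### Levels of genus zero: `p ∈ {2, 3}` -/

section GenusZero

theorem nuTwo_two : nuTwo 2 = 1 := by
  rw [nuTwo, Nat.card_eq_fintype_card]; decide

theorem nuThree_two : nuThree 2 = 0 := by
  rw [nuThree, Nat.card_eq_fintype_card]; decide

theorem nuTwo_three : nuTwo 3 = 0 := by
  rw [nuTwo, Nat.card_eq_fintype_card]; decide

theorem nuThree_three : nuThree 3 = 1 := by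
  rw [nuThree, Nat.card_eq_fintype_card]; decide

theorem cuspCount_two : cuspCount 2 = 2 := by decide

theorem cuspCount_three : cuspCount 3 = 2 := by decide

theorem dedekindPsi_of_prime {ℓ : ℕ} (hℓ : ℓ.Prime) : dedekindPsi ℓ = ℓ + 1 := by
  rw [dedekindPsi, hℓ.divisors, Finset.filter_true_of_mem, Finset.sum_pair hℓ.one_lt.ne]
  · rw [Nat.div_one, Nat.div_self hℓ.pos]
  · intro d hd
    simp only [Finset.mem_insert, Finset.mem_singleton] at hd
    rcases hd with rfl | rfl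
    · exact squarefree_one
    · exact hℓ.squarefree

theorem genusFormula_two : genusFormula 2 = 0 := by
  rw [genusFormula, nuTwo_two, nuThree_two, cuspCount_two, dedekindPsi_of_prime Nat.prime_two]
  norm_num

theorem genusFormula_three : genusFormula 3 = 0 := by
  rw [genusFormula, nuTwo_three, nuThree_three, cuspCount_three,
    dedekindPsi_of_prime Nat.prime_three]
  norm_num

/-- At a level of genus zero there are no nonzero cusp forms of weight two (S20). -/
theorem cuspForm_eq_zero_of_genus_zero (N : ℕ) [NeZero N] (h : genusFormula N = 0)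
    (f : CuspForm (CongruenceSubgroup.Gamma0 N) 2) : f = 0 := by
  have h20 := Fermat.Agent.S20.result N
  rw [h] at h20
  have h0 : Module.finrank ℂ (CuspForm (CongruenceSubgroup.Gamma0 N) 2) = 0 := by
    exact_mod_cast h20
  have hfin : Module.Finite ℂ (CuspForm (CongruenceSubgroup.Gamma0 N) 2) :=
    Fermat.Agent.M2.ES.S21Cond.finite_cuspForm_two N
  exact (_root_.finrank_zero_iff_forall_zero.1 h0) f

/-- `[B]` at a prime level of genus zero. -/
theorem upper_of_genus_zero (p : ℕ) [Fact p.Prime] (h : genusFormula p = 0)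
    (m : ℕ) (f : CuspForm (Gamma0 p) 2) (c : ℕ → ℤ)
    (hc : ∀ k : ℕ, qCoeff ⇑f k = (c k : ℂ))
    (hm : ∀ k : ℕ, 1 ≤ k → (m : ℤ) ∣ c k - (sigmaPrime p k : ℤ)) :
    m ≠ 0 ∧ m ∣ eisensteinNumerator p := by
  have hf : f = 0 := cuspForm_eq_zero_of_genus_zero p h f
  have hc1 : c 1 = 0 := by
    have h1 := hc 1
    rw [hf, FunLike.coe_zero, qCoeff, qExpansion_zero, map_zero] at h1
    exact_mod_cast h1.symm
  have hm1 := hm 1 le_rfl
  rw [hc1, sigmaPrime_one (Fact.out : p.Prime).ne_one, Nat.cast_one, zero_sub, dvd_neg] at hm1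
  have hm' : m = 1 := by
    have : m ∣ 1 := by exact_mod_cast hm1
    exact Nat.dvd_one.1 this
  subst hm'
  exact ⟨one_ne_zero, one_dvd _⟩

end GenusZero

/-! ### Reduction of `[B]` to prime powers -/

section PrimePow

variable (p : ℕ) [Fact p.Prime]

/-- **`[B]` from its prime-power instances.** -/
theorem upper_of_primePow
    (h : ∀ ℓ a : ℕ, ℓ.Prime → 1 ≤ a → ∀ (f : CuspForm (Gamma0 p) 2) (c : ℕ → ℤ),
      (∀ k : ℕ, qCoeff ⇑f k = (c k : ℂ)) →
      (∀ k : ℕ, 1 ≤ k → ((ℓ ^ a : ℕ) : ℤ) ∣ c k - (sigmaPrime p k : ℤ)) →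
        ℓ ^ a ∣ eisensteinNumerator p)
    (m : ℕ) (f : CuspForm (Gamma0 p) 2) (c : ℕ → ℤ)
    (hc : ∀ k : ℕ, qCoeff ⇑f k = (c k : ℂ))
    (hm : ∀ k : ℕ, 1 ≤ k → (m : ℤ) ∣ c k - (sigmaPrime p k : ℤ)) :
    m ≠ 0 ∧ m ∣ eisensteinNumerator p := by
  refine ⟨ne_zero_of_congr p m f c hc hm, ?_⟩
  rw [Nat.dvd_iff_prime_pow_dvd_dvd]
  intro ℓ a hℓ hdvd
  rcases Nat.eq_zero_or_pos a with rfl | ha
  · rw [pow_zero]; exact one_dvd _
  · refine h ℓ a hℓ ha f c hc fun k hk => ?_
    exact dvd_trans (by exact_mod_cast hdvd) (hm k hk)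

end PrimePow

end Fermat.Agent.S16.UpperEdge
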