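/-
S16, block [UB] (helper13): THE GLUE OF THE UPPER BOUND, hypothesis-driven (final instantiation: S16/Upper.lean).

`upper_of_inputs` : helper12's shape `[B]`
(`∀ m f c, (∀ k, qCoeff f k = c k) → (∀ k ≥ 1, (m : ℤ) ∣ c k - σ' k) → m ≠ 0 ∧ m ∣ n`, the hypothesis
`h` of `Adapters.card_eq_of_eigenvector_of_forms'`) from

* `build` : the construction of `EisCong p (ZLoc ℓ) ℓ t` from a form `f ≡ E'` mod `ℓ ^ a`, for every
  `t` with `t + v_ℓ(p - 1) ≤ a + v_ℓ(24)`;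
* the five refutations `(A5)`, `(A3)`, `(A2)`, `(TC3)`, `(TC4)`;
* `UpperArith.primePow_dvd_numerator` (helper21) for `p ≥ 5`, `UpperEdge` for `p ∈ {2, 3}` and for
  the reduction to prime powers.
-/
import Mathlib
import Fermat.Agent.S16.UpperEdge
import Fermat.Agent.S16.UpperArith
import Fermat.Agent.S16.EisCong
import Fermat.Agent.S16.LInt

set_option autoImplicit false
set_option linter.unusedSectionVars false

open ModularFormClass CongruenceSubgroup ModularCurve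

noncomputable section

namespace Fermat.Agent.S16.UpperGlue

open Fermat.Agent.S16.EisP Fermat.Agent.S16.EisCong Fermat.Agent.S16.LInt
  Fermat.Agent.S16.UpperEdge Fermat.Agent.S16.UpperArith

variable (p : ℕ) [Fact p.Prime]

/-- The upper-bound statement on forms, in the shape consumed by
`Adapters.card_eq_of_eigenvector_of_forms'`. -/
def UpperB : Prop :=
  ∀ (m : ℕ) (f : CuspForm (Gamma0 p) 2) (c : ℕ → ℤ),
    (∀ k : ℕ, qCoeff ⇑f k = (c k : ℂ)) →
    (∀ k : ℕ, 1 ≤ k → (m : ℤ) ∣ c k - (sigmaPrime p k : ℤ)) →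
      m ≠ 0 ∧ m ∣ eisensteinNumerator p

/-- a prime is `2`, `3` or at least `5` -/
theorem prime_cases {p : ℕ} (hp : p.Prime) : p = 2 ∨ p = 3 ∨ 5 ≤ p := by
  have h2 := hp.two_le
  rcases Nat.lt_or_ge p 5 with h | h
  · interval_cases p
    · exact Or.inl rfl
    · exact Or.inr (Or.inl rfl)
    · exact absurd hp (by norm_num)
  · exact Or.inr (Or.inr h)

/-- `[B]` for `p ∈ {2, 3}`. -/
theorem upperB_of_lt_five (hp : p < 5) : UpperB p := by
  have hpp : p.Prime := Fact.out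
  intro m f c hc hm
  rcases prime_cases hpp with h | h | h
  · subst h
    exact upper_of_genus_zero 2 genusFormula_two m f c hc hm
  · subst h
    exact upper_of_genus_zero 3 genusFormula_three m f c hc hm
  · omega

/-- **The upper bound from its inputs** (`p ≥ 5`). -/
theorem upperB_of_inputs (hp5 : 5 ≤ p)
    (build : ∀ ℓ a t : ℕ, ℓ.Prime → 1 ≤ a →
      t + padicValNat ℓ (p - 1) ≤ a + padicValNat ℓ 24 →
      ∀ (f : CuspForm (Gamma0 p) 2) (c : ℕ → ℤ),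
        (∀ k : ℕ, qCoeff ⇑f k = (c k : ℂ)) →
        (∀ k : ℕ, 1 ≤ k → ((ℓ ^ a : ℕ) : ℤ) ∣ c k - (sigmaPrime p k : ℤ)) →
          EisCong p (ZLoc ℓ) ℓ t)
    (hA5 : ∀ ℓ : ℕ, ℓ.Prime → 5 ≤ ℓ → ¬ EisCong p (ZLoc ℓ) ℓ 1)
    (hA3 : p % 3 = 2 → ¬ EisCong p (ZLoc 3) 3 2)
    (hTC3 : EisCong p (ZLoc 3) 3 1 → 3 ∣ p + 1)
    (hA2 : p % 4 = 3 → ¬ EisCong p (ZLoc 2) 2 3)
    (hTC4 : EisCong p (ZLoc 2) 2 2 → 4 ∣ p + 1) : UpperB p := by
  have hpp : p.Prime := Fact.out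
  refine upper_of_primePow p fun ℓ a hℓ ha f c hc hm => ?_
  show ℓ ^ a ∣ (p - 1) / Nat.gcd (p - 1) 12
  refine primePow_dvd_numerator hpp hp5 hℓ ha (fun t => EisCong p (ZLoc ℓ) ℓ t)
    (fun t ht => build ℓ a t hℓ ha ht f c hc hm) (fun h5 => hA5 ℓ hℓ h5) ?_ ?_ ?_ ?_
  · rintro rfl h; exact hA3 h
  · rintro rfl h; exact hTC3 h
  · rintro rfl h; exact hA2 h
  · rintro rfl h; exact hTC4 h

end Fermat.Agent.S16.UpperGlue
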