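/-
S16, block [UB], final instantiation (lead's backup of `S16/Upper.lean`): the upper bound `[B]`
with NO hypotheses, = `UpperGlue.upperB_of_inputs` fed with the builder (helper15), (A5) (helper8),
(A3) (helper3), (A2) (helper14 + lead), (TC) (helper11, helper16, helper4).
-/
import Fermat.Agent.S16.UpperGlue
import Fermat.Agent.S16.UpperBuild
import Fermat.Agent.S16.ArithA5
import Fermat.Agent.S16.ArithA3
import Fermat.Agent.S16.ArithA2Lead
import Fermat.Agent.S16.TwoCuspForms

set_option autoImplicit false

namespace Fermat.Agent.S16.UpperLead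

open Fermat.Agent.S16

/-- **The upper bound of S16**, in the shape `[B]` of `Adapters.card_eq_of_eigenvector_of_forms'`. -/
theorem upper (p : ℕ) [Fact p.Prime] : UpperGlue.UpperB p := by
  rcases Nat.lt_or_ge p 5 with h | h
  · exact UpperGlue.upperB_of_lt_five p h
  · have hp3 : p ≠ 3 := by omega
    have hp2 : p ≠ 2 := by omega
    exact UpperGlue.upperB_of_inputs p h
      (fun ℓ a t hℓ ha ht f c hc hm => UpperBuild.build p ℓ a t hℓ ha ht f c hc hm)
      (fun ℓ hℓ h5 => ArithA5.not_eisCong_ZLoc ℓ hℓ h5)
      (fun h3 => ArithA3.not_eisCong_of_mod h3)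
      (fun h => TwoCuspForms.three_dvd_succ p hp3 h)
      (fun h4 => ArithA2Lead.not_eisCong_ZLoc h4)
      (fun h => TwoCuspForms.four_dvd_succ p hp2 h)

end Fermat.Agent.S16.UpperLead
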