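/-
S16 block [A5], pure power-series half (helper8).

Carrier-agnostic bookkeeping for the application (A5) of the Norm–Sturm lemma:
`Φ = p·FF·E4 + E6` on `Γ0(p)`, `ℓ ≥ 5`.

`R` is any commutative ring (in the application `ℂ`), `V` a subring (`ℤ_(ℓ)` or a valuation
subring), `J` an additive subgroup stable under multiplication by `V` (the maximal ideal) that
does not contain `24`.  `FI` stands for the expansion of `FF` at `∞`, `FZ` for `(-p)` times the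
expansion at `0`; both are `≡ 1 mod J` coefficientwise.  `D4, D6` stand for `E4(x^p), E6(x^p)`.

Results: `A = p·FI·E4 + E6` and `B = -(FZ·D4) + D6` have coefficients in `V`, the `J`-order of `A`
is `≤ 2`, the `J`-order of `B` is finite and `≥ p`; so `ord A + ord B ≤ 6 (p+1)/12` is absurd.
-/
import Mathlib

namespace Fermat.Agent.S16.ArithA5Core

open PowerSeries

variable {R : Type*} [CommRing R]

/-! ### Coefficientwise membership: small closure lemmas -/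

theorem coeff_mul_mem_subring (V : Subring R) {f g : R⟦X⟧} (hf : ∀ n, coeff n f ∈ V)
    (hg : ∀ n, coeff n g ∈ V) (n : ℕ) : coeff n (f * g) ∈ V := by
  rw [coeff_mul]
  exact Subring.sum_mem _ fun x _ => V.mul_mem (hf _) (hg _)

theorem coeff_mul_mem_of_left (V : Subring R) (J : AddSubgroup R)
    (hVJ : ∀ v ∈ V, ∀ x ∈ J, v * x ∈ J) {f g : R⟦X⟧} (hf : ∀ n, coeff n f ∈ J)
    (hg : ∀ n, coeff n g ∈ V) (n : ℕ) : coeff n (f * g) ∈ J := by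
  rw [coeff_mul]
  refine AddSubgroup.sum_mem _ fun x _ => ?_
  rw [mul_comm]
  exact hVJ _ (hg _) _ (hf _)

theorem coeff_natCast_mul (p : ℕ) (f : R⟦X⟧) (n : ℕ) :
    coeff n ((p : R⟦X⟧) * f) = (p : R) * coeff n f := by
  rw [← nsmul_eq_mul, map_nsmul, nsmul_eq_mul]

theorem coeff_natCast_mul_mem (J : AddSubgroup R) (p : ℕ) {f : R⟦X⟧}
    (hf : ∀ n, coeff n f ∈ J) (n : ℕ) : coeff n ((p : R⟦X⟧) * f) ∈ J := by
  rw [coeff_natCast_mul, ← nsmul_eq_mul]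
  exact J.nsmul_mem (hf n) p

theorem natCast_mem_subring (V : Subring R) (n : ℕ) : (n : R) ∈ V := natCast_mem V n

/-- Coefficients of an "expanded" series (given coefficientwise) stay in `V`. -/
theorem coeff_expanded_mem (V : Subring R) {p : ℕ} {E D : R⟦X⟧} (hE : ∀ n, coeff n E ∈ V)
    (hD : ∀ m, coeff (p * m) D = coeff m E) (hD' : ∀ i, ¬ p ∣ i → coeff i D = 0) (n : ℕ) :
    coeff n D ∈ V := by
  by_cases h : p ∣ n
  · obtain ⟨m, rfl⟩ := h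
    rw [hD]; exact hE m
  · rw [hD' n h]; exact V.zero_mem

/-! ### The expansion at `∞` -/

section Infinity

variable (V : Subring R) (J : AddSubgroup R) {p : ℕ} {E4 E6 FI : R⟦X⟧}

/-- `A = p·FI·E4 + E6` differs from `p·E4 + E6` by a series with coefficients in `J`. -/
theorem coeff_A_sub_mem (hVJ : ∀ v ∈ V, ∀ x ∈ J, v * x ∈ J)
    (hE4 : ∀ n, coeff n E4 ∈ V) (hFI : ∀ n, coeff n (FI - 1) ∈ J) (n : ℕ) :
    coeff n ((p : R⟦X⟧) * (FI * E4) + E6) - coeff n ((p : R⟦X⟧) * E4 + E6) ∈ J := by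
  have h : (p : R⟦X⟧) * (FI * E4) + E6 - ((p : R⟦X⟧) * E4 + E6)
      = (p : R⟦X⟧) * ((FI - 1) * E4) := by ring
  rw [← map_sub, h]
  exact coeff_natCast_mul_mem J p (coeff_mul_mem_of_left V J hVJ hFI hE4) n

theorem coeff_A_mem_iff (hVJ : ∀ v ∈ V, ∀ x ∈ J, v * x ∈ J)
    (hE4 : ∀ n, coeff n E4 ∈ V) (hFI : ∀ n, coeff n (FI - 1) ∈ J) (n : ℕ) :
    coeff n ((p : R⟦X⟧) * (FI * E4) + E6) ∈ J ↔ coeff n ((p : R⟦X⟧) * E4 + E6) ∈ J := by
  have h := coeff_A_sub_mem V J (p := p) (E6 := E6) hVJ hE4 hFI n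
  constructor
  · intro h1
    have := J.sub_mem h1 h
    rwa [sub_sub_cancel] at this
  · intro h1
    have := J.add_mem h h1
    rwa [sub_add_cancel] at this

/-- Coefficients of `A` lie in `V`. -/
theorem coeff_A_mem_subring (hJV : ∀ x ∈ J, x ∈ V)
    (hE4 : ∀ n, coeff n E4 ∈ V) (hE6 : ∀ n, coeff n E6 ∈ V)
    (hFI : ∀ n, coeff n (FI - 1) ∈ J) (n : ℕ) :
    coeff n ((p : R⟦X⟧) * (FI * E4) + E6) ∈ V := by
  have hFIV : ∀ n, coeff n FI ∈ V := by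
    intro n
    have h1 : coeff n FI = coeff n (FI - 1) + coeff n (1 : R⟦X⟧) := by
      rw [← map_add]; congr 1; ring
    rw [h1]
    refine V.add_mem (hJV _ (hFI n)) ?_
    rw [coeff_one]; split_ifs
    · exact V.one_mem
    · exact V.zero_mem
  rw [map_add, coeff_natCast_mul]
  exact V.add_mem (V.mul_mem (natCast_mem V p) (coeff_mul_mem_subring V hFIV hE4 n)) (hE6 n)

/-- One of the first three coefficients of `A` is not in `J`:
`24 = -15600 c₀ + 101 c₁ - 4 c₂` for `cᵢ` the coefficients of `p E4 + E6`. -/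
theorem exists_coeff_A_notMem (hVJ : ∀ v ∈ V, ∀ x ∈ J, v * x ∈ J) (h24 : (24 : R) ∉ J)
    (hE4 : ∀ n, coeff n E4 ∈ V) (hFI : ∀ n, coeff n (FI - 1) ∈ J)
    (hE4_0 : coeff 0 E4 = 1) (hE4_1 : coeff 1 E4 = 240) (hE4_2 : coeff 2 E4 = 2160)
    (hE6_0 : coeff 0 E6 = 1) (hE6_1 : coeff 1 E6 = -504) (hE6_2 : coeff 2 E6 = -16632) :
    ∃ n ≤ 2, coeff n ((p : R⟦X⟧) * (FI * E4) + E6) ∉ J := by
  by_contra hcon
  have hall : ∀ n ≤ 2, coeff n ((p : R⟦X⟧) * E4 + E6) ∈ J := by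
    intro n hn
    rw [← coeff_A_mem_iff V J hVJ hE4 hFI n]
    by_contra h
    exact hcon ⟨n, hn, h⟩
  have h0 := hall 0 (by norm_num)
  have h1 := hall 1 (by norm_num)
  have h2 := hall 2 (by norm_num)
  rw [map_add, coeff_natCast_mul] at h0 h1 h2
  rw [hE4_0, hE6_0] at h0
  rw [hE4_1, hE6_1] at h1
  rw [hE4_2, hE6_2] at h2
  apply h24
  have e : (24 : R) = (101 : ℤ) • ((p : R) * 240 + -504) - (15600 : ℤ) • ((p : R) * 1 + 1)
      - (4 : ℤ) • ((p : R) * 2160 + -16632) := by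
    simp only [zsmul_eq_mul]; push_cast; ring
  rw [e]
  exact J.sub_mem (J.sub_mem (J.zsmul_mem h1 _) (J.zsmul_mem h0 _)) (J.zsmul_mem h2 _)

/-- The `J`-order of `A` exists and is `≤ 2`. -/
theorem exists_order_A (hVJ : ∀ v ∈ V, ∀ x ∈ J, v * x ∈ J) (h24 : (24 : R) ∉ J)
    (hE4 : ∀ n, coeff n E4 ∈ V) (hFI : ∀ n, coeff n (FI - 1) ∈ J)
    (hE4_0 : coeff 0 E4 = 1) (hE4_1 : coeff 1 E4 = 240) (hE4_2 : coeff 2 E4 = 2160)
    (hE6_0 : coeff 0 E6 = 1) (hE6_1 : coeff 1 E6 = -504) (hE6_2 : coeff 2 E6 = -16632) :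
    ∃ a ≤ 2, (∀ i < a, coeff i ((p : R⟦X⟧) * (FI * E4) + E6) ∈ J) ∧
      coeff a ((p : R⟦X⟧) * (FI * E4) + E6) ∉ J := by
  classical
  obtain ⟨n, hn, hnot⟩ := exists_coeff_A_notMem V J (p := p) hVJ h24 hE4 hFI hE4_0 hE4_1 hE4_2
    hE6_0 hE6_1 hE6_2
  have hex : ∃ n, coeff n ((p : R⟦X⟧) * (FI * E4) + E6) ∉ J := ⟨n, hnot⟩
  refine ⟨Nat.find hex, (Nat.find_min' hex hnot).trans hn, fun i hi => ?_, Nat.find_spec hex⟩
  by_contra h
  exact Nat.find_min hex hi h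

end Infinity

/-! ### The expansion at `0` -/

section Zero

variable (V : Subring R) (J : AddSubgroup R) {p : ℕ} {E4 E6 D4 D6 FZ : R⟦X⟧}

/-- `B = -(FZ·D4) + D6` differs from `D6 - D4` by a series with coefficients in `J`. -/
theorem coeff_B_sub_mem (hVJ : ∀ v ∈ V, ∀ x ∈ J, v * x ∈ J)
    (hD4 : ∀ n, coeff n D4 ∈ V) (hFZ : ∀ n, coeff n (FZ - 1) ∈ J) (n : ℕ) :
    coeff n (-(FZ * D4) + D6) - coeff n (D6 - D4) ∈ J := by
  have h : -(FZ * D4) + D6 - (D6 - D4) = -((FZ - 1) * D4) := by ring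
  rw [← map_sub, h, map_neg]
  exact J.neg_mem (coeff_mul_mem_of_left V J hVJ hFZ hD4 n)

theorem coeff_B_mem_iff (hVJ : ∀ v ∈ V, ∀ x ∈ J, v * x ∈ J)
    (hD4 : ∀ n, coeff n D4 ∈ V) (hFZ : ∀ n, coeff n (FZ - 1) ∈ J) (n : ℕ) :
    coeff n (-(FZ * D4) + D6) ∈ J ↔ coeff n (D6 - D4) ∈ J := by
  have h := coeff_B_sub_mem V J (D6 := D6) hVJ hD4 hFZ n
  constructor
  · intro h1
    have := J.sub_mem h1 h
    rwa [sub_sub_cancel] at this
  · intro h1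
    have := J.add_mem h h1
    rwa [sub_add_cancel] at this

/-- Coefficients of `B` lie in `V`. -/
theorem coeff_B_mem_subring (hJV : ∀ x ∈ J, x ∈ V)
    (hD4 : ∀ n, coeff n D4 ∈ V) (hD6 : ∀ n, coeff n D6 ∈ V)
    (hFZ : ∀ n, coeff n (FZ - 1) ∈ J) (n : ℕ) :
    coeff n (-(FZ * D4) + D6) ∈ V := by
  have hFZV : ∀ n, coeff n FZ ∈ V := by
    intro n
    have h1 : coeff n FZ = coeff n (FZ - 1) + coeff n (1 : R⟦X⟧) := by
      rw [← map_add]; congr 1; ring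
    rw [h1]
    refine V.add_mem (hJV _ (hFZ n)) ?_
    rw [coeff_one]; split_ifs
    · exact V.one_mem
    · exact V.zero_mem
  rw [map_add, map_neg]
  exact V.add_mem (V.neg_mem (coeff_mul_mem_subring V hFZV hD4 n)) (hD6 n)

/-- Below `p` all coefficients of `B` are in `J`. -/
theorem coeff_B_mem_of_lt (hVJ : ∀ v ∈ V, ∀ x ∈ J, v * x ∈ J)
    (hE4 : ∀ n, coeff n E4 ∈ V) (hFZ : ∀ n, coeff n (FZ - 1) ∈ J)
    (hE4_0 : coeff 0 E4 = 1) (hE6_0 : coeff 0 E6 = 1)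
    (hD4 : ∀ m, coeff (p * m) D4 = coeff m E4) (hD4' : ∀ i, ¬ p ∣ i → coeff i D4 = 0)
    (hD6 : ∀ m, coeff (p * m) D6 = coeff m E6) (hD6' : ∀ i, ¬ p ∣ i → coeff i D6 = 0)
    {i : ℕ} (hi : i < p) : coeff i (-(FZ * D4) + D6) ∈ J := by
  rw [coeff_B_mem_iff V J hVJ (coeff_expanded_mem V hE4 hD4 hD4') hFZ, map_sub]
  rcases Nat.eq_zero_or_pos i with rfl | hpos
  · have h4 := hD4 0
    have h6 := hD6 0
    rw [mul_zero] at h4 h6
    rw [h4, h6, hE4_0, hE6_0, sub_self]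
    exact J.zero_mem
  · have hnd : ¬ p ∣ i := Nat.not_dvd_of_pos_of_lt hpos hi
    rw [hD4' i hnd, hD6' i hnd, sub_self]
    exact J.zero_mem

/-- The coefficient of `B` at `p` or at `2p` is not in `J`: `24 = 4·18792 - 101·744`. -/
theorem exists_coeff_B_notMem (hVJ : ∀ v ∈ V, ∀ x ∈ J, v * x ∈ J) (h24 : (24 : R) ∉ J)
    (hE4 : ∀ n, coeff n E4 ∈ V) (hFZ : ∀ n, coeff n (FZ - 1) ∈ J)
    (hE4_1 : coeff 1 E4 = 240) (hE4_2 : coeff 2 E4 = 2160)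
    (hE6_1 : coeff 1 E6 = -504) (hE6_2 : coeff 2 E6 = -16632)
    (hD4 : ∀ m, coeff (p * m) D4 = coeff m E4) (hD4' : ∀ i, ¬ p ∣ i → coeff i D4 = 0)
    (hD6 : ∀ m, coeff (p * m) D6 = coeff m E6) :
    ∃ n, coeff n (-(FZ * D4) + D6) ∉ J := by
  by_contra hcon
  have hall : ∀ n, coeff n (D6 - D4) ∈ J := by
    intro n
    rw [← coeff_B_mem_iff V J hVJ (coeff_expanded_mem V hE4 hD4 hD4') hFZ n]
    by_contra h
    exact hcon ⟨n, h⟩
  have h1 := hall (p * 1)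
  have h2 := hall (p * 2)
  rw [map_sub, hD4, hD6] at h1 h2
  rw [hE4_1, hE6_1] at h1
  rw [hE4_2, hE6_2] at h2
  apply h24
  have e : (24 : R) = (101 : ℤ) • ((-504 : R) - 240) - (4 : ℤ) • ((-16632 : R) - 2160) := by
    simp only [zsmul_eq_mul]; push_cast; ring
  rw [e]
  exact J.sub_mem (J.zsmul_mem h1 _) (J.zsmul_mem h2 _)

/-- The `J`-order of `B` exists and is `≥ p`. -/
theorem exists_order_B (hVJ : ∀ v ∈ V, ∀ x ∈ J, v * x ∈ J) (h24 : (24 : R) ∉ J)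
    (hE4 : ∀ n, coeff n E4 ∈ V) (hFZ : ∀ n, coeff n (FZ - 1) ∈ J)
    (hE4_0 : coeff 0 E4 = 1) (hE4_1 : coeff 1 E4 = 240) (hE4_2 : coeff 2 E4 = 2160)
    (hE6_0 : coeff 0 E6 = 1) (hE6_1 : coeff 1 E6 = -504) (hE6_2 : coeff 2 E6 = -16632)
    (hD4 : ∀ m, coeff (p * m) D4 = coeff m E4) (hD4' : ∀ i, ¬ p ∣ i → coeff i D4 = 0)
    (hD6 : ∀ m, coeff (p * m) D6 = coeff m E6) (hD6' : ∀ i, ¬ p ∣ i → coeff i D6 = 0) :
    ∃ b, p ≤ b ∧ (∀ i < b, coeff i (-(FZ * D4) + D6) ∈ J) ∧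
      coeff b (-(FZ * D4) + D6) ∉ J := by
  classical
  have hex : ∃ n, coeff n (-(FZ * D4) + D6) ∉ J :=
    exists_coeff_B_notMem V J hVJ h24 hE4 hFZ hE4_1 hE4_2 hE6_1 hE6_2 hD4 hD4' hD6
  refine ⟨Nat.find hex, ?_, fun i hi => ?_, Nat.find_spec hex⟩
  · by_contra hlt
    exact Nat.find_spec hex
      (coeff_B_mem_of_lt V J hVJ hE4 hFZ hE4_0 hE6_0 hD4 hD4' hD6 hD6' (not_le.mp hlt))
  · by_contra h
    exact Nat.find_min hex hi h

end Zero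

/-! ### The contradiction -/

/-- **(A5), power-series half.**  If for all `a b` that are the `J`-orders of
`A = p·FI·E4 + E6` and `B = -(FZ·D4) + D6` one has `a + b ≤ 6 (p+1)/12` (Norm–Sturm in weight 6),
then `False` (for `p ≥ 2`). -/
theorem false_of_normSturm (V : Subring R) (J : AddSubgroup R) {p : ℕ} (hp : 2 ≤ p)
    {E4 E6 D4 D6 FI FZ : R⟦X⟧}
    (hVJ : ∀ v ∈ V, ∀ x ∈ J, v * x ∈ J) (h24 : (24 : R) ∉ J)
    (hE4 : ∀ n, coeff n E4 ∈ V)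
    (hFI : ∀ n, coeff n (FI - 1) ∈ J) (hFZ : ∀ n, coeff n (FZ - 1) ∈ J)
    (hE4_0 : coeff 0 E4 = 1) (hE4_1 : coeff 1 E4 = 240) (hE4_2 : coeff 2 E4 = 2160)
    (hE6_0 : coeff 0 E6 = 1) (hE6_1 : coeff 1 E6 = -504) (hE6_2 : coeff 2 E6 = -16632)
    (hD4 : ∀ m, coeff (p * m) D4 = coeff m E4) (hD4' : ∀ i, ¬ p ∣ i → coeff i D4 = 0)
    (hD6 : ∀ m, coeff (p * m) D6 = coeff m E6) (hD6' : ∀ i, ¬ p ∣ i → coeff i D6 = 0)
    (hNS : ∀ a b : ℕ,
      (∀ i < a, coeff i ((p : R⟦X⟧) * (FI * E4) + E6) ∈ J) →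
      coeff a ((p : R⟦X⟧) * (FI * E4) + E6) ∉ J →
      (∀ i < b, coeff i (-(FZ * D4) + D6) ∈ J) →
      coeff b (-(FZ * D4) + D6) ∉ J → a + b ≤ 6 * (p + 1) / 12) : False := by
  obtain ⟨a, -, ha, ha'⟩ := exists_order_A V J (p := p) hVJ h24 hE4 hFI hE4_0 hE4_1 hE4_2
    hE6_0 hE6_1 hE6_2
  obtain ⟨b, hpb, hb, hb'⟩ := exists_order_B V J hVJ h24 hE4 hFZ hE4_0 hE4_1 hE4_2
    hE6_0 hE6_1 hE6_2 hD4 hD4' hD6 hD6'
  have := hNS a b ha ha' hb hb'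
  omega


section Eisenstein

open ModularForm EisensteinSeries UpperHalfPlane MatrixGroups
open scoped ArithmeticFunction.sigma

/-! ### The level-one Eisenstein series `E₄`, `E₆`: the coefficient facts used above -/

theorem E₄_coeff (m : ℕ) :
    (qExpansion 1 E₄).coeff m = if m = 0 then 1 else ((240 * σ 3 m : ℕ) : ℂ) := by
  rw [E_qExpansion_coeff _ ⟨2, rfl⟩]
  split_ifs with h
  · rfl
  · rw [show bernoulli 4 = -1 / 30 by decide +kernel]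
    push_cast
    ring

theorem E₆_coeff (m : ℕ) :
    (qExpansion 1 E₆).coeff m = if m = 0 then 1 else -((504 * σ 5 m : ℕ) : ℂ) := by
  rw [E_qExpansion_coeff _ ⟨3, rfl⟩]
  split_ifs with h
  · rfl
  · rw [show bernoulli 6 = 1 / 42 by decide +kernel]
    push_cast
    ring

theorem E₄_coeff_zero : (qExpansion 1 E₄).coeff 0 = 1 := by rw [E₄_coeff]; rfl

theorem E₆_coeff_zero : (qExpansion 1 E₆).coeff 0 = 1 := by rw [E₆_coeff]; rfl

theorem E₄_coeff_one : (qExpansion 1 E₄).coeff 1 = 240 := by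
  rw [E₄_coeff]; simp

theorem E₆_coeff_one : (qExpansion 1 E₆).coeff 1 = -504 := by
  rw [E₆_coeff]; simp

theorem sigma_three_two : σ 3 2 = 9 := by decide
theorem sigma_five_two : σ 5 2 = 33 := by decide

theorem E₄_coeff_two : (qExpansion 1 E₄).coeff 2 = 2160 := by
  rw [E₄_coeff, sigma_three_two]; norm_num

theorem E₆_coeff_two : (qExpansion 1 E₆).coeff 2 = -16632 := by
  rw [E₆_coeff, sigma_five_two]; norm_num

theorem E₄_coeff_mem (V : Subring ℂ) (n : ℕ) : (qExpansion 1 E₄).coeff n ∈ V := by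
  rw [E₄_coeff]
  split_ifs
  · exact V.one_mem
  · exact natCast_mem V _

theorem E₆_coeff_mem (V : Subring ℂ) (n : ℕ) : (qExpansion 1 E₆).coeff n ∈ V := by
  rw [E₆_coeff]
  split_ifs
  · exact V.one_mem
  · exact V.neg_mem (natCast_mem V _)

end Eisenstein

end Fermat.Agent.S16.ArithA5Core
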