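import Fermat.Agent.S16.RamanujanLaurent
import Fermat.Agent.S24.FFBasics
import Fermat.Prelude.Def_ModularCurve_X0ModL

/-!
# S16 / K(9), step (3a): the Artin–Schreier equation `Y³ - Y + 1/j = 0` has no root in `κ(j)`

* `ne_zero_of_mem_adjoin` (abstract, any characteristic): for fields `k ⊆ W`, `x ∈ W` transcendental
  over `k` and `y ∈ k(x)`:  `y ^ 3 - y + x⁻¹ ≠ 0`.
  [`y = r / s`: `X r³ - X r s² + s³ = 0` forces `X ∣ s`, then `X ∣ r`; infinite descent.]
* `PbarK κ : LaurentSeries κ` : the series `∑ σ₁(n) qⁿ` with coefficients in a field `κ` of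
  characteristic 3 (base change of `RamanujanMod3.PbarL`);
* `artinSchreier_PbarK : PbarK κ ^ 3 - PbarK κ + (jqModC κ)⁻¹ = 0`;
* `PbarK_notMem_adjoin : PbarK κ ∉ IntermediateField.adjoin κ {jqModC κ}`;
* `PbarK_notMem_levelOne : PbarK κ ∉ modularFunctionFieldFullC κ 1`.
-/

set_option autoImplicit false

namespace Fermat.Agent.S16.ArtinSchreierJ

open Polynomial ModularCurve

section Abstract

variable {k W : Type*} [Field k] [Field W] [Algebra k W]

/-- Descent step: a solution `(r, s)` of `X r³ - X r s² + s³ = 0` is divisible by `X`, and the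
quotient is again a solution. -/
theorem exists_of_eq {r s : k[X]} (h : X * r ^ 3 - X * r * s ^ 2 + s ^ 3 = 0) :
    ∃ r₁ s₁ : k[X], r = X * r₁ ∧ s = X * s₁ ∧ X * r₁ ^ 3 - X * r₁ * s₁ ^ 2 + s₁ ^ 3 = 0 := by
  have hs3 : (X : k[X]) ∣ s ^ 3 := by
    refine ⟨r * s ^ 2 - r ^ 3, ?_⟩
    linear_combination h
  have hs : (X : k[X]) ∣ s := Polynomial.prime_X.dvd_of_dvd_pow hs3
  obtain ⟨t, rfl⟩ := hs
  have h2 : (X : k[X]) * (r ^ 3 - X ^ 2 * r * t ^ 2 + X ^ 2 * t ^ 3) = 0 := by
    linear_combination h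
  have h3 : r ^ 3 - X ^ 2 * r * t ^ 2 + X ^ 2 * t ^ 3 = 0 := by
    rcases mul_eq_zero.mp h2 with h0 | h0
    · exact absurd h0 Polynomial.X_ne_zero
    · exact h0
  have hr3 : (X : k[X]) ∣ r ^ 3 := by
    refine ⟨X * (r * t ^ 2 - t ^ 3), ?_⟩
    linear_combination h3
  have hr : (X : k[X]) ∣ r := Polynomial.prime_X.dvd_of_dvd_pow hr3
  obtain ⟨u, rfl⟩ := hr
  refine ⟨u, t, rfl, rfl, ?_⟩
  have h4 : (X : k[X]) ^ 3 * (X * u ^ 3 - X * u * t ^ 2 + t ^ 3) = 0 := by
    linear_combination h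
  rcases mul_eq_zero.mp h4 with h0 | h0
  · exact absurd (pow_eq_zero_iff (by norm_num) |>.mp h0) Polynomial.X_ne_zero
  · exact h0

/-- Infinite descent: the only solutions of `X r³ - X r s² + s³ = 0` have `s = 0`. -/
theorem eq_zero_of_eq : ∀ (n : ℕ) (r s : k[X]), s.natDegree = n →
    X * r ^ 3 - X * r * s ^ 2 + s ^ 3 = 0 → s = 0 := by
  intro n
  induction n using Nat.strong_induction_on with
  | _ n ih =>
    intro r s hn h
    by_contra hs0
    obtain ⟨r₁, s₁, -, hs, h1⟩ := exists_of_eq h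
    have hs10 : s₁ ≠ 0 := fun h0 => hs0 (by rw [hs, h0, mul_zero])
    have hdeg : s.natDegree = s₁.natDegree + 1 := by
      rw [hs, mul_comm, Polynomial.natDegree_mul_X hs10]
    exact hs10 (ih s₁.natDegree (by omega) r₁ s₁ rfl h1)

/-- Field identity used below. -/
theorem field_identity {x A B : W} (hx : x ≠ 0) (hB : B ≠ 0) :
    x * A ^ 3 - x * A * B ^ 2 + B ^ 3 = x * B ^ 3 * ((A / B) ^ 3 - A / B + x⁻¹) := by
  field_simp

/-- **Artin–Schreier over a rational function field**: `Y³ - Y + 1/x` has no root in `k(x)`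
(`x` transcendental over `k`). -/
theorem ne_zero_of_mem_adjoin {x : W} (hx : Transcendental k x) {y : W}
    (hy : y ∈ IntermediateField.adjoin k {x}) : y ^ 3 - y + x⁻¹ ≠ 0 := by
  intro h
  have hx0 : x ≠ 0 := fun h0 => hx (h0 ▸ isAlgebraic_zero)
  have hinj : ∀ f : k[X], aeval x f = 0 → f = 0 := fun f hf => (transcendental_iff.mp hx) f hf
  obtain ⟨r, s, rfl⟩ := (IntermediateField.mem_adjoin_simple_iff k y).mp hy
  by_cases hS : aeval x s = 0
  · rw [hS, div_zero] at h
    have : x⁻¹ = 0 := by simpa using h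
    exact hx0 (inv_eq_zero.mp this)
  have hs0 : s ≠ 0 := fun h0 => hS (by rw [h0, map_zero])
  have hpoly : aeval x (X * r ^ 3 - X * r * s ^ 2 + s ^ 3) = 0 := by
    simp only [map_add, map_sub, map_mul, map_pow, aeval_X]
    rw [field_identity hx0 hS, h, mul_zero]
  exact hs0 (eq_zero_of_eq _ r s rfl (hinj _ hpoly))

end Abstract

section ModThree

variable (κ : Type*) [Field κ] [CharP κ 3]

/-- `∑ σ₁(n) qⁿ` with coefficients in a field `κ` of characteristic 3. -/
noncomputable def PbarK : LaurentSeries κ :=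
  coeffMap (ZMod.castHom (dvd_refl 3) κ) RamanujanMod3.PbarL

theorem PbarK_eq_ofPowerSeries :
    PbarK κ = HahnSeries.ofPowerSeries ℤ κ
      (RamanujanMod3.Pbar.map (ZMod.castHom (dvd_refl 3) κ)) := by
  rw [PbarK, RamanujanMod3.PbarL, coeffMap_ofPowerSeries]

/-- The Artin–Schreier equation `P̄³ - P̄ + 1/j̄ = 0` over `κ`. -/
theorem artinSchreier_PbarK : PbarK κ ^ 3 - PbarK κ + (jqModC κ)⁻¹ = 0 := by
  have h := congrArg (coeffMap (ZMod.castHom (dvd_refl 3) κ)) RamanujanMod3.artinSchreier_laurent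
  rw [map_mul, map_sub, map_pow, map_one, coeffMap_jqModC] at h
  have h2 : (jqModC κ)⁻¹ = PbarK κ - PbarK κ ^ 3 := inv_eq_of_mul_eq_one_right h
  rw [h2]; ring

/-- `P̄ ∉ κ(j̄)`. -/
theorem PbarK_notMem_adjoin : PbarK κ ∉ IntermediateField.adjoin κ {jqModC κ} := fun h =>
  ne_zero_of_mem_adjoin (Fermat.Agent.S24.FFBasics.transcendental_jqModC κ) h
    (artinSchreier_PbarK κ)

/-- `P̄` is not a level-one modular function mod 3. -/
theorem PbarK_notMem_levelOne : PbarK κ ∉ modularFunctionFieldFullC κ 1 := by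
  intro h
  apply PbarK_notMem_adjoin κ
  have hle : modularFunctionFieldFullC κ 1 ≤ IntermediateField.adjoin κ {jqModC κ} := by
    rw [modularFunctionFieldFullC, IntermediateField.adjoin_le_iff]
    rintro _ ⟨d, hd, hd1, rfl⟩
    have : d = 1 := Nat.dvd_one.mp hd1
    subst this
    rw [qExpand_one_apply]
    exact IntermediateField.subset_adjoin _ _ (Set.mem_singleton _)
  exact hle h

end ModThree

end Fermat.Agent.S16.ArtinSchreierJ
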