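import Fermat.Agent.S16.BetaLemmaD
import Fermat.Agent.M2F.Regular
import Fermat.Agent.M2F.Duality

set_option autoImplicit false

open ModularCurve ModularForm ModularFormClass EisensteinSeries UpperHalfPlane MatrixGroups
open Fermat.Agent.M2F Fermat.Agent.M2F.Regular Fermat.Agent.M2F.Duality

namespace Fermat.Agent.S16.BetaLemma

section Rep

variable {R : Type*} [CommRing R] [Algebra ℂ R]

/-- `F` is a `ℂ`-combination of the monomials `A^a B^b` with `4a + 6b = k`. -/
def Rep (A B : R) (k : ℕ) (F : R) : Prop :=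
  ∃ c : ℕ × ℕ →₀ ℂ, (∀ x ∈ c.support, 4 * x.1 + 6 * x.2 = k) ∧
    F = c.sum fun x cx => cx • (A ^ x.1 * B ^ x.2)

theorem Rep.zero (A B : R) (k : ℕ) : Rep A B k 0 :=
  ⟨0, by simp, by simp⟩

theorem Rep.const (A B : R) (c₀ : ℂ) : Rep A B 0 (algebraMap ℂ R c₀) := by
  refine ⟨Finsupp.single (0, 0) c₀, ?_, ?_⟩
  · intro x hx
    have := Finsupp.support_single_subset hx
    rw [Finset.mem_singleton] at this
    subst this
    rfl
  · rw [Finsupp.sum_single_index (by simp)]
    simp [Algebra.smul_def]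

theorem Rep.mulA {A B : R} {k : ℕ} {F : R} (h : Rep A B k F) : Rep A B (k + 4) (A * F) := by
  obtain ⟨c, hc, hF⟩ := h
  refine ⟨c.mapDomain (fun x => (x.1 + 1, x.2)), ?_, ?_⟩
  · intro y hy
    have := Finsupp.mapDomain_support hy
    rw [Finset.mem_image] at this
    obtain ⟨x, hx, rfl⟩ := this
    have := hc x hx
    simp only
    omega
  · rw [Finsupp.sum_mapDomain_index (by simp) (by intro x a b; rw [add_smul]), hF, Finsupp.mul_sum]
    refine Finsupp.sum_congr fun x _ => ?_
    rw [mul_smul_comm]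
    congr 1
    ring

theorem Rep.mulB {A B : R} {k : ℕ} {F : R} (h : Rep A B k F) : Rep A B (k + 6) (B * F) := by
  obtain ⟨c, hc, hF⟩ := h
  refine ⟨c.mapDomain (fun x => (x.1, x.2 + 1)), ?_, ?_⟩
  · intro y hy
    have := Finsupp.mapDomain_support hy
    rw [Finset.mem_image] at this
    obtain ⟨x, hx, rfl⟩ := this
    have := hc x hx
    simp only
    omega
  · rw [Finsupp.sum_mapDomain_index (by simp) (by intro x a b; rw [add_smul]), hF, Finsupp.mul_sum]
    refine Finsupp.sum_congr fun x _ => ?_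
    rw [mul_smul_comm]
    congr 1
    ring

theorem Rep.add {A B : R} {k : ℕ} {F G : R} (hF : Rep A B k F) (hG : Rep A B k G) :
    Rep A B k (F + G) := by
  classical
  obtain ⟨c, hc, rfl⟩ := hF
  obtain ⟨d, hd, rfl⟩ := hG
  refine ⟨c + d, ?_, ?_⟩
  · intro x hx
    have := Finsupp.support_add hx
    rw [Finset.mem_union] at this
    rcases this with h | h
    · exact hc x h
    · exact hd x h
  · rw [Finsupp.sum_add_index' (by simp) (by intro x a b; rw [add_smul])]

end Rep

end Fermat.Agent.S16.BetaLemma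

namespace Fermat.Agent.S16.BetaLemma

section Induction

theorem analyticAt_of_isMF {k : ℤ} {f : ℍ → ℂ} (h : IsMF ⊤ k f) :
    AnalyticAt ℂ (cuspFunction 1 f) 0 :=
  ModularFormClass.analyticAt_cuspFunction_zero (toLevelOne h) one_pos one_mem_strictPeriods_SL

theorem rep_qExpansion : ∀ n : ℕ, ∀ a : ℍ → ℂ, IsMF ⊤ (n : ℤ) a →
    Rep (qExpansion 1 E₄) (qExpansion 1 E₆) n (qExpansion 1 a) := by
  intro n
  induction n using Nat.strong_induction_on with
  | _ n ih =>
    intro a ha
    rcases Nat.eq_zero_or_pos n with rfl | hn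
    · -- weight zero: constants
      have ha0 : IsMF ⊤ 0 a := by simpa using ha
      obtain ⟨c₀, hc₀⟩ := levelOne_weight_zero_const (toLevelOne ha0)
      have h1 : a = c₀ • (1 : ℍ → ℂ) := by
        funext z
        have := congrFun hc₀ z
        simpa using this
      have h2 : AnalyticAt ℂ (cuspFunction 1 (1 : ℍ → ℂ)) 0 := by
        have := analyticAt_of_isMF (isMF_top_const 1)
        exact this
      rw [h1, qExpansion_smul h2, qExpansion_one]
      have := Rep.const (qExpansion 1 E₄) (qExpansion 1 E₆) c₀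
      rwa [Algebra.algebraMap_eq_smul_one] at this
    · obtain ⟨b, c, hb, hc, habc⟩ := exists_eq_E₄_mul_add_E₆_mul (k := (n : ℤ)) (by exact_mod_cast hn) ha
      have hE4b : AnalyticAt ℂ (cuspFunction 1 ((E₄ : ℍ → ℂ) * b)) 0 := by
        rw [cuspFunction_mul (analyticAt_of_isMF isMF_E₄).continuousAt
          (analyticAt_of_isMF hb).continuousAt]
        exact (analyticAt_of_isMF isMF_E₄).mul (analyticAt_of_isMF hb)
      have hE6c : AnalyticAt ℂ (cuspFunction 1 ((E₆ : ℍ → ℂ) * c)) 0 := by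
        rw [cuspFunction_mul (analyticAt_of_isMF isMF_E₆).continuousAt
          (analyticAt_of_isMF hc).continuousAt]
        exact (analyticAt_of_isMF isMF_E₆).mul (analyticAt_of_isMF hc)
      rw [habc, qExpansion_add hE4b hE6c,
        qExpansion_mul (analyticAt_of_isMF isMF_E₄) (analyticAt_of_isMF hb),
        qExpansion_mul (analyticAt_of_isMF isMF_E₆) (analyticAt_of_isMF hc)]
      refine Rep.add ?_ ?_
      · by_cases h4 : 4 ≤ n
        · have hb' : IsMF ⊤ ((n - 4 : ℕ) : ℤ) b := isMF_congr_weight (by omega) hb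
          have := (ih (n - 4) (by omega) b hb').mulA
          rwa [Nat.sub_add_cancel h4] at this
        · have : b = 0 := isMF_top_eq_zero_of_neg hb (by omega)
          rw [this, qExpansion_zero, mul_zero]
          exact Rep.zero _ _ _
      · by_cases h6 : 6 ≤ n
        · have hc' : IsMF ⊤ ((n - 6 : ℕ) : ℤ) c := isMF_congr_weight (by omega) hc
          have := (ih (n - 6) (by omega) c hc').mulB
          rwa [Nat.sub_add_cancel h6] at this
        · have : c = 0 := isMF_top_eq_zero_of_neg hc (by omega)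
          rw [this, qExpansion_zero, mul_zero]
          exact Rep.zero _ _ _

end Induction

end Fermat.Agent.S16.BetaLemma

namespace Fermat.Agent.S16.BetaLemma

section Descent

open scoped ArithmeticFunction.sigma

/-- A `ℚ`-linear retraction `ℂ → ℚ`. -/
theorem exists_retraction : ∃ π : ℂ →ₗ[ℚ] ℚ, ∀ q : ℚ, π (q : ℂ) = q := by
  have hinj : Function.Injective (Algebra.linearMap ℚ ℂ) := (algebraMap ℚ ℂ).injective
  obtain ⟨π, hπ⟩ := LinearMap.exists_leftInverse_of_injective (Algebra.linearMap ℚ ℂ)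
    (LinearMap.ker_eq_bot.mpr hinj)
  refine ⟨π, fun q => ?_⟩
  have := LinearMap.congr_fun hπ q
  simpa using this

theorem qExpansion_E_eq {k : ℕ} (hk : 3 ≤ k) (hk2 : Even k) :
    qExpansion 1 (E hk) = (eisQ k).map (algebraMap ℚ ℂ) := by
  ext m
  rw [E_qExpansion_coeff hk hk2, PowerSeries.coeff_map, eisQ, PowerSeries.coeff_mk]
  by_cases hm : m = 0
  · simp [hm]
  · simp only [hm, if_false]
    rw [ArithmeticFunction.sigma_apply]
    simp only [eq_ratCast]
    push_cast
    ring

theorem hA (ℓ : ℕ) [hℓ : Fact ℓ.Prime] (h5 : 5 ≤ ℓ) : HA ℓ := by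
  have hk : 3 ≤ ℓ - 1 := by omega
  have hk2 : Even (ℓ - 1) := by
    have hodd : Odd ℓ := hℓ.out.odd_of_ne_two (by omega)
    obtain ⟨m, hm⟩ := hodd
    exact ⟨m, by omega⟩
  obtain ⟨c, hc, hrep⟩ := rep_qExpansion (ℓ - 1) (E hk) (isMF_top_coe (E hk))
  obtain ⟨π, hπ⟩ := exists_retraction
  refine ⟨c.support, fun x => π (c x), hc, ?_⟩
  rw [qExpansion_E_eq hk hk2, Fermat.Agent.S24.QExp.qExpansion_E₄, qExpansion_E₆] at hrep
  ext n
  have h1 := congrArg (PowerSeries.coeff n) hrep
  rw [PowerSeries.coeff_map, Finsupp.sum, map_sum] at h1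
  have h2 : ∀ x ∈ c.support, PowerSeries.coeff n (c x •
      ((PowerSeries.map (Int.castRingHom ℂ) eisenstein4) ^ x.1 *
        (PowerSeries.map (Int.castRingHom ℂ) eis6) ^ x.2)) =
      ((PowerSeries.coeff n (monZ x) : ℤ) : ℚ) • c x := by
    intro x _
    rw [PowerSeries.coeff_smul, ← map_pow, ← map_pow, ← map_mul, ← monZ, PowerSeries.coeff_map]
    simp only [eq_intCast]
    rw [Rat.smul_def, mul_comm]
    push_cast
    ring
  rw [Finset.sum_congr rfl h2] at h1
  have h3 := congrArg π h1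
  rw [show (algebraMap ℚ ℂ) (PowerSeries.coeff n (eisQ (ℓ - 1))) =
    ((PowerSeries.coeff n (eisQ (ℓ - 1)) : ℚ) : ℂ) from rfl, hπ, map_sum] at h3
  rw [h3, map_sum]
  refine Finset.sum_congr rfl fun x _ => ?_
  rw [map_smul, PowerSeries.coeff_smul, PowerSeries.coeff_map]
  simp only [eq_intCast, smul_eq_mul]
  ring

end Descent

end Fermat.Agent.S16.BetaLemma
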