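import Fermat.Agent.S16.BetaLemmaE
import Fermat.Agent.S16.BetaLemmaF

set_option autoImplicit false

open IntermediateField ModularCurve

namespace Fermat.Agent.S16.BetaLemma

variable (ℓ : ℕ) [hℓ : Fact ℓ.Prime]

/-- **β-lemma / (T)**, unconditional: for a prime `ℓ ≥ 5`, the `q`-series `Ē₆/Ē₄`
(in `LaurentSeries (ZMod ℓ)`) does not lie in the subfield `F_ℓ(j̄)` generated by the
reduction `jqModC (ZMod ℓ)` of the `q`-expansion of `j`. -/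
theorem beta_lemma (h5 : 5 ≤ ℓ) :
    E6K (ZMod ℓ) / E4K (ZMod ℓ) ∉ (ZMod ℓ)⟮jqModC (ZMod ℓ)⟯ :=
  div_notMem_adjoin_jqModC ℓ h5 h1728 (hA ℓ h5)

/-- By-product: `(Ē₆/Ē₄)^{(ℓ-1)/2} ∈ F_ℓ(j̄)` (the Hasse invariant is `1`). -/
theorem beta_pow_mem (h5 : 5 ≤ ℓ) :
    (E6K (ZMod ℓ) / E4K (ZMod ℓ)) ^ ((ℓ - 1) / 2) ∈ (ZMod ℓ)⟮jqModC (ZMod ℓ)⟯ :=
  div_pow_mem_adjoin_jqModC ℓ h5 h1728 (hA ℓ h5)

/-- `j̄ · Δ̄ = Ē₄³`, `1728 Δ̄ = Ē₄³ - Ē₆²` in `LaurentSeries (ZMod ℓ)`: re-exported unconditional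
forms of the basic identities. -/
theorem E4K_cube_sub' (K : Type*) [Field K] :
    E4K K ^ 3 - E6K K ^ 2 = 1728 * DeltaK K :=
  E4K_cube_sub h1728

end Fermat.Agent.S16.BetaLemma
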