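import Mathlib
import Fermat.Prelude.Def_ModularCurve_JqCoeff
import Fermat.Agent.S24.FFBasics

set_option autoImplicit false

open Polynomial IntermediateField ModularCurve

namespace Fermat.Agent.S16.BetaLemma

/-- The formal `q`-expansion of `E₆`. -/
def eis6 : PowerSeries ℤ :=
  PowerSeries.mk fun n => if n = 0 then 1 else -504 * ∑ d ∈ n.divisors, (d : ℤ) ^ 5

@[simp] theorem constantCoeff_eis6 : PowerSeries.constantCoeff eis6 = 1 := by
  rw [← PowerSeries.coeff_zero_eq_constantCoeff]
  simp [eis6]

section Field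

variable (K : Type*) [Field K]

/-- `E₄` as a Laurent series over `K`. -/
noncomputable def E4K : LaurentSeries K :=
  HahnSeries.ofPowerSeries ℤ K (eisenstein4.map (Int.castRingHom K))

/-- `E₆` as a Laurent series over `K`. -/
noncomputable def E6K : LaurentSeries K :=
  HahnSeries.ofPowerSeries ℤ K (eis6.map (Int.castRingHom K))

/-- `q·∏(1-qⁿ)^24` as a Laurent series over `K`. -/
noncomputable def DeltaK : LaurentSeries K :=
  HahnSeries.ofPowerSeries ℤ K ((PowerSeries.X * dedekindEtaUnit).map (Int.castRingHom K))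

theorem E4K_ne_zero : E4K K ≠ 0 := by
  intro h
  have h1 : (eisenstein4.map (Int.castRingHom K)) = 0 :=
    HahnSeries.ofPowerSeries_injective (by rw [← E4K, h, map_zero])
  have h2 := congrArg PowerSeries.constantCoeff h1
  rw [← PowerSeries.coeff_zero_eq_constantCoeff, PowerSeries.coeff_map,
    PowerSeries.coeff_zero_eq_constantCoeff, constantCoeff_eisenstein4] at h2
  simp at h2

theorem E6K_ne_zero : E6K K ≠ 0 := by
  intro h
  have h1 : (eis6.map (Int.castRingHom K)) = 0 :=
    HahnSeries.ofPowerSeries_injective (by rw [← E6K, h, map_zero])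
  have h2 := congrArg PowerSeries.constantCoeff h1
  rw [← PowerSeries.coeff_zero_eq_constantCoeff, PowerSeries.coeff_map,
    PowerSeries.coeff_zero_eq_constantCoeff, constantCoeff_eis6] at h2
  simp at h2

/-- `j · Δ = E₄³` formally, over any field. -/
theorem jqModC_mul_DeltaK : jqModC K * DeltaK K = E4K K ^ 3 := by
  have hΔ : DeltaK K = HahnSeries.single (1 : ℤ) (1 : K) *
      HahnSeries.ofPowerSeries ℤ K (PowerSeries.map (Int.castRingHom K) dedekindEtaUnit) := by
    rw [DeltaK, map_mul (PowerSeries.map (Int.castRingHom K)),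
      map_mul (HahnSeries.ofPowerSeries ℤ K), PowerSeries.map_X, HahnSeries.ofPowerSeries_X]
  have hj : jqModC K = HahnSeries.single (-1 : ℤ) (1 : K) *
      ((HahnSeries.ofPowerSeries ℤ K (PowerSeries.map (Int.castRingHom K) eisenstein4)) ^ 3 *
        HahnSeries.ofPowerSeries ℤ K (PowerSeries.map (Int.castRingHom K) dedekindEtaUnitInv)) := by
    rw [jqModC, jNum, map_mul (PowerSeries.map (Int.castRingHom K)),
      map_mul (HahnSeries.ofPowerSeries ℤ K), map_pow, map_pow]
  have h1 : (HahnSeries.single (-1 : ℤ) (1 : K)) * HahnSeries.single (1 : ℤ) (1 : K) = 1 := by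
    rw [HahnSeries.single_mul_single]
    simp
  have h2 : HahnSeries.ofPowerSeries ℤ K (PowerSeries.map (Int.castRingHom K) dedekindEtaUnitInv)
      * HahnSeries.ofPowerSeries ℤ K (PowerSeries.map (Int.castRingHom K) dedekindEtaUnit) = 1 := by
    rw [← map_mul, ← map_mul, mul_comm, dedekindEtaUnit_mul_inv, map_one, map_one]
  rw [hΔ, hj, E4K]
  calc _ = (HahnSeries.single (-1 : ℤ) (1 : K) * HahnSeries.single (1 : ℤ) (1 : K)) *
        (HahnSeries.ofPowerSeries ℤ K (PowerSeries.map (Int.castRingHom K) eisenstein4)) ^ 3 *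
        (HahnSeries.ofPowerSeries ℤ K (PowerSeries.map (Int.castRingHom K) dedekindEtaUnitInv)
          * HahnSeries.ofPowerSeries ℤ K (PowerSeries.map (Int.castRingHom K) dedekindEtaUnit)) := by
        ring
    _ = _ := by rw [h1, h2, one_mul, mul_one]

/-- The formal identity `E₄³ − E₆² = 1728·q∏(1−qⁿ)^24` (to be supplied from Mathlib). -/
def H1728 : Prop :=
  eisenstein4 ^ 3 - eis6 ^ 2 = 1728 * (PowerSeries.X * dedekindEtaUnit)

variable {K}

theorem E4K_cube_sub (h : H1728) : E4K K ^ 3 - E6K K ^ 2 = 1728 * DeltaK K := by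
  have h1 := congrArg (fun x => HahnSeries.ofPowerSeries ℤ K (x.map (Int.castRingHom K))) h
  simp only [map_sub, map_pow, map_mul, map_ofNat] at h1
  rw [E4K, E6K, DeltaK, map_mul (PowerSeries.map (Int.castRingHom K)),
    map_mul (HahnSeries.ofPowerSeries ℤ K)]
  exact h1

end Field

end Fermat.Agent.S16.BetaLemma
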