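import Fermat.Agent.S16.BetaLemmaA

set_option autoImplicit false

open Polynomial IntermediateField ModularCurve

namespace Fermat.Agent.S16.BetaLemma

section Field

variable {K : Type*} [Field K]

theorem DeltaK_ne_zero : DeltaK K ≠ 0 := by
  intro h
  have h1 := jqModC_mul_DeltaK K
  rw [h, mul_zero] at h1
  exact pow_ne_zero 3 (E4K_ne_zero K) h1.symm

/-- `u = E₄³/E₆²` over `K`. -/
noncomputable def uK (K : Type*) [Field K] : LaurentSeries K := E4K K ^ 3 / E6K K ^ 2

theorem uK_sub_one (h : H1728) : uK K - 1 = 1728 * DeltaK K / E6K K ^ 2 := by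
  have h6 : E6K K ^ 2 ≠ 0 := pow_ne_zero 2 (E6K_ne_zero K)
  rw [uK, ← E4K_cube_sub h, sub_div, div_self h6]

theorem uK_sub_one_ne_zero (h : H1728) (h1728 : (1728 : K) ≠ 0) : uK K - 1 ≠ 0 := by
  rw [uK_sub_one h]
  refine div_ne_zero (mul_ne_zero ?_ DeltaK_ne_zero) (pow_ne_zero 2 (E6K_ne_zero K))
  intro h0
  apply h1728
  have h2 : (1728 : LaurentSeries K) = algebraMap K (LaurentSeries K) 1728 :=
    (map_ofNat (algebraMap K (LaurentSeries K)) 1728).symm
  rw [h2] at h0
  exact (map_eq_zero _).mp h0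

theorem jqModC_mul_uK_sub_one (h : H1728) : jqModC K * (uK K - 1) = 1728 * uK K := by
  have h6 : E6K K ^ 2 ≠ 0 := pow_ne_zero 2 (E6K_ne_zero K)
  rw [uK_sub_one h, uK, ← jqModC_mul_DeltaK K]
  field_simp

theorem jqModC_eq (h : H1728) (h1728 : (1728 : K) ≠ 0) :
    jqModC K = 1728 * uK K / (uK K - 1) := by
  rw [eq_div_iff (uK_sub_one_ne_zero h h1728)]
  exact jqModC_mul_uK_sub_one h

theorem jqModC_mem_adjoin_uK (h : H1728) (h1728 : (1728 : K) ≠ 0) : jqModC K ∈ K⟮uK K⟯ := by
  rw [jqModC_eq h h1728]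
  have hu : uK K ∈ K⟮uK K⟯ := mem_adjoin_simple_self K _
  have h2 : (1728 : LaurentSeries K) = algebraMap K (LaurentSeries K) 1728 :=
    (map_ofNat (algebraMap K (LaurentSeries K)) 1728).symm
  refine div_mem (mul_mem ?_ hu) (sub_mem hu (one_mem _))
  rw [h2]
  exact IntermediateField.algebraMap_mem _ _

theorem transcendental_uK (h : H1728) (h1728 : (1728 : K) ≠ 0) : Transcendental K (uK K) := by
  intro halg
  have h1 : Algebra.IsAlgebraic K K⟮uK K⟯ := isAlgebraic_adjoin_simple halg.isIntegral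
  have h2 : IsAlgebraic K (⟨jqModC K, jqModC_mem_adjoin_uK h h1728⟩ : K⟮uK K⟯) :=
    Algebra.IsAlgebraic.isAlgebraic _
  rw [IntermediateField.isAlgebraic_iff] at h2
  exact Fermat.Agent.S24.FFBasics.transcendental_jqModC K h2

theorem uK_mem_adjoin_jqModC (h : H1728) : uK K ∈ K⟮jqModC K⟯ := by
  -- `u (j - 1728) = j`
  have hj : jqModC K ∈ K⟮jqModC K⟯ := mem_adjoin_simple_self K _
  have h2 : (1728 : LaurentSeries K) = algebraMap K (LaurentSeries K) 1728 :=
    (map_ofNat (algebraMap K (LaurentSeries K)) 1728).symm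
  have hne : jqModC K - 1728 ≠ 0 := by
    intro h0
    have : jqModC K = algebraMap K (LaurentSeries K) 1728 := by rw [← h2]; exact sub_eq_zero.mp h0
    apply Fermat.Agent.S24.FFBasics.transcendental_jqModC K
    rw [this]
    exact isAlgebraic_algebraMap _
  have h3 : uK K = jqModC K / (jqModC K - 1728) := by
    rw [eq_div_iff hne]
    have := jqModC_mul_uK_sub_one (K := K) h
    linear_combination this
  rw [h3]
  refine div_mem hj (sub_mem hj ?_)
  rw [h2]
  exact IntermediateField.algebraMap_mem _ _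

end Field

end Fermat.Agent.S16.BetaLemma
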