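/-
S16 (helper4): the β-lemma / (T), part 1 — Mathlib-only cores.

* `div_notMem_adjoin` (B0): `Q, R ≠ 0` in a field `Ω ⊇ k`, `u = Q³/R²` transcendental over `k`, a
  nonzero isobaric relation `Σ c_{ab} Q^a R^b = 1` with `2a + 3b = d > 0` ⇒ `R/Q ∉ k(u)`;
  `sum_ne_zero`, `div_pow_mem_adjoin` (by-products).
* `padicNorm_bernoulli_pred`, `dvd_of_eq_mul_eisCoeff` (B1): von Staudt–Clausen at index `ℓ - 1`.
* `exists_int_primitive`: clearing denominators and contents of a finite rational family.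
-/
import Mathlib

set_option autoImplicit false

open Polynomial IntermediateField

namespace Fermat.Agent.S16.BetaLemma


section Core

variable {k Ω : Type*} [Field k] [Field Ω] [Algebra k Ω]

/-- The one-variable polynomial `β(X) = Σ c_{ab} X^{a+b}` attached to an isobaric family. -/
noncomputable def betaPoly (s : Finset (ℕ × ℕ)) (c : ℕ × ℕ → k) : k[X] :=
  ∑ x ∈ s, C (c x) * X ^ (x.1 + x.2)

theorem monomial_eq {Q R : Ω} (hQ : Q ≠ 0) (hR : R ≠ 0) {a b d : ℕ} (h : 2 * a + 3 * b = d) :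
    Q ^ a * R ^ b = (R / Q) ^ d * (Q ^ 3 / R ^ 2) ^ (a + b) := by
  subst h
  have hQ' : Q = (Q ^ 3 / R ^ 2) * (R / Q) ^ 2 := by field_simp
  have hR' : R = (Q ^ 3 / R ^ 2) * (R / Q) ^ 3 := by field_simp
  set t := R / Q with ht
  set u := Q ^ 3 / R ^ 2 with hu
  calc Q ^ a * R ^ b = (u * t ^ 2) ^ a * (u * t ^ 3) ^ b := by rw [← hQ', ← hR']
    _ = t ^ (2 * a + 3 * b) * u ^ (a + b) := by ring

theorem sum_eq {Q R : Ω} (hQ : Q ≠ 0) (hR : R ≠ 0) {d : ℕ} (s : Finset (ℕ × ℕ)) (c : ℕ × ℕ → k)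
    (hs : ∀ x ∈ s, 2 * x.1 + 3 * x.2 = d) :
    ∑ x ∈ s, algebraMap k Ω (c x) * (Q ^ x.1 * R ^ x.2) = (R / Q) ^ d * aeval (Q ^ 3 / R ^ 2) (betaPoly s c) := by
  rw [betaPoly, map_sum, Finset.mul_sum]
  refine Finset.sum_congr rfl fun x hx => ?_
  rw [monomial_eq hQ hR (hs x hx), map_mul, aeval_C, map_pow, aeval_X]
  ring

theorem betaPoly_coeff {d : ℕ} (s : Finset (ℕ × ℕ)) (c : ℕ × ℕ → k)
    (hs : ∀ x ∈ s, 2 * x.1 + 3 * x.2 = d) {x₀ : ℕ × ℕ} (hx₀ : x₀ ∈ s) :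
    (betaPoly s c).coeff (x₀.1 + x₀.2) = c x₀ := by
  rw [betaPoly, finsetSum_coeff, Finset.sum_eq_single x₀]
  · simp
  · intro x hx hne
    rw [coeff_C_mul, coeff_X_pow, if_neg, mul_zero]
    intro h
    apply hne
    have h1 := hs x hx
    have h2 := hs x₀ hx₀
    ext <;> omega
  · intro h; exact absurd hx₀ h

theorem betaPoly_ne_zero {d : ℕ} (s : Finset (ℕ × ℕ)) (c : ℕ × ℕ → k)
    (hs : ∀ x ∈ s, 2 * x.1 + 3 * x.2 = d) (hc : ∃ x ∈ s, c x ≠ 0) : betaPoly s c ≠ 0 := by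
  obtain ⟨x₀, hx₀, hcx⟩ := hc
  intro h
  apply hcx
  rw [← betaPoly_coeff s c hs hx₀, h, coeff_zero]

theorem betaPoly_coeff_eq_zero {d : ℕ} (hd : 0 < d) (s : Finset (ℕ × ℕ)) (c : ℕ × ℕ → k)
    (hs : ∀ x ∈ s, 2 * x.1 + 3 * x.2 = d) {n : ℕ} (hn : n = 0 ∨ d < 2 * n) :
    (betaPoly s c).coeff n = 0 := by
  rw [betaPoly, finsetSum_coeff]
  refine Finset.sum_eq_zero fun x hx => ?_
  rw [coeff_C_mul, coeff_X_pow, if_neg, mul_zero]
  intro h
  have h1 := hs x hx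
  omega

theorem betaPoly_natDegree_lt {d : ℕ} (hd : 0 < d) (s : Finset (ℕ × ℕ)) (c : ℕ × ℕ → k)
    (hs : ∀ x ∈ s, 2 * x.1 + 3 * x.2 = d) : (betaPoly s c).natDegree < d := by
  have : (betaPoly s c).natDegree ≤ d / 2 := by
    rw [natDegree_le_iff_coeff_eq_zero]
    intro N hN
    exact betaPoly_coeff_eq_zero hd s c hs (Or.inr (by omega))
  omega

theorem natTrailingDegree_pow' (p : k[X]) (hp : p ≠ 0) (n : ℕ) :
    (p ^ n).natTrailingDegree = n * p.natTrailingDegree := by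
  induction n with
  | zero => simp
  | succ n ih =>
    rw [pow_succ, natTrailingDegree_mul (pow_ne_zero n hp) hp, ih]
    ring

/-- Abstract arithmetic core: no polynomial identity `r^d * B = s^d` with `B(0) = 0`,
`deg B < d`, `B ≠ 0`. -/
theorem no_pow_identity {d : ℕ} {B r s : k[X]} (hB : B ≠ 0) (hB0 : B.coeff 0 = 0)
    (hBd : B.natDegree < d) (hr : r ≠ 0) (hs : s ≠ 0) (h : r ^ d * B = s ^ d) : False := by
  have h1 := congrArg natTrailingDegree h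
  rw [natTrailingDegree_mul (pow_ne_zero d hr) hB, natTrailingDegree_pow' r hr,
    natTrailingDegree_pow' s hs] at h1
  have h2 : 1 ≤ B.natTrailingDegree := by
    refine le_natTrailingDegree hB fun m hm => ?_
    have : m = 0 := by omega
    rw [this, hB0]
  have h3 : B.natTrailingDegree < d := lt_of_le_of_lt (natTrailingDegree_le_natDegree B) hBd
  have h4 : d ∣ B.natTrailingDegree := by
    have : B.natTrailingDegree = d * s.natTrailingDegree - d * r.natTrailingDegree := by omega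
    rw [this, ← Nat.mul_sub]
    exact dvd_mul_right _ _
  have := Nat.le_of_dvd (by omega) h4
  omega

/-- If `t ^ d * B(u) = 1` with `u` transcendental, `B ≠ 0`, `B(0) = 0`, `deg B < d`, then
`t ∉ k(u)`. -/
theorem notMem_adjoin_of_pow_mul_eq_one {t u : Ω} (hu : Transcendental k u) {d : ℕ} {B : k[X]}
    (hB : B ≠ 0) (hB0 : B.coeff 0 = 0) (hBd : B.natDegree < d)
    (h : t ^ d * aeval u B = 1) : t ∉ k⟮u⟯ := by
  intro hmem
  obtain ⟨r, s, hrs⟩ := (mem_adjoin_simple_iff k t).mp hmem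
  have hd : d ≠ 0 := by omega
  have ht : t ≠ 0 := by
    rintro rfl
    rw [zero_pow hd, zero_mul] at h
    exact zero_ne_one h
  have hr' : aeval u r ≠ 0 := by
    intro h0
    rw [h0, zero_div] at hrs
    exact ht hrs
  have hs' : aeval u s ≠ 0 := by
    intro h0
    rw [h0, div_zero] at hrs
    exact ht hrs
  have hr : r ≠ 0 := by
    rintro rfl
    exact hr' (map_zero _)
  have hs : s ≠ 0 := by
    rintro rfl
    exact hs' (map_zero _)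
  have h2 : aeval u (r ^ d * B) = aeval u (s ^ d) := by
    rw [map_mul, map_pow, map_pow]
    rw [hrs, div_pow] at h
    field_simp at h
    exact h
  have h3 : r ^ d * B = s ^ d := by
    have := (transcendental_iff.mp hu) (r ^ d * B - s ^ d) (by rw [map_sub, h2, sub_self])
    exact sub_eq_zero.mp this
  exact no_pow_identity hB hB0 hBd hr hs h3

/-- **(B0) β-lemma, abstract form.** `Q, R` nonzero elements of a field `Ω ⊇ k` with
`u = Q³/R²` transcendental over `k`; a nonzero isobaric relation `Σ c_{ab} Q^a R^b = 1` of weight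
`2d` (weights `4, 6`, i.e. `2a + 3b = d`), `d ≥ 1`. Then `R/Q ∉ k(u)`. -/
theorem div_notMem_adjoin {Q R : Ω} (hQ : Q ≠ 0) (hR : R ≠ 0)
    (hu : Transcendental k (Q ^ 3 / R ^ 2)) {d : ℕ} (hd : 0 < d)
    (s : Finset (ℕ × ℕ)) (c : ℕ × ℕ → k) (hs : ∀ x ∈ s, 2 * x.1 + 3 * x.2 = d)
    (hc : ∃ x ∈ s, c x ≠ 0) (h1 : ∑ x ∈ s, algebraMap k Ω (c x) * (Q ^ x.1 * R ^ x.2) = 1) :
    R / Q ∉ k⟮Q ^ 3 / R ^ 2⟯ := by
  rw [sum_eq hQ hR s c hs] at h1
  exact notMem_adjoin_of_pow_mul_eq_one hu (betaPoly_ne_zero s c hs hc)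
    (betaPoly_coeff_eq_zero hd s c hs (Or.inl rfl)) (betaPoly_natDegree_lt hd s c hs) h1

/-- A nonzero isobaric family never evaluates to `0` (when `Q³/R²` is transcendental). -/
theorem sum_ne_zero {Q R : Ω} (hQ : Q ≠ 0) (hR : R ≠ 0)
    (hu : Transcendental k (Q ^ 3 / R ^ 2)) {d : ℕ}
    (s : Finset (ℕ × ℕ)) (c : ℕ × ℕ → k) (hs : ∀ x ∈ s, 2 * x.1 + 3 * x.2 = d)
    (hc : ∃ x ∈ s, c x ≠ 0) : ∑ x ∈ s, algebraMap k Ω (c x) * (Q ^ x.1 * R ^ x.2) ≠ 0 := by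
  rw [sum_eq hQ hR s c hs]
  refine mul_ne_zero (pow_ne_zero _ (div_ne_zero hR hQ)) fun h0 => ?_
  exact betaPoly_ne_zero s c hs hc ((transcendental_iff.mp hu) _ h0)

/-- By-product: `(R/Q)^d ∈ k(u)`. -/
theorem div_pow_mem_adjoin {Q R : Ω} (hQ : Q ≠ 0) (hR : R ≠ 0) {d : ℕ}
    (s : Finset (ℕ × ℕ)) (c : ℕ × ℕ → k) (hs : ∀ x ∈ s, 2 * x.1 + 3 * x.2 = d)
    (h1 : ∑ x ∈ s, algebraMap k Ω (c x) * (Q ^ x.1 * R ^ x.2) = 1) :
    (R / Q) ^ d ∈ k⟮Q ^ 3 / R ^ 2⟯ := by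
  rw [sum_eq hQ hR s c hs] at h1
  have h2 : (R / Q) ^ d = (aeval (Q ^ 3 / R ^ 2) (betaPoly s c))⁻¹ :=
    eq_inv_of_mul_eq_one_left h1
  rw [h2]
  refine inv_mem ?_
  rw [aeval_eq_sum_range]
  refine sum_mem fun i _ => ?_
  rw [Algebra.smul_def]
  exact mul_mem (IntermediateField.algebraMap_mem _ _) (pow_mem (mem_adjoin_simple_self k _) i)

end Core



section VonStaudt

open Finset

variable (ℓ : ℕ) [hℓ : Fact ℓ.Prime]

/-- von Staudt–Clausen at the index `ℓ - 1`: `‖B_{ℓ-1}‖_ℓ = ℓ` for an odd prime `ℓ`. -/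
theorem padicNorm_bernoulli_pred (h3 : 3 ≤ ℓ) : padicNorm ℓ (_root_.bernoulli (ℓ - 1)) = ℓ := by
  have hodd : Odd ℓ := hℓ.out.odd_of_ne_two (by omega)
  obtain ⟨k, hk⟩ : ∃ k, ℓ - 1 = 2 * k := by
    obtain ⟨m, hm⟩ := hodd
    exact ⟨m, by omega⟩
  obtain ⟨n, hn⟩ := Bernoulli.vonStaudt_clausen k
  rw [← hk] at hn
  have hmem : ℓ ∈ (range (ℓ - 1 + 2)).filter fun p => p.Prime ∧ (p - 1) ∣ (ℓ - 1) := by
    rw [mem_filter, mem_range]
    exact ⟨by omega, hℓ.out, dvd_rfl⟩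
  rw [← Finset.add_sum_erase _ _ hmem] at hn
  set r : ℚ := (n : ℚ) - ∑ p ∈ ((range (ℓ - 1 + 2)).filter fun p => p.Prime ∧ (p - 1) ∣ (ℓ - 1)).erase ℓ,
    (1 : ℚ) / p with hr
  have hB : _root_.bernoulli (ℓ - 1) = r - 1 / (ℓ : ℚ) := by
    rw [hr]; linarith
  have hr1 : padicNorm ℓ r ≤ 1 := by
    rw [hr]
    refine le_trans padicNorm.sub (max_le (padicNorm.of_int n) ?_)
    refine padicNorm.sum_le' (fun p hp => ?_) zero_le_one
    rw [mem_erase, mem_filter] at hp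
    have : Fact p.Prime := ⟨hp.2.2.1⟩
    rw [padicNorm.div, padicNorm.one, padicNorm.padicNorm_of_prime_of_ne (fun h => hp.1 h.symm)]
    norm_num
  have hℓ1 : padicNorm ℓ (1 / (ℓ : ℚ)) = ℓ := by
    rw [padicNorm.div, padicNorm.one, padicNorm.padicNorm_p_of_prime]
    simp
  have hlt : padicNorm ℓ r < padicNorm ℓ (1 / (ℓ : ℚ)) := by
    rw [hℓ1]
    refine lt_of_le_of_lt hr1 ?_
    exact_mod_cast hℓ.out.one_lt
  rw [hB, sub_eq_add_neg, padicNorm.add_eq_max_of_ne (by rw [padicNorm.neg]; exact hlt.ne),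
    padicNorm.neg, max_eq_right hlt.le, hℓ1]

/-- `‖2(ℓ-1)/B_{ℓ-1}‖_ℓ ≤ 1/ℓ`. -/
theorem padicNorm_eisCoeff_le (h3 : 3 ≤ ℓ) :
    padicNorm ℓ (2 * ((ℓ - 1 : ℕ) : ℚ) / _root_.bernoulli (ℓ - 1)) ≤ (ℓ : ℚ)⁻¹ := by
  rw [padicNorm.div, padicNorm_bernoulli_pred ℓ h3, div_eq_mul_inv]
  have h1 : padicNorm ℓ (2 * ((ℓ - 1 : ℕ) : ℚ)) ≤ 1 := by
    have := padicNorm.of_nat (p := ℓ) (2 * (ℓ - 1))
    push_cast at this ⊢
    exact this
  have h0 : (0 : ℚ) ≤ (ℓ : ℚ)⁻¹ := by positivity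
  calc padicNorm ℓ (2 * ((ℓ - 1 : ℕ) : ℚ)) * (ℓ : ℚ)⁻¹ ≤ 1 * (ℓ : ℚ)⁻¹ :=
        mul_le_mul_of_nonneg_right h1 h0
    _ = (ℓ : ℚ)⁻¹ := one_mul _

/-- If an integer `M` is `N · 2(ℓ-1)/B_{ℓ-1}` for an integer `N`, then `ℓ ∣ M`. -/
theorem dvd_of_eq_mul_eisCoeff (h3 : 3 ≤ ℓ) {M N : ℤ}
    (h : (M : ℚ) = N * (2 * ((ℓ - 1 : ℕ) : ℚ) / _root_.bernoulli (ℓ - 1))) : (ℓ : ℤ) ∣ M := by
  rw [← padicNorm.int_lt_one_iff, h, padicNorm.mul]
  have h1 := padicNorm.of_int (p := ℓ) N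
  have h2 := padicNorm_eisCoeff_le ℓ h3
  have h3' : (ℓ : ℚ)⁻¹ < 1 := by
    rw [inv_lt_one_iff₀]
    right
    exact_mod_cast hℓ.out.one_lt
  have h0 := padicNorm.nonneg (p := ℓ) (2 * ((ℓ - 1 : ℕ) : ℚ) / _root_.bernoulli (ℓ - 1))
  calc padicNorm ℓ N * padicNorm ℓ (2 * ((ℓ - 1 : ℕ) : ℚ) / _root_.bernoulli (ℓ - 1))
      ≤ 1 * (ℓ : ℚ)⁻¹ := mul_le_mul h1 h2 h0 zero_le_one
    _ < 1 := by rw [one_mul]; exact h3'

end VonStaudt



section Primitive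

variable {ι : Type*}

/-- Clearing denominators and contents: a rational family which is not identically zero on `s` is a
nonzero rational multiple of an integer family of content `1`. -/
theorem exists_int_primitive (s : Finset ι) (c : ι → ℚ) (hc : ∃ x ∈ s, c x ≠ 0) :
    ∃ (r : ℚ) (z : ι → ℤ), r ≠ 0 ∧ (∀ x ∈ s, (z x : ℚ) = r * c x) ∧ s.gcd z = 1 := by
  classical
  set D : ℕ := ∏ x ∈ s, (c x).den with hD
  have hDpos : 0 < D := Finset.prod_pos fun x _ => (c x).den_pos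
  have hdvd : ∀ x ∈ s, (c x).den ∣ D := fun x hx => Finset.dvd_prod_of_mem _ hx
  set z₀ : ι → ℤ := fun x => (c x).num * ((D / (c x).den : ℕ) : ℤ) with hz₀
  have hz₀c : ∀ x ∈ s, (z₀ x : ℚ) = (D : ℚ) * c x := by
    intro x hx
    obtain ⟨e, he⟩ := hdvd x hx
    have hden : ((c x).den : ℚ) ≠ 0 := by exact_mod_cast (c x).den_ne_zero
    have h1 : D / (c x).den = e := by
      rw [he, Nat.mul_div_cancel_left _ (c x).den_pos]
    have h2 : c x * ((c x).den : ℚ) = (c x).num := Rat.mul_den_eq_num (c x)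
    show (((c x).num * ((D / (c x).den : ℕ) : ℤ) : ℤ) : ℚ) = (D : ℚ) * c x
    rw [h1, he]
    push_cast
    rw [← h2]
    ring
  obtain ⟨x₀, hx₀, hcx₀⟩ := hc
  have hz₀ne : ∃ x, x ∈ s ∧ z₀ x ≠ 0 := by
    refine ⟨x₀, hx₀, fun h0 => hcx₀ ?_⟩
    have := hz₀c x₀ hx₀
    rw [h0] at this
    have hD' : (D : ℚ) ≠ 0 := by exact_mod_cast hDpos.ne'
    simpa [hD'] using this.symm
  obtain ⟨z, hz, hgcd⟩ := Finset.extract_gcd z₀ ⟨x₀, hx₀⟩
  have hg : s.gcd z₀ ≠ 0 := by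
    intro h0
    obtain ⟨x, hx, hne⟩ := hz₀ne
    exact hne (Finset.gcd_eq_zero_iff.mp h0 x hx)
  refine ⟨(D : ℚ) / (s.gcd z₀ : ℤ), z, ?_, ?_, hgcd⟩
  · refine div_ne_zero (by exact_mod_cast hDpos.ne') (by exact_mod_cast hg)
  · intro x hx
    have h1 := hz₀c x hx
    rw [hz x hx] at h1
    push_cast at h1
    have hg' : ((s.gcd z₀ : ℤ) : ℚ) ≠ 0 := by exact_mod_cast hg
    field_simp
    linarith

end Primitive


end Fermat.Agent.S16.BetaLemma
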