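import Fermat.Agent.S16.BetaLemmaB
import Fermat.Agent.S16.BetaLemmaCore

set_option autoImplicit false

open Polynomial IntermediateField ModularCurve

namespace Fermat.Agent.S16.BetaLemma

/-- The formal `q`-expansion of the normalised Eisenstein series `E_k` over `ℚ`. -/
noncomputable def eisQ (k : ℕ) : PowerSeries ℚ :=
  PowerSeries.mk fun n =>
    if n = 0 then 1 else -(2 * (k : ℚ) / _root_.bernoulli k) * ∑ d ∈ n.divisors, (d : ℚ) ^ (k - 1)

/-- Integral isobaric monomial `E₄^a E₆^b`. -/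
noncomputable def monZ (x : ℕ × ℕ) : PowerSeries ℤ := eisenstein4 ^ x.1 * eis6 ^ x.2

theorem constantCoeff_monZ (x : ℕ × ℕ) : PowerSeries.constantCoeff (monZ x) = 1 := by
  rw [monZ, map_mul, map_pow, map_pow, constantCoeff_eisenstein4, constantCoeff_eis6, one_pow,
    one_pow, one_mul]

/-- **Analytic input (A)**: `E_{ℓ-1}` is a rational isobaric polynomial in `E₄, E₆`, as an identity
of formal `q`-expansions. -/
def HA (ℓ : ℕ) : Prop :=
  ∃ (s : Finset (ℕ × ℕ)) (c : ℕ × ℕ → ℚ), (∀ x ∈ s, 4 * x.1 + 6 * x.2 = ℓ - 1) ∧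
    eisQ (ℓ - 1) = ∑ x ∈ s, c x • (monZ x).map (Int.castRingHom ℚ)

section Main

variable (ℓ : ℕ) [hℓ : Fact ℓ.Prime]

/-- Integral primitive form of (A): there are an integer `N` and integers `z x`, not all divisible
by `ℓ`, with `Σ z x · E₄^a E₆^b ≡ N (mod ℓ)` as `q`-series. -/
theorem exists_int_relation (h5 : 5 ≤ ℓ) (hA : HA ℓ) :
    ∃ (s : Finset (ℕ × ℕ)) (z : ℕ × ℕ → ℤ) (N : ℤ), (∀ x ∈ s, 4 * x.1 + 6 * x.2 = ℓ - 1) ∧
      (∃ x ∈ s, ¬ (ℓ : ℤ) ∣ z x) ∧
      (∑ x ∈ s, z x • monZ x).map (Int.castRingHom (ZMod ℓ)) = PowerSeries.C (N : ZMod ℓ) := by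
  obtain ⟨s, c, hs, hE⟩ := hA
  have hc : ∃ x ∈ s, c x ≠ 0 := by
    by_contra hcon
    push Not at hcon
    have h0 : eisQ (ℓ - 1) = 0 := by
      rw [hE]
      exact Finset.sum_eq_zero fun x hx => by rw [hcon x hx, zero_smul]
    have h1 := congrArg (PowerSeries.coeff 0) h0
    simp [eisQ] at h1
  obtain ⟨r, z, hr, hz, hgcd⟩ := exists_int_primitive s c hc
  set P : PowerSeries ℤ := ∑ x ∈ s, z x • monZ x with hP
  have hPQ : P.map (Int.castRingHom ℚ) = r • eisQ (ℓ - 1) := by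
    rw [hP, map_sum, hE, Finset.smul_sum]
    refine Finset.sum_congr rfl fun x hx => ?_
    rw [smul_smul, ← hz x hx, map_zsmul, Int.cast_smul_eq_zsmul]
  have hcoef : ∀ n, ((PowerSeries.coeff n P : ℤ) : ℚ) = r * PowerSeries.coeff n (eisQ (ℓ - 1)) := by
    intro n
    have := congrArg (PowerSeries.coeff n) hPQ
    rw [PowerSeries.coeff_map] at this
    simpa using this
  -- `r` is the integer `N := P(0)`
  set N : ℤ := PowerSeries.coeff 0 P with hN
  have hrN : r = (N : ℚ) := by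
    have := hcoef 0
    rw [eisQ, PowerSeries.coeff_mk, if_pos rfl, mul_one] at this
    exact this.symm
  refine ⟨s, z, N, hs, ?_, ?_⟩
  · by_contra hcon
    push Not at hcon
    have h1 : (ℓ : ℤ) ∣ s.gcd z := Finset.dvd_gcd hcon
    rw [hgcd] at h1
    have h2 := Int.le_of_dvd one_pos h1
    have : (2 : ℤ) ≤ ℓ := by exact_mod_cast hℓ.out.two_le
    omega
  · ext n
    rw [PowerSeries.coeff_map, PowerSeries.coeff_C]
    by_cases hn : n = 0
    · subst hn
      rw [if_pos rfl, hN]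
      rfl
    · rw [if_neg hn]
      have h1 := hcoef n
      rw [eisQ, PowerSeries.coeff_mk, if_neg hn, hrN] at h1
      have h2 : ((PowerSeries.coeff n P : ℤ) : ℚ) =
          ((-N * ∑ d ∈ n.divisors, (d : ℤ) ^ (ℓ - 1 - 1) : ℤ) : ℚ) *
            (2 * ((ℓ - 1 : ℕ) : ℚ) / _root_.bernoulli (ℓ - 1)) := by
        rw [h1]
        push_cast
        ring
      have h3 := dvd_of_eq_mul_eisCoeff ℓ (by omega) h2
      rw [eq_intCast]
      exact (ZMod.intCast_zmod_eq_zero_iff_dvd _ ℓ).mpr h3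

end Main

end Fermat.Agent.S16.BetaLemma
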