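import Fermat.Agent.S16.BetaLemmaC
import Fermat.Agent.S24.QExpDelta

set_option autoImplicit false

open ModularCurve ModularForm ModularFormClass EisensteinSeries UpperHalfPlane MatrixGroups
open scoped ArithmeticFunction.sigma

namespace Fermat.Agent.S16.BetaLemma

local notation "Δ" => ModularForm.discriminant

theorem qExpansion_E₆ :
    qExpansion 1 E₆ = PowerSeries.map (Int.castRingHom ℂ) eis6 := by
  ext m
  rw [EisensteinSeries.E_qExpansion_coeff _ ⟨3, rfl⟩, PowerSeries.coeff_map,
    eis6, PowerSeries.coeff_mk]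
  by_cases hm : m = 0
  · simp [hm]
  · simp only [hm, if_false]
    rw [show _root_.bernoulli 6 = 1 / 42 by decide +kernel, ArithmeticFunction.sigma_apply]
    simp only [eq_intCast]
    push_cast
    ring

/-- `E₄³ - E₆²` as a level-one form of weight `12`. -/
noncomputable def cubeSubSq : ModularForm 𝒮ℒ 12 :=
  ModularForm.mcast (by decide) (E₄.pow 3) rfl - ModularForm.mcast (by decide) (E₆.pow 2) rfl

theorem cubeSubSq_apply (z : ℍ) : cubeSubSq z = E₄ z ^ 3 - E₆ z ^ 2 := by
  simp only [cubeSubSq, coe_mcast, coe_pow, sub_apply, Pi.pow_apply]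

theorem qExpansion_cubeSubSq :
    qExpansion 1 cubeSubSq = qExpansion 1 E₄ ^ 3 - qExpansion 1 E₆ ^ 2 := by
  simp only [cubeSubSq, FunLike.coe_sub, coe_mcast,
    ModularForm.qExpansion_sub one_pos one_mem_strictPeriods_SL,
    ModularForm.qExpansion_pow one_pos one_mem_strictPeriods_SL]

theorem qExpansion_discriminant_eq :
    (1728 : ℂ) • qExpansion 1 Δ = qExpansion 1 E₄ ^ 3 - qExpansion 1 E₆ ^ 2 := by
  rw [← qExpansion_cubeSubSq]
  have h1 : (cubeSubSq : ℍ → ℂ) = ⇑((1728 : ℂ) • CuspForm.discriminant) := by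
    funext z
    rw [cubeSubSq_apply]
    have := discriminant_eq_E₄_cube_sub_E₆_sq z
    show _ = (1728 : ℂ) * ModularForm.discriminant z
    rw [this]
    ring
  rw [h1]
  exact (ModularForm.qExpansion_smul one_pos one_mem_strictPeriods_SL (1728 : ℂ)
    CuspForm.discriminant).symm

theorem h1728 : H1728 := by
  have h := qExpansion_discriminant_eq
  rw [Fermat.Agent.S24.QExp.qExpansion_discriminant, Fermat.Agent.S24.QExp.qExpansion_E₄,
    qExpansion_E₆] at h
  apply PowerSeries.map_injective (Int.castRingHom ℂ) Int.cast_injective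
  rw [map_sub, map_pow, map_pow, ← h, map_mul, map_mul, PowerSeries.map_X, map_ofNat,
    PowerSeries.smul_eq_C_mul, map_ofNat]

end Fermat.Agent.S16.BetaLemma
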