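import Fermat.Agent.S16.BetaLemmaC

set_option autoImplicit false

open Polynomial IntermediateField ModularCurve

namespace Fermat.Agent.S16.BetaLemma

section Final

variable (ℓ : ℕ) [hℓ : Fact ℓ.Prime]

theorem natCast_1728_ne_zero (h5 : 5 ≤ ℓ) : (1728 : ZMod ℓ) ≠ 0 := by
  intro h0
  have h1 : ((1728 : ℕ) : ZMod ℓ) = 0 := by exact_mod_cast h0
  rw [ZMod.natCast_eq_zero_iff] at h1
  have h2 : (1728 : ℕ) = 2 ^ 6 * 3 ^ 3 := by norm_num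
  rw [h2] at h1
  rcases (Nat.Prime.dvd_mul hℓ.out).mp h1 with h | h
  · have := Nat.le_of_dvd (by norm_num) (hℓ.out.dvd_of_dvd_pow h)
    omega
  · have := Nat.le_of_dvd (by norm_num) (hℓ.out.dvd_of_dvd_pow h)
    omega

/-- The relation of `exists_int_relation` transported to `LaurentSeries (ZMod ℓ)`. -/
theorem exists_relation_laurent (h5 : 5 ≤ ℓ) (hA : HA ℓ) :
    ∃ (s : Finset (ℕ × ℕ)) (c : ℕ × ℕ → ZMod ℓ) (N : ZMod ℓ),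
      (∀ x ∈ s, 2 * x.1 + 3 * x.2 = (ℓ - 1) / 2) ∧ (∃ x ∈ s, c x ≠ 0) ∧
      ∑ x ∈ s, algebraMap (ZMod ℓ) (LaurentSeries (ZMod ℓ)) (c x) *
          (E4K (ZMod ℓ) ^ x.1 * E6K (ZMod ℓ) ^ x.2) =
        algebraMap (ZMod ℓ) (LaurentSeries (ZMod ℓ)) N := by
  obtain ⟨s, z, N, hs, ⟨x₀, hx₀, hz₀⟩, hrel⟩ := exists_int_relation ℓ h5 hA
  refine ⟨s, fun x => (z x : ZMod ℓ), (N : ZMod ℓ), fun x hx => ?_, ⟨x₀, hx₀, ?_⟩, ?_⟩
  · have := hs x hx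
    omega
  · intro h0
    exact hz₀ ((ZMod.intCast_zmod_eq_zero_iff_dvd _ ℓ).mp h0)
  · have h1 := congrArg (HahnSeries.ofPowerSeries ℤ (ZMod ℓ)) hrel
    rw [HahnSeries.ofPowerSeries_C, map_sum, map_sum] at h1
    rw [LaurentSeries.algebraMap_apply, ← h1]
    refine Finset.sum_congr rfl fun x _ => ?_
    rw [map_zsmul, map_zsmul, monZ, map_mul, map_mul, map_pow, map_pow, map_pow, map_pow,
      zsmul_eq_mul, LaurentSeries.algebraMap_apply]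
    show HahnSeries.C ((z x : ℤ) : ZMod ℓ) * _ = _
    rw [map_intCast]
    rfl

/-- **(T) / β-lemma**: for a prime `ℓ ≥ 5` the `q`-series `Ē₆/Ē₄` does not lie in `F_ℓ(j̄)`. -/
theorem div_notMem_adjoin_jqModC (h5 : 5 ≤ ℓ) (h : H1728) (hA : HA ℓ) :
    E6K (ZMod ℓ) / E4K (ZMod ℓ) ∉ (ZMod ℓ)⟮jqModC (ZMod ℓ)⟯ := by
  obtain ⟨s, c, N, hs, hc, hrel⟩ := exists_relation_laurent ℓ h5 hA
  have h1728 := natCast_1728_ne_zero ℓ h5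
  have htr : Transcendental (ZMod ℓ) (E4K (ZMod ℓ) ^ 3 / E6K (ZMod ℓ) ^ 2) :=
    transcendental_uK h h1728
  have hd : 0 < (ℓ - 1) / 2 := by omega
  by_cases hN : N = 0
  · rw [hN, map_zero] at hrel
    exact absurd hrel (sum_ne_zero (E4K_ne_zero _) (E6K_ne_zero _) htr s c hs hc)
  · have hrel' : ∑ x ∈ s, algebraMap (ZMod ℓ) (LaurentSeries (ZMod ℓ)) (c x / N) *
        (E4K (ZMod ℓ) ^ x.1 * E6K (ZMod ℓ) ^ x.2) = 1 := by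
      have : ∀ x ∈ s, algebraMap (ZMod ℓ) (LaurentSeries (ZMod ℓ)) (c x / N) *
            (E4K (ZMod ℓ) ^ x.1 * E6K (ZMod ℓ) ^ x.2) =
          algebraMap (ZMod ℓ) (LaurentSeries (ZMod ℓ)) N⁻¹ *
            (algebraMap (ZMod ℓ) (LaurentSeries (ZMod ℓ)) (c x) *
              (E4K (ZMod ℓ) ^ x.1 * E6K (ZMod ℓ) ^ x.2)) := by
        intro x _
        rw [div_eq_inv_mul, map_mul, mul_assoc]
      rw [Finset.sum_congr rfl this, ← Finset.mul_sum, hrel, ← map_mul,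
        inv_mul_cancel₀ hN, map_one]
    have hc' : ∃ x ∈ s, c x / N ≠ 0 := by
      obtain ⟨x, hx, hcx⟩ := hc
      exact ⟨x, hx, div_ne_zero hcx hN⟩
    have h1 := div_notMem_adjoin (E4K_ne_zero _) (E6K_ne_zero _) htr hd s (fun x => c x / N) hs hc'
      hrel'
    intro hmem
    apply h1
    have hle : (ZMod ℓ)⟮jqModC (ZMod ℓ)⟯ ≤ (ZMod ℓ)⟮E4K (ZMod ℓ) ^ 3 / E6K (ZMod ℓ) ^ 2⟯ := by
      rw [adjoin_simple_le_iff]
      exact jqModC_mem_adjoin_uK h h1728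
    exact hle hmem

/-- By-product: `(Ē₆/Ē₄)^{(ℓ-1)/2} ∈ F_ℓ(j̄)`. -/
theorem div_pow_mem_adjoin_jqModC (h5 : 5 ≤ ℓ) (h : H1728) (hA : HA ℓ) :
    (E6K (ZMod ℓ) / E4K (ZMod ℓ)) ^ ((ℓ - 1) / 2) ∈ (ZMod ℓ)⟮jqModC (ZMod ℓ)⟯ := by
  obtain ⟨s, c, N, hs, hc, hrel⟩ := exists_relation_laurent ℓ h5 hA
  have h1728 := natCast_1728_ne_zero ℓ h5
  have htr : Transcendental (ZMod ℓ) (E4K (ZMod ℓ) ^ 3 / E6K (ZMod ℓ) ^ 2) :=
    transcendental_uK h h1728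
  have hN : N ≠ 0 := by
    rintro rfl
    rw [map_zero] at hrel
    exact absurd hrel (sum_ne_zero (E4K_ne_zero _) (E6K_ne_zero _) htr s c hs hc)
  have hrel' : ∑ x ∈ s, algebraMap (ZMod ℓ) (LaurentSeries (ZMod ℓ)) (c x / N) *
      (E4K (ZMod ℓ) ^ x.1 * E6K (ZMod ℓ) ^ x.2) = 1 := by
    have : ∀ x ∈ s, algebraMap (ZMod ℓ) (LaurentSeries (ZMod ℓ)) (c x / N) *
          (E4K (ZMod ℓ) ^ x.1 * E6K (ZMod ℓ) ^ x.2) =
        algebraMap (ZMod ℓ) (LaurentSeries (ZMod ℓ)) N⁻¹ *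
          (algebraMap (ZMod ℓ) (LaurentSeries (ZMod ℓ)) (c x) *
            (E4K (ZMod ℓ) ^ x.1 * E6K (ZMod ℓ) ^ x.2)) := by
      intro x _
      rw [div_eq_inv_mul, map_mul, mul_assoc]
    rw [Finset.sum_congr rfl this, ← Finset.mul_sum, hrel, ← map_mul,
      inv_mul_cancel₀ hN, map_one]
  have h1 := div_pow_mem_adjoin (E4K_ne_zero _) (E6K_ne_zero _) s (fun x => c x / N) hs hrel'
  have hle : (ZMod ℓ)⟮E4K (ZMod ℓ) ^ 3 / E6K (ZMod ℓ) ^ 2⟯ ≤ (ZMod ℓ)⟮jqModC (ZMod ℓ)⟯ := by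
    rw [adjoin_simple_le_iff]
    exact uK_mem_adjoin_jqModC h
  exact hle h1

end Final

end Fermat.Agent.S16.BetaLemma
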