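import Mathlib

/-!
# S16 / K(9): the abstract characteristic-3 endgame of the characteristic-polynomial argument

Let `W` be a commutative ring, `A ⊆ W` a subring, `y ∈ W`, `c ∈ A`.  In the proof of
"no weight-2 form on `Γ₀(p)` is `≡ 1 mod 9`" one shows that the characteristic polynomial over level
one of a certain modular function reduces mod 3 to `(X - y) (X - y - c) ^ p`, with all
coefficients in a small subring `A` (reductions of level-one objects), where `y` is an
Artin–Schreier element (`y ^ 3 - y ∈ A`, `y ∉ A`).  This file provides the purely algebraic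
extraction of `y ∈ A` from that shape (Mathlib only, no modular input):

* `mem_of_coeff_mem_of_unit`     : `(p + 1)` invertible in `A`  ⟹ `y ∈ A`;
* `mem_of_coeff_mem_of_dvd`      : `(p + 1 : W) = 0`, `c` and `(p - 1)` invertible in `A` ⟹ `y ∈ A`;
* `pow_mem_of_coeff_mem`         : `c = 0`, `p + 1 = 3 ^ a * s`, `s` invertible in `A`
                                    ⟹ `y ^ 3 ^ a ∈ A`  (characteristic 3);
* `mem_of_pow_mem_of_artinSchreier` : `y ^ 3 - y ∈ A`, `y ^ 3 ^ a ∈ A` ⟹ `y ∈ A`
                                    (characteristic 3);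
* `mem_of_coeff_mem`             : the three cases assembled for a prime `p` in characteristic 3
                                    with `c ∈ {0, 1, -1}`.
-/

set_option autoImplicit false

namespace Fermat.Agent.S16.CharPolyMod3

open Polynomial

variable {W : Type*} [CommRing W]

/-- All coefficients of `f` lie in the subring `A`. -/
def CoeffsIn (A : Subring W) (f : W[X]) : Prop := ∀ n, f.coeff n ∈ A

/-- The model polynomial `(X - y) (X - (y + c)) ^ p`. -/
noncomputable def model (y c : W) (p : ℕ) : W[X] := (X - C y) * (X - C (y + c)) ^ p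

lemma natCast_mem' (A : Subring W) (n : ℕ) : (n : W) ∈ A := natCast_mem A n

lemma CoeffsIn.derivative {A : Subring W} {f : W[X]} (hf : CoeffsIn A f) :
    CoeffsIn A (derivative f) := by
  intro n
  rw [coeff_derivative]
  exact A.mul_mem (hf _) (A.add_mem (natCast_mem' A n) A.one_mem)

section Nontrivial

variable [Nontrivial W]

omit [Nontrivial W] in
lemma monic_model (y c : W) (p : ℕ) : (model y c p).Monic :=
  (monic_X_sub_C y).mul ((monic_X_sub_C _).pow p)

lemma natDegree_model (y c : W) (p : ℕ) : (model y c p).natDegree = p + 1 := by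
  rw [model, (monic_X_sub_C y).natDegree_mul ((monic_X_sub_C _).pow p),
    (monic_X_sub_C _).natDegree_pow, natDegree_X_sub_C, natDegree_X_sub_C]
  ring

omit [Nontrivial W] in
lemma nextCoeff_model (y c : W) (p : ℕ) :
    (model y c p).nextCoeff = -y + p • (-(y + c)) := by
  rw [model, (monic_X_sub_C y).nextCoeff_mul ((monic_X_sub_C _).pow p),
    (monic_X_sub_C _).nextCoeff_pow, nextCoeff_X_sub_C, nextCoeff_X_sub_C]

lemma coeff_model_p (y c : W) (p : ℕ) :
    (model y c p).coeff p = -y + p • (-(y + c)) := by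
  rw [← nextCoeff_model, nextCoeff_of_natDegree_pos (by rw [natDegree_model]; omega),
    natDegree_model, Nat.add_sub_cancel]

omit [Nontrivial W] in
lemma nextCoeff_X_sub_C_pow (z : W) (m : ℕ) : ((X - C z) ^ m).nextCoeff = m • (-z) := by
  rw [(monic_X_sub_C z).nextCoeff_pow, nextCoeff_X_sub_C]

lemma coeff_X_sub_C_pow_pred (z : W) {m : ℕ} (hm : 0 < m) :
    ((X - C z) ^ m).coeff (m - 1) = m • (-z) := by
  rw [← nextCoeff_X_sub_C_pow, nextCoeff_of_natDegree_pos, (monic_X_sub_C z).natDegree_pow,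
    natDegree_X_sub_C, mul_one]
  rw [(monic_X_sub_C z).natDegree_pow, natDegree_X_sub_C, mul_one]
  exact hm

end Nontrivial

/-- Case `3 ∤ p + 1` (more generally: `p + 1` invertible in `A`). -/
theorem mem_of_coeff_mem_of_unit (A : Subring W) (y c : W) (hc : c ∈ A) (p : ℕ)
    (hf : CoeffsIn A (model y c p)) (hu : ∃ u ∈ A, u * ((p + 1 : ℕ) : W) = 1) : y ∈ A := by
  rcases subsingleton_or_nontrivial W with h | h
  · rw [Subsingleton.elim y 0]; exact A.zero_mem
  obtain ⟨u, huA, hu⟩ := hu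
  have h1 : -y + p • (-(y + c)) ∈ A := by rw [← coeff_model_p]; exact hf p
  have h2 : ((p + 1 : ℕ) : W) * y ∈ A := by
    have : ((p + 1 : ℕ) : W) * y = -(-y + p • (-(y + c))) - (p : W) * c := by
      push_cast; simp only [nsmul_eq_mul]; ring
    rw [this]
    exact A.sub_mem (A.neg_mem h1) (A.mul_mem (natCast_mem' A p) hc)
  have : y = u * (((p + 1 : ℕ) : W) * y) := by rw [← mul_assoc, hu, one_mul]
  rw [this]; exact A.mul_mem huA h2

/-- The derivative of the model polynomial when `p + 1 = 0` in `W`. -/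
lemma derivative_model (y c : W) {p : ℕ} (hp : 1 ≤ p) (hp1 : ((p + 1 : ℕ) : W) = 0) :
    derivative (model y c p) = C (-c) * (X - C (y + c)) ^ (p - 1) := by
  obtain ⟨m, rfl⟩ : ∃ m, p = m + 1 := ⟨p - 1, by omega⟩
  have hp1' : ((m : W[X]) + 1 + 1) = 0 := by
    have := congrArg (C : W → W[X]) hp1
    simpa using this
  rw [model, derivative_mul, derivative_pow, derivative_sub, derivative_sub, derivative_X,
    derivative_C, derivative_C, Nat.add_sub_cancel]
  simp only [sub_zero, one_mul, mul_one]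
  have hm : (((m + 1 : ℕ) : W[X])) = -1 := by
    push_cast
    linear_combination hp1'
  rw [show (C ((m + 1 : ℕ) : W) : W[X]) = ((m + 1 : ℕ) : W[X]) by simp, hm, map_add, pow_succ, map_neg]
  ring

/-- Case `3 ∣ p + 1`, `c ≠ 0` (derivative trick). -/
theorem mem_of_coeff_mem_of_dvd (A : Subring W) (y c : W) (hc : c ∈ A) {p : ℕ} (hp : 2 ≤ p)
    (hf : CoeffsIn A (model y c p)) (hp1 : ((p + 1 : ℕ) : W) = 0)
    (hcu : ∃ u ∈ A, u * c = 1) (hmu : ∃ u ∈ A, u * ((p - 1 : ℕ) : W) = 1) : y ∈ A := by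
  rcases subsingleton_or_nontrivial W with h | h
  · rw [Subsingleton.elim y 0]; exact A.zero_mem
  obtain ⟨u, huA, hu⟩ := hcu
  obtain ⟨v, hvA, hv⟩ := hmu
  have hd := hf.derivative
  rw [derivative_model y c (by omega) hp1] at hd
  have h1 := hd (p - 1 - 1)
  rw [coeff_C_mul, coeff_X_sub_C_pow_pred _ (by omega : 0 < p - 1)] at h1
  -- `-c * ((p-1) • -(y+c)) ∈ A`
  have h2 : y + c ∈ A := by
    have : y + c = u * v * (-c * ((p - 1) • -(y + c))) := by
      have e : u * v * (-c * ((p - 1) • -(y + c))) =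
          (u * c) * (v * ((p - 1 : ℕ) : W)) * (y + c) := by
        simp only [nsmul_eq_mul]; ring
      rw [e, hu, hv, one_mul, one_mul]
    rw [this]; exact A.mul_mem (A.mul_mem huA hvA) h1
  have : y = (y + c) - c := by ring
  rw [this]; exact A.sub_mem h2 hc

section Char3

variable [CharP W 3]

/-- Case `c = 0`: `(X - y) ^ (p + 1)` with `p + 1 = 3 ^ a * s`. -/
theorem pow_mem_of_coeff_mem (A : Subring W) (y : W) (p a s : ℕ) (hs : 0 < s)
    (hps : p + 1 = 3 ^ a * s) (hf : CoeffsIn A (model y 0 p))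
    (hsu : ∃ u ∈ A, u * (s : W) = 1) : y ^ 3 ^ a ∈ A := by
  rcases subsingleton_or_nontrivial W with h | h
  · rw [Subsingleton.elim (y ^ 3 ^ a) 0]; exact A.zero_mem
  obtain ⟨u, huA, hu⟩ := hsu
  have : Fact (Nat.Prime 3) := ⟨Nat.prime_three⟩
  have hmodel : model y 0 p = expand W (3 ^ a) ((X - C (y ^ 3 ^ a)) ^ s) := by
    rw [model, add_zero, ← pow_succ', hps, pow_mul, sub_pow_char_pow, map_pow, map_sub, expand_X,
      expand_C, ← C_pow]
  have h1 := hf ((s - 1) * 3 ^ a)
  rw [hmodel, coeff_expand_mul (pow_pos (by norm_num) a), coeff_X_sub_C_pow_pred _ hs] at h1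
  have : y ^ 3 ^ a = -(u * (s • -(y ^ 3 ^ a))) := by
    have e : u * (s • -(y ^ 3 ^ a)) = -((u * (s : W)) * y ^ 3 ^ a) := by
      simp only [nsmul_eq_mul]; ring
    rw [e, hu, one_mul, neg_neg]
  rw [this]; exact A.neg_mem (A.mul_mem huA h1)

/-- Artin–Schreier descent: `y ^ 3 - y ∈ A` and `y ^ 3 ^ a ∈ A` imply `y ∈ A`. -/
theorem mem_of_pow_mem_of_artinSchreier (A : Subring W) (y : W) (ht : y ^ 3 - y ∈ A) :
    ∀ a : ℕ, y ^ 3 ^ a ∈ A → y ∈ A := by
  have : Fact (Nat.Prime 3) := ⟨Nat.prime_three⟩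
  intro a
  induction a with
  | zero => intro h; simpa using h
  | succ a ih =>
    intro h
    apply ih
    have e : y ^ 3 ^ (a + 1) = y ^ 3 ^ a + (y ^ 3 - y) ^ 3 ^ a := by
      have : y ^ 3 ^ (a + 1) = (y + (y ^ 3 - y)) ^ 3 ^ a := by
        rw [pow_succ', pow_mul]; congr 1; ring
      rw [this, add_pow_char_pow]
    have : y ^ 3 ^ a = y ^ 3 ^ (a + 1) - (y ^ 3 - y) ^ 3 ^ a := by rw [e]; ring
    rw [this]; exact A.sub_mem h (A.pow_mem ht _)

/-- **Assembled endgame.**  `W` of characteristic 3, `p` prime, `c ∈ {0, 1, -1}`,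
`y ^ 3 - y ∈ A`, and `(X - y) (X - y - c) ^ p` has all coefficients in `A`.  Then `y ∈ A`. -/
theorem mem_of_coeff_mem (A : Subring W) (y c : W) {p : ℕ} (hp : p.Prime)
    (hc : c = 0 ∨ c = 1 ∨ c = -1) (ht : y ^ 3 - y ∈ A)
    (hf : CoeffsIn A (model y c p)) : y ∈ A := by
  rcases subsingleton_or_nontrivial W with h | h
  · rw [Subsingleton.elim y 0]; exact A.zero_mem
  have hcA : c ∈ A := by
    rcases hc with rfl | rfl | rfl
    · exact A.zero_mem
    · exact A.one_mem
    · exact A.neg_mem A.one_mem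
  have h3 : ((3 : ℕ) : W) = 0 := CharP.cast_eq_zero W 3
  -- units coming from naturals prime to 3
  have unit_of_not_dvd : ∀ n : ℕ, ¬ 3 ∣ n → ∃ u ∈ A, u * (n : W) = 1 := by
    intro n hn
    have hcop : Nat.Coprime n 3 := (Nat.Coprime.symm ((Nat.Prime.coprime_iff_not_dvd Nat.prime_three).mpr hn))
    -- Bezout in ℤ
    have hb := Nat.gcd_eq_gcd_ab n 3
    rw [hcop.gcd_eq_one] at hb
    refine ⟨((Nat.gcdA n 3 : ℤ) : W), intCast_mem A _, ?_⟩
    have := congrArg (Int.cast : ℤ → W) hb
    push_cast at this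
    have h3' : (3 : W) = 0 := by exact_mod_cast h3
    rw [h3', zero_mul, add_zero] at this
    rw [mul_comm]; exact this.symm
  by_cases hdvd : 3 ∣ p + 1
  · -- `3 ∣ p + 1`
    have hp1 : ((p + 1 : ℕ) : W) = 0 := by
      obtain ⟨k, hk⟩ := hdvd
      rw [hk, Nat.cast_mul, h3, zero_mul]
    rcases hc with rfl | hc'
    · -- `c = 0`
      obtain ⟨a, s, hs3, hps⟩ : ∃ a s : ℕ, ¬ 3 ∣ s ∧ p + 1 = 3 ^ a * s :=
        Nat.exists_eq_pow_mul_and_not_dvd (Nat.succ_ne_zero p) 3 (by norm_num)
      have hs0 : 0 < s := by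
        rcases Nat.eq_zero_or_pos s with h0 | h0
        · exact absurd (h0 ▸ dvd_zero 3) hs3
        · exact h0
      have := pow_mem_of_coeff_mem A y p a s hs0 hps hf (unit_of_not_dvd s hs3)
      exact mem_of_pow_mem_of_artinSchreier A y ht a this
    · -- `c = ± 1`
      have hp2 : 2 ≤ p := hp.two_le
      have hm3 : ¬ 3 ∣ p - 1 := by
        intro h
        have : 3 ∣ (p + 1) - (p - 1) := Nat.dvd_sub hdvd h
        have e : (p + 1) - (p - 1) = 2 := by omega
        rw [e] at this
        exact absurd this (by norm_num)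
      refine mem_of_coeff_mem_of_dvd A y c hcA hp2 hf hp1 ?_ (unit_of_not_dvd _ hm3)
      rcases hc' with rfl | rfl
      · exact ⟨1, A.one_mem, by simp⟩
      · exact ⟨-1, A.neg_mem A.one_mem, by simp⟩
  · exact mem_of_coeff_mem_of_unit A y c hcA p hf (unit_of_not_dvd _ hdvd)

end Char3

end Fermat.Agent.S16.CharPolyMod3
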