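/-
S16, block [A] (lower bound), node A5a: THE COHOMOLOGICAL BOUND IN ARBITRARY CHARACTERISTIC.

`M2/ES/CohomBound.lean` bounds the dimension of the space of homomorphisms `Γ → K` killing the
parabolic elements by `|X| + 2 - o_S - o_U - o_T` for fields `K` of characteristic zero, using only
`G = ⟨S, U⟩` (no presentation).  Characteristic zero is used in exactly one place: to show that the
values `c(g)` of the Shapiro cocycle at `g = S, U, T` lie in `range (L g - 1)` (by dividing by the
order).  Here we replace that step by a characteristic-free argument, valid for homomorphisms which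
ALSO kill the conjugates of powers of `S` and `U` (the elliptic elements):

* `range (L g - 1)` is the space of functions whose sum over every `⟨g⟩`-orbit vanishes
  (`range_L_sub_one_eq_ker_orbSum`, a dimension count);
* the sum of `c(g)` over the orbit of `x` of length `m` is `c(g ^ m) x = φ (rep x⁻¹ g ^ m rep x)`.

Result (`finrank_killing_add_orb_le`): for EVERY field `K` and every finite index subgroup
`Γ ≤ SL(2, ℤ)`, `dim_K {φ : Γ → K killing IsParEll} + orb S + orb ST + orb T ≤ index + 2`.
-/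
import Mathlib
import Fermat.Agent.M2.ES.CohomBound
import Fermat.Agent.N4F.Tors.HeckeHom

set_option autoImplicit false
set_option linter.unusedSectionVars false
set_option linter.style.longLine false
set_option linter.style.haveILetI false

noncomputable section

namespace Fermat.Agent.S16.CohomBoundMod

open Module Fermat.Agent.M2.ES.CohomBound

/-! ### Orbit sums -/

section OrbitSum

variable {G : Type*} [Group G] {X : Type*} [Fintype X] [MulAction G X] (K : Type*) [Field K]

/-- the orbit of `⟨g⟩` through a point of the orbit space, as a finset -/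
def orbFinset (g : G) (o : MulAction.orbitRel.Quotient (Subgroup.zpowers g) X) : Finset X := by
  classical
  exact Finset.univ.filter fun x =>
    (Quotient.mk'' x : MulAction.orbitRel.Quotient (Subgroup.zpowers g) X) = o

theorem mem_orbFinset {g : G} {o : MulAction.orbitRel.Quotient (Subgroup.zpowers g) X} {x : X} :
    x ∈ orbFinset g o ↔
      (Quotient.mk'' x : MulAction.orbitRel.Quotient (Subgroup.zpowers g) X) = o := by
  classical
  simp [orbFinset]

theorem mk_smul_eq (g : G) (x : X) :
    (Quotient.mk'' (g • x) : MulAction.orbitRel.Quotient (Subgroup.zpowers g) X) =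
      Quotient.mk'' x := by
  apply Quotient.sound'
  exact ⟨⟨g, Subgroup.mem_zpowers g⟩, rfl⟩

theorem smul_mem_orbFinset {g : G} {o : MulAction.orbitRel.Quotient (Subgroup.zpowers g) X}
    {x : X} (hx : x ∈ orbFinset g o) : g • x ∈ orbFinset g o := by
  rw [mem_orbFinset] at hx ⊢
  rw [mk_smul_eq, hx]

/-- the sums of a function over the orbits of `⟨g⟩` -/
def orbSum (g : G) :
    (X → K) →ₗ[K] (MulAction.orbitRel.Quotient (Subgroup.zpowers g) X → K) where
  toFun f o := ∑ x ∈ orbFinset g o, f x
  map_add' f f' := by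
    funext o
    simp only [Pi.add_apply, Finset.sum_add_distrib]
  map_smul' c f := by
    funext o
    simp only [Pi.smul_apply, smul_eq_mul, Finset.mul_sum, RingHom.id_apply]

theorem orbSum_apply (g : G) (f : X → K)
    (o : MulAction.orbitRel.Quotient (Subgroup.zpowers g) X) :
    orbSum K g f o = ∑ x ∈ orbFinset g o, f x := rfl

theorem orbSum_surjective (g : G) : Function.Surjective (orbSum (X := X) K g) := by
  classical
  intro c
  refine ⟨fun x => if x = Quotient.out (Quotient.mk'' x :
    MulAction.orbitRel.Quotient (Subgroup.zpowers g) X) then c (Quotient.mk'' x) else 0, ?_⟩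
  funext o
  rw [orbSum_apply]
  have h1 : ∀ x ∈ orbFinset g o,
      (if x = Quotient.out (Quotient.mk'' x :
        MulAction.orbitRel.Quotient (Subgroup.zpowers g) X) then c (Quotient.mk'' x) else 0) =
      if x = Quotient.out o then c o else 0 := by
    intro x hx
    rw [mem_orbFinset] at hx
    rw [hx]
  rw [Finset.sum_congr rfl h1, Finset.sum_ite_eq']
  have h2 : Quotient.out o ∈ orbFinset g o := by
    rw [mem_orbFinset]
    exact Quotient.out_eq' o
  rw [if_pos h2]

theorem range_L_sub_one_le_ker_orbSum (g : G) :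
    LinearMap.range (L (X := X) K g - 1) ≤ LinearMap.ker (orbSum (X := X) K g) := by
  rintro _ ⟨v, rfl⟩
  rw [LinearMap.mem_ker]
  funext o
  rw [orbSum_apply]
  simp only [LinearMap.sub_apply, Fermat.Agent.M2.ES.CohomBound.L_apply, Module.End.one_apply, Pi.sub_apply,
    Finset.sum_sub_distrib, Pi.zero_apply]
  rw [sub_eq_zero]
  refine Finset.sum_nbij' (fun x => g • x) (fun x => g⁻¹ • x) ?_ ?_ ?_ ?_ ?_
  · intro x hx
    exact smul_mem_orbFinset hx
  · intro x hx
    rw [mem_orbFinset] at hx ⊢
    rw [← hx, ← mk_smul_eq g (g⁻¹ • x), smul_inv_smul]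
  · intro x _
    exact inv_smul_smul g x
  · intro x _
    exact smul_inv_smul g x
  · intro x _
    rfl

theorem finrank_ker_orbSum (g : G) :
    finrank K (LinearMap.ker (orbSum (X := X) K g)) + orbCount X g = Nat.card X := by
  classical
  haveI : Fintype (MulAction.orbitRel.Quotient (Subgroup.zpowers g) X) := Fintype.ofFinite _
  have h := LinearMap.finrank_range_add_finrank_ker (orbSum (X := X) K g)
  rw [LinearMap.range_eq_top.mpr (orbSum_surjective K g), finrank_top,
    Module.finrank_fintype_fun_eq_card, Module.finrank_fintype_fun_eq_card] at h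
  rw [orbCount, Nat.card_eq_fintype_card, Nat.card_eq_fintype_card]
  omega

/-- **`range (L g - 1)` is the space of functions with vanishing orbit sums** (any
characteristic). -/
theorem range_L_sub_one_eq_ker_orbSum (g : G) :
    LinearMap.range (L (X := X) K g - 1) = LinearMap.ker (orbSum (X := X) K g) := by
  refine Submodule.eq_of_le_of_finrank_eq (range_L_sub_one_le_ker_orbSum K g) ?_
  have h1 := finrank_range_L_sub_one (X := X) K g
  have h2 := finrank_ker_orbSum (X := X) K g
  omega

variable {K}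

/-- A cocycle takes a value in `range (L g - 1)` at `g` as soon as `c (g ^ r) x = 0` whenever
`g ^ r` fixes `x` (`r > 0`). -/
theorem IsCocycle.mem_range_of_fixed {c : G → X → K} (hc : IsCocycle K c) (g : G)
    (h : ∀ (x : X) (r : ℕ), 0 < r → g ^ r • x = x → c (g ^ r) x = 0) :
    c g ∈ LinearMap.range (L (X := X) K g - 1) := by
  classical
  rw [range_L_sub_one_eq_ker_orbSum, LinearMap.mem_ker]
  funext o
  rw [orbSum_apply, Pi.zero_apply]
  have hpow : ∀ (k : ℕ) (x : X), ((MulAction.toPerm g : Equiv.Perm X) ^ k) x = g ^ k • x := by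
    intro k x
    induction k generalizing x with
    | zero => simp
    | succ k ih => rw [pow_succ, Equiv.Perm.mul_apply, ih, pow_succ, mul_smul]; rfl
  have key := Fermat.Agent.N4F.Tors.HeckeHom.prod_eq_one_of_invariant
    (MulAction.toPerm g : Equiv.Perm X) (fun x => Multiplicative.ofAdd (c g x)) ?_ _
    (orbFinset g o) rfl ?_
  · have h2 := congrArg Multiplicative.toAdd key
    rw [toAdd_prod] at h2
    simpa using h2
  · intro x r hr hx
    rw [hpow] at hx
    have h1 := h x r hr hx
    rw [hc.map_pow, LinearMap.sum_apply, Finset.sum_apply] at h1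
    have h3 : ∏ k ∈ Finset.range r,
        Multiplicative.ofAdd (c g (((MulAction.toPerm g : Equiv.Perm X) ^ k) x)) =
        Multiplicative.ofAdd (∑ k ∈ Finset.range r, c g (g ^ k • x)) := by
      rw [ofAdd_sum]
      refine Finset.prod_congr rfl fun k _ => ?_
      rw [hpow]
    rw [h3]
    have h4 : ∑ k ∈ Finset.range r, c g (g ^ k • x) =
        ∑ k ∈ Finset.range r, ((L K g) ^ k) (c g) x := by
      refine Finset.sum_congr rfl fun k _ => ?_
      rw [← L_pow, Fermat.Agent.M2.ES.CohomBound.L_apply]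
    rw [h4, h1]
    rfl
  · intro x hx
    exact smul_mem_orbFinset hx

end OrbitSum

/-! ### The abstract bound, characteristic free -/

section AbstractMod

variable {G : Type*} [Group G] {X : Type*} [Finite X] [MulAction G X]
  [MulAction.IsPretransitive G X]
  (K : Type*) [Field K] (x0 : X) (Γ : Subgroup G) (hΓ : ∀ g, g ∈ Γ ↔ g • x0 = x0)

/-- the elements of `Γ` conjugate in `G` to a power of `t` -/
def IsConjPow (t : G) (γ : Γ) : Prop := ∃ (g : G) (n : ℕ), (γ : G) = g⁻¹ * t ^ n * g

theorem psi_mem_range_of_conjPow (t : G) (p : (Additive Γ →+ K) × (X → K))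
    (hp : ∀ γ : Γ, IsConjPow Γ t γ → p.1 (Additive.ofMul γ) = 0) :
    psi K x0 Γ hΓ t p ∈ LinearMap.range (L (X := X) K t - 1) := by
  haveI : Fintype X := Fintype.ofFinite _
  refine IsCocycle.mem_range_of_fixed (psi_isCocycle K x0 Γ hΓ p) t ?_
  intro x r _ hx
  rw [psi_apply]
  simp only [Pi.add_apply, LinearMap.sub_apply, Fermat.Agent.M2.ES.CohomBound.L_apply,
    Module.End.one_apply, Pi.sub_apply, hx, sub_self, add_zero, coc_apply]
  apply hp
  exact ⟨rep G x0 x, r, rfl⟩

variable (S U T : G) (P : Submodule K (Additive Γ →+ K))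
  (hP : ∀ φ ∈ P, ∀ γ : Γ, (IsConjPow Γ S γ ∨ IsConjPow Γ U γ ∨ IsConjPow Γ T γ) →
    φ (Additive.ofMul γ) = 0)

/-- the comparison map `(φ, v) ↦ (ψ_S, ψ_U, ψ_T)`, characteristic free -/
def ThetaMod : (↥P × ↥(V0 K x0)) →ₗ[K] Tgt (X := X) K S U T :=
  (LinearMap.codRestrict _ (psi K x0 Γ hΓ S ∘ₗ incl K x0 Γ P)
      (fun d => psi_mem_range_of_conjPow K x0 Γ hΓ S _
        (fun γ hγ => hP _ d.1.2 γ (Or.inl hγ)))).prod
    ((LinearMap.codRestrict _ (psi K x0 Γ hΓ U ∘ₗ incl K x0 Γ P)
      (fun d => psi_mem_range_of_conjPow K x0 Γ hΓ U _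
        (fun γ hγ => hP _ d.1.2 γ (Or.inr (Or.inl hγ))))).prod
    (LinearMap.codRestrict _ (psi K x0 Γ hΓ T ∘ₗ incl K x0 Γ P)
      (fun d => psi_mem_range_of_conjPow K x0 Γ hΓ T _
        (fun γ hγ => hP _ d.1.2 γ (Or.inr (Or.inr hγ))))))

theorem ThetaMod_injective (hgen : Subgroup.closure {S, U} = ⊤) :
    Function.Injective (ThetaMod K x0 Γ hΓ S U T P hP) := by
  rw [injective_iff_map_eq_zero]
  intro d hd
  have h1 : psi K x0 Γ hΓ S (incl K x0 Γ P d) = 0 := by
    have := congrArg (fun m : Tgt (X := X) K S U T => (m.1 : X → K)) hd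
    exact this
  have h2 : psi K x0 Γ hΓ U (incl K x0 Γ P d) = 0 := by
    have := congrArg (fun m : Tgt (X := X) K S U T => (m.2.1 : X → K)) hd
    exact this
  obtain ⟨h3, h4⟩ := eq_zero_of_psi_eq_zero K x0 Γ hΓ hgen _ h1 h2
  have h5 : (d.2 : X → K) x0 = 0 := (mem_V0 K x0).mp d.2.2
  apply Prod.ext
  · apply Subtype.ext
    exact h3
  · apply Subtype.ext
    funext x
    have := h4 x
    simp only [incl, LinearMap.prodMap_apply, Submodule.subtype_apply] at this
    rw [this, h5]
    rfl

theorem bigPi_ThetaMod (hT : T = S⁻¹ * U) (d : ↥P × ↥(V0 K x0)) :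
    bigPi K S U T (ThetaMod K x0 Γ hΓ S U T P hP d) = 0 := by
  have hc := psi_isCocycle K x0 Γ hΓ (incl K x0 Γ P d)
  have := hc.map_inv_mul S U
  rw [← hT] at this
  rw [bigPi_apply]
  change psi K x0 Γ hΓ U (incl K x0 Γ P d) - L K T (psi K x0 Γ hΓ S (incl K x0 Γ P d))
    - psi K x0 Γ hΓ T (incl K x0 Γ P d) = 0
  rw [this]
  abel

include x0 hΓ hP in
/-- **The abstract bound in arbitrary characteristic.** -/
theorem finrank_add_orbCount_le_mod (hgen : Subgroup.closure {S, U} = ⊤) (hT : T = S⁻¹ * U) :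
    Module.Finite K P ∧
      finrank K P + orbCount X S + orbCount X U + orbCount X T ≤ Nat.card X + 2 := by
  classical
  haveI : Fintype X := Fintype.ofFinite _
  haveI : Nonempty X := ⟨x0⟩
  have hinj := ThetaMod_injective K x0 Γ hΓ S U T P hP hgen
  haveI : Module.Finite K (↥P × ↥(V0 K x0)) := Module.Finite.of_injective _ hinj
  haveI : Module.Finite K P :=
    Module.Finite.of_surjective (LinearMap.fst K ↥P ↥(V0 K x0)) LinearMap.fst_surjective
  refine ⟨inferInstance, ?_⟩
  haveI : Module.Free K P := Module.Free.of_divisionRing K P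
  have h1 : LinearMap.range (ThetaMod K x0 Γ hΓ S U T P hP) ≤
      LinearMap.ker (bigPi (X := X) K S U T) := by
    rintro _ ⟨d, rfl⟩
    exact bigPi_ThetaMod K x0 Γ hΓ S U T P hP hT d
  have h2 := Submodule.finrank_mono h1
  rw [LinearMap.finrank_range_of_inj hinj, Module.finrank_prod] at h2
  have h3 := LinearMap.finrank_range_add_finrank_ker (bigPi (X := X) K S U T)
  have h4 := Submodule.finrank_mono (ker_sumL_le_range_bigPi (G := G) (X := X) K S U T hgen hT)
  have h5 := finrank_ker_sumL (X := X) K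
  have h6 := finrank_V0 K x0
  have h7 := finrank_Tgt (X := X) K S U T
  have h8 : 0 < Nat.card X := Nat.card_pos
  omega

end AbstractMod

/-! ### Specialisation to `SL(2, ℤ)` -/

section SL2Z

open Matrix ModularGroup MatrixGroups
open Fermat.Agent.N4F.Tors.HeckeHom (IsParEll)

variable (K : Type*) [Field K] (Γ : Subgroup SL(2, ℤ))

/-- The homomorphisms `Γ → K` killing the parabolic and the elliptic elements (and `± 1`), as a
`K`-subspace. -/
def parEllHoms : Submodule K (Additive Γ →+ K) where
  carrier := {φ | ∀ γ : Γ, IsParEll (γ : SL(2, ℤ)) → φ (Additive.ofMul γ) = 0}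
  zero_mem' := fun _ _ => rfl
  add_mem' := by
    intro φ ψ hφ hψ γ hγ
    rw [AddMonoidHom.add_apply, hφ γ hγ, hψ γ hγ, add_zero]
  smul_mem' := by
    intro c φ hφ γ hγ
    rw [AddMonoidHom.smul_apply, hφ γ hγ, smul_zero]

theorem mem_parEllHoms {φ : Additive Γ →+ K} :
    φ ∈ parEllHoms K Γ ↔ ∀ γ : Γ, IsParEll (γ : SL(2, ℤ)) → φ (Additive.ofMul γ) = 0 := Iff.rfl

theorem isOfFinOrder_conj_pow {t : SL(2, ℤ)} {m : ℕ} (hm : 0 < m) (ht : t ^ m = 1)
    (g : SL(2, ℤ)) (n : ℕ) : IsOfFinOrder (g⁻¹ * t ^ n * g) := by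
  rw [isOfFinOrder_iff_pow_eq_one]
  refine ⟨m, hm, ?_⟩
  have h1 : g⁻¹ * t ^ n * g = g⁻¹ * t ^ n * g⁻¹⁻¹ := by rw [inv_inv]
  rw [h1, conj_pow, ← pow_mul, mul_comm n m, pow_mul, ht, one_pow, mul_one, mul_inv_cancel]

/-- **The cohomological bound in arbitrary characteristic**: for every field `K` and every finite
index subgroup `Γ` of `SL(2, ℤ)`,
`dim_K Hom_{par,ell}(Γ, K) + orb S + orb ST + orb T ≤ [SL(2, ℤ) : Γ] + 2`. -/
theorem finite_and_finrank_parEllHoms_le [Γ.FiniteIndex] :
    Module.Finite K (parEllHoms K Γ) ∧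
      finrank K (parEllHoms K Γ) + orb Γ S + orb Γ (S * T) + orb Γ T ≤ Γ.index + 2 := by
  haveI : Finite (SL(2, ℤ) ⧸ Γ) := Subgroup.finite_quotient_of_finiteIndex
  have key := finrank_add_orbCount_le_mod (G := SL(2, ℤ)) (X := SL(2, ℤ) ⧸ Γ) K
    ((1 : SL(2, ℤ)) : SL(2, ℤ) ⧸ Γ) Γ (mem_iff_smul_one Γ) S (S * T) T
    (parEllHoms K Γ) ?_ closure_S_ST (by group)
  · exact key
  · rintro φ hφ γ (⟨g, n, hγ⟩ | ⟨g, n, hγ⟩ | ⟨g, n, hγ⟩)
    · apply hφ γ
      right
      rw [hγ]
      exact isOfFinOrder_conj_pow (by norm_num) S_pow_four g n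
    · apply hφ γ
      right
      rw [hγ]
      exact isOfFinOrder_conj_pow (by norm_num) ST_pow_six g n
    · apply hφ γ
      left
      rw [hγ, trace_conj_T_pow]
      norm_num

theorem finite_parEllHoms [Γ.FiniteIndex] : Module.Finite K (parEllHoms K Γ) :=
  (finite_and_finrank_parEllHoms_le K Γ).1

theorem finrank_parEllHoms_le [Γ.FiniteIndex] :
    finrank K (parEllHoms K Γ) + orb Γ S + orb Γ (S * T) + orb Γ T ≤ Γ.index + 2 :=
  (finite_and_finrank_parEllHoms_le K Γ).2

end SL2Z

end Fermat.Agent.S16.CohomBoundMod
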