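/-
S16, frozen-definition side, part (R3a): the abstract `a₁`-pairing between a commutative
"Hecke ring" `T` and a coefficient module `L` is perfect.  Mathlib only.

Data: `a : ℕ → L →+ ℤ` (coefficient functionals), a level `N`, operators `τ ℓ ∈ T` (`ℓ` prime) with
`a n (τ ℓ • f) = a (n ℓ) f + [ℓ ∤ N][ℓ ∣ n] ℓ · a (n/ℓ) f`.  Only prime-index operators are used.
-/
import Mathlib

set_option autoImplicit false

namespace Fermat.Agent.S16.DualityAbstract

variable {T : Type*} [CommRing T] {L : Type*} [AddCommGroup L] [Module T L]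

/-- The hypotheses on the coefficient functionals. -/
structure CoeffData (a : ℕ → L →+ ℤ) (N : ℕ) (τ : Nat.Primes → T) : Prop where
  sep : ∀ f : L, (∀ k : ℕ, 1 ≤ k → a k f = 0) → f = 0
  hecke : ∀ (ℓ : Nat.Primes) (f : L) (n : ℕ), a n (τ ℓ • f) =
    a (n * ℓ) f + (if (ℓ : ℕ) ∣ N then 0 else if (ℓ : ℕ) ∣ n then (ℓ : ℤ) * a (n / ℓ) f else 0)
  faithful : ∀ t : T, (∀ f : L, t • f = 0) → t = 0
  sat : ∀ (f : L) (d : ℕ), 0 < d → (∀ k : ℕ, 1 ≤ k → (d : ℤ) ∣ a k f) → ∃ g : L, d • g = f

variable {a : ℕ → L →+ ℤ} {N : ℕ} {τ : Nat.Primes → T}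

/-- Key induction: the coefficients of `t • f` are determined by `t ↦ a 1 (t • f)` through the
Hecke recursion (in any coefficient ring `R`). -/
theorem coeff_eq_of_pairing' (h : CoeffData a N τ) {R : Type*} [CommRing R] (c : ℕ → T → R)
    (hc : ∀ (ℓ : Nat.Primes) (n : ℕ) (t : T), 1 ≤ n → c (n * ℓ) t = c n (τ ℓ * t) -
      (if (ℓ : ℕ) ∣ N then 0 else if (ℓ : ℕ) ∣ n then (ℓ : R) * c (n / ℓ) t else 0))
    (f : L) (hf : ∀ t : T, ((a 1 (t • f) : ℤ) : R) = c 1 t) :
    ∀ k : ℕ, 1 ≤ k → ∀ t : T, ((a k (t • f) : ℤ) : R) = c k t := by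
  intro k
  induction k using Nat.strong_induction_on with
  | _ k ih =>
    intro hk t
    rcases Nat.lt_or_ge 1 k with hk1 | hk1
    · -- k > 1
      set ℓ : Nat.Primes := ⟨k.minFac, Nat.minFac_prime (by omega)⟩ with hℓ
      have hℓk : (ℓ : ℕ) ∣ k := Nat.minFac_dvd k
      set j := k / ℓ with hj
      have hℓpos : 0 < (ℓ : ℕ) := ℓ.2.pos
      have hjk : j * ℓ = k := Nat.div_mul_cancel hℓk
      have hj1 : 1 ≤ j := by
        rcases Nat.eq_zero_or_pos j with h0 | h0
        · rw [h0, zero_mul] at hjk; omega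
        · exact h0
      have hjlt : j < k := by
        have : 2 ≤ (ℓ : ℕ) := ℓ.2.two_le
        nlinarith
      have h1 := h.hecke ℓ (t • f) j
      rw [hjk, smul_smul] at h1
      have h2 := ih j hjlt hj1 (τ ℓ * t)
      rw [h1] at h2
      have h3 := hc ℓ j t hj1
      rw [hjk] at h3
      by_cases hN : (ℓ : ℕ) ∣ N
      · rw [if_pos hN] at h2 h3
        rw [add_zero] at h2
        rw [h2, h3, sub_zero]
      · rw [if_neg hN] at h2 h3
        by_cases hℓj : (ℓ : ℕ) ∣ j
        · rw [if_pos hℓj] at h2 h3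
          have hj' : 1 ≤ j / ℓ := Nat.div_pos (Nat.le_of_dvd hj1 hℓj) hℓpos
          have hj'lt : j / ℓ < k := lt_of_le_of_lt (Nat.div_le_self _ _) hjlt
          have h4 := ih (j / ℓ) hj'lt hj' t
          push_cast at h2
          rw [h4] at h2
          rw [h3, ← h2]
          ring
        · rw [if_neg hℓj] at h2 h3
          rw [add_zero] at h2
          rw [h2, h3, sub_zero]
    · -- k = 1
      have : k = 1 := le_antisymm hk1 hk
      subst this
      exact hf t

/-- The `χ · s` form of the key induction. -/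
theorem coeff_eq_of_pairing (h : CoeffData a N τ) {R : Type*} [CommRing R] (χ : T → R)
    (hχ : ∀ (ℓ : Nat.Primes) (t : T), χ (τ ℓ * t) = χ (τ ℓ) * χ t)
    (s : ℕ → R) (hs1 : s 1 = 1)
    (hs : ∀ (ℓ : Nat.Primes) (n : ℕ), 1 ≤ n → s (n * ℓ) = χ (τ ℓ) * s n -
      (if (ℓ : ℕ) ∣ N then 0 else if (ℓ : ℕ) ∣ n then (ℓ : R) * s (n / ℓ) else 0))
    (f : L) (hf : ∀ t : T, ((a 1 (t • f) : ℤ) : R) = χ t) :
    ∀ k : ℕ, 1 ≤ k → ∀ t : T, ((a k (t • f) : ℤ) : R) = χ t * s k := by
  refine coeff_eq_of_pairing' h (fun k t => χ t * s k) ?_ f ?_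
  · intro ℓ n t hn
    beta_reduce
    rw [hs ℓ n hn, hχ]
    split_ifs <;> ring
  · intro t
    beta_reduce
    rw [hf t, hs1, mul_one]

/-- All coefficients vanish modulo `d` if the pairing does. -/
theorem coeff_dvd_of_pairing (h : CoeffData a N τ) (d : ℕ) (f : L)
    (hf : ∀ t : T, (d : ℤ) ∣ a 1 (t • f)) : ∀ k : ℕ, 1 ≤ k → ∀ t : T, (d : ℤ) ∣ a k (t • f) := by
  intro k hk t
  have := coeff_eq_of_pairing' h (R := ZMod d) (fun _ _ => 0)
    (by intro ℓ n t _; split_ifs <;> simp) f
    (by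
      intro t
      exact (ZMod.intCast_zmod_eq_zero_iff_dvd _ _).2 (hf t)) k hk t
  exact (ZMod.intCast_zmod_eq_zero_iff_dvd _ _).1 this

/-- The pairing is non-degenerate on the `L` side. -/
theorem eq_zero_of_pairing (h : CoeffData a N τ) (f : L) (hf : ∀ t : T, a 1 (t • f) = 0) :
    f = 0 := by
  apply h.sep
  intro k hk
  have := coeff_eq_of_pairing' h (R := ℤ) (fun _ _ => 0)
    (by intro ℓ n t _; split_ifs <;> simp) f (by intro t; simpa using hf t) k hk 1
  simpa using this

/-- The pairing is non-degenerate on the `T` side. -/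
theorem eq_zero_of_pairing_left (h : CoeffData a N τ) (t : T) (ht : ∀ f : L, a 1 (t • f) = 0) :
    t = 0 := by
  apply h.faithful
  intro f
  apply eq_zero_of_pairing h
  intro t'
  rw [smul_smul, mul_comm, ← smul_smul]
  exact ht _

section Perfect

variable (a)

/-- The pairing map `L → Hom_ℤ(T, ℤ)`. -/
def pairL : L →ₗ[ℤ] (T →ₗ[ℤ] ℤ) where
  toFun f :=
    { toFun := fun t => a 1 (t • f)
      map_add' := fun t t' => by rw [add_smul, map_add]
      map_smul' := fun c t => by
        rw [smul_assoc, map_zsmul]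
        rfl }
  map_add' f g := by
    ext t
    simp [smul_add]
  map_smul' c f := by
    ext t
    simp [smul_comm t c f]

/-- The pairing map `T → Hom_ℤ(L, ℤ)`. -/
def pairT : T →ₗ[ℤ] (L →ₗ[ℤ] ℤ) where
  toFun t :=
    { toFun := fun f => a 1 (t • f)
      map_add' := fun f g => by rw [smul_add, map_add]
      map_smul' := fun c f => by
        rw [smul_comm t c f, map_zsmul]
        rfl }
  map_add' t t' := by
    ext f
    simp [add_smul]
  map_smul' c t := by
    ext f
    change a 1 ((c • t) • f) = c • a 1 (t • f)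
    rw [smul_assoc, map_zsmul]

@[simp] theorem pairL_apply (f : L) (t : T) : pairL a f t = a 1 (t • f) := rfl

@[simp] theorem pairT_apply (f : L) (t : T) : pairT a t f = a 1 (t • f) := rfl

variable {a}

theorem pairL_injective (h : CoeffData a N τ) : Function.Injective (pairL (T := T) a) := by
  rw [← LinearMap.ker_eq_bot, LinearMap.ker_eq_bot']
  intro f hf
  exact eq_zero_of_pairing h f fun t => by simpa using LinearMap.congr_fun hf t

theorem pairT_injective (h : CoeffData a N τ) : Function.Injective (pairT (T := T) a) := by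
  rw [← LinearMap.ker_eq_bot, LinearMap.ker_eq_bot']
  intro t ht
  exact eq_zero_of_pairing_left h t fun f => by simpa using LinearMap.congr_fun ht f

variable [Module.Free ℤ T] [Module.Finite ℤ T] [Module.Free ℤ L] [Module.Finite ℤ L]

theorem finrank_eq (h : CoeffData a N τ) : Module.finrank ℤ L = Module.finrank ℤ T := by
  apply le_antisymm
  · have := LinearMap.finrank_le_finrank_of_injective (pairL_injective h)
    rwa [Module.finrank_linearMap, Module.finrank_self, mul_one] at this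
  · have := LinearMap.finrank_le_finrank_of_injective (pairT_injective h)
    rwa [Module.finrank_linearMap, Module.finrank_self, mul_one] at this

/-- **Perfectness of the `a₁`-pairing**: every `ℤ`-linear form on `T` is `t ↦ a 1 (t • f)`. -/
theorem exists_of_dual (h : CoeffData a N τ) (lam : T →ₗ[ℤ] ℤ) :
    ∃ f : L, ∀ t : T, a 1 (t • f) = lam t := by
  -- the quotient of the dual by the range of `pairL` is torsion
  set Φ := pairL (T := T) a with hΦ
  have hrk : Module.finrank ℤ (LinearMap.range Φ) = Module.finrank ℤ (T →ₗ[ℤ] ℤ) := by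
    rw [LinearMap.finrank_range_of_inj (pairL_injective h), Module.finrank_linearMap,
      Module.finrank_self, mul_one, finrank_eq h]
  have hq : Module.finrank ℤ ((T →ₗ[ℤ] ℤ) ⧸ LinearMap.range Φ) = 0 := by
    have := Submodule.finrank_quotient_add_finrank (LinearMap.range Φ)
    omega
  have htors := (Module.finrank_eq_zero_iff_isTorsion (R := ℤ)
    (M := (T →ₗ[ℤ] ℤ) ⧸ LinearMap.range Φ)).1 hq
  obtain ⟨⟨d, hd⟩, hdlam⟩ := @htors (Submodule.Quotient.mk lam)
  have hd0 : d ≠ 0 := nonZeroDivisors.ne_zero hd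
  have hmem : d • lam ∈ LinearMap.range Φ := by
    rw [← Submodule.Quotient.mk_eq_zero, Submodule.Quotient.mk_smul]
    exact hdlam
  have hmem' : ((d.natAbs : ℕ) : ℤ) • lam ∈ LinearMap.range Φ := by
    rcases Int.natAbs_eq d with h' | h'
    · rw [← h']; exact hmem
    · have : ((d.natAbs : ℕ) : ℤ) = -d := by omega
      rw [this, neg_smul]
      exact (LinearMap.range Φ).neg_mem hmem
  obtain ⟨f₀, hf₀⟩ := hmem'
  have hdpos : 0 < d.natAbs := Int.natAbs_pos.2 hd0
  have hd0' : ((d.natAbs : ℕ) : ℤ) ≠ 0 := by exact_mod_cast hdpos.ne'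
  have h1 : ∀ t : T, a 1 (t • f₀) = ((d.natAbs : ℕ) : ℤ) * lam t := by
    intro t
    have := LinearMap.congr_fun hf₀ t
    simpa [hΦ] using this
  -- saturate
  have hdiv : ∀ t : T, ((d.natAbs : ℕ) : ℤ) ∣ a 1 (t • f₀) := fun t => ⟨lam t, h1 t⟩
  have hall : ∀ k : ℕ, 1 ≤ k → ((d.natAbs : ℕ) : ℤ) ∣ a k f₀ := by
    intro k hk
    have := coeff_dvd_of_pairing h d.natAbs f₀ hdiv k hk 1
    simpa using this
  obtain ⟨g, hg⟩ := h.sat f₀ d.natAbs hdpos hall
  refine ⟨g, fun t => ?_⟩
  have h2 : a 1 (t • f₀) = ((d.natAbs : ℕ) : ℤ) * a 1 (t • g) := by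
    rw [← hg, smul_comm t, map_nsmul, nsmul_eq_mul]
  rw [h1 t] at h2
  exact (mul_left_cancel₀ hd0' h2).symm

end Perfect

end Fermat.Agent.S16.DualityAbstract
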