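/-
S16, frozen-definition side, part (R1): pure algebra.

`T := heckeLatticeAlgebra p ∅`, `phi : HeckeAlg →+* T` the (surjective) evaluation,
`eps : HeckeAlg →+* ℤ` the Eisenstein evaluation (`X_ℓ ↦ 1 + ℓ` for `ℓ ≠ p`, `X_p ↦ 1`).
`T ⧸ (phi (eisensteinIdeal p)) ≃ ℤ ⧸ eps (ker phi)`; so the cardinality statement of S16
follows from a lower bound `hA''` and an upper bound `hB''` stated on `HeckeAlg`.
-/
import Fermat.Prelude.Def_CuspForm_HeckeLocal
import Fermat.Prelude.Def_CuspForm_HeckeEvalForms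
import Fermat.Prelude.Def_HeckeGalois_EichlerShimura
import Fermat.Prelude.Def_ModularCurve_ModularUnit

set_option autoImplicit false

noncomputable section

namespace Fermat.Agent.S16.Reduction

open ModularCurve CuspForm

section Eps

variable (p : ℕ)

/-- The Eisenstein evaluation `X_ℓ ↦ 1 + ℓ` (`ℓ ≠ p`), `X_p ↦ 1`. -/
def eps : HeckeAlg →+* ℤ :=
  (MvPolynomial.aeval (R := ℤ) (eisensteinSystem p)).toRingHom

theorem eps_C (a : ℤ) : eps p (MvPolynomial.C a) = a := by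
  simp [eps]

theorem eps_heckeGen (ℓ : Nat.Primes) : eps p (heckeGen ℓ) = eisensteinSystem p ℓ := by
  simp [eps, heckeGen]

theorem mem_eisensteinIdeal_iff (t : HeckeAlg) : t ∈ eisensteinIdeal p ↔ eps p t = 0 :=
  mem_eigenIdeal_iff _ t

theorem eps_surjective : Function.Surjective (eps p) := fun a => ⟨MvPolynomial.C a, eps_C p a⟩

end Eps

variable (p : ℕ) [Fact p.Prime]

/-- The evaluation of the abstract Hecke algebra on the lattice Hecke algebra of level `p`. -/
def phi : HeckeAlg →+* ↥(heckeLatticeAlgebra p ∅) :=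
  (latticeRestrictHom p ∅).toRingHom.comp (heckeEvalForms p 2)

theorem heckeEvalForms_coe_surjective
    (x : Module.End ℂ (CuspForm (CongruenceSubgroup.Gamma0 p) 2))
    (hx : x ∈ Algebra.adjoin ℤ (heckeGenerators p 2 ∅)) :
    ∃ a : HeckeAlg, ((heckeEvalForms p 2 a : ↥(heckeAlgebra p 2 ∅)) :
      Module.End ℂ (CuspForm (CongruenceSubgroup.Gamma0 p) 2)) = x := by
  induction hx using Algebra.adjoin_induction with
  | mem y hy =>
    rcases hy with ⟨ℓ, hℓ, hℓN, -, rfl⟩ | ⟨q, hqN, hq, -, rfl⟩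
    · refine ⟨heckeGen ⟨ℓ, hℓ⟩, ?_⟩
      rw [heckeEvalForms_heckeGen_of_not_dvd (N := p) (k := 2) (ℓ := ⟨ℓ, hℓ⟩) hℓN]
      rfl
    · refine ⟨heckeGen ⟨q, hq⟩, ?_⟩
      rw [heckeEvalForms_heckeGen_of_dvd (N := p) (k := 2) (q := ⟨q, hq⟩) hqN]
      rfl
  | algebraMap r =>
    refine ⟨MvPolynomial.C r, ?_⟩
    rw [heckeEvalForms_C]
    rfl
  | add y z hy hz ihy ihz =>
    obtain ⟨a, ha⟩ := ihy
    obtain ⟨b, hb⟩ := ihz
    refine ⟨a + b, ?_⟩
    rw [map_add, ← ha, ← hb]
    rfl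
  | mul y z hy hz ihy ihz =>
    obtain ⟨a, ha⟩ := ihy
    obtain ⟨b, hb⟩ := ihz
    refine ⟨a * b, ?_⟩
    rw [map_mul, ← ha, ← hb]
    rfl

theorem heckeEvalForms_surjective : Function.Surjective (heckeEvalForms p 2) := by
  rintro ⟨x, hx⟩
  obtain ⟨a, ha⟩ := heckeEvalForms_coe_surjective p x hx
  exact ⟨a, Subtype.ext ha⟩

theorem phi_surjective : Function.Surjective (phi p) :=
  (latticeRestrictHom_surjective p ∅).comp (heckeEvalForms_surjective p)

/-- The Eisenstein character `T → ZMod n` attached to a lower bound. -/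
def eisChar (n : ℕ) (hA : ∀ t : HeckeAlg, phi p t = 0 → (n : ℤ) ∣ eps p t) :
    ↥(heckeLatticeAlgebra p ∅) →+* ZMod n :=
  RingHom.liftOfSurjective (phi p) (phi_surjective p)
    ⟨(Int.castRingHom (ZMod n)).comp (eps p), fun t ht => by
      rw [RingHom.mem_ker] at ht ⊢
      rw [RingHom.comp_apply, eq_intCast, ZMod.intCast_zmod_eq_zero_iff_dvd]
      exact hA t ht⟩

theorem eisChar_phi (n : ℕ) (hA : ∀ t : HeckeAlg, phi p t = 0 → (n : ℤ) ∣ eps p t)
    (t : HeckeAlg) : eisChar p n hA (phi p t) = ((eps p t : ℤ) : ZMod n) := by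
  rw [eisChar, RingHom.liftOfRightInverse_comp_apply]
  simp

theorem eisChar_surjective (n : ℕ) (hA : ∀ t : HeckeAlg, phi p t = 0 → (n : ℤ) ∣ eps p t) :
    Function.Surjective (eisChar p n hA) := fun z => by
  obtain ⟨a, rfl⟩ := ZMod.intCast_surjective z
  exact ⟨phi p (MvPolynomial.C a), by rw [eisChar_phi, eps_C]⟩

theorem ker_eisChar (n : ℕ) (hA : ∀ t : HeckeAlg, phi p t = 0 → (n : ℤ) ∣ eps p t)
    (hB : ∃ t : HeckeAlg, phi p t = 0 ∧ eps p t = (n : ℤ)) :
    RingHom.ker (eisChar p n hA) = Ideal.map (phi p) (eisensteinIdeal p) := by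
  obtain ⟨t₀, ht₀, hεt₀⟩ := hB
  apply le_antisymm
  · intro x hx
    obtain ⟨t, rfl⟩ := phi_surjective p x
    rw [RingHom.mem_ker, eisChar_phi, ZMod.intCast_zmod_eq_zero_iff_dvd] at hx
    obtain ⟨a, ha⟩ := hx
    have h1 : t - MvPolynomial.C a * t₀ ∈ eisensteinIdeal p := by
      rw [mem_eisensteinIdeal_iff, map_sub, map_mul, eps_C, hεt₀, ha]
      ring
    have h2 : phi p (t - MvPolynomial.C a * t₀) = phi p t := by
      rw [map_sub, map_mul, ht₀, mul_zero, sub_zero]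
    rw [← h2]
    exact Ideal.mem_map_of_mem _ h1
  · rw [Ideal.map_le_iff_le_comap]
    intro t ht
    rw [Ideal.mem_comap, RingHom.mem_ker, eisChar_phi, (mem_eisensteinIdeal_iff p t).1 ht]
    simp

/-- **(R1)** The cardinality statement of S16 from a lower bound and an upper bound stated on
the abstract Hecke algebra. -/
theorem card_eq_of_lower_of_upper
    (hA : ∀ t : HeckeAlg, phi p t = 0 → ((eisensteinNumerator p : ℕ) : ℤ) ∣ eps p t)
    (hB : ∃ t : HeckeAlg, phi p t = 0 ∧ eps p t = ((eisensteinNumerator p : ℕ) : ℤ)) :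
    Nat.card (↥(heckeLatticeAlgebra p ∅) ⧸
        Ideal.map ((latticeRestrictHom p ∅).toRingHom.comp (heckeEvalForms p 2))
          (eisensteinIdeal p)) =
      eisensteinNumerator p := by
  have e1 : (↥(heckeLatticeAlgebra p ∅) ⧸ RingHom.ker (eisChar p _ hA)) ≃+* ZMod (eisensteinNumerator p) :=
    RingHom.quotientKerEquivOfSurjective (eisChar_surjective p _ hA)
  have e2 := Ideal.quotEquivOfEq (ker_eisChar p _ hA hB)
  have e3 : (↥(heckeLatticeAlgebra p ∅) ⧸
        Ideal.map ((latticeRestrictHom p ∅).toRingHom.comp (heckeEvalForms p 2))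
          (eisensteinIdeal p)) ≃ ZMod (eisensteinNumerator p) :=
    (e2.symm.trans e1).toEquiv
  rw [Nat.card_congr e3, Nat.card_zmod]

end Fermat.Agent.S16.Reduction
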