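/-
S16, frozen-definition side, part (R3b): the concrete `a₁`-pairing
`heckeLatticeAlgebra N ∅ × intLattice N 2 → ℤ` is perfect.
-/
import Fermat.Agent.S16.Reduction
import Fermat.Agent.S16.DualityAbstract
import Fermat.Agent.S49.Lattice

set_option autoImplicit false

noncomputable section

namespace Fermat.Agent.S16.Duality

open CuspForm ModularCurve ModularFormClass CongruenceSubgroup Fermat.Agent.S49
open Fermat.Agent.S16.DualityAbstract

variable (N : ℕ) [NeZero N]

/-- The integer `k`-th `q`-coefficient of an element of the integral lattice. -/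
def aInt (k : ℕ) (f : ↥(intLattice N 2)) : ℤ :=
  Classical.choose ((mem_intLattice_iff (f : CuspForm (Gamma0 N) 2)).1 f.2 k)

theorem aInt_spec (k : ℕ) (f : ↥(intLattice N 2)) :
    qCoeff ⇑(f : CuspForm (Gamma0 N) 2) k = (aInt N k f : ℂ) :=
  Classical.choose_spec ((mem_intLattice_iff (f : CuspForm (Gamma0 N) 2)).1 f.2 k)

theorem aInt_eq_iff (k : ℕ) (f : ↥(intLattice N 2)) (m : ℤ) :
    aInt N k f = m ↔ qCoeff ⇑(f : CuspForm (Gamma0 N) 2) k = (m : ℂ) := by
  rw [aInt_spec]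
  exact ⟨fun h => by rw [h], fun h => by exact_mod_cast h⟩

/-- The coefficient functionals as additive maps. -/
def aHom (k : ℕ) : ↥(intLattice N 2) →+ ℤ where
  toFun := aInt N k
  map_zero' := by
    rw [aInt_eq_iff]
    simpa using qCoeff_zero_form (N := N) (k := 2) k
  map_add' f g := by
    rw [aInt_eq_iff]
    push_cast
    rw [← aInt_spec, ← aInt_spec]
    exact qCoeff_add _ _ k

@[simp] theorem aHom_apply (k : ℕ) (f : ↥(intLattice N 2)) : aHom N k f = aInt N k f := rfl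

theorem aInt_zero_idx (f : ↥(intLattice N 2)) : aInt N 0 f = 0 := by
  rw [aInt_eq_iff]
  simpa using qCoeff_zero_idx (f : CuspForm (Gamma0 N) 2)

/-- The prime-index Hecke operators in the lattice Hecke algebra. -/
def tau (ℓ : Nat.Primes) : ↥(heckeLatticeAlgebra N ∅) :=
  latticeRestrictHom N ∅ (heckeFormsGen N 2 ℓ)

theorem coe_tau_smul (ℓ : Nat.Primes) (f : ↥(intLattice N 2)) :
    ((tau N ℓ • f : ↥(intLattice N 2)) : CuspForm (Gamma0 N) 2) =
      ((heckeFormsGen N 2 ℓ : ↥(heckeAlgebra N 2 ∅)) :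
        Module.End ℂ (CuspForm (Gamma0 N) 2)) (f : CuspForm (Gamma0 N) 2) := rfl

theorem aInt_tau_smul (ℓ : Nat.Primes) (f : ↥(intLattice N 2)) (n : ℕ) :
    aInt N n (tau N ℓ • f) = aInt N (n * ℓ) f +
      (if (ℓ : ℕ) ∣ N then 0 else if (ℓ : ℕ) ∣ n then (ℓ : ℤ) * aInt N (n / ℓ) f else 0) := by
  rw [aInt_eq_iff, coe_tau_smul]
  by_cases hN : (ℓ : ℕ) ∣ N
  · rw [if_pos hN, heckeFormsGen_of_dvd hN, heckeAlgebra.coe_U, qCoeff_heckeULin ℓ.2 hN, aInt_spec]
    simp
  · rw [if_neg hN, heckeFormsGen_of_not_dvd hN, heckeAlgebra.coe_T, qCoeff_heckeTLin ℓ.2 hN,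
      aInt_spec]
    by_cases hn : (ℓ : ℕ) ∣ n
    · rw [if_pos hn, if_pos hn, aInt_spec]
      push_cast
      norm_num
    · rw [if_neg hn, if_neg hn]
      simp

theorem eq_zero_of_aInt (f : ↥(intLattice N 2)) (h : ∀ k : ℕ, 1 ≤ k → aInt N k f = 0) :
    f = 0 := by
  apply Subtype.ext
  apply ext_qCoeff
  intro n
  rw [Submodule.coe_zero, qCoeff_zero_form]
  rcases Nat.eq_zero_or_pos n with hn | hn
  · rw [hn]; exact qCoeff_zero_idx _
  · rw [aInt_spec, h n hn, Int.cast_zero]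

theorem exists_nsmul_eq (f : ↥(intLattice N 2)) (d : ℕ) (hd : 0 < d)
    (h : ∀ k : ℕ, 1 ≤ k → (d : ℤ) ∣ aInt N k f) : ∃ g : ↥(intLattice N 2), d • g = f := by
  have hd' : (d : ℂ) ≠ 0 := by exact_mod_cast hd.ne'
  refine ⟨⟨(d : ℂ)⁻¹ • (f : CuspForm (Gamma0 N) 2), ?_⟩, ?_⟩
  · rw [mem_intLattice_iff]
    intro n
    rcases Nat.eq_zero_or_pos n with hn | hn
    · refine ⟨0, ?_⟩
      rw [hn, qCoeff_zero_idx, Int.cast_zero]
    · obtain ⟨c, hc⟩ := h n hn
      refine ⟨c, ?_⟩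
      rw [qCoeff_smul, aInt_spec, hc]
      push_cast
      field_simp
  · apply Subtype.ext
    rw [Submodule.coe_smul_of_tower]
    change d • ((d : ℂ)⁻¹ • (f : CuspForm (Gamma0 N) 2)) = _
    rw [← Nat.cast_smul_eq_nsmul ℂ, smul_smul, mul_inv_cancel₀ hd', one_smul]

/-- The concrete coefficient data. -/
theorem coeffData : CoeffData (aHom N) N (tau N) where
  sep f h := eq_zero_of_aInt N f h
  hecke ℓ f n := aInt_tau_smul N ℓ f n
  faithful t ht := by
    apply Subtype.ext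
    apply LinearMap.ext
    intro f
    exact ht f
  sat f d hd h := exists_nsmul_eq N f d hd h

instance : Module.Free ℤ ↥(intLattice N 2) := intLattice.moduleFree N

/-- **Perfectness of the `a₁`-pairing** for the lattice Hecke algebra of level `N`. -/
theorem exists_form_of_dual (lam : ↥(heckeLatticeAlgebra N ∅) →ₗ[ℤ] ℤ) :
    ∃ f : ↥(intLattice N 2), ∀ t : ↥(heckeLatticeAlgebra N ∅), aInt N 1 (t • f) = lam t :=
  exists_of_dual (coeffData N) lam

end Fermat.Agent.S16.Duality
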