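import Fermat.Statements.S16
import Fermat.Agent.S49.Lattice
import Fermat.Agent.S16.SigmaP

/-!
# S16, step 0 (core): duality between the Hecke algebra and the integral lattice (helper29)

Tools for reducing the frozen statement S16 (index of the Eisenstein ideal) to statements about
ONE cusp form with integer `q`-expansion:

* `coeffZ f k` : the integer `q`-coefficients of `f ∈ intLattice N 2`;
* `TlT`, `UpT` : the Hecke generators inside `heckeLatticeAlgebra p ∅`, with their action on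
  coefficients (`coeffZ_TlT`, `coeffZ_UpT`);
* `dvd_coeffZ_of_forall` : if `M ∣ a₁(t f)` for all `t` then `M ∣ a_k(f)` for all `k ≥ 1`
  (no `T_n` is ever constructed);
* `pairL_surjective` : **duality**, every `ℤ`-linear form on the Hecke algebra is `t ↦ a₁(t f)`;
* `EigM p m g c` (`g ≡ c · E'` mod `m`, `E' = ∑ σ'(k) q^k`, `σ' = EisP.sigmaPrime`) and its
  stability under `T_ℓ` (`c ↦ (1+ℓ)c`) and `U_p` (`c ↦ c`).
-/

set_option autoImplicit false

open ModularCurve CuspForm ModularFormClass CongruenceSubgroup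

noncomputable section

namespace Fermat.Agent.S16.DualityCore

open Fermat.Agent.S16.EisP (sigmaPrime)

/-- The Hecke relation for `σ'` at a prime `ℓ ≠ p`, over `ℤ`. -/
theorem sigmaPrime_mul_prime_int {p ℓ : ℕ} (hp : p.Prime) (hℓ : ℓ.Prime) (hne : ℓ ≠ p) (k : ℕ)
    (hk : 0 < k) :
    (sigmaPrime p (k * ℓ) : ℤ) + (if ℓ ∣ k then (ℓ : ℤ) * sigmaPrime p (k / ℓ) else 0) =
      (1 + ℓ) * sigmaPrime p k := by
  have h := Fermat.Agent.S16.SigmaP.sigmaPrime_mul_prime hp hℓ hne hk
  have h' := congrArg (Nat.cast : ℕ → ℤ) h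
  push_cast at h'
  rw [← h']

/-! ## Integer `q`-coefficients on the lattice -/

open Fermat.Agent.S49 in
/-- The `n`-th `q`-coefficient of a lattice element, as an integer. -/
def coeffZ {N : ℕ} (f : ↥(intLattice N 2)) (n : ℕ) : ℤ :=
  Classical.choose ((Fermat.Agent.S49.mem_intLattice_iff f.1).1 f.2 n)

theorem coeffZ_spec {N : ℕ} (f : ↥(intLattice N 2)) (n : ℕ) :
    qCoeff ⇑(f : CuspForm (Gamma0 N) 2) n = (coeffZ f n : ℂ) :=
  Classical.choose_spec ((Fermat.Agent.S49.mem_intLattice_iff f.1).1 f.2 n)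

theorem coeffZ_eq_iff {N : ℕ} (f : ↥(intLattice N 2)) (n : ℕ) (a : ℤ) :
    coeffZ f n = a ↔ qCoeff ⇑(f : CuspForm (Gamma0 N) 2) n = (a : ℂ) := by
  rw [coeffZ_spec]
  exact ⟨fun h => by rw [h], fun h => by exact_mod_cast h⟩

theorem coeffZ_add {N : ℕ} (f g : ↥(intLattice N 2)) (n : ℕ) :
    coeffZ (f + g) n = coeffZ f n + coeffZ g n := by
  rw [coeffZ_eq_iff, Submodule.coe_add, Fermat.Agent.S49.qCoeff_add, coeffZ_spec, coeffZ_spec]
  push_cast; rfl

theorem coeffZ_zsmul {N : ℕ} (c : ℤ) (f : ↥(intLattice N 2)) (n : ℕ) :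
    coeffZ (c • f) n = c * coeffZ f n := by
  rw [coeffZ_eq_iff, Submodule.coe_smul, Fermat.Agent.S49.qCoeff_zsmul, coeffZ_spec]
  push_cast; rfl

theorem coeffZ_zero {N : ℕ} (n : ℕ) : coeffZ (0 : ↥(intLattice N 2)) n = 0 := by
  rw [coeffZ_eq_iff, Submodule.coe_zero, Fermat.Agent.S49.qCoeff_zero_form]
  simp

theorem coeffZ_idx_zero {N : ℕ} (f : ↥(intLattice N 2)) : coeffZ f 0 = 0 := by
  rw [coeffZ_eq_iff, Fermat.Agent.S49.qCoeff_zero_idx]
  simp

theorem ext_coeffZ {N : ℕ} {f g : ↥(intLattice N 2)} (h : ∀ n, coeffZ f n = coeffZ g n) :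
    f = g := by
  apply Subtype.ext
  apply Fermat.Agent.S49.ext_qCoeff
  intro n
  rw [coeffZ_spec, coeffZ_spec, h n]

/-- `n`-th coefficient as a `ℤ`-linear form on the lattice. -/
def coeffHom {N : ℕ} (n : ℕ) : ↥(intLattice N 2) →ₗ[ℤ] ℤ where
  toFun f := coeffZ f n
  map_add' f g := coeffZ_add f g n
  map_smul' c f := by simpa using coeffZ_zsmul c f n

@[simp] theorem coeffHom_apply {N : ℕ} (n : ℕ) (f : ↥(intLattice N 2)) :
    coeffHom n f = coeffZ f n := rfl

/-- Division by an integer dividing all coefficients stays in the lattice. -/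
theorem exists_eq_zsmul_of_forall_dvd {N : ℕ} (M : ℤ) (hM : M ≠ 0) (f : ↥(intLattice N 2))
    (h : ∀ k, M ∣ coeffZ f k) : ∃ g : ↥(intLattice N 2), f = M • g := by
  let g0 : CuspForm (Gamma0 N) 2 := ((M : ℂ)⁻¹) • (f : CuspForm (Gamma0 N) 2)
  have hMC : (M : ℂ) ≠ 0 := by exact_mod_cast hM
  have hg0 : g0 ∈ intLattice N 2 := by
    rw [Fermat.Agent.S49.mem_intLattice_iff]
    intro n
    obtain ⟨b, hb⟩ := h n
    refine ⟨b, ?_⟩
    rw [Fermat.Agent.S49.qCoeff_smul, coeffZ_spec, hb]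
    push_cast
    field_simp
  refine ⟨⟨g0, hg0⟩, ?_⟩
  apply Subtype.ext
  rw [Submodule.coe_smul]
  show (f : CuspForm (Gamma0 N) 2) = M • g0
  have : (M • g0 : CuspForm (Gamma0 N) 2) = (M : ℂ) • g0 := by
    ext z; simp
  rw [this, smul_smul, mul_inv_cancel₀ hMC, one_smul]

/-! ## The Hecke generators on the lattice -/

section Generators

variable (p : ℕ) [Fact p.Prime]

/-- `T_ℓ` (`ℓ ≠ p` prime) as an element of the lattice Hecke algebra. -/
def TlT {ℓ : ℕ} (hℓ : ℓ.Prime) (hne : ℓ ≠ p) : ↥(heckeLatticeAlgebra p ∅) :=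
  latticeRestrictHom p ∅ (heckeAlgebra.T hℓ
    (fun h => hne ((Nat.prime_dvd_prime_iff_eq hℓ (Fact.out : p.Prime)).1 h))
    (Set.notMem_empty _))

/-- `U_p` as an element of the lattice Hecke algebra. -/
def UpT : ↥(heckeLatticeAlgebra p ∅) :=
  latticeRestrictHom p ∅ (heckeAlgebra.U (Fact.out : p.Prime) (dvd_refl p) (Set.notMem_empty _))

theorem coeffZ_TlT {ℓ : ℕ} (hℓ : ℓ.Prime) (hne : ℓ ≠ p) (f : ↥(intLattice p 2)) (n : ℕ) :
    coeffZ ((TlT p hℓ hne).1 f) n =
      coeffZ f (n * ℓ) + if ℓ ∣ n then (ℓ : ℤ) * coeffZ f (n / ℓ) else 0 := by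
  rw [coeffZ_eq_iff]
  have h1 : (((TlT p hℓ hne).1 f : ↥(intLattice p 2)) : CuspForm (Gamma0 p) 2) =
      CuspForm.heckeTLin 2 hℓ
        (fun h => hne ((Nat.prime_dvd_prime_iff_eq hℓ (Fact.out : p.Prime)).1 h))
        (f : CuspForm (Gamma0 p) 2) := rfl
  rw [h1, Fermat.Agent.S49.qCoeff_heckeTLin, coeffZ_spec]
  split_ifs with h
  · rw [coeffZ_spec]; push_cast; norm_num
  · push_cast; ring

theorem coeffZ_UpT (f : ↥(intLattice p 2)) (n : ℕ) :
    coeffZ ((UpT p).1 f) n = coeffZ f (n * p) := by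
  rw [coeffZ_eq_iff]
  have h1 : (((UpT p).1 f : ↥(intLattice p 2)) : CuspForm (Gamma0 p) 2) =
      CuspForm.heckeULin 2 (dvd_refl p) (f : CuspForm (Gamma0 p) 2) := rfl
  rw [h1, Fermat.Agent.S49.qCoeff_heckeULin (Fact.out : p.Prime), coeffZ_spec]

end Generators

/-! ## Nondegeneracy of `(t, f) ↦ a₁(t f)` -/

section Nondeg

variable (p : ℕ) [Fact p.Prime]

theorem mul_val_apply (t u : ↥(heckeLatticeAlgebra p ∅)) (f : ↥(intLattice p 2)) :
    (t * u).1 f = t.1 (u.1 f) := rfl

/-- If `M` divides `a₁(t f)` for every Hecke operator `t`, then `M` divides every coefficient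
of `f`. -/
theorem dvd_coeffZ_of_forall (M : ℤ) :
    ∀ k : ℕ, 0 < k → ∀ f : ↥(intLattice p 2),
      (∀ t : ↥(heckeLatticeAlgebra p ∅), M ∣ coeffZ (t.1 f) 1) → M ∣ coeffZ f k := by
  intro k
  induction k using Nat.strong_induction_on with
  | _ k ih =>
    intro hk f hf
    rcases Nat.lt_or_ge k 2 with hk2 | hk2
    · obtain rfl : k = 1 := by omega
      simpa using hf 1
    · have hℓ : (k.minFac).Prime := Nat.minFac_prime (by omega)
      obtain ⟨k', hk'⟩ : k.minFac ∣ k := Nat.minFac_dvd k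
      have hk'pos : 0 < k' := by
        rcases Nat.eq_zero_or_pos k' with h | h
        · rw [h, mul_zero] at hk'; omega
        · exact h
      have hk'lt : k' < k := by
        have h2 := hℓ.two_le
        nlinarith
      have hkk : k = k' * k.minFac := by rw [mul_comm]; exact hk'
      by_cases hne : k.minFac = p
      · have h1 := ih k' hk'lt hk'pos ((UpT p).1 f) (fun t => by
          have := hf (t * UpT p)
          rwa [mul_val_apply] at this)
        have hkp : k' * p = k := by rw [← hne]; exact hkk.symm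
        rw [coeffZ_UpT, hkp] at h1
        exact h1
      · have h1 := ih k' hk'lt hk'pos ((TlT p hℓ hne).1 f) (fun t => by
          have := hf (t * TlT p hℓ hne)
          rwa [mul_val_apply] at this)
        rw [coeffZ_TlT, ← hkk] at h1
        split_ifs at h1 with hdiv
        · have hpos : 0 < k' / k.minFac :=
            Nat.div_pos (Nat.le_of_dvd hk'pos hdiv) hℓ.pos
          have hlt : k' / k.minFac < k := lt_of_le_of_lt (Nat.div_le_self _ _) hk'lt
          have h2 := ih (k' / k.minFac) hlt hpos f hf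
          have h3 : M ∣ (k.minFac : ℤ) * coeffZ f (k' / k.minFac) := Dvd.dvd.mul_left h2 _
          exact (dvd_add_left h3).1 h1
        · simpa using h1

/-- Nondegeneracy on the lattice side. -/
theorem eq_zero_of_forall_coeffZ_one (f : ↥(intLattice p 2))
    (hf : ∀ t : ↥(heckeLatticeAlgebra p ∅), coeffZ (t.1 f) 1 = 0) : f = 0 := by
  apply ext_coeffZ
  intro n
  rw [coeffZ_zero]
  rcases Nat.eq_zero_or_pos n with rfl | hn
  · exact coeffZ_idx_zero f
  · have := dvd_coeffZ_of_forall p 0 n hn f (fun t => by rw [hf t])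
    simpa using this

/-- Nondegeneracy on the Hecke side. -/
theorem eq_zero_of_forall_coeffZ_one' (t : ↥(heckeLatticeAlgebra p ∅))
    (ht : ∀ f : ↥(intLattice p 2), coeffZ (t.1 f) 1 = 0) : t = 0 := by
  apply Subtype.ext
  apply LinearMap.ext
  intro f
  show t.1 f = 0
  apply eq_zero_of_forall_coeffZ_one p
  intro u
  have h := ht (u.1 f)
  have hcomm : (u * t).1 f = (t * u).1 f := by rw [mul_comm]
  rw [mul_val_apply, mul_val_apply] at hcomm
  rw [hcomm]; exact h

end Nondeg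

/-! ## The duality `intLattice ≃ Hom_ℤ(𝕋, ℤ)` -/

section Dual

variable (p : ℕ) [Fact p.Prime]

/-- `f ↦ (t ↦ a₁(t f))`. -/
def pairL : ↥(intLattice p 2) →ₗ[ℤ] (↥(heckeLatticeAlgebra p ∅) →ₗ[ℤ] ℤ) where
  toFun f :=
    { toFun := fun t => coeffZ (t.1 f) 1
      map_add' := fun t u => by
        show coeffZ ((t + u).1 f) 1 = _
        rw [show (t + u).1 f = t.1 f + u.1 f from rfl, coeffZ_add]
      map_smul' := fun c t => by
        show coeffZ ((c • t).1 f) 1 = _
        rw [show (c • t).1 f = c • t.1 f from rfl, coeffZ_zsmul]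
        rfl }
  map_add' f g := by
    apply LinearMap.ext
    intro t
    show coeffZ (t.1 (f + g)) 1 = coeffZ (t.1 f) 1 + coeffZ (t.1 g) 1
    rw [map_add, coeffZ_add]
  map_smul' c f := by
    apply LinearMap.ext
    intro t
    show coeffZ (t.1 (c • f)) 1 = c • coeffZ (t.1 f) 1
    rw [map_smul, coeffZ_zsmul]
    rfl

@[simp] theorem pairL_apply (f : ↥(intLattice p 2)) (t : ↥(heckeLatticeAlgebra p ∅)) :
    pairL p f t = coeffZ (t.1 f) 1 := rfl

/-- `t ↦ (f ↦ a₁(t f))`. -/
def pairT : ↥(heckeLatticeAlgebra p ∅) →ₗ[ℤ] (↥(intLattice p 2) →ₗ[ℤ] ℤ) where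
  toFun t := (coeffHom 1).comp t.1
  map_add' t u := by
    apply LinearMap.ext
    intro f
    show coeffZ ((t + u).1 f) 1 = coeffZ (t.1 f) 1 + coeffZ (u.1 f) 1
    rw [show (t + u).1 f = t.1 f + u.1 f from rfl, coeffZ_add]
  map_smul' c t := by
    apply LinearMap.ext
    intro f
    show coeffZ ((c • t).1 f) 1 = c • coeffZ (t.1 f) 1
    rw [show (c • t).1 f = c • t.1 f from rfl, coeffZ_zsmul]
    rfl

@[simp] theorem pairT_apply (t : ↥(heckeLatticeAlgebra p ∅)) (f : ↥(intLattice p 2)) :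
    pairT p t f = coeffZ (t.1 f) 1 := rfl

theorem pairL_injective : Function.Injective (pairL p) := by
  rw [injective_iff_map_eq_zero]
  intro f hf
  apply eq_zero_of_forall_coeffZ_one p
  intro t
  have := LinearMap.congr_fun hf t
  simpa using this

theorem pairT_injective : Function.Injective (pairT p) := by
  rw [injective_iff_map_eq_zero]
  intro t ht
  apply eq_zero_of_forall_coeffZ_one' p
  intro f
  have := LinearMap.congr_fun ht f
  simpa using this

theorem finrank_eq :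
    Module.finrank ℤ ↥(intLattice p 2) = Module.finrank ℤ ↥(heckeLatticeAlgebra p ∅) := by
  have := intLattice.moduleFinite p
  have := intLattice.moduleFree p
  have h1 := LinearMap.finrank_le_finrank_of_injective (pairL_injective p)
  have h2 := LinearMap.finrank_le_finrank_of_injective (pairT_injective p)
  rw [Module.finrank_linearMap, Module.finrank_self, mul_one] at h1 h2
  exact le_antisymm h1 h2

/-- An injective linear map between modules of the same finite rank over a domain has a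
torsion cokernel. -/
theorem exists_smul_mem_range_of_finrank_eq {R A B : Type*} [CommRing R] [IsDomain R]
    [AddCommGroup A] [AddCommGroup B]
    [Module R A] [Module R B] [Module.Finite R B] (φ : A →ₗ[R] B)
    (hinj : Function.Injective φ) (h : Module.finrank R A = Module.finrank R B) (b : B) :
    ∃ M : R, M ≠ 0 ∧ M • b ∈ LinearMap.range φ := by
  have h3 := Submodule.finrank_quotient_add_finrank (LinearMap.range φ)
  rw [LinearMap.finrank_range_of_inj hinj, h] at h3
  have hq : Module.finrank R (B ⧸ LinearMap.range φ) = 0 := by omega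
  have htors := Module.finrank_eq_zero_iff_isTorsion.1 hq
  obtain ⟨⟨M, hM⟩, hMφ⟩ := @htors ((LinearMap.range φ).mkQ b)
  have hM0 : M ≠ 0 := nonZeroDivisors.ne_zero hM
  refine ⟨M, hM0, ?_⟩
  have hMφ' : M • ((LinearMap.range φ).mkQ b) = 0 := by
    rw [← hMφ]; rfl
  rw [← map_smul, Submodule.mkQ_apply] at hMφ'
  exact (Submodule.Quotient.mk_eq_zero _).1 hMφ'

/-- **Duality.** Every `ℤ`-linear form on the Hecke algebra is `t ↦ a₁(t f)` for a (unique)
lattice element `f`. -/
theorem pairL_surjective : Function.Surjective (pairL p) := by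
  have := intLattice.moduleFinite p
  have := intLattice.moduleFree p
  intro φ
  have hfr : Module.finrank ℤ ↥(intLattice p 2) =
      Module.finrank ℤ (↥(heckeLatticeAlgebra p ∅) →ₗ[ℤ] ℤ) := by
    rw [Module.finrank_linearMap, Module.finrank_self, mul_one, finrank_eq]
  obtain ⟨M, hM0, f, hf⟩ :=
    exists_smul_mem_range_of_finrank_eq (pairL p) (pairL_injective p) hfr φ
  have hdiv : ∀ k, M ∣ coeffZ f k := by
    intro k
    rcases Nat.eq_zero_or_pos k with rfl | hk
    · rw [coeffZ_idx_zero]; exact dvd_zero M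
    · apply dvd_coeffZ_of_forall p M k hk f
      intro t
      have h := LinearMap.congr_fun hf t
      have h2 : (pairL p f) t = coeffZ (t.1 f) 1 := rfl
      have h3 : (M • φ) t = M * φ t := rfl
      have h4 : coeffZ (t.1 f) 1 = M * φ t := h2.symm.trans (h.trans h3)
      exact h4 ▸ dvd_mul_right _ _
  obtain ⟨g, rfl⟩ := exists_eq_zsmul_of_forall_dvd M hM0 f hdiv
  refine ⟨g, ?_⟩
  apply LinearMap.ext
  intro t
  have h := LinearMap.congr_fun hf t
  have h1 : (pairL p (M • g)) t = coeffZ (t.1 (M • g)) 1 := rfl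
  have h2 : coeffZ (t.1 (M • g)) 1 = M * coeffZ (t.1 g) 1 := by
    rw [show t.1 (M • g) = M • t.1 g from map_zsmul t.1 M g]
    exact coeffZ_zsmul M _ 1
  have h3 : (M • φ) t = M * φ t := rfl
  have h4 : M * coeffZ (t.1 g) 1 = M * φ t := h2.symm.trans (h1.symm.trans (h.trans h3))
  exact mul_left_cancel₀ hM0 h4

end Dual

/-! ## Eisenstein eigenvectors modulo `m` -/

section Eigen

variable (p : ℕ) [Fact p.Prime]

/-- `g ≡ c · E'` modulo `m`, where `E' = ∑ σ'(k) q^k`. -/
def EigM (m : ℤ) (g : ↥(intLattice p 2)) (c : ℤ) : Prop :=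
  ∀ k : ℕ, 0 < k → m ∣ coeffZ g k - c * sigmaPrime p k

variable {p}

omit [Fact p.Prime] in
theorem EigM.add {m : ℤ} {g g' : ↥(intLattice p 2)} {c c' : ℤ} (h : EigM p m g c)
    (h' : EigM p m g' c') : EigM p m (g + g') (c + c') := by
  intro k hk
  rw [coeffZ_add]
  have e : coeffZ g k + coeffZ g' k - (c + c') * (sigmaPrime p k : ℤ) =
      (coeffZ g k - c * sigmaPrime p k) + (coeffZ g' k - c' * sigmaPrime p k) := by ring
  rw [e]
  exact dvd_add (h k hk) (h' k hk)

omit [Fact p.Prime] in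
theorem EigM.zsmul {m : ℤ} {g : ↥(intLattice p 2)} {c : ℤ} (a : ℤ) (h : EigM p m g c) :
    EigM p m (a • g) (a * c) := by
  intro k hk
  rw [coeffZ_zsmul]
  have e : a * coeffZ g k - a * c * (sigmaPrime p k : ℤ) = a * (coeffZ g k - c * sigmaPrime p k) := by
    ring
  rw [e]
  exact Dvd.dvd.mul_left (h k hk) a

theorem EigM.Tl {m : ℤ} {g : ↥(intLattice p 2)} {c : ℤ} {ℓ : ℕ} (hℓ : ℓ.Prime) (hne : ℓ ≠ p)
    (h : EigM p m g c) : EigM p m ((TlT p hℓ hne).1 g) ((1 + ℓ) * c) := by
  intro k hk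
  rw [coeffZ_TlT]
  have hσ := sigmaPrime_mul_prime_int (Fact.out : p.Prime) hℓ hne k hk
  have h1 := h (k * ℓ) (Nat.mul_pos hk hℓ.pos)
  split_ifs at hσ ⊢ with hdiv
  · have hpos : 0 < k / ℓ := Nat.div_pos (Nat.le_of_dvd hk hdiv) hℓ.pos
    have h2 := Dvd.dvd.mul_left (h (k / ℓ) hpos) (ℓ : ℤ)
    have e : coeffZ g (k * ℓ) + (ℓ : ℤ) * coeffZ g (k / ℓ) - (1 + (ℓ : ℤ)) * c * (sigmaPrime p k : ℤ) =
        (coeffZ g (k * ℓ) - c * sigmaPrime p (k * ℓ)) +
          (ℓ : ℤ) * (coeffZ g (k / ℓ) - c * sigmaPrime p (k / ℓ)) := by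
      linear_combination c * hσ
    rw [e]
    exact dvd_add h1 h2
  · have e : coeffZ g (k * ℓ) + 0 - (1 + (ℓ : ℤ)) * c * (sigmaPrime p k : ℤ) =
        coeffZ g (k * ℓ) - c * sigmaPrime p (k * ℓ) := by
      linear_combination c * hσ
    rw [e]
    exact h1

theorem EigM.Up {m : ℤ} {g : ↥(intLattice p 2)} {c : ℤ} (h : EigM p m g c) :
    EigM p m ((UpT p).1 g) c := by
  intro k hk
  rw [coeffZ_UpT]
  have h1 := h (k * p) (Nat.mul_pos hk (Fact.out : p.Prime).pos)
  rwa [Fermat.Agent.S16.SigmaP.sigmaPrime_mul_self (Fact.out : p.Prime)] at h1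

end Eigen

end Fermat.Agent.S16.DualityCore
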