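import Mathlib

/-!
# S16 / K(8): the pure-algebra half of the "forced zero + norm" argument

Let `S` be a commutative ring in which `27` is invertible (`w` with `27 * w = 1`), e.g.
`S = O⟦X⟧` with `O = ℤ_(2)`.  For `x S3 S5 T D : S` with

* `hT : S5 + 3 * S3 = 4 * T`   (coefficientwise `d⁵ + 3 d³ ≡ 0 mod 4`), and
* `hD : 1728 * D = (1 + 240 * S3) ^ 3 - (1 - 504 * S5) ^ 2`   (`1728 Δ = E₄³ - E₆²`),

put `F = 1 + 8 x`, `E4 = 1 + 240 S3`, `E6 = 1 - 504 S5`.  Then the weight-8 combination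
`F⁴ - 6 F² E4 + 8 F E6 - 3 E4²  ( = 6912 · b₈ )` equals `6912 · (D + 2 β)` for an explicit `β : S`,
i.e. `b₈ ≡ Δ mod 2` with `b₈` integral.

This is the Weierstrass `b`-algebra run with `b₂ = F`, `c₄ = E4`, `c₆ = -E6`
(`b₄ = (F² - E4)/24`, `b₆ = (2 E6 + F³ - 3 F E4)/432`, `4 b₈ = b₂ b₆ - b₄²`) and the universal identity
`(c₄³ - c₆²)/1728 = -b₂² b₈ - 8 b₄³ - 27 b₆² + 9 b₂ b₄ b₆`.
-/

set_option autoImplicit false

namespace Fermat.Agent.S16.K8Algebra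

variable {S : Type*} [CommRing S]

/-- `u = x + 4x² - 15 S3`, so that `F² - E4 = 16 u` and `b₄ = 2u/3`. -/
def uAux (x S3 : S) : S := x + 4 * x ^ 2 - 15 * S3

/-- `27 γ'`, where `b₆ = 4 γ'`. -/
def g0Aux (x S3 T : S) : S :=
  -63 * T + 36 * S3 - 3 * x ^ 2 - 16 * x ^ 3 + 6 * x * uAux x S3

/-- `γ' = b₆ / 4`. -/
def gAux (w x S3 T : S) : S := w * g0Aux x S3 T

/-- `b₈ = F γ' - u² / 9`. -/
def b8 (w x S3 T : S) : S := (1 + 8 * x) * gAux w x S3 T - 3 * w * uAux x S3 ^ 2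

/-- The explicit `β` with `b₈ = Δ + 2 β`. -/
def beta (w x S3 T D : S) : S :=
  -D - 32 * w * uAux x S3 ^ 3 - 216 * gAux w x S3 T ^ 2
    + 12 * (1 + 8 * x) * uAux x S3 * gAux w x S3 T
    - (8 * x + 32 * x ^ 2) * b8 w x S3 T

/-- `F⁴ - 6 F² E4 + 8 F E6 - 3 E4² = 6912 b₈`. -/
theorem weight8_eq_b8 (w x S3 S5 T : S) (h27 : 27 * w = 1) (hT : S5 + 3 * S3 = 4 * T) :
    (1 + 8 * x) ^ 4 - 6 * (1 + 8 * x) ^ 2 * (1 + 240 * S3)
        + 8 * (1 + 8 * x) * (1 - 504 * S5) - 3 * (1 + 240 * S3) ^ 2 =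
      6912 * b8 w x S3 T := by
  obtain rfl : S5 = 4 * T - 3 * S3 := by linear_combination hT
  simp only [b8, gAux, g0Aux, uAux]
  linear_combination
    (-(256 * (1 + 8 * x) * (-63 * T + 36 * S3 - 3 * x ^ 2 - 16 * x ^ 3
        + 6 * x * (x + 4 * x ^ 2 - 15 * S3)) - 768 * (x + 4 * x ^ 2 - 15 * S3) ^ 2)) * h27

/-- **K(8), algebraic core**: `F⁴ - 6 F² E4 + 8 F E6 - 3 E4² = 6912 (D + 2 β)`. -/
theorem weight8_eq (w x S3 S5 T D : S) (h27 : 27 * w = 1) (hT : S5 + 3 * S3 = 4 * T)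
    (hD : 1728 * D = (1 + 240 * S3) ^ 3 - (1 - 504 * S5) ^ 2) :
    (1 + 8 * x) ^ 4 - 6 * (1 + 8 * x) ^ 2 * (1 + 240 * S3)
        + 8 * (1 + 8 * x) * (1 - 504 * S5) - 3 * (1 + 240 * S3) ^ 2 =
      6912 * (D + 2 * beta w x S3 T D) := by
  rw [weight8_eq_b8 w x S3 S5 T h27 hT]
  obtain rfl : S5 = 4 * T - 3 * S3 := by linear_combination hT
  -- `729` is a unit, so it suffices to prove the identity multiplied by `729`
  have h729 : IsUnit (729 : S) := by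
    refine IsUnit.of_mul_eq_one (w ^ 2) ?_
    linear_combination (27 * w + 1) * h27
  refine h729.mul_left_cancel ?_
  simp only [beta, b8, gAux, g0Aux, uAux]
  linear_combination
    (27 * (6912 * ((1 + 8 * x) ^ 2 * ((1 + 8 * x) * (-63 * T + 36 * S3 - 3 * x ^ 2 - 16 * x ^ 3
          + 6 * x * (x + 4 * x ^ 2 - 15 * S3)) - 3 * (x + 4 * x ^ 2 - 15 * S3) ^ 2)
        + 64 * (x + 4 * x ^ 2 - 15 * S3) ^ 3
        - 24 * (1 + 8 * x) * (x + 4 * x ^ 2 - 15 * S3) * (-63 * T + 36 * S3 - 3 * x ^ 2 - 16 * x ^ 3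
          + 6 * x * (x + 4 * x ^ 2 - 15 * S3))))
      + (6912 * 432 * (-63 * T + 36 * S3 - 3 * x ^ 2 - 16 * x ^ 3
          + 6 * x * (x + 4 * x ^ 2 - 15 * S3)) ^ 2) * (27 * w + 1)) * h27
    + 2916 * hD

end Fermat.Agent.S16.K8Algebra
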