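import Mathlib
import Fermat.Agent.P3G.Krull

/-!
# S16, the 2-adic residual case `K(8)`: the Hesse computation in a normal ring

`K(8)`: there is no holomorphic weight-2 form `F` on `Γ₀(p)` with `2`-integral `q`-expansion and
`F ≡ 1 mod 8`.  With `φ := F · E₄ / E₆ = 1 + 8 ψ` (a modular FUNCTION, `ψ` Gauss-integral) the
differential `ω_F = - φ · dj / j` is regular off the cusps.  After adjoining a root `s` of the
Hesse / `Γ₀(9)` equation

  `s ^ 3 * (s ^ 3 - 24) ^ 3 = j * (s ^ 3 - 27)`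

(so that `j - 1728 = b(s) ^ 2 / (s ^ 3 - 27)`, `b(s) = s ^ 6 - 36 s ^ 3 + 216`, and
`dj / j = 9 b(s) / (s (s ^ 3 - 24) (s ^ 3 - 27)) ds`), the function
`h = ω_F / ds = - 9 φ b(s) / (s (s ^ 3 - 24) (s ^ 3 - 27))` is integral, and reducing
`h · s (s ^ 3 - 24) (s ^ 3 - 27) + 9 b(s) = - 72 ψ b(s)` modulo `8` gives `4 · 81 ∈ (s, 8)`, which is
impossible at a closed point of the special fibre lying over `j = 0`.

This file contains the commutative algebra only: `S` is a noetherian integrally closed domain with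
fraction field `F` (in the application the integral closure of `ℤ_(2)[j]` in `ℚ(j, j_p)(s)`), its
*DVR-primes* are the primes `𝔮` with `S_𝔮 = locAt 𝔮` a discrete valuation ring
(`Fermat.Agent.P3G.Krull`); a DVR-prime is *vertical* if it contains `2`, *horizontal* otherwise.

* `bPoly`, `hesse_identity` : `(j - 1728) (s ^ 3 - 27) = b(s) ^ 2`.
* `Hesse j s` : the standing hypotheses (equation, `3` invertible, `2 ≠ 0`, no vertical DVR-prime
  contains `j`, some prime contains `2` and `j`).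
* `Hesse.false_of_eq` (core): no `h z : S` with
  `h * (s * (s ^ 3 - 24) * (s ^ 3 - 27)) + 9 * b(s) = 8 * z`.
* `Hesse.false_of_regular` : no `φ = 1 + 8 ψ` in `F` with `ψ` integral at the vertical DVR-primes and
  `φ` satisfying the three holomorphy clauses at the horizontal ones
  (`φ ∈ S_𝔮` away from `j = 0, 1728`; `φ ^ 3 / j ∈ S_𝔮` over `j = 0`;
  `φ ^ 2 (j - 1728) ∈ S_𝔮` over `j = 1728`).
-/

set_option autoImplicit false
set_option linter.unusedSectionVars false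
set_option linter.style.haveILetI false

namespace Fermat.Agent.S16.K8Core

open Fermat.Agent.N4.Cover.Globalize Fermat.Agent.P3G.Krull

/-! ### The polynomial identities -/

section Poly

variable {S : Type*} [CommRing S]

/-- `b(s) = s ^ 6 - 36 s ^ 3 + 216`; `j - 1728 = b(s) ^ 2 / (s ^ 3 - 27)` on the Hesse cover. -/
def bPoly (s : S) : S := s ^ 6 - 36 * s ^ 3 + 216

/-- The product `s (s ^ 3 - 24) (s ^ 3 - 27)` (the denominator of `dj / j`). -/
def dPoly (s : S) : S := s * (s ^ 3 - 24) * (s ^ 3 - 27)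

theorem hesse_identity {j s : S} (hE : s ^ 3 * (s ^ 3 - 24) ^ 3 = j * (s ^ 3 - 27)) :
    (j - 1728) * (s ^ 3 - 27) = bPoly s ^ 2 := by
  have h1 : (j - 1728) * (s ^ 3 - 27) = j * (s ^ 3 - 27) - 1728 * (s ^ 3 - 27) := by ring
  rw [h1, ← hE]
  unfold bPoly
  ring

theorem dPoly_pow_three {j s : S} (hE : s ^ 3 * (s ^ 3 - 24) ^ 3 = j * (s ^ 3 - 27)) :
    dPoly s ^ 3 = j * (s ^ 3 - 27) ^ 4 := by
  have h1 : dPoly s ^ 3 = (s ^ 3 * (s ^ 3 - 24) ^ 3) * (s ^ 3 - 27) ^ 3 := by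
    unfold dPoly; ring
  rw [h1, hE]; ring

theorem bPoly_sub_s (s : S) : bPoly s - s ^ 3 * (s ^ 3 - 36) = 216 := by
  unfold bPoly; ring

theorem bPoly_sub_24 (s : S) : bPoly s - (s ^ 3 - 24) * (s ^ 3 - 12) = -72 := by
  unfold bPoly; ring

theorem bPoly_sub_27 (s : S) : bPoly s - (s ^ 3 - 27) * (s ^ 3 - 9) = -27 := by
  unfold bPoly; ring

end Poly

/-! ### Generalities on `locAt` -/

section Loc

variable {S F : Type*} [CommRing S] [IsDomain S] [IsNoetherianRing S] [IsIntegrallyClosed S]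
  [Field F] [Algebra S F] [IsFractionRing S F]

/-- A prime minimal over a nonzero principal ideal of a noetherian integrally closed domain is a
DVR-prime (Krull's principal ideal theorem + (K5)). -/
theorem isDVR_locAt_of_mem_minimalPrimes {a : S} (𝔭 : Ideal S) [𝔭.IsPrime]
    (ha0 : a ≠ 0) (hmin : 𝔭 ∈ (Ideal.span {a}).minimalPrimes) :
    IsDiscreteValuationRing (locAt (F := F) 𝔭) := by
  have ha𝔭 : a ∈ 𝔭 := hmin.1.2 (Ideal.subset_span rfl)
  have h0 : 𝔭 ≠ ⊥ := fun h => ha0 (by rw [h, Ideal.mem_bot] at ha𝔭; exact ha𝔭)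
  have hht : 𝔭.height ≤ 1 :=
    Ideal.height_le_one_of_isPrincipal_of_mem_minimalPrimes (Ideal.span {a}) 𝔭 hmin
  refine isDiscreteValuationRing_locAt_of_minimal 𝔭 h0 ?_
  intro 𝔮 h𝔮 h𝔮0 hle
  haveI := h𝔮
  by_contra hne
  have hlt : 𝔮 < 𝔭 := lt_of_le_of_ne hle hne
  have h1 := Ideal.height_add_one_le_of_lt_of_isPrime hlt
  have h2 : 𝔮.height + 1 ≤ 1 := h1.trans hht
  have h3 : 𝔮.height = 0 := by
    have h4 : 𝔮.height + 1 ≤ 0 + 1 := by simpa using h2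
    exact le_antisymm ((ENat.add_le_add_iff_right (by simp)).1 h4) (by simp)
  exact h𝔮0 (Ideal.height_eq_zero_iff_eq_bot.1 h3)

/-- `S_𝔭` is integrally closed in `F`: roots of its elements which lie in `F` lie in `S_𝔭`. -/
theorem mem_locAt_of_pow_mem (𝔭 : Ideal S) [𝔭.IsPrime] {x : F} {n : ℕ} (hn : 0 < n)
    (hx : x ^ n ∈ locAt (F := F) 𝔭) : x ∈ locAt (F := F) 𝔭 := by
  haveI : IsIntegrallyClosed (locAt (F := F) 𝔭) :=
    isIntegrallyClosed_of_isLocalization _ 𝔭.primeCompl 𝔭.primeCompl_le_nonZeroDivisors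
  obtain ⟨y, hy⟩ := IsIntegrallyClosed.exists_algebraMap_eq_of_pow_mem_subalgebra
    (S := locAt (F := F) 𝔭) hn hx
  rw [← hy]
  exact y.2

end Loc

/-! ### The standing hypotheses -/

section Main

variable {S F : Type*} [CommRing S] [IsDomain S] [IsNoetherianRing S] [IsIntegrallyClosed S]
  [Field F] [Algebra S F] [IsFractionRing S F]

variable (F) in
/-- The standing hypotheses on `j s : S`. -/
structure Hesse (j s : S) : Prop where
  /-- the Hesse / `Γ₀(9)` equation -/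
  eqn : s ^ 3 * (s ^ 3 - 24) ^ 3 = j * (s ^ 3 - 27)
  /-- `3` is invertible (`S` is a `ℤ_(2)`-algebra) -/
  three : IsUnit (3 : S)
  two_ne : (2 : S) ≠ 0
  /-- no vertical DVR-prime contains `j` -/
  vert : ∀ (𝔮 : Ideal S) [𝔮.IsPrime], IsDiscreteValuationRing (locAt (F := F) 𝔮) →
    (2 : S) ∈ 𝔮 → j ∉ 𝔮
  /-- a closed point of the special fibre over `j = 0` -/
  point : ∃ x : Ideal S, x.IsPrime ∧ (2 : S) ∈ x ∧ j ∈ x

namespace Hesse

variable {j s : S} (H : Hesse F j s)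

include H

/-- `3 ∉ 𝔮` for every prime. -/
theorem three_notMem (𝔮 : Ideal S) [h𝔮 : 𝔮.IsPrime] : (3 : S) ∉ 𝔮 := fun h =>
  h𝔮.ne_top (Ideal.eq_top_of_isUnit_mem _ h H.three)

/-- An integer `2 ^ a * 3 ^ b` lies in a prime only if `2` does. -/
theorem two_mem_of_mul_mem (𝔮 : Ideal S) [h𝔮 : 𝔮.IsPrime] {a b : ℕ}
    (h : (2 : S) ^ a * (3 : S) ^ b ∈ 𝔮) : (2 : S) ∈ 𝔮 := by
  rcases h𝔮.mem_or_mem h with h2 | h3
  · exact h𝔮.mem_of_pow_mem _ h2
  · exact absurd (h𝔮.mem_of_pow_mem _ h3) (H.three_notMem 𝔮)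

/-- At a prime containing `2` but not `j`: `s`, `s ^ 3 - 24`, `s ^ 3 - 27` are units. -/
theorem notMem_of_two_mem (𝔮 : Ideal S) [h𝔮 : 𝔮.IsPrime] (h2 : (2 : S) ∈ 𝔮) (hj : j ∉ 𝔮) :
    s ∉ 𝔮 ∧ s ^ 3 - 24 ∉ 𝔮 ∧ s ^ 3 - 27 ∉ 𝔮 := by
  have hs : s ∉ 𝔮 := by
    intro hs
    have h1 : j * (s ^ 3 - 27) ∈ 𝔮 := by
      rw [← H.eqn]; exact 𝔮.mul_mem_right _ (𝔮.pow_mem_of_mem hs 3 (by norm_num))
    rcases h𝔮.mem_or_mem h1 with h | h
    · exact hj h
    · have h27 : (27 : S) ∈ 𝔮 := by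
        have : (27 : S) = s ^ 3 - (s ^ 3 - 27) := by ring
        rw [this]; exact 𝔮.sub_mem (𝔮.pow_mem_of_mem hs 3 (by norm_num)) h
      have h1 : (1 : S) ∈ 𝔮 := by
        have : (1 : S) = 27 - 13 * 2 := by norm_num
        rw [this]; exact 𝔮.sub_mem h27 (𝔮.mul_mem_left _ h2)
      exact h𝔮.ne_top ((Ideal.eq_top_iff_one _).2 h1)
  have h24 : s ^ 3 - 24 ∉ 𝔮 := by
    intro h
    have h3 : s ^ 3 ∈ 𝔮 := by
      have : s ^ 3 = (s ^ 3 - 24) + 12 * 2 := by ring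
      rw [this]; exact 𝔮.add_mem h (𝔮.mul_mem_left _ h2)
    exact hs (h𝔮.mem_of_pow_mem _ h3)
  refine ⟨hs, h24, ?_⟩
  intro h
  have h1 : s ^ 3 * (s ^ 3 - 24) ^ 3 ∈ 𝔮 := by
    rw [H.eqn]; exact 𝔮.mul_mem_left _ h
  rcases h𝔮.mem_or_mem h1 with h | h
  · exact hs (h𝔮.mem_of_pow_mem _ h)
  · exact h24 (h𝔮.mem_of_pow_mem _ h)

/-- `s ^ 3 - 27` together with `b(s)` lies in no prime. -/
theorem not_mem_27_and_b (𝔮 : Ideal S) [h𝔮 : 𝔮.IsPrime] (h : s ^ 3 - 27 ∈ 𝔮)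
    (hb : bPoly s ∈ 𝔮) : False := by
  have h27 : (-27 : S) ∈ 𝔮 := by
    rw [← bPoly_sub_27 s]; exact 𝔮.sub_mem hb (𝔮.mul_mem_right _ h)
  have h27' : (3 : S) ^ 3 ∈ 𝔮 := by
    have : (3 : S) ^ 3 = -(-27) := by norm_num
    rw [this]; exact 𝔮.neg_mem h27
  exact H.three_notMem 𝔮 (h𝔮.mem_of_pow_mem _ h27')

/-- `s ^ 3 - 27` lies in no horizontal prime containing `j` or not containing `j - 1728`... more
precisely: `s ^ 3 - 27 ∈ 𝔮` forces `b(s) ∈ 𝔮`, which is impossible. -/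
theorem notMem_27 (𝔮 : Ideal S) [h𝔮 : 𝔮.IsPrime] : s ^ 3 - 27 ∉ 𝔮 := by
  intro h
  have hb2 : bPoly s ^ 2 ∈ 𝔮 := by
    rw [← hesse_identity H.eqn]; exact 𝔮.mul_mem_left _ h
  exact H.not_mem_27_and_b 𝔮 h (h𝔮.mem_of_pow_mem _ hb2)

/-- At a horizontal prime containing `b(s)`: `s` and `s ^ 3 - 24` are units. -/
theorem notMem_of_b_mem (𝔮 : Ideal S) [h𝔮 : 𝔮.IsPrime] (h2 : (2 : S) ∉ 𝔮)
    (hb : bPoly s ∈ 𝔮) : s ∉ 𝔮 ∧ s ^ 3 - 24 ∉ 𝔮 := by
  constructor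
  · intro hs
    have h216 : (216 : S) ∈ 𝔮 := by
      rw [← bPoly_sub_s s]; exact 𝔮.sub_mem hb (𝔮.mul_mem_right _ (𝔮.pow_mem_of_mem hs 3 (by norm_num)))
    have : (2 : S) ^ 3 * (3 : S) ^ 3 ∈ 𝔮 := by
      have e : (2 : S) ^ 3 * (3 : S) ^ 3 = 216 := by norm_num
      rw [e]; exact h216
    exact h2 (H.two_mem_of_mul_mem 𝔮 this)
  · intro h
    have h72 : (-72 : S) ∈ 𝔮 := by
      rw [← bPoly_sub_24 s]; exact 𝔮.sub_mem hb (𝔮.mul_mem_right _ h)
    have : (2 : S) ^ 3 * (3 : S) ^ 2 ∈ 𝔮 := by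
      have e : (2 : S) ^ 3 * (3 : S) ^ 2 = -(-72) := by norm_num
      rw [e]; exact 𝔮.neg_mem h72
    exact h2 (H.two_mem_of_mul_mem 𝔮 this)

/-- At a prime containing neither `j` nor `s ^ 3 - 27`-multiples: if `j ∉ 𝔮` then `s` and
`s ^ 3 - 24` are units. -/
theorem notMem_of_j_notMem (𝔮 : Ideal S) [h𝔮 : 𝔮.IsPrime] (hj : j ∉ 𝔮) :
    s ∉ 𝔮 ∧ s ^ 3 - 24 ∉ 𝔮 := by
  have key : s ^ 3 * (s ^ 3 - 24) ^ 3 ∉ 𝔮 := by
    rw [H.eqn]
    intro h
    rcases h𝔮.mem_or_mem h with h | h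
    · exact hj h
    · exact H.notMem_27 𝔮 h
  constructor
  · intro hs
    exact key (𝔮.mul_mem_right _ (𝔮.pow_mem_of_mem hs 3 (by norm_num)))
  · intro h
    exact key (𝔮.mul_mem_left _ (𝔮.pow_mem_of_mem h 3 (by norm_num)))

/-- There is a vertical DVR-prime; hence `j ≠ 0`, `s ≠ 0`, ... -/
theorem exists_vertical : ∃ (𝔮 : Ideal S) (_ : 𝔮.IsPrime),
    IsDiscreteValuationRing (locAt (F := F) 𝔮) ∧ (2 : S) ∈ 𝔮 := by
  obtain ⟨x, hx, h2, -⟩ := H.point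
  haveI := hx
  have hle : Ideal.span {(2 : S)} ≤ x := (Ideal.span_singleton_le_iff_mem _).2 h2
  obtain ⟨𝔮, hmin, -⟩ := Ideal.exists_minimalPrimes_le hle
  haveI : 𝔮.IsPrime := hmin.1.1
  exact ⟨𝔮, inferInstance, isDVR_locAt_of_mem_minimalPrimes 𝔮 H.two_ne hmin,
    hmin.1.2 (Ideal.subset_span rfl)⟩

theorem dPoly_ne_zero : dPoly s ≠ 0 := by
  obtain ⟨𝔮, h𝔮, hdvr, h2⟩ := H.exists_vertical
  haveI := h𝔮
  obtain ⟨h1, h24, h27⟩ := H.notMem_of_two_mem 𝔮 h2 (H.vert 𝔮 hdvr h2)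
  intro h0
  have : dPoly s ∈ 𝔮 := h0 ▸ 𝔮.zero_mem
  unfold dPoly at this
  rcases h𝔮.mem_or_mem this with h | h
  · rcases h𝔮.mem_or_mem h with h | h
    · exact h1 h
    · exact h24 h
  · exact h27 h

/-- `d(s) = s (s ^ 3 - 24) (s ^ 3 - 27)` is a unit at every prime containing `2` but not `j`. -/
theorem dPoly_notMem_of_two_mem (𝔮 : Ideal S) [h𝔮 : 𝔮.IsPrime] (h2 : (2 : S) ∈ 𝔮) (hj : j ∉ 𝔮) :
    dPoly s ∉ 𝔮 := by
  obtain ⟨h1, h24, h27⟩ := H.notMem_of_two_mem 𝔮 h2 hj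
  intro h
  unfold dPoly at h
  rcases h𝔮.mem_or_mem h with h | h
  · rcases h𝔮.mem_or_mem h with h | h
    · exact h1 h
    · exact h24 h
  · exact h27 h

/-! ### The core contradiction -/

/-- **The core.**  There are no `h z : S` with `h · s (s³ - 24)(s³ - 27) + 9 b(s) = 8 z`. -/
theorem false_of_eq (h z : S) (hX : h * dPoly s + 9 * bPoly s = 8 * z) : False := by
  classical
  -- Step 1: `s ^ 3 * Y = 8 * z'`.
  set Y : S := h * s * (s ^ 3 - 27) + 9 * s ^ 3 - 324 with hY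
  set z' : S := z + 3 * h * s * (s ^ 3 - 27) - 243 with hz'
  have h1 : s ^ 3 * Y = 8 * z' := by
    have e : s ^ 3 * Y = (h * dPoly s + 9 * bPoly s) + 24 * h * s * (s ^ 3 - 27) - 1944 := by
      rw [hY]; unfold dPoly bPoly; ring
    rw [e, hX, hz']; ring
  -- Step 2: `8 ∣ Y`, by Krull's intersection theorem.
  have h8F : algebraMap S F 8 ≠ 0 := by
    have : (8 : S) = 2 ^ 3 := by norm_num
    rw [this]
    exact algebraMap_ne_zero (pow_ne_zero _ H.two_ne)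
  obtain ⟨y', hy'⟩ := exists_algebraMap_eq_of_forall_mem_dvr (S := S)
    (algebraMap S F Y / algebraMap S F 8) (by
      intro 𝔮 h𝔮 hdvr
      by_cases h2 : (2 : S) ∈ 𝔮
      · obtain ⟨hs, -, -⟩ := H.notMem_of_two_mem 𝔮 h2 (H.vert 𝔮 hdvr h2)
        have hs3 : s ^ 3 ∉ 𝔮 := fun h => hs (h𝔮.mem_of_pow_mem _ h)
        have e : algebraMap S F Y / algebraMap S F 8 =
            algebraMap S F z' / algebraMap S F (s ^ 3) := by
          have hs3F := algebraMap_ne_zero_of_notMem (F := F) 𝔮 hs3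
          rw [div_eq_div_iff h8F hs3F, ← map_mul, ← map_mul]
          congr 1
          rw [mul_comm, h1, mul_comm]
        rw [e]
        exact div_mem_locAt 𝔮 z' hs3
      · have h8 : (8 : S) ∉ 𝔮 := by
          intro h
          have : (2 : S) ^ 3 ∈ 𝔮 := by
            have e : (2 : S) ^ 3 = 8 := by norm_num
            rw [e]; exact h
          exact h2 (h𝔮.mem_of_pow_mem _ this)
        exact div_mem_locAt 𝔮 Y h8)
  have hY8 : Y = 8 * y' := by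
    apply IsFractionRing.injective S F
    rw [map_mul, hy', mul_div_cancel₀ _ h8F]
  -- Step 3: `4 * (81 + 2 y') = s * a`.
  have h3 : 4 * (81 + 2 * y') = s * (h * (s ^ 3 - 27) + 9 * s ^ 2) := by
    have : s * (h * (s ^ 3 - 27) + 9 * s ^ 2) = Y + 324 := by rw [hY]; ring
    rw [this, hY8]; ring
  -- Step 4: a closed point over `j = 0` and a horizontal prime through it.
  obtain ⟨x, hx, h2x, hjx⟩ := H.point
  haveI := hx
  have hsx : s ∈ x := by
    have h1 : s ^ 3 * (s ^ 3 - 24) ^ 3 ∈ x := by rw [H.eqn]; exact x.mul_mem_right _ hjx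
    rcases hx.mem_or_mem h1 with h | h
    · exact hx.mem_of_pow_mem _ h
    · have h24 : s ^ 3 - 24 ∈ x := hx.mem_of_pow_mem _ h
      have : s ^ 3 ∈ x := by
        have e : s ^ 3 = (s ^ 3 - 24) + 12 * 2 := by ring
        rw [e]; exact x.add_mem h24 (x.mul_mem_left _ h2x)
      exact hx.mem_of_pow_mem _ this
  have hu : 81 + 2 * y' ∉ x := by
    intro hmem
    have h81 : (81 : S) ∈ x := by
      have e : (81 : S) = (81 + 2 * y') - y' * 2 := by ring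
      rw [e]; exact x.sub_mem hmem (x.mul_mem_left _ h2x)
    have h1 : (1 : S) ∈ x := by
      have e : (1 : S) = 81 - 40 * 2 := by norm_num
      rw [e]; exact x.sub_mem h81 (x.mul_mem_left _ h2x)
    exact hx.ne_top ((Ideal.eq_top_iff_one _).2 h1)
  have hs0 : s ≠ 0 := by
    intro h0
    have : dPoly s = 0 := by unfold dPoly; rw [h0]; ring
    exact H.dPoly_ne_zero this
  have hle : Ideal.span {s} ≤ x := (Ideal.span_singleton_le_iff_mem _).2 hsx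
  obtain ⟨𝔭, hmin, h𝔭x⟩ := Ideal.exists_minimalPrimes_le hle
  haveI h𝔭 : 𝔭.IsPrime := hmin.1.1
  have hs𝔭 : s ∈ 𝔭 := hmin.1.2 (Ideal.subset_span rfl)
  have hdvr : IsDiscreteValuationRing (locAt (F := F) 𝔭) :=
    isDVR_locAt_of_mem_minimalPrimes 𝔭 hs0 hmin
  have h2𝔭 : (2 : S) ∉ 𝔭 := by
    intro h2
    exact (H.notMem_of_two_mem 𝔭 h2 (H.vert 𝔭 hdvr h2)).1 hs𝔭
  have hprod : 4 * (81 + 2 * y') ∈ 𝔭 := by rw [h3]; exact 𝔭.mul_mem_right _ hs𝔭
  rcases h𝔭.mem_or_mem hprod with h4 | hu'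
  · have : (2 : S) ^ 2 ∈ 𝔭 := by
      have e : (2 : S) ^ 2 = 4 := by norm_num
      rw [e]; exact h4
    exact h2𝔭 (h𝔭.mem_of_pow_mem _ this)
  · exact hu (h𝔭x hu')

theorem j_ne_zero : j ≠ 0 := by
  obtain ⟨𝔮, h𝔮, hdvr, h2⟩ := H.exists_vertical
  haveI := h𝔮
  intro h0
  exact H.vert 𝔮 hdvr h2 (h0 ▸ 𝔮.zero_mem)

theorem ofNat_mem_locAt (𝔮 : Ideal S) [𝔮.IsPrime] (n : ℕ) [n.AtLeastTwo] :
    (OfNat.ofNat n : F) ∈ locAt (F := F) 𝔮 := by
  have : (OfNat.ofNat n : F) = algebraMap S F (OfNat.ofNat n) := (map_ofNat _ n).symm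
  rw [this]
  exact algebraMap_mem_locAt 𝔮 _

/-! ### The function-field form -/

/-- **`K(8)`, function-field form.**  There is no `φ = 1 + 8 ψ ∈ F` with `ψ` integral at the vertical
DVR-primes of `S` and `φ` satisfying the holomorphy clauses at the horizontal ones: `φ` regular away
from `j = 0, 1728`, `φ ^ 3 / j` regular over `j = 0` (`ord φ ≥ 1`, ramification `≤ 3`),
`φ ^ 2 (j - 1728)` regular over `j = 1728` (`ord φ ≥ 1 - e`, ramification `e ≤ 2`). -/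
theorem false_of_regular (φ ψ : F) (hφ : φ = 1 + 8 * ψ)
    (hG : ∀ (𝔮 : Ideal S) [𝔮.IsPrime], IsDiscreteValuationRing (locAt (F := F) 𝔮) →
      (2 : S) ∈ 𝔮 → ψ ∈ locAt (F := F) 𝔮)
    (hA : ∀ (𝔮 : Ideal S) [𝔮.IsPrime], IsDiscreteValuationRing (locAt (F := F) 𝔮) →
      (2 : S) ∉ 𝔮 → j ∉ 𝔮 → j - 1728 ∉ 𝔮 → φ ∈ locAt (F := F) 𝔮)
    (hB : ∀ (𝔮 : Ideal S) [𝔮.IsPrime], IsDiscreteValuationRing (locAt (F := F) 𝔮) →
      (2 : S) ∉ 𝔮 → j ∈ 𝔮 → φ ^ 3 / algebraMap S F j ∈ locAt (F := F) 𝔮)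
    (hC : ∀ (𝔮 : Ideal S) [𝔮.IsPrime], IsDiscreteValuationRing (locAt (F := F) 𝔮) →
      (2 : S) ∉ 𝔮 → j - 1728 ∈ 𝔮 →
        φ ^ 2 * algebraMap S F (j - 1728) ∈ locAt (F := F) 𝔮) : False := by
  classical
  set d : F := algebraMap S F (dPoly s) with hd
  set b : F := algebraMap S F (bPoly s) with hb
  have hd0 : d ≠ 0 := algebraMap_ne_zero H.dPoly_ne_zero
  have hjF : algebraMap S F j ≠ 0 := algebraMap_ne_zero H.j_ne_zero
  set hF : F := -9 * φ * b / d with hhF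
  -- Step 1: `hF` is integral.
  obtain ⟨h, hh⟩ := exists_algebraMap_eq_of_forall_mem_dvr (S := S) hF (by
    intro 𝔮 h𝔮 hdvr
    have h9 : (-9 : F) ∈ locAt (F := F) 𝔮 := neg_mem (H.ofNat_mem_locAt 𝔮 9)
    have hbm : b ∈ locAt (F := F) 𝔮 := algebraMap_mem_locAt 𝔮 _
    have h27 : s ^ 3 - 27 ∉ 𝔮 := H.notMem_27 𝔮
    by_cases h2 : (2 : S) ∈ 𝔮
    · have hdn := H.dPoly_notMem_of_two_mem 𝔮 h2 (H.vert 𝔮 hdvr h2)
      have hφm : φ ∈ locAt (F := F) 𝔮 := by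
        rw [hφ]
        exact add_mem (one_mem _) (mul_mem (H.ofNat_mem_locAt 𝔮 8) (hG 𝔮 hdvr h2))
      rw [hhF, div_eq_mul_inv]
      exact mul_mem (mul_mem (mul_mem h9 hφm) hbm) (inv_mem_locAt 𝔮 hdn)
    · by_cases hj : j ∈ 𝔮
      · -- over `j = 0`
        have ht0 := algebraMap_ne_zero_of_notMem (F := F) 𝔮 h27
        have hd3 : d ^ 3 = algebraMap S F j * algebraMap S F (s ^ 3 - 27) ^ 4 := by
          rw [hd, ← map_pow, dPoly_pow_three H.eqn, map_mul, map_pow]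
        have e : hF ^ 3 = (-9) ^ 3 * (φ ^ 3 / algebraMap S F j) * b ^ 3 *
            ((algebraMap S F (s ^ 3 - 27))⁻¹) ^ 4 := by
          rw [hhF, div_pow, hd3]
          field_simp
        apply mem_locAt_of_pow_mem 𝔮 (n := 3) (by norm_num)
        rw [e]
        exact mul_mem (mul_mem (mul_mem (pow_mem h9 3) (hB 𝔮 hdvr h2 hj)) (pow_mem hbm 3))
          (pow_mem (inv_mem_locAt 𝔮 h27) 4)
      · by_cases hk : j - 1728 ∈ 𝔮
        · -- over `j = 1728`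
          have hb2 : bPoly s ^ 2 ∈ 𝔮 := by
            rw [← hesse_identity H.eqn]; exact 𝔮.mul_mem_right _ hk
          have hbq : bPoly s ∈ 𝔮 := h𝔮.mem_of_pow_mem _ hb2
          obtain ⟨hs, h24⟩ := H.notMem_of_b_mem 𝔮 h2 hbq
          have hs0 := algebraMap_ne_zero_of_notMem (F := F) 𝔮 hs
          have hu0 := algebraMap_ne_zero_of_notMem (F := F) 𝔮 h24
          have ht0 := algebraMap_ne_zero_of_notMem (F := F) 𝔮 h27
          have hbsq : b ^ 2 = algebraMap S F (j - 1728) * algebraMap S F (s ^ 3 - 27) := by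
            rw [hb, ← map_pow, ← hesse_identity H.eqn, map_mul]
          have hdsq : d = algebraMap S F s * algebraMap S F (s ^ 3 - 24) *
              algebraMap S F (s ^ 3 - 27) := by
            rw [hd]; unfold dPoly; rw [map_mul, map_mul]
          have e : hF ^ 2 = (-9) ^ 2 * (φ ^ 2 * algebraMap S F (j - 1728)) *
              ((algebraMap S F s)⁻¹) ^ 2 * ((algebraMap S F (s ^ 3 - 24))⁻¹) ^ 2 *
              (algebraMap S F (s ^ 3 - 27))⁻¹ := by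
            rw [hhF, div_pow, mul_pow, mul_pow, hbsq, hdsq]
            field_simp
          apply mem_locAt_of_pow_mem 𝔮 (n := 2) (by norm_num)
          rw [e]
          exact mul_mem (mul_mem (mul_mem (mul_mem (pow_mem h9 2) (hC 𝔮 hdvr h2 hk))
            (pow_mem (inv_mem_locAt 𝔮 hs) 2)) (pow_mem (inv_mem_locAt 𝔮 h24) 2))
            (inv_mem_locAt 𝔮 h27)
        · -- elsewhere
          obtain ⟨hs, h24⟩ := H.notMem_of_j_notMem 𝔮 hj
          have hdn : dPoly s ∉ 𝔮 := by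
            intro h
            unfold dPoly at h
            rcases h𝔮.mem_or_mem h with h | h
            · rcases h𝔮.mem_or_mem h with h | h
              · exact hs h
              · exact h24 h
            · exact h27 h
          rw [hhF, div_eq_mul_inv]
          exact mul_mem (mul_mem (mul_mem h9 (hA 𝔮 hdvr h2 hj hk)) hbm) (inv_mem_locAt 𝔮 hdn))
  -- the key identity in `F`
  have hkey : algebraMap S F (h * dPoly s + 9 * bPoly s) = -72 * ψ * b := by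
    rw [map_add, map_mul, map_mul, hh, ← hd, ← hb, hhF, div_mul_cancel₀ _ hd0, hφ, map_ofNat]
    ring
  have h8F : algebraMap S F 8 ≠ 0 := by
    have : (8 : S) = 2 ^ 3 := by norm_num
    rw [this]
    exact algebraMap_ne_zero (pow_ne_zero _ H.two_ne)
  -- Step 2: `-9 ψ b` is integral.
  obtain ⟨z, hz⟩ := exists_algebraMap_eq_of_forall_mem_dvr (S := S) (-9 * ψ * b) (by
    intro 𝔮 h𝔮 hdvr
    have h9 : (-9 : F) ∈ locAt (F := F) 𝔮 := neg_mem (H.ofNat_mem_locAt 𝔮 9)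
    have hbm : b ∈ locAt (F := F) 𝔮 := algebraMap_mem_locAt 𝔮 _
    by_cases h2 : (2 : S) ∈ 𝔮
    · exact mul_mem (mul_mem h9 (hG 𝔮 hdvr h2)) hbm
    · have h8 : (8 : S) ∉ 𝔮 := by
        intro h
        have : (2 : S) ^ 3 ∈ 𝔮 := by
          have e : (2 : S) ^ 3 = 8 := by norm_num
          rw [e]; exact h
        exact h2 (h𝔮.mem_of_pow_mem _ this)
      have e : -9 * ψ * b = algebraMap S F (h * dPoly s + 9 * bPoly s) / algebraMap S F 8 := by
        rw [hkey, eq_div_iff h8F, map_ofNat]; ring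
      rw [e]
      exact div_mem_locAt 𝔮 _ h8)
  refine H.false_of_eq h z ?_
  apply IsFractionRing.injective S F
  rw [hkey, map_mul, hz, map_ofNat]
  ring

end Hesse

end Main

end Fermat.Agent.S16.K8Core
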