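import Fermat.Agent.S16.K8Algebra
import Fermat.Agent.S16.RamanujanInputs

/-!
# S16 / K(8): the algebraic core for the prelude's formal `q`-series

For a coefficient ring `O` in which `27` is invertible (`O = ℤ_(2)`, `ratLocalizedAt 2`, `ℚ`, …) and
ANY `x : O⟦X⟧`, with `F = 1 + 8 x`, `E4 = eisenstein4`, `E6 = 1 - 504 ∑ σ₅(n) Xⁿ`,
`Δ = X · dedekindEtaUnit` (all mapped to `O⟦X⟧`):

`F⁴ - 6 F² E4 + 8 F E6 - 3 E4² = 6912 · (Δ + 2 β)`   for an explicit `β : O⟦X⟧`.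

So `b₈ := (F⁴ - 6F²E₄ + 8FE₆ - 3E₄²)/6912` is integral and `≡ Δ mod 2`
(helper21's K(8): then `ψ = b₈ E₄ / Δ ≡ 1 mod 2`).
-/

set_option autoImplicit false

namespace Fermat.Agent.S16.K8Series

open PowerSeries Fermat.Agent.S16.RamanujanMod3 Fermat.Agent.S16.K8Algebra

/-- `d⁵ + 3 d³ ≡ 0 (mod 4)`. -/
lemma dvd_poly4 (d : ℤ) : (4 : ℤ) ∣ d ^ 5 + 3 * d ^ 3 := by
  have h : ((d ^ 5 + 3 * d ^ 3 : ℤ) : ZMod 4) = 0 := by
    push_cast
    generalize (d : ZMod 4) = x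
    revert x
    decide
  exact_mod_cast (ZMod.intCast_zmod_eq_zero_iff_dvd _ 4).mp h

/-- `T4 = ∑ₙ ∑_{d ∣ n} (d⁵ + 3d³)/4 · Xⁿ`. -/
noncomputable def T4 : ℤ⟦X⟧ :=
  PowerSeries.mk fun n => ∑ d ∈ n.divisors, ((d : ℤ) ^ 5 + 3 * (d : ℤ) ^ 3) / 4

lemma sig_five_add : sig 5 + 3 * sig 3 = 4 * T4 := by
  ext n
  have h3 : (3 : ℤ⟦X⟧) = C (3 : ℤ) := by simp
  have h4 : (4 : ℤ⟦X⟧) = C (4 : ℤ) := by simp
  rw [h3, h4]
  simp only [map_add, coeff_C_mul, coeff_sig, T4, coeff_mk, Finset.mul_sum]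
  rw [← Finset.sum_add_distrib]
  refine Finset.sum_congr rfl fun d _ => ?_
  have h := Int.mul_ediv_cancel' (dvd_poly4 (d : ℤ))
  linarith

variable {O : Type*} [CommRing O]

/-- coefficientwise cast `ℤ⟦X⟧ → O⟦X⟧`. -/
noncomputable abbrev toO (O : Type*) [CommRing O] : ℤ⟦X⟧ →+* O⟦X⟧ :=
  PowerSeries.map (Int.castRingHom O)

/-- the explicit `β`. -/
noncomputable def betaSeries (w : O) (x : O⟦X⟧) : O⟦X⟧ :=
  beta (C w) x (toO O (sig 3)) (toO O T4) (toO O (X * ModularCurve.dedekindEtaUnit))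

/-- **K(8), algebraic core for formal `q`-series.** -/
theorem weight8_series (w : O) (h27 : 27 * w = 1) (x : O⟦X⟧) :
    (1 + 8 * x) ^ 4 - 6 * (1 + 8 * x) ^ 2 * toO O ModularCurve.eisenstein4
        + 8 * (1 + 8 * x) * toO O (1 - 504 * sig 5) - 3 * toO O ModularCurve.eisenstein4 ^ 2 =
      6912 * (toO O (X * ModularCurve.dedekindEtaUnit) + 2 * betaSeries w x) := by
  have hw : (27 : O⟦X⟧) * C w = 1 := by
    have h : (27 : O⟦X⟧) = C (27 : O) := (map_ofNat (C (R := O)) 27).symm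
    rw [h, ← map_mul, h27, map_one]
  have hT : toO O (sig 5) + 3 * toO O (sig 3) = 4 * toO O T4 := by
    have := congrArg (toO O) sig_five_add
    simpa only [map_add, map_mul, map_ofNat] using this
  have hD : 1728 * toO O (X * ModularCurve.dedekindEtaUnit) =
      (1 + 240 * toO O (sig 3)) ^ 3 - (1 - 504 * toO O (sig 5)) ^ 2 := by
    have key : ∀ D0 : ℤ⟦X⟧, 1728 * D0 = (1 + 240 * sig 3) ^ 3 - (1 - 504 * sig 5) ^ 2 →
        1728 * toO O D0 = (1 + 240 * toO O (sig 3)) ^ 3 - (1 - 504 * toO O (sig 5)) ^ 2 := by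
      intro D0 h
      have := congrArg (toO O) h
      simpa only [map_add, map_sub, map_mul, map_pow, map_one, map_ofNat] using this
    exact key _ eq_a
  have hE4 : toO O ModularCurve.eisenstein4 = 1 + 240 * toO O (sig 3) := by
    rw [eisenstein4_eq]; simp only [map_add, map_mul, map_one, map_ofNat]
  have hE6 : toO O (1 - 504 * sig 5) = 1 - 504 * toO O (sig 5) := by
    simp only [map_sub, map_mul, map_one, map_ofNat]
  rw [hE4, hE6, betaSeries]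
  exact weight8_eq (C w) x _ _ _ _ hw hT hD

end Fermat.Agent.S16.K8Series
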