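/-
S16, block [LI], part 3 (helper17): **bridges** between the carrier vocabulary of `S16/LInt.lean` and the
predicates used by the other S16 blocks:

* helper9's `ValRed.IsLInt ℓ x` / `ValRed.IsLSmall ℓ x` / `ValRed.LeadAtRat ℓ P a`
  (`isLInt_iff : IsLInt ℓ x ↔ x ∈ ZLoc ℓ`, `isLSmall_iff : IsLSmall ℓ x ↔ x ∈ ZLocMax ℓ`,
  `leadAtRat_iff : LeadAtRat ℓ P a ↔ ∃ h : P ∈ lIntSeries ℓ, (red ℓ ⟨P, h⟩).order = a`);
* helper18's `EisCong.CoeffsIn R P` (`coeffsIn_iff : CoeffsIn R P ↔ P ∈ coeffSubring R`).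
-/
import Mathlib
import Fermat.Agent.S16.LInt
import Fermat.Agent.S16.ValRed
import Fermat.Agent.S16.EisCong

set_option autoImplicit false
set_option linter.unusedSectionVars false
set_option linter.unusedVariables false

open PowerSeries

noncomputable section

namespace Fermat.Agent.S16.LIntBridge

open Fermat.Agent.S16.LInt Fermat.Agent.S16.ValRed

variable (ℓ : ℕ) [hℓ : Fact ℓ.Prime]

theorem isLInt_iff {x : ℂ} : IsLInt ℓ x ↔ x ∈ ZLoc ℓ := (mem_ZLoc_iff ℓ).symm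

theorem isLSmall_iff {x : ℂ} : IsLSmall ℓ x ↔ x ∈ ZLocMax ℓ := by
  rw [mem_ZLocMax_iff']
  constructor
  · rintro ⟨y, hy, rfl⟩
    exact ⟨y, (isLInt_iff ℓ).1 hy, rfl⟩
  · rintro ⟨y, hy, rfl⟩
    exact ⟨y, (isLInt_iff ℓ).2 hy, rfl⟩

/-- helper18's `CoeffsIn R P` is membership in `coeffSubring R`. -/
theorem coeffsIn_iff {R : Subring ℂ} {P : ℂ⟦X⟧} :
    Fermat.Agent.S16.EisCong.CoeffsIn R P ↔ P ∈ coeffSubring R := Iff.rfl

theorem coeffsIn_ZLoc_iff {P : ℂ⟦X⟧} :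
    Fermat.Agent.S16.EisCong.CoeffsIn (ZLoc ℓ) P ↔ P ∈ lIntSeries ℓ := Iff.rfl

theorem forall_isLInt_iff {P : ℂ⟦X⟧} : (∀ n, IsLInt ℓ (coeff n P)) ↔ P ∈ lIntSeries ℓ :=
  forall_congr' fun _ => isLInt_iff ℓ

/-- **`LeadAtRat ℓ P a` says: `P` is `ℓ`-integral and its reduction has order exactly `a`.** -/
theorem leadAtRat_iff {P : ℂ⟦X⟧} {a : ℕ} :
    LeadAtRat ℓ P a ↔ ∃ h : P ∈ lIntSeries ℓ, (red ℓ ⟨P, h⟩).order = a := by
  constructor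
  · intro h
    have hP : P ∈ lIntSeries ℓ := (forall_isLInt_iff ℓ).1 h.int
    refine ⟨hP, order_red_eq ℓ ⟨P, hP⟩ a (fun i hi => (isLSmall_iff ℓ).1 (h.small i hi)) ?_⟩
    exact fun hc => h.lead ((isLSmall_iff ℓ).2 hc)
  · rintro ⟨hP, ho⟩
    refine ⟨(forall_isLInt_iff ℓ).2 hP, fun n hn => (isLSmall_iff ℓ).2 ?_, fun hc => ?_⟩
    · have h1 : (a : ℕ∞) ≤ (red ℓ ⟨P, hP⟩).order := by rw [ho]
      exact (le_order_red_iff ℓ ⟨P, hP⟩ a).1 h1 n hn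
    · have h2 : coeff a (red ℓ ⟨P, hP⟩) = 0 :=
        (coeff_red_eq_zero_iff ℓ ⟨P, hP⟩ a).2 ((isLSmall_iff ℓ).1 hc)
      exact (order_eq_nat.1 ho).1 h2

/-- An `ℓ`-integral series with nonzero reduction has a `LeadAtRat`. -/
theorem leadAtRat_order {P : ℂ⟦X⟧} (hP : P ∈ lIntSeries ℓ) (h0 : red ℓ ⟨P, hP⟩ ≠ 0) :
    LeadAtRat ℓ P (red ℓ ⟨P, hP⟩).order.toNat := by
  rw [leadAtRat_iff]
  refine ⟨hP, ?_⟩
  rw [ENat.natCast_toNat]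
  exact (order_finite_iff_ne_zero.2 h0).ne

end Fermat.Agent.S16.LIntBridge

end
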