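/-
S16, block [LI], part 2 (helper17): **`ℓ`-integrality of the level-one `q`-expansions** `E₄`, `E₆`, `Δ`
in the vocabulary of `S16/LInt.lean`, with their reductions.

* generic: `mem_of_eq_toC`, `red_of_eq_toC` : a complex series equal to the cast of an integer series
  is `ℓ`-integral and reduces to the cast of that integer series to `ZMod ℓ`;
* `qExpansion_E₄_mem`, `qExpansion_E₆_mem`, `qExpansion_discriminant_mem` and `red_qExpansion_E₄`
  (`= 1 + 240 sig 3`), `red_qExpansion_E₆` (`= 1 - 504 sig 5`), `red_qExpansion_discriminant`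
  (`= X * dedekindEtaUnit`), all in `(ZMod ℓ)⟦X⟧`;
* `congPow_E₄_one` (`E₄ ≡ 1 mod ℓ ^ t` when `ℓ ^ t ∣ 240`), `congPow_E₆_one` (`ℓ ^ t ∣ 504`).
-/
import Mathlib
import Fermat.Agent.S16.LInt
import Fermat.Agent.S16.RamanujanInputs

set_option autoImplicit false
set_option linter.unusedSectionVars false
set_option linter.unusedVariables false

open PowerSeries ModularForm EisensteinSeries UpperHalfPlane MatrixGroups

noncomputable section

namespace Fermat.Agent.S16.LIntForms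

open Fermat.Agent.S16.LInt Fermat.Agent.S16.RamanujanMod3

local notation "Δ" => ModularForm.discriminant

variable (ℓ : ℕ)

/-- A complex series equal to the cast of an integer series is `ℓ`-integral. -/
theorem mem_of_eq_toC {P : ℂ⟦X⟧} {Z : ℤ⟦X⟧} (h : P = PowerSeries.map (Int.castRingHom ℂ) Z) :
    P ∈ lIntSeries ℓ := by
  rw [h]
  exact map_intCast_mem_lIntSeries ℓ Z

/-- All coefficients of the cast of an integer series divisible by `ℓ ^ t` lie in `ℓ ^ t ℤ_(ℓ)`. -/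
theorem coeff_toC_mul_mem_ZLocPow (t : ℕ) (c : ℤ) (hc : (ℓ : ℤ) ^ t ∣ c) (Z : ℤ⟦X⟧) (n : ℕ) :
    coeff n (PowerSeries.map (Int.castRingHom ℂ) (C c * Z)) ∈ ZLocPow ℓ t := by
  obtain ⟨d, rfl⟩ := hc
  rw [coeff_map, coeff_C_mul, eq_intCast]
  push_cast
  rw [mul_assoc]
  exact pow_mul_mem_ZLocPow ℓ t ((ZLoc ℓ).mul_mem (intCast_mem_ZLoc ℓ d) (intCast_mem_ZLoc ℓ _))

theorem qExpansion_E₄_eq : qExpansion 1 E₄ = PowerSeries.map (Int.castRingHom ℂ) (1 + 240 * sig 3) :=
  qExpansion_E₄'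

theorem qExpansion_E₆_eq : qExpansion 1 E₆ = PowerSeries.map (Int.castRingHom ℂ) (1 - 504 * sig 5) :=
  qExpansion_E₆

theorem qExpansion_discriminant_eq :
    qExpansion 1 Δ = PowerSeries.map (Int.castRingHom ℂ) (X * ModularCurve.dedekindEtaUnit) := by
  rw [Fermat.Agent.S24.QExp.qExpansion_discriminant, map_mul, map_X]

theorem qExpansion_E₄_mem : qExpansion 1 E₄ ∈ lIntSeries ℓ := mem_of_eq_toC ℓ qExpansion_E₄_eq

theorem qExpansion_E₆_mem : qExpansion 1 E₆ ∈ lIntSeries ℓ := mem_of_eq_toC ℓ qExpansion_E₆_eq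

theorem qExpansion_discriminant_mem : qExpansion 1 Δ ∈ lIntSeries ℓ :=
  mem_of_eq_toC ℓ qExpansion_discriminant_eq

/-- `E₄ ≡ 1 mod ℓ ^ t` if `ℓ ^ t ∣ 240`. -/
theorem congPow_E₄_one (t : ℕ) (h : (ℓ : ℤ) ^ t ∣ 240) : CongPow ℓ t (qExpansion 1 E₄) 1 := by
  intro n
  have h240 : (240 : ℤ⟦X⟧) = C (240 : ℤ) := by simp
  have : coeff n (qExpansion 1 E₄) - coeff n (1 : ℂ⟦X⟧) =
      coeff n (PowerSeries.map (Int.castRingHom ℂ) (C (240 : ℤ) * sig 3)) := by
    rw [qExpansion_E₄_eq, h240, map_add, map_one, map_add, add_sub_cancel_left]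
  rw [this]
  exact coeff_toC_mul_mem_ZLocPow ℓ t 240 h _ n

/-- `E₆ ≡ 1 mod ℓ ^ t` if `ℓ ^ t ∣ 504`. -/
theorem congPow_E₆_one (t : ℕ) (h : (ℓ : ℤ) ^ t ∣ 504) : CongPow ℓ t (qExpansion 1 E₆) 1 := by
  intro n
  have h504 : (504 : ℤ⟦X⟧) = C (504 : ℤ) := by simp
  have : coeff n (qExpansion 1 E₆) - coeff n (1 : ℂ⟦X⟧) =
      - coeff n (PowerSeries.map (Int.castRingHom ℂ) (C (504 : ℤ) * sig 5)) := by
    rw [qExpansion_E₆_eq, h504, map_sub, map_one, map_sub, sub_sub_cancel_left]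
  rw [this]
  exact (ZLocPow ℓ t).neg_mem (coeff_toC_mul_mem_ZLocPow ℓ t 504 h _ n)

variable [hℓ : Fact ℓ.Prime]

/-- The reduction of a complex series equal to the cast of an integer series. -/
theorem red_of_eq_toC {P : ℂ⟦X⟧} {Z : ℤ⟦X⟧} (h : P = PowerSeries.map (Int.castRingHom ℂ) Z)
    (hP : P ∈ lIntSeries ℓ) :
    red ℓ ⟨P, hP⟩ = PowerSeries.map (Int.castRingHom (ZMod ℓ)) Z := by
  subst h
  exact red_map_intCast ℓ Z

theorem red_qExpansion_E₄ :
    red ℓ ⟨qExpansion 1 E₄, qExpansion_E₄_mem ℓ⟩ =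
      PowerSeries.map (Int.castRingHom (ZMod ℓ)) (1 + 240 * sig 3) :=
  red_of_eq_toC ℓ qExpansion_E₄_eq _

theorem red_qExpansion_E₆ :
    red ℓ ⟨qExpansion 1 E₆, qExpansion_E₆_mem ℓ⟩ =
      PowerSeries.map (Int.castRingHom (ZMod ℓ)) (1 - 504 * sig 5) :=
  red_of_eq_toC ℓ qExpansion_E₆_eq _

theorem red_qExpansion_discriminant :
    red ℓ ⟨qExpansion 1 Δ, qExpansion_discriminant_mem ℓ⟩ =
      X * PowerSeries.map (Int.castRingHom (ZMod ℓ)) ModularCurve.dedekindEtaUnit := by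
  rw [red_of_eq_toC ℓ qExpansion_discriminant_eq _, map_mul, map_X]

/-- The reduction of `Δ` has order exactly `1`. -/
theorem order_red_qExpansion_discriminant :
    (red ℓ ⟨qExpansion 1 Δ, qExpansion_discriminant_mem ℓ⟩).order = 1 := by
  rw [red_qExpansion_discriminant, order_mul, order_X]
  have h0 : (PowerSeries.map (Int.castRingHom (ZMod ℓ)) ModularCurve.dedekindEtaUnit).order = 0 := by
    apply order_zero_of_unit
    have : constantCoeff (PowerSeries.map (Int.castRingHom (ZMod ℓ)) ModularCurve.dedekindEtaUnit)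
        = 1 := by
      rw [← coeff_zero_eq_constantCoeff_apply, coeff_map, coeff_zero_eq_constantCoeff_apply,
        ModularCurve.constantCoeff_dedekindEtaUnit, map_one]
    exact (isUnit_iff_constantCoeff.2 (this ▸ isUnit_one))
  rw [h0, add_zero]

/-- The reductions of `E₄`, `E₆` have constant coefficient `1` (order `0`). -/
theorem constantCoeff_red_qExpansion_E₄ :
    constantCoeff (red ℓ ⟨qExpansion 1 E₄, qExpansion_E₄_mem ℓ⟩) = 1 := by
  rw [red_qExpansion_E₄, ← coeff_zero_eq_constantCoeff_apply, coeff_map, map_add, coeff_one,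
    if_pos rfl, coeff_zero_eq_constantCoeff_apply, map_mul]
  have : constantCoeff (sig 3) = 0 := by
    rw [← coeff_zero_eq_constantCoeff_apply, coeff_sig]
    simp
  rw [this, mul_zero, add_zero, map_one]

theorem constantCoeff_red_qExpansion_E₆ :
    constantCoeff (red ℓ ⟨qExpansion 1 E₆, qExpansion_E₆_mem ℓ⟩) = 1 := by
  rw [red_qExpansion_E₆, ← coeff_zero_eq_constantCoeff_apply, coeff_map, map_sub, coeff_one,
    if_pos rfl, coeff_zero_eq_constantCoeff_apply, map_mul]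
  have : constantCoeff (sig 5) = 0 := by
    rw [← coeff_zero_eq_constantCoeff_apply, coeff_sig]
    simp
  rw [this, mul_zero, sub_zero, map_one]

end Fermat.Agent.S16.LIntForms

end
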