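/-
S16, block [A] (lower bound), node (L2): LIFTING HOMOMORPHISMS TO THE INTEGRAL LATTICE.

Abstract part (over helper4's `HomLattice.killing`): `X` a finitely generated additive group,
`S : Set X`, `Λ_A := killing X S _ A`.  If `dim_{F_ℓ} Λ_{F_ℓ} ≤ rank_ℤ Λ_ℤ` for every prime `ℓ`,
then every homomorphism `X → ZMod n` killing `S` is the reduction of an integral homomorphism
killing `S` (`exists_lift`): a `ℤ`-basis of `Λ_ℤ` stays linearly independent mod `ℓ`
(`redHom_eq_zero`), hence spans `Λ_{F_ℓ}`; general `n` by dévissage along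
`0 → ZMod ℓ → ZMod (ℓ m) → ZMod m → 0`.
-/
import Mathlib
import Fermat.Agent.N4F.Tors.HomLattice

set_option autoImplicit false
set_option linter.unusedSectionVars false
set_option linter.style.longLine false

open scoped TensorProduct

noncomputable section

namespace Fermat.Agent.S16.LiftLattice

open Fermat.Agent.N4F.Tors.HomLattice Module

/-! ### The prime case -/

section Prime

variable {X : Type*} [AddGroup X] [AddGroup.FG X] {S : Set X}

/-- `Hom(X, K)` is finite-dimensional for `X` finitely generated. -/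
instance finite_hom (K : Type*) [Field K] : Module.Finite K (X →+ K) := by
  obtain ⟨G, hG⟩ := AddGroup.fg_def.mp (inferInstance : AddGroup.FG X)
  exact Module.Finite.of_injective (evalAt K K G) (evalAt_injective K K hG)

instance finite_killing (K : Type*) [Field K] : Module.Finite K (killing X S K K) :=
  inferInstance

variable (ℓ : ℕ) [Fact ℓ.Prime]

theorem redHom_zsmul (c : ℤ) (ψ : killing X S ℤ ℤ) :
    redHom ℓ (c • ψ) = (c : ZMod ℓ) • redHom ℓ ψ := by
  rw [map_zsmul]
  exact (Int.cast_smul_eq_zsmul (ZMod ℓ) c _).symm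

theorem redHom_sum {ι : Type*} (s : Finset ι) (c : ι → ℤ) (b : ι → killing X S ℤ ℤ) :
    redHom ℓ (∑ i ∈ s, c i • b i) = ∑ i ∈ s, (c i : ZMod ℓ) • redHom ℓ (b i) := by
  rw [map_sum]
  exact Finset.sum_congr rfl fun i _ => redHom_zsmul ℓ (c i) (b i)

/-- a `ℤ`-basis of `Λ_ℤ` stays linearly independent mod `ℓ` -/
theorem linearIndependent_redHom {ι : Type*} [Fintype ι] (b : Basis ι ℤ (killing X S ℤ ℤ)) :
    LinearIndependent (ZMod ℓ) (fun i => redHom ℓ (b i)) := by
  classical
  rw [Fintype.linearIndependent_iff]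
  intro g hg i
  set c : ι → ℤ := fun i => ((g i).val : ℤ) with hc
  have hcg : ∀ i, ((c i : ℤ) : ZMod ℓ) = g i := by
    intro i
    simp [hc]
  have h1 : redHom ℓ (∑ i, c i • b i) = 0 := by
    rw [redHom_sum]
    simp only [hcg]
    exact hg
  obtain ⟨ψ', hψ'⟩ := redHom_eq_zero ℓ _ h1
  have h2 := congrArg (fun ψ => b.repr ψ i) hψ'
  simp only [map_sum, map_smul, Basis.repr_self, Finsupp.coe_finsetSum, Finsupp.coe_smul,
    Finset.sum_apply, Pi.smul_apply, Finsupp.single_apply, smul_eq_mul, mul_ite, mul_one, mul_zero,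
    Finset.sum_ite_eq', Finset.mem_univ, if_true] at h2
  rw [← hcg i, h2]
  push_cast
  rw [ZMod.natCast_self, zero_mul]

/-- **Prime case**: if `dim Λ_{F_ℓ} ≤ rank Λ_ℤ` then reduction mod `ℓ` is onto. -/
theorem redHom_surjective
    (hle : finrank (ZMod ℓ) (killing X S (ZMod ℓ) (ZMod ℓ)) ≤ finrank ℤ (killing X S ℤ ℤ)) :
    Function.Surjective (redHom (X := X) (S := S) ℓ) := by
  classical
  let b := Module.Free.chooseBasis ℤ (killing X S ℤ ℤ)
  have hli := linearIndependent_redHom ℓ b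
  have hcard : Fintype.card (Module.Free.ChooseBasisIndex ℤ (killing X S ℤ ℤ)) =
      finrank (ZMod ℓ) (killing X S (ZMod ℓ) (ZMod ℓ)) := by
    apply le_antisymm
    · exact hli.fintype_card_le_finrank
    · rw [← Module.finrank_eq_card_chooseBasisIndex]
      exact hle
  have hspan := hli.span_eq_top_of_card_eq_finrank' hcard
  intro φ
  have hφ : φ ∈ Submodule.span (ZMod ℓ) (Set.range fun i => redHom ℓ (b i)) := by
    rw [hspan]; exact Submodule.mem_top
  rw [Submodule.mem_span_range_iff_exists_fun] at hφ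
  obtain ⟨g, hg⟩ := hφ
  refine ⟨∑ i, ((g i).val : ℤ) • b i, ?_⟩
  rw [redHom_sum, ← hg]
  refine Finset.sum_congr rfl fun i _ => ?_
  congr 1
  simp

end Prime

/-! ### Dévissage -/

section Devissage

variable {ℓ m : ℕ}

/-- the inclusion `ZMod ℓ → ZMod (ℓ * m)`, `z ↦ m * z` -/
def inclZMod (ℓ m : ℕ) : ZMod ℓ →+ ZMod (ℓ * m) :=
  ZMod.lift ℓ ⟨(Int.castAddHom (ZMod (ℓ * m))).comp (AddMonoidHom.mulLeft (m : ℤ)), by
    simp only [AddMonoidHom.coe_comp, Function.comp_apply, AddMonoidHom.coe_mulLeft,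
      Int.coe_castAddHom]
    have : ((m : ℤ) * (ℓ : ℤ) : ℤ) = ((ℓ * m : ℕ) : ℤ) := by push_cast; ring
    rw [this, Int.cast_natCast, ZMod.natCast_self]⟩

theorem inclZMod_intCast (ℓ m : ℕ) (k : ℤ) :
    inclZMod ℓ m (k : ZMod ℓ) = (((m : ℤ) * k : ℤ) : ZMod (ℓ * m)) := by
  rw [inclZMod, ZMod.lift_coe]
  rfl

theorem inclZMod_injective (hm : 0 < m) : Function.Injective (inclZMod ℓ m) := by
  rw [injective_iff_map_eq_zero]
  intro z hz
  obtain ⟨k, rfl⟩ := ZMod.intCast_surjective z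
  rw [inclZMod_intCast, ZMod.intCast_zmod_eq_zero_iff_dvd] at hz
  rw [ZMod.intCast_zmod_eq_zero_iff_dvd]
  have h1 : ((m : ℤ) * (ℓ : ℤ)) ∣ (m : ℤ) * k := by
    have : ((ℓ * m : ℕ) : ℤ) = (m : ℤ) * (ℓ : ℤ) := by push_cast; ring
    rwa [this] at hz
  exact (mul_dvd_mul_iff_left (by exact_mod_cast hm.ne')).mp h1

theorem mem_range_inclZMod (y : ZMod (ℓ * m))
    (hy : ZMod.castHom (Dvd.intro_left ℓ rfl : m ∣ ℓ * m) (ZMod m) y = 0) :
    y ∈ (inclZMod ℓ m).range := by
  obtain ⟨k, rfl⟩ := ZMod.intCast_surjective y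
  rw [map_intCast, ZMod.intCast_zmod_eq_zero_iff_dvd] at hy
  obtain ⟨k', rfl⟩ := hy
  exact ⟨(k' : ZMod ℓ), inclZMod_intCast ℓ m k'⟩

variable {X : Type*} [AddGroup X] {S : Set X}

/-- **Dévissage**: if reduction `Λ_ℤ → Λ_{F_ℓ}` is onto for every prime `ℓ`, then every
homomorphism `X → ZMod n` killing `S` lifts to an integral homomorphism killing `S`. -/
theorem exists_lift
    (hprime : ∀ (ℓ : ℕ) [Fact ℓ.Prime], Function.Surjective (redHom (X := X) (S := S) ℓ))
    (n : ℕ) (hn : 0 < n) (φ : X →+ ZMod n) (hφ : ∀ s ∈ S, φ s = 0) :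
    ∃ ψ : X →+ ℤ, (∀ s ∈ S, ψ s = 0) ∧ ∀ x, ((ψ x : ℤ) : ZMod n) = φ x := by
  induction n using Nat.strong_induction_on with
  | _ n ih =>
    rcases Nat.eq_or_lt_of_le (Nat.succ_le_of_lt hn) with h1 | h1
    · -- `n = 1`
      subst h1
      refine ⟨0, fun _ _ => rfl, fun x => ?_⟩
      exact Subsingleton.elim _ _
    · -- `n = ℓ * m`
      obtain ⟨ℓ, hℓp, m, hm⟩ : ∃ ℓ : ℕ, ℓ.Prime ∧ ∃ m, n = ℓ * m :=
        ⟨n.minFac, Nat.minFac_prime (by omega), Nat.minFac_dvd n⟩
      have : Fact ℓ.Prime := ⟨hℓp⟩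
      have hm0 : 0 < m := by
        rcases Nat.eq_zero_or_pos m with h | h
        · rw [h, mul_zero] at hm; omega
        · exact h
      have hmn : m < n := by
        rw [hm]
        exact lt_mul_of_one_lt_left hm0 hℓp.one_lt
      subst hm
      -- reduce mod `m` and lift
      set cm := ZMod.castHom (Dvd.intro_left ℓ rfl : m ∣ ℓ * m) (ZMod m) with hcm
      obtain ⟨ψ1, hψ1S, hψ1⟩ := ih m hmn hm0 (cm.toAddMonoidHom.comp φ) (fun s hs => by
        rw [AddMonoidHom.comp_apply, hφ s hs, map_zero])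
      -- the difference has values in the image of `ZMod ℓ`
      set δ : X →+ ZMod (ℓ * m) := φ - (Int.castAddHom (ZMod (ℓ * m))).comp ψ1 with hδ
      have hδm : ∀ x, cm (δ x) = 0 := by
        intro x
        have h2 := hψ1 x
        simp only [AddMonoidHom.comp_apply, RingHom.toAddMonoidHom_eq_coe,
          AddMonoidHom.coe_coe] at h2
        rw [hδ, AddMonoidHom.sub_apply, map_sub, AddMonoidHom.comp_apply, Int.coe_castAddHom,
          map_intCast, h2, sub_self]
      have hinj : Function.Injective (inclZMod ℓ m) := inclZMod_injective hm0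
      let e := AddMonoidHom.ofInjective hinj
      let δr : X →+ (inclZMod ℓ m).range :=
        δ.codRestrict (inclZMod ℓ m).range fun x => mem_range_inclZMod _ (hδm x)
      let δ' : X →+ ZMod ℓ := e.symm.toAddMonoidHom.comp δr
      have hδ' : ∀ x, inclZMod ℓ m (δ' x) = δ x := by
        intro x
        have h3 : e (δ' x) = δr x := e.apply_symm_apply (δr x)
        have h4 := congrArg (fun y : (inclZMod ℓ m).range => (y : ZMod (ℓ * m))) h3
        exact h4
      have hδ'S : ∀ s ∈ S, δ' s = 0 := by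
        intro s hs
        apply hinj
        rw [hδ', map_zero, hδ, AddMonoidHom.sub_apply, hφ s hs, AddMonoidHom.comp_apply,
          hψ1S s hs, map_zero, sub_zero]
      obtain ⟨ψ2, hψ2⟩ := hprime ℓ ⟨δ', hδ'S⟩
      have hψ2' : ∀ x, (((ψ2 : X →+ ℤ) x : ℤ) : ZMod ℓ) = δ' x := by
        intro x
        have := congrArg (fun φ : killing X S (ZMod ℓ) (ZMod ℓ) => (φ : X →+ ZMod ℓ) x) hψ2
        simpa using this
      refine ⟨ψ1 + (m : ℤ) • (ψ2 : X →+ ℤ), ?_, ?_⟩
      · intro s hs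
        rw [AddMonoidHom.add_apply, AddMonoidHom.smul_apply, hψ1S s hs, ψ2.2 s hs, smul_zero,
          add_zero]
      · intro x
        have h5 : φ x = ((ψ1 x : ℤ) : ZMod (ℓ * m)) + δ x := by
          rw [hδ, AddMonoidHom.sub_apply, AddMonoidHom.comp_apply, Int.coe_castAddHom]
          abel
        rw [h5, ← hδ', ← hψ2', inclZMod_intCast, AddMonoidHom.add_apply, AddMonoidHom.smul_apply,
          smul_eq_mul, Int.cast_add]

end Devissage

end Fermat.Agent.S16.LiftLattice
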