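/-
S16, block [A] (lower bound), node (L2), concrete part: for `Γ₀(N)` every homomorphism
`Γ₀(N) → ZMod n` killing the parabolic and elliptic elements is the reduction of an INTEGRAL
homomorphism killing them (`exists_lift_parHomAdd`), i.e. `Γ₀(N)^ab / ⟨par, ell⟩` is torsion-free.

Proof by counting, no presentation of `Γ₀(N)`: `dim_{F_ℓ} Λ_{F_ℓ} ≤ 2 genusFormula N`
(`S16/CohomBoundMod`, the characteristic-free cohomological bound, + the coset counts of
`M2/P1Gamma0`), while `rank_ℤ Λ_ℤ = dim_ℂ Λ_ℂ ≥ dim_ℂ parabolicHoms = 2 dim S₂ = 2 genusFormula N`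
(`HomLattice.J`, S21, S20); then `S16/LiftLattice.exists_lift`.
-/
import Fermat.Agent.S16.CohomBoundMod
import Fermat.Agent.S16.LiftLattice
import Fermat.Agent.N4F.Tors.ESHecke
import Fermat.Agent.M2.ES.S21Cond
import Fermat.Agent.S20
import Fermat.Agent.S21

set_option autoImplicit false
set_option linter.unusedSectionVars false
set_option linter.style.longLine false

open CongruenceSubgroup
open scoped TensorProduct MatrixGroups

noncomputable section

namespace Fermat.Agent.S16.LiftGamma0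

open Fermat.Agent.N4F.Tors.HeckeHom Fermat.Agent.N4F.Tors.HomLattice
  Fermat.Agent.N4F.Tors.ESHecke Fermat.Agent.M2.ES Fermat.Agent.S16.CohomBoundMod
  ModularCurve ModularCurve.Period Module

variable (N : ℕ) [NeZero N]

/-- the two bundlings of "homomorphisms killing `IsParEll`" agree -/
theorem killing_eq_parEllHoms (K : Type*) [Field K] :
    killing (Additive ↥(Gamma0 N)) (parEll N) K K = parEllHoms K (Gamma0 N) := by
  ext φ
  rw [mem_killing_iff, mem_parHomAdd, mem_parEllHoms]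

/-- **mod `ℓ` upper bound**: `dim_K Λ_K ≤ 2 genusFormula N` for every field `K`. -/
theorem finrank_killing_le (K : Type*) [Field K] :
    (finrank K (killing (Additive ↥(Gamma0 N)) (parEll N) K K) : ℚ) ≤ 2 * ModularCurve.genusFormula N := by
  rw [killing_eq_parEllHoms]
  have hneg : (-1 : SL(2, ℤ)) ∈ Gamma0 N := by
    rw [Gamma0_mem]; simp
  have h := finrank_parEllHoms_le K (Gamma0 N)
  have hS := CohomBound.two_mul_orb_S (Gamma0 N) hneg
  have hU := CohomBound.three_mul_orb_ST (Gamma0 N) hneg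
  have hT : CohomBound.orb (Gamma0 N) ModularGroup.T = cuspCount N :=
    Fermat.Agent.M2.P1.card_orbits_T_coset
  rw [Fermat.Agent.M2.P1.index_Gamma0 N (NeZero.ne N),
    Fermat.Agent.M2.P1.card_fixedBy_S_coset] at hS
  rw [Fermat.Agent.M2.P1.index_Gamma0 N (NeZero.ne N),
    Fermat.Agent.M2.P1.card_fixedBy_ST_coset] at hU
  rw [Fermat.Agent.M2.P1.index_Gamma0 N (NeZero.ne N), hT] at h
  have h' : ((finrank K (parEllHoms K (Gamma0 N)) + CohomBound.orb (Gamma0 N) ModularGroup.S +
      CohomBound.orb (Gamma0 N) (ModularGroup.S * ModularGroup.T) + cuspCount N : ℕ) : ℚ) ≤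
      ((dedekindPsi N + 2 : ℕ) : ℚ) := by exact_mod_cast h
  have hS' : (2 : ℚ) * (CohomBound.orb (Gamma0 N) ModularGroup.S : ℚ) =
      (dedekindPsi N : ℚ) + (nuTwo N : ℚ) := by exact_mod_cast hS
  have hU' : (3 : ℚ) * (CohomBound.orb (Gamma0 N) (ModularGroup.S * ModularGroup.T) : ℚ) =
      (dedekindPsi N : ℚ) + 2 * (nuThree N : ℚ) := by exact_mod_cast hU
  push_cast at h'
  unfold ModularCurve.genusFormula
  linarith

/-- complex parabolic homomorphisms kill the elliptic elements too -/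
theorem parabolicHoms_le_killing :
    parabolicHoms ℂ (Gamma0 N) ℂ ≤ killing (Additive ↥(Gamma0 N)) (parEll N) ℂ ℂ := by
  intro φ hφ
  rw [mem_parabolicHoms_iff] at hφ
  rw [mem_killing_iff, mem_parHomAdd]
  intro g hg
  rcases hg with hg | hg
  · exact hφ g hg
  · -- finite order
    obtain ⟨m, hm, hgm⟩ := isOfFinOrder_iff_pow_eq_one.mp hg
    have h1 : (g ^ m : ↥(Gamma0 N)) = 1 := by
      apply Subtype.ext
      rw [SubgroupClass.coe_pow, hgm]
      rfl
    have h2 : m • φ (Additive.ofMul g) = 0 := by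
      rw [← map_nsmul, ← ofMul_pow, h1, ofMul_one, map_zero]
    rcases smul_eq_zero.mp h2 with h | h
    · omega
    · exact h

/-- **integral lower bound**: `rank_ℤ Λ_ℤ ≥ 2 genusFormula N` (S20 + S21). -/
theorem two_mul_genusFormula_le :
    2 * ModularCurve.genusFormula N ≤ (finrank ℤ (killing (Additive ↥(Gamma0 N)) (parEll N) ℤ ℤ) : ℚ) := by
  have h21 := Fermat.Agent.S21.result N
  have h20 := Fermat.Agent.S20.result N
  have : Module.Finite ℂ (CuspForm (Gamma0 N) 2) := S21Cond.finite_cuspForm_two N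
  -- `rank Λ_ℤ = dim range J = dim Λ_ℂ`
  have h1 : finrank ℤ (killing (Additive ↥(Gamma0 N)) (parEll N) ℤ ℤ) =
      finrank ℂ (killing (Additive ↥(Gamma0 N)) (parEll N) ℂ ℂ) := by
    rw [← range_J (X := Additive ↥(Gamma0 N)) (S := parEll N) ℂ,
      LinearMap.finrank_range_of_inj (J_injective (X := Additive ↥(Gamma0 N)) (S := parEll N) ℂ),
      Module.finrank_baseChange]
  -- `dim parabolicHoms = 2 dim S₂`
  have h2 : finrank ℂ (parabolicHoms ℂ (Gamma0 N) ℂ) =
      2 * finrank ℂ (CuspForm (Gamma0 N) 2) := by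
    rw [← h21.2, LinearMap.finrank_range_of_inj h21.1, Module.finrank_prod]
    ring
  have h3 : finrank ℂ (parabolicHoms ℂ (Gamma0 N) ℂ) ≤
      finrank ℂ (killing (Additive ↥(Gamma0 N)) (parEll N) ℂ ℂ) :=
    Submodule.finrank_mono (parabolicHoms_le_killing N)
  rw [h1, ← h20]
  have : ((2 * finrank ℂ (CuspForm (Gamma0 N) 2) : ℕ) : ℚ) ≤
      (finrank ℂ (killing (Additive ↥(Gamma0 N)) (parEll N) ℂ ℂ) : ℚ) := by
    rw [← h2]
    exact_mod_cast h3
  push_cast at this
  exact this

/-- reduction mod `ℓ` of the integral lattice is onto, for every prime `ℓ` -/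
theorem redHom_surjective (ℓ : ℕ) [Fact ℓ.Prime] :
    Function.Surjective (redHom (X := Additive ↥(Gamma0 N)) (S := parEll N) ℓ) := by
  apply LiftLattice.redHom_surjective
  have h1 := finrank_killing_le N (ZMod ℓ)
  have h2 := two_mul_genusFormula_le N
  exact_mod_cast h1.trans h2

/-- **(L2)**: every homomorphism `Γ₀(N) → ZMod n` (`n > 0`) killing the parabolic and elliptic
elements is the reduction of an integral homomorphism killing the parabolic and elliptic
elements. -/
theorem exists_lift_parHomAdd (n : ℕ) (hn : 0 < n) (φ : Additive ↥(Gamma0 N) →+ ZMod n)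
    (hφ : φ ∈ parHomAdd N (ZMod n)) :
    ∃ ψ : Additive ↥(Gamma0 N) →+ ℤ, ψ ∈ parHomAdd N ℤ ∧ ∀ x, ((ψ x : ℤ) : ZMod n) = φ x := by
  obtain ⟨ψ, hψS, hψ⟩ := LiftLattice.exists_lift (X := Additive ↥(Gamma0 N)) (S := parEll N)
    (fun ℓ _ => redHom_surjective N ℓ) n hn φ
    (fun s hs => (mem_killing_iff N (R := ℤ)).2 hφ s hs)
  exact ⟨ψ, (mem_killing_iff N (R := ℤ)).1 hψS, hψ⟩

/-- the same, as a composition -/
theorem exists_lift_parHomAdd' (n : ℕ) (hn : 0 < n) (φ : Additive ↥(Gamma0 N) →+ ZMod n)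
    (hφ : φ ∈ parHomAdd N (ZMod n)) :
    ∃ ψ ∈ parHomAdd N ℤ, (Int.castAddHom (ZMod n)).comp ψ = φ := by
  obtain ⟨ψ, hψ, h⟩ := exists_lift_parHomAdd N n hn φ hφ
  exact ⟨ψ, hψ, AddMonoidHom.ext h⟩

end Fermat.Agent.S16.LiftGamma0
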