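/-
S16, block [N], part (N2) (helper1): the `x`-expansion (`x = e^{2πiz/p}`) of Mathlib's
`ModularForm.norm` from `Γ₀(p)` to `SL(2, ℤ)`.
-/
import Mathlib
import Fermat.Prelude.Thm_UpperHalfPlane_qExpansion_prod
import Fermat.Prelude.Thm_UpperHalfPlane_qExpansion_coeff_nat_mul
import Fermat.Prelude.Thm_CongruenceSubgroup_one_mem_strictPeriods_Gamma0
import Fermat.Agent.S16.NormCosets

set_option autoImplicit false
set_option linter.unusedSectionVars false
set_option linter.style.haveILetI false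

open UpperHalfPlane ModularForm Matrix.SpecialLinearGroup CongruenceSubgroup ModularGroup
open Matrix.GeneralLinearGroup
open scoped MatrixGroups ModularForm Manifold Topology Pointwise

noncomputable section

namespace Fermat.Agent.S16.NormLevelOne

open Fermat.Agent.S16.NormCosets ConjAct

/-! ### `p` is a strict period of every `SL(2, ℤ)`-conjugate of `Γ₀(p)` -/

theorem upperRightHom_natCast (n : ℕ) :
    upperRightHom ((n : ℕ) : ℝ) = mapGL ℝ (T ^ n) := by
  have h := coe_T_zpow (n : ℤ)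
  rw [zpow_natCast] at h
  generalize T ^ n = g at h
  ext i j
  have hg : ∀ i j, ((mapGL ℝ g : GL (Fin 2) ℝ) : Matrix (Fin 2) (Fin 2) ℝ) i j =
      (((g : Matrix (Fin 2) (Fin 2) ℤ) i j : ℤ) : ℝ) := by
    intro i j; simp
  rw [hg, h]
  fin_cases i <;> fin_cases j <;> simp

theorem conj_T_pow_mem_Gamma0 (p : ℕ) (γ : SL(2, ℤ)) : γ * T ^ p * γ⁻¹ ∈ Gamma0 p := by
  rw [mem_Gamma0_iff_dvd]
  have h := coe_T_zpow (p : ℤ)
  rw [zpow_natCast] at h
  rw [Matrix.SpecialLinearGroup.coe_mul, Matrix.SpecialLinearGroup.coe_mul, SL2_inv_expl, h]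
  simp [Matrix.mul_apply, Fin.sum_univ_two]
  exact ⟨-(γ 1 0 * γ 1 0), by ring⟩

theorem natCast_mem_strictPeriods_conj (p : ℕ) (γ : SL(2, ℤ)) :
    ((p : ℕ) : ℝ) ∈ (toConjAct (mapGL ℝ γ)⁻¹ • GammaP p).strictPeriods := by
  rw [Subgroup.mem_strictPeriods_iff, Subgroup.mem_pointwise_smul_iff_inv_smul_mem, ← map_inv,
    inv_inv, ConjAct.smul_def, ofConjAct_toConjAct, upperRightHom_natCast, ← map_mul, ← map_inv,
    ← map_mul, mapGL_mem_GammaP_iff]
  exact conj_T_pow_mem_Gamma0 p γ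


/-! ### The translates `f ∣[k] γ`, `γ ∈ SL(2, ℤ)`, at width `p` -/

section translates

variable {p : ℕ} {k : ℤ} {F : Type*} [FunLike F ℍ ℂ] [ModularFormClass F (GammaP p) k] (f : F)

theorem slash_stMat_apply (j : ℕ) (τ : ℍ) :
    ((⇑f) ∣[k] mapGL ℝ (stMat (j : ℤ))) τ = ((⇑f) ∣[k] mapGL ℝ S) (((j : ℕ) : ℝ) +ᵥ τ) := by
  rw [stMat_eq, map_mul, SlashAction.slash_mul]
  change (((⇑f) ∣[k] mapGL ℝ S) ∣[k] (T ^ (j : ℤ))) τ = _
  rw [SL_slash_apply, modular_T_zpow_smul]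
  have h1 : denom ((T ^ (j : ℤ) : SL(2, ℤ)) : GL (Fin 2) ℝ) τ = 1 := by
    have h := coe_T_zpow (j : ℤ)
    generalize T ^ (j : ℤ) = g at h
    rw [ModularGroup.denom_apply, h]
    simp
  rw [h1]
  simp

theorem analyticAt_cuspFunction_slash [NeZero p] (γ : SL(2, ℤ)) :
    AnalyticAt ℂ (cuspFunction ((p : ℕ) : ℝ) ((⇑f) ∣[k] mapGL ℝ γ)) 0 :=
  ModularFormClass.analyticAt_cuspFunction_zero (ModularForm.translate f (mapGL ℝ γ))
    (by exact_mod_cast Nat.pos_of_ne_zero (NeZero.ne p)) (natCast_mem_strictPeriods_conj p γ)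

theorem hasSum_qExpansion_slash [NeZero p] (γ : SL(2, ℤ)) (τ : ℍ) :
    HasSum (fun m : ℕ => (qExpansion ((p : ℕ) : ℝ) ((⇑f) ∣[k] mapGL ℝ γ)).coeff m *
      Function.Periodic.qParam ((p : ℕ) : ℝ) τ ^ m) (((⇑f) ∣[k] mapGL ℝ γ) τ) := by
  have hh : (0 : ℝ) < ((p : ℕ) : ℝ) := by exact_mod_cast Nat.pos_of_ne_zero (NeZero.ne p)
  haveI : Fact (IsCusp OnePoint.infty (toConjAct (mapGL ℝ γ)⁻¹ • GammaP p)) :=
    ⟨Subgroup.isCusp_of_mem_strictPeriods hh (natCast_mem_strictPeriods_conj p γ)⟩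
  exact ModularForm.hasSum_qExpansion (ModularForm.translate f (mapGL ℝ γ)) hh
    (natCast_mem_strictPeriods_conj p γ) τ

/-- `ζ = e^{2πi/p}`. -/
def zeta (p : ℕ) : ℂ := Complex.exp (2 * Real.pi * Complex.I / p)

theorem qParam_vadd (p : ℕ) (j : ℕ) (τ : ℍ) :
    Function.Periodic.qParam ((p : ℕ) : ℝ) ((((j : ℕ) : ℝ) +ᵥ τ : ℍ) : ℂ) =
      zeta p ^ j * Function.Periodic.qParam ((p : ℕ) : ℝ) τ := by
  rw [zeta, ← Complex.exp_nat_mul, Function.Periodic.qParam, Function.Periodic.qParam,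
    ← Complex.exp_add, UpperHalfPlane.coe_vadd]
  congr 1
  push_cast
  ring

theorem zeta_pow_self (p : ℕ) [NeZero p] : zeta p ^ p = 1 := by
  rw [zeta, ← Complex.exp_nat_mul, mul_div_cancel₀ _ (by exact_mod_cast NeZero.ne p)]
  exact Complex.exp_two_pi_mul_I

/-- The `x`-expansion of `f ∣ S T^j` is the `x`-expansion of `f ∣ S` rescaled by `ζ^j`. -/
theorem qExpansion_slash_stMat [NeZero p] (j : ℕ) :
    qExpansion ((p : ℕ) : ℝ) ((⇑f) ∣[k] mapGL ℝ (stMat (j : ℤ))) =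
      PowerSeries.rescale (zeta p ^ j)
        (qExpansion ((p : ℕ) : ℝ) ((⇑f) ∣[k] mapGL ℝ S)) := by
  have hh : (0 : ℝ) < ((p : ℕ) : ℝ) := by exact_mod_cast Nat.pos_of_ne_zero (NeZero.ne p)
  ext m
  rw [PowerSeries.coeff_rescale]
  symm
  refine ModularFormClass.qExpansion_coeff_unique
    (f := ModularForm.translate f (mapGL ℝ (stMat (j : ℤ))))
    (c := fun m => (zeta p ^ j) ^ m *
      (qExpansion ((p : ℕ) : ℝ) ((⇑f) ∣[k] mapGL ℝ S)).coeff m) hh
    (natCast_mem_strictPeriods_conj p (stMat (j : ℤ))) ?_ m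
  intro τ
  rw [ModularForm.coe_translate]
  have h := hasSum_qExpansion_slash f S (((j : ℕ) : ℝ) +ᵥ τ)
  rw [← slash_stMat_apply f j τ] at h
  have e : (fun m : ℕ => (qExpansion ((p : ℕ) : ℝ) ((⇑f) ∣[k] mapGL ℝ S)).coeff m *
      Function.Periodic.qParam ((p : ℕ) : ℝ) ((((j : ℕ) : ℝ) +ᵥ τ : ℍ) : ℂ) ^ m) =
      fun m : ℕ => ((zeta p ^ j) ^ m *
        (qExpansion ((p : ℕ) : ℝ) ((⇑f) ∣[k] mapGL ℝ S)).coeff m) •
          Function.Periodic.qParam ((p : ℕ) : ℝ) τ ^ m := by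
    funext m
    rw [qParam_vadd, smul_eq_mul]
    ring
  rw [e] at h
  exact h

end translates


/-! ### The `x`-expansion of the norm -/

section main

variable {p : ℕ} [hp : Fact p.Prime] {k : ℤ} {F : Type*} [FunLike F ℍ ℂ]
  [ModularFormClass F (GammaP p) k] (f : F)

theorem pos_cast : (0 : ℝ) < ((p : ℕ) : ℝ) := by exact_mod_cast hp.out.pos

include k in
theorem analyticAt_cuspFunction_self :
    AnalyticAt ℂ (cuspFunction ((p : ℕ) : ℝ) (⇑f)) 0 := by
  haveI : NeZero p := ⟨hp.out.ne_zero⟩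
  have h := analyticAt_cuspFunction_slash (k := k) f (1 : SL(2, ℤ))
  rwa [map_one, SlashAction.slash_one] at h

theorem analyticAt_cuspFunction_quotientFunc (q : Q p) :
    AnalyticAt ℂ (cuspFunction ((p : ℕ) : ℝ) (SlashInvariantForm.quotientFunc f q)) 0 := by
  haveI : NeZero p := ⟨hp.out.ne_zero⟩
  obtain ⟨c, rfl⟩ := cosetMap_surjective p q
  rcases c with _ | j
  · rw [quotientFunc_cosetMap_none]
    exact analyticAt_cuspFunction_self (k := k) f
  · rw [quotientFunc_cosetMap_some]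
    exact analyticAt_cuspFunction_slash f _

/-- **The `x`-expansion of the norm** (`x = e^{2πiz/p}`): the product of the `x`-expansion of `f`
and of the `ζ^j`-rescalings of the `x`-expansion of `f ∣ S`. -/
theorem qExpansion_norm_width :
    qExpansion ((p : ℕ) : ℝ) (⇑(ModularForm.norm 𝒮ℒ f)) =
      qExpansion ((p : ℕ) : ℝ) (⇑f) *
        ∏ j : Fin p, PowerSeries.rescale (zeta p ^ (j : ℕ))
          (qExpansion ((p : ℕ) : ℝ) ((⇑f) ∣[k] mapGL ℝ S)) := by
  haveI : NeZero p := ⟨hp.out.ne_zero⟩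
  rw [ModularForm.coe_norm]
  letI := Fintype.ofFinite (Q p)
  rw [UpperHalfPlane.qExpansion_prod Finset.univ
    (fun q _ => analyticAt_cuspFunction_quotientFunc f q)]
  rw [← Equiv.prod_comp (cosetEquiv p), Fintype.prod_option]
  simp only [cosetEquiv_apply, quotientFunc_cosetMap_none, quotientFunc_cosetMap_some,
    qExpansion_slash_stMat]

/-- Width-`p` expansion of a `1`-periodic function. -/
theorem coeff_qExpansion_width {Φ : ℍ → ℂ} (hper : Function.Periodic (Φ ∘ ofComplex) 1)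
    (hhol : MDiff Φ) (hbdd : IsBoundedAtImInfty Φ) (n : ℕ) :
    (qExpansion ((p : ℕ) : ℝ) Φ).coeff n =
      if p ∣ n then (qExpansion 1 Φ).coeff (n / p) else 0 := by
  have h := UpperHalfPlane.qExpansion_coeff_nat_mul (h := 1) one_pos hper hhol hbdd
    (M := p) hp.out.pos n
  rwa [mul_one] at h

include k in
theorem coeff_qExpansion_width_self (n : ℕ) :
    (qExpansion ((p : ℕ) : ℝ) (⇑f)).coeff n =
      if p ∣ n then (qExpansion 1 (⇑f)).coeff (n / p) else 0 := by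
  have h1 := CongruenceSubgroup.one_mem_strictPeriods_Gamma0 p
  haveI : Fact (IsCusp OnePoint.infty (GammaP p)) :=
    ⟨Subgroup.isCusp_of_mem_strictPeriods one_pos h1⟩
  exact coeff_qExpansion_width (SlashInvariantFormClass.periodic_comp_ofComplex (k := k) f h1)
    (ModularFormClass.holo (k := k) f) (ModularFormClass.bdd_at_infty (k := k) f) n

theorem coeff_qExpansion_width_levelOne {w : ℤ} (G : ModularForm 𝒮ℒ w) (n : ℕ) :
    (qExpansion ((p : ℕ) : ℝ) (⇑G)).coeff n =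
      if p ∣ n then (qExpansion 1 (⇑G)).coeff (n / p) else 0 := by
  haveI : Fact (IsCusp OnePoint.infty 𝒮ℒ) :=
    ⟨Subgroup.isCusp_of_mem_strictPeriods one_pos one_mem_strictPeriods_SL⟩
  exact coeff_qExpansion_width
    (SlashInvariantFormClass.periodic_comp_ofComplex G one_mem_strictPeriods_SL)
    (ModularFormClass.holo G) (ModularFormClass.bdd_at_infty G) n

end main

end Fermat.Agent.S16.NormLevelOne
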