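/-
S16, block [N], period-`p` calculus (helper6): `q`-expansions at width `p` (`x = e^{2πiz/p}`).

* (PP1) `qExpansion_natMul_eq_expand`, `qExpansion_natCast_eq_expand`, `qExpansion_natCast_of_one_mem`,
  `qExpansion_natCast_levelOne`, `qExpansion_natCast_Gamma0`: a function of period `1` read at width `M` has
  expansion `PowerSeries.expand M (qExpansion 1 ·)`.
* (PP2) `qExpansion_vadd`: expansion of a real translate `z ↦ g (t + z)` is the
  `PowerSeries.rescale (e^{2πit/h})` of the expansion of `g`; for forms on `Γ₀(p)`: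
  `qExpansion_slash_ST : qExpansion p (f ∣[k] S T^j) = rescale (ζ^j) (qExpansion p (f ∣[k] S))`.
* (PP3) `qExpansion_mul_prod_slash_ST`, `expand_qExpansion_of_coe_eq`: the expansion of
  `f · ∏_{j<p} f ∣[k] S T^j` (Mathlib's `ModularForm.norm`, cf. `NormCosets.coe_norm_eq_range`).
* (PP4) regularity package for `f ∣[k] S` and `f ∣[k] S T^j` (period `p`, holomorphic, bounded,
  cusp function analytic at `0`).
* (PP5) `qExpansion_slash_heckeMatrix`: for `G` of period `1`,
  `qExpansion N (G ∣[k] [1, j; 0, N]) = N⁻¹ • rescale (ζ_N^j) (qExpansion 1 G)`.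
-/
import Mathlib
import Fermat.Prelude.Def_ModularForm_HeckeOperator
import Fermat.Prelude.Thm_UpperHalfPlane_qExpansion_prod
import Fermat.Prelude.Thm_UpperHalfPlane_qExpansion_coeff_nat_mul
import Fermat.Prelude.Thm_CongruenceSubgroup_one_mem_strictPeriods_Gamma0

set_option autoImplicit false
set_option linter.unusedSectionVars false

open ModularForm Complex Function Matrix.SpecialLinearGroup CongruenceSubgroup
  ModularGroup
open UpperHalfPlane hiding I
open scoped Real MatrixGroups Manifold ModularForm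

noncomputable section

namespace Fermat.Agent.S16.NormPeriodP

local notation "𝕢" => Periodic.qParam


/-! ### (PP1) changing the period by an integer factor -/

theorem qExpansion_natMul_eq_expand {h : ℝ} (hh : 0 < h) {F : ℍ → ℂ}
    (hper : Periodic (F ∘ ofComplex) h) (hhol : MDiff F) (hbdd : IsBoundedAtImInfty F)
    {M : ℕ} (hM : M ≠ 0) :
    qExpansion (M * h) F = PowerSeries.expand M hM (qExpansion h F) := by
  ext n
  rw [UpperHalfPlane.qExpansion_coeff_nat_mul hh hper hhol hbdd (Nat.pos_of_ne_zero hM) n,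
    PowerSeries.coeff_expand]

theorem qExpansion_natCast_eq_expand {F : ℍ → ℂ}
    (hper : Periodic (F ∘ ofComplex) 1) (hhol : MDiff F) (hbdd : IsBoundedAtImInfty F)
    {M : ℕ} (hM : M ≠ 0) :
    qExpansion (M : ℝ) F = PowerSeries.expand M hM (qExpansion 1 F) := by
  simpa using qExpansion_natMul_eq_expand one_pos hper hhol hbdd hM


theorem slash_upperRightHom (k : ℤ) (g : ℍ → ℂ) (t : ℝ) :
    g ∣[k] (Matrix.GeneralLinearGroup.upperRightHom t) = fun z => g (t +ᵥ z) := by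
  funext τ
  have h1 : Matrix.GeneralLinearGroup.upperRightHom t • τ = t +ᵥ τ := by
    ext
    simp [σ, num, denom, coe_vadd, UpperHalfPlane.coe_smul, add_comm]
  rw [ModularForm.slash_apply, h1]
  simp [σ, denom, Matrix.GeneralLinearGroup.val_det_apply]

theorem periodic_comp_ofComplex_iff {h : ℝ} {g : ℍ → ℂ} :
    Periodic (g ∘ ofComplex) h ↔ ∀ τ : ℍ, g (h +ᵥ τ) = g τ := by
  constructor
  · intro hp τ
    have := hp (τ : ℂ)
    simp only [comp_apply, ofComplex_apply] at this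
    rw [← this]
    congr 1
    have him : 0 < ((τ : ℂ) + h).im := by simp [τ.im_pos]
    rw [ofComplex_apply_of_im_pos him]
    ext
    simp [add_comm]
  · intro hg w
    by_cases hw : 0 < im w
    · have : 0 < im (w + h) := by simp [hw]
      simp only [comp_apply, ofComplex_apply_of_im_pos this, ofComplex_apply_of_im_pos hw]
      rw [← hg ⟨w, hw⟩]
      congr 1
      ext
      simp [add_comm]
    · have hw' : im w ≤ 0 := not_lt.mp hw
      have : im (w + h) ≤ 0 := by simpa using hw'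
      simp [ofComplex_apply_of_im_nonpos this, ofComplex_apply_of_im_nonpos hw']

/-- the three regularity hypotheses are stable under real translations. -/
theorem periodic_vadd {h : ℝ} {g : ℍ → ℂ} (hper : Periodic (g ∘ ofComplex) h) (t : ℝ) :
    Periodic ((fun z => g (t +ᵥ z)) ∘ ofComplex) h := by
  rw [periodic_comp_ofComplex_iff] at hper ⊢
  intro τ
  show g (t +ᵥ (h +ᵥ τ)) = g (t +ᵥ τ)
  rw [vadd_comm, hper]

theorem mdiff_vadd {g : ℍ → ℂ} (hhol : MDiff g) (t : ℝ) : MDiff (fun z : ℍ => g (t +ᵥ z)) := by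
  rw [← slash_upperRightHom 0 g t]
  exact hhol.slash 0 _

theorem isBoundedAtImInfty_vadd {g : ℍ → ℂ} (hbdd : IsBoundedAtImInfty g) (t : ℝ) :
    IsBoundedAtImInfty (fun z => g (t +ᵥ z)) := by
  rw [isBoundedAtImInfty_iff] at hbdd ⊢
  obtain ⟨M, A, hMA⟩ := hbdd
  exact ⟨M, A, fun z hz => hMA _ (by simpa using hz)⟩

theorem qParam_vadd (h t : ℝ) (τ : ℍ) :
    𝕢 h ((t +ᵥ τ : ℍ) : ℂ) = Complex.exp (2 * π * I * t / h) * 𝕢 h τ := by
  rw [Periodic.qParam, Periodic.qParam, ← Complex.exp_add, coe_vadd]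
  congr 1
  ring

/-- `UpperHalfPlane.qExpansion_coeff_unique` for plain functions (any period). -/
theorem coeff_unique {h : ℝ} (hh : 0 < h) {G : ℍ → ℂ} {c : ℕ → ℂ}
    (hG : AnalyticAt ℂ (cuspFunction h G) 0)
    (hf : ∀ τ : ℍ, HasSum (fun m => c m • 𝕢 h (τ : ℂ) ^ m) (G τ)) (m : ℕ) :
    c m = (qExpansion h G).coeff m := by
  have h1 := (hasFPowerSeriesOnBall_cuspFunction hh hG hf).hasFPowerSeriesAt
  have h2 := hG.hasFPowerSeriesAt
  have h3 := congr_arg (FormalMultilinearSeries.coeff · m) (h1.eq_formalMultilinearSeries h2)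
  simp only [FormalMultilinearSeries.coeff_ofScalars] at h3
  rw [h3, qExpansion_coeff, div_eq_mul_inv, mul_comm]

/-- (PP2) q-expansion of a real translate. -/
theorem qExpansion_vadd {h : ℝ} (hh : 0 < h) {g : ℍ → ℂ}
    (hper : Periodic (g ∘ ofComplex) h) (hhol : MDiff g) (hbdd : IsBoundedAtImInfty g) (t : ℝ) :
    qExpansion h (fun z : ℍ => g (t +ᵥ z)) =
      PowerSeries.rescale (Complex.exp (2 * π * I * t / h)) (qExpansion h g) := by
  ext m
  rw [PowerSeries.coeff_rescale]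
  symm
  refine coeff_unique (c := fun m => Complex.exp (2 * π * I * t / h) ^ m *
      (qExpansion h g).coeff m) hh
    (analyticAt_cuspFunction_zero hh (periodic_vadd hper t) (mdiff_vadd hhol t)
      (isBoundedAtImInfty_vadd hbdd t)) ?_ m
  intro τ
  have := hasSum_qExpansion hh hper hhol hbdd (t +ᵥ τ)
  rw [qParam_vadd] at this
  convert this using 2 with n
  simp only [smul_eq_mul, mul_pow]
  ring

/-! ### Slashing by `T^j` and `S T^j` -/

theorem mapGL_T_pow (j : ℕ) :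
    mapGL ℝ (T ^ j) = Matrix.GeneralLinearGroup.upperRightHom (j : ℝ) := by
  ext a b
  have : ((T ^ j : SL(2, ℤ)) : Matrix (Fin 2) (Fin 2) ℤ) = !![1, (j : ℤ); 0, 1] := by
    rw [← zpow_natCast, coe_T_zpow]
  simp only [mapGL_coe_matrix, Matrix.GeneralLinearGroup.upperRightHom_apply]
  rw [Matrix.SpecialLinearGroup.map_apply_coe, this]
  fin_cases a <;> fin_cases b <;> simp

theorem slash_T_pow (k : ℤ) (g : ℍ → ℂ) (j : ℕ) :
    g ∣[k] mapGL ℝ (T ^ j) = fun z => g ((j : ℝ) +ᵥ z) := by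
  rw [mapGL_T_pow, slash_upperRightHom]

theorem slash_ST_pow (k : ℤ) (g : ℍ → ℂ) (j : ℕ) :
    g ∣[k] mapGL ℝ (S * T ^ j) = fun z => (g ∣[k] mapGL ℝ S) ((j : ℝ) +ᵥ z) := by
  rw [map_mul, SlashAction.slash_mul, slash_T_pow]

variable (p : ℕ)

/-- `S T^p S⁻¹ = !![1, 0; -p, 1] ∈ Γ₀(p)`. -/
theorem S_mul_T_pow_mul_S_inv_mem : S * T ^ p * S⁻¹ ∈ Gamma0 p := by
  rw [Gamma0_mem]
  have hT : ((T ^ p : SL(2, ℤ)) : Matrix (Fin 2) (Fin 2) ℤ) = !![1, (p : ℤ); 0, 1] := by
    rw [← zpow_natCast, coe_T_zpow]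
  have : ((S * T ^ p * S⁻¹ : SL(2, ℤ)) 1 0 : ℤ) = -(p : ℤ) := by
    rw [Matrix.SpecialLinearGroup.coe_mul, Matrix.SpecialLinearGroup.coe_mul, hT,
      Matrix.SpecialLinearGroup.coe_inv, Matrix.adjugate_fin_two]
    simp [S, Matrix.mul_apply, Fin.sum_univ_two]
  rw [this]
  simp

open ConjAct Pointwise in
/-- `p` is a strict period of `(S T^j)⁻¹ Γ₀(p) (S T^j)`. -/
theorem natCast_mem_strictPeriods_conj (j : ℕ) :
    (p : ℝ) ∈ (toConjAct (mapGL ℝ (S * T ^ j))⁻¹ •
      ((Gamma0 p).map (mapGL ℝ) : Subgroup (GL (Fin 2) ℝ))).strictPeriods := by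
  rw [Subgroup.mem_strictPeriods_iff, map_inv, Subgroup.mem_inv_pointwise_smul_iff,
    toConjAct_smul, ← mapGL_T_pow, ← map_inv, ← map_mul, ← map_mul]
  refine ⟨_, ?_, rfl⟩
  have : S * T ^ j * T ^ p * (S * T ^ j)⁻¹ = S * T ^ p * S⁻¹ := by
    rw [mul_inv_rev, mul_assoc S, ← pow_add, add_comm, pow_add]
    group
  rw [this]
  exact S_mul_T_pow_mul_S_inv_mem p

/-- The primitive `p`-th root of unity `e^{2πi/p}`. -/
def zeta : ℂ := Complex.exp (2 * π * I / p)

theorem zeta_pow (j : ℕ) : zeta p ^ j = Complex.exp (2 * π * I * (j : ℝ) / (p : ℝ)) := by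
  rw [zeta, ← Complex.exp_nat_mul]
  congr 1
  push_cast
  ring

theorem isPrimitiveRoot_zeta [NeZero p] : IsPrimitiveRoot (zeta p) p :=
  Complex.isPrimitiveRoot_exp p (NeZero.ne p)

open ConjAct Pointwise in
theorem natCast_mem_strictPeriods_conj_S :
    (p : ℝ) ∈ (toConjAct (mapGL ℝ S)⁻¹ •
      ((Gamma0 p).map (mapGL ℝ) : Subgroup (GL (Fin 2) ℝ))).strictPeriods := by
  simpa using natCast_mem_strictPeriods_conj p 0

section forms

variable {p} {k : ℤ} {F : Type*} [FunLike F ℍ ℂ]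
  [hF : ModularFormClass F ((Gamma0 p).map (mapGL ℝ)) k] [hp0 : NeZero p] (f : F)

theorem analyticAt_cuspFunction_slash_ST (j : ℕ) :
    AnalyticAt ℂ (cuspFunction (p : ℝ) (⇑f ∣[k] mapGL ℝ (S * T ^ j))) 0 :=
  ModularFormClass.analyticAt_cuspFunction_zero (ModularForm.translate f (mapGL ℝ (S * T ^ j)))
    (by exact_mod_cast NeZero.pos p) (natCast_mem_strictPeriods_conj p j)

theorem analyticAt_cuspFunction_slash_S :
    AnalyticAt ℂ (cuspFunction (p : ℝ) (⇑f ∣[k] mapGL ℝ S)) 0 :=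
  ModularFormClass.analyticAt_cuspFunction_zero (ModularForm.translate f (mapGL ℝ S))
    (by exact_mod_cast NeZero.pos p) (natCast_mem_strictPeriods_conj_S p)

omit hp0 in
theorem periodic_slash_S : Periodic ((⇑f ∣[k] mapGL ℝ S) ∘ ofComplex) (p : ℝ) :=
  SlashInvariantFormClass.periodic_comp_ofComplex
    (ModularForm.translate f (mapGL ℝ S)) (natCast_mem_strictPeriods_conj_S p)

omit hp0 in
include hF in
theorem mdiff_slash_S : MDiff (⇑f ∣[k] mapGL ℝ S) :=
  (ModularFormClass.holo f).slash k _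

include hF hp0 in
theorem isBoundedAtImInfty_slash_S : IsBoundedAtImInfty (⇑f ∣[k] mapGL ℝ S) := by
  have hpos : (0 : ℝ) < p := by exact_mod_cast NeZero.pos p
  have hΓ := natCast_mem_strictPeriods_conj_S p
  have : Fact (IsCusp OnePoint.infty _) := ⟨Subgroup.isCusp_of_mem_strictPeriods hpos hΓ⟩
  exact ModularFormClass.bdd_at_infty (ModularForm.translate f (mapGL ℝ S))

/-- (PP2) for forms: the expansion of `f ∣ S T^j` in `x = e^{2πiz/p}` is the `ζ^j`-rescaling of the
expansion of `f ∣ S`. -/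
theorem qExpansion_slash_ST (j : ℕ) :
    qExpansion (p : ℝ) (⇑f ∣[k] mapGL ℝ (S * T ^ j)) =
      PowerSeries.rescale (zeta p ^ j) (qExpansion (p : ℝ) (⇑f ∣[k] mapGL ℝ S)) := by
  have hpos : (0 : ℝ) < p := by exact_mod_cast NeZero.pos p
  rw [slash_ST_pow, qExpansion_vadd hpos (periodic_slash_S f) (mdiff_slash_S f)
    (isBoundedAtImInfty_slash_S f), zeta_pow]

end forms

/-! ### (PP1) for forms -/

section natCast

variable {k : ℤ} {G : Type*} [FunLike G ℍ ℂ] {Γ : Subgroup (GL (Fin 2) ℝ)}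

/-- A form on a group having `1` as a strict period: its expansion in `x = e^{2πiz/M}` is the
`q`-expansion with `q = x^M`. -/
theorem qExpansion_natCast_of_one_mem [ModularFormClass G Γ k] (g : G)
    (h1 : (1 : ℝ) ∈ Γ.strictPeriods) {M : ℕ} (hM : M ≠ 0) :
    qExpansion (M : ℝ) ⇑g = PowerSeries.expand M hM (qExpansion 1 ⇑g) := by
  have : Fact (IsCusp OnePoint.infty Γ) := ⟨Subgroup.isCusp_of_mem_strictPeriods one_pos h1⟩
  exact qExpansion_natCast_eq_expand (SlashInvariantFormClass.periodic_comp_ofComplex g h1)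
    (ModularFormClass.holo g) (ModularFormClass.bdd_at_infty g) hM

/-- level one. -/
theorem qExpansion_natCast_levelOne [ModularFormClass G 𝒮ℒ k] (g : G) {M : ℕ} (hM : M ≠ 0) :
    qExpansion (M : ℝ) ⇑g = PowerSeries.expand M hM (qExpansion 1 ⇑g) :=
  qExpansion_natCast_of_one_mem g one_mem_strictPeriods_SL hM

/-- level `Γ₀(N)`. -/
theorem qExpansion_natCast_Gamma0 {N : ℕ} [ModularFormClass G ((Gamma0 N).map (mapGL ℝ)) k]
    (g : G) {M : ℕ} (hM : M ≠ 0) :
    qExpansion (M : ℝ) ⇑g = PowerSeries.expand M hM (qExpansion 1 ⇑g) :=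
  qExpansion_natCast_of_one_mem g (CongruenceSubgroup.one_mem_strictPeriods_Gamma0 N) hM

theorem natCast_mem_strictPeriods_of_one_mem (h1 : (1 : ℝ) ∈ Γ.strictPeriods) (M : ℕ) :
    (M : ℝ) ∈ Γ.strictPeriods := by
  simpa using Γ.strictPeriods.nsmul_mem h1 M

end natCast

section norm

variable {p} {k : ℤ} {F : Type*} [FunLike F ℍ ℂ]
  [hF : ModularFormClass F ((Gamma0 p).map (mapGL ℝ)) k] [hp0 : NeZero p] (f : F)

include hF in
theorem analyticAt_cuspFunction_natCast :
    AnalyticAt ℂ (cuspFunction (p : ℝ) ⇑f) 0 :=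
  ModularFormClass.analyticAt_cuspFunction_zero (k := k) f (by exact_mod_cast NeZero.pos p)
    (natCast_mem_strictPeriods_of_one_mem (CongruenceSubgroup.one_mem_strictPeriods_Gamma0 p) p)

/-- (PP3) the `x`-expansion of the product over the cosets `1, S T^j`. -/
theorem qExpansion_mul_prod_slash_ST :
    qExpansion (p : ℝ) (⇑f * ∏ j ∈ Finset.range p, (⇑f ∣[k] mapGL ℝ (S * T ^ j))) =
      PowerSeries.expand p (NeZero.ne p) (qExpansion 1 ⇑f) *
        ∏ j ∈ Finset.range p,
          PowerSeries.rescale (zeta p ^ j) (qExpansion (p : ℝ) (⇑f ∣[k] mapGL ℝ S)) := by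
  set G : ℕ → ℍ → ℂ := fun i => Nat.casesOn i ⇑f (fun j => ⇑f ∣[k] mapGL ℝ (S * T ^ j)) with hG
  have hGa : ∀ i ∈ Finset.range (p + 1), AnalyticAt ℂ (cuspFunction (p : ℝ) (G i)) 0 := by
    intro i _
    cases i with
    | zero => exact analyticAt_cuspFunction_natCast f
    | succ j => exact analyticAt_cuspFunction_slash_ST f j
  have h1 : ⇑f * ∏ j ∈ Finset.range p, (⇑f ∣[k] mapGL ℝ (S * T ^ j)) =
      ∏ i ∈ Finset.range (p + 1), G i := by
    rw [Finset.prod_range_succ', mul_comm]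
    rfl
  rw [h1, UpperHalfPlane.qExpansion_prod _ hGa, Finset.prod_range_succ', mul_comm]
  congr 1
  · exact qExpansion_natCast_Gamma0 f (NeZero.ne p)
  · exact Finset.prod_congr rfl fun j _ => qExpansion_slash_ST f j

/-- Consumer form: any level-one form `N` whose underlying function is the product over the cosets
`1, S T^j` of the translates of `f` (e.g. `ModularForm.norm 𝒮ℒ f`, by `NormCosets.coe_norm_eq_range`)
has `q`-expansion `A(q) · ∏_j B'(ζ^j x)` (read in `x`, `q = x^p`). -/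
theorem expand_qExpansion_of_coe_eq {w : ℤ} {G : Type*} [FunLike G ℍ ℂ] [ModularFormClass G 𝒮ℒ w]
    (N : G) (hN : ⇑N = ⇑f * ∏ j ∈ Finset.range p, (⇑f ∣[k] mapGL ℝ (S * T ^ j))) :
    PowerSeries.expand p (NeZero.ne p) (qExpansion 1 ⇑N) =
      PowerSeries.expand p (NeZero.ne p) (qExpansion 1 ⇑f) *
        ∏ j ∈ Finset.range p,
          PowerSeries.rescale (zeta p ^ j) (qExpansion (p : ℝ) (⇑f ∣[k] mapGL ℝ S)) := by
  rw [← qExpansion_natCast_levelOne N (NeZero.ne p), hN, qExpansion_mul_prod_slash_ST]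

end norm

/-! ### (PP5) the substitution `z ↦ (z + j) / N` -/

section hecke

variable {N : ℕ} (hN : N ≠ 0) (j : ℕ)

include hN in
theorem heckeMatrix_smul_vadd (τ : ℍ) :
    heckeMatrix N j • ((N : ℝ) +ᵥ τ) = (1 : ℝ) +ᵥ (heckeMatrix N j • τ) := by
  have hN' : (N : ℂ) ≠ 0 := by exact_mod_cast hN
  apply UpperHalfPlane.ext
  rw [coe_heckeMatrix_smul hN, coe_vadd, coe_vadd, coe_heckeMatrix_smul hN]
  push_cast
  field_simp
  ring

include hN in
theorem qParam_heckeMatrix_smul (τ : ℍ) :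
    𝕢 1 ((heckeMatrix N j • τ : ℍ) : ℂ) = zeta N ^ j * 𝕢 (N : ℝ) τ := by
  have hN' : (N : ℂ) ≠ 0 := by exact_mod_cast hN
  rw [zeta_pow, coe_heckeMatrix_smul hN, Periodic.qParam, Periodic.qParam, ← Complex.exp_add]
  congr 1
  push_cast
  field_simp
  ring

variable {G : ℍ → ℂ} (hper : Periodic (G ∘ ofComplex) 1) (hhol : MDiff G)
  (hbdd : IsBoundedAtImInfty G) (k : ℤ)

include hN hper in
theorem periodic_slash_heckeMatrix :
    Periodic ((G ∣[k] heckeMatrix N j) ∘ ofComplex) (N : ℝ) := by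
  have hper' : Periodic (G ∘ ofComplex) ((1 : ℝ) : ℂ) := by simpa using hper
  rw [periodic_comp_ofComplex_iff] at hper' ⊢
  intro τ
  rw [slash_heckeMatrix_apply k hN, slash_heckeMatrix_apply k hN, heckeMatrix_smul_vadd hN, hper']

include hN in
theorem isBoundedAtImInfty_slash_heckeMatrix (hbdd : IsBoundedAtImInfty G) :
    IsBoundedAtImInfty (G ∣[k] heckeMatrix N j) :=
  hbdd.slash k (by simp [val_heckeMatrix hN])

include hN hper hhol hbdd in
theorem analyticAt_cuspFunction_slash_heckeMatrix :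
    AnalyticAt ℂ (cuspFunction (N : ℝ) (G ∣[k] heckeMatrix N j)) 0 :=
  analyticAt_cuspFunction_zero (by exact_mod_cast Nat.pos_of_ne_zero hN)
    (periodic_slash_heckeMatrix hN j hper k) (hhol.slash k _)
    (isBoundedAtImInfty_slash_heckeMatrix hN j k hbdd)

include hN hper hhol hbdd in
/-- (PP5) For `G` of period `1`: the expansion of `G ∣[k] [1, j; 0, N]` (`= N⁻¹ G((z + j)/N)`) in
`x = e^{2πiz/N}` is `N⁻¹ ·` the `q`-expansion of `G` read in `ζ^j x`. -/
theorem qExpansion_slash_heckeMatrix :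
    qExpansion (N : ℝ) (G ∣[k] heckeMatrix N j) =
      (N : ℂ)⁻¹ • PowerSeries.rescale (zeta N ^ j) (qExpansion 1 G) := by
  ext m
  rw [PowerSeries.coeff_smul, PowerSeries.coeff_rescale]
  symm
  refine coeff_unique (c := fun m => (N : ℂ)⁻¹ * ((zeta N ^ j) ^ m * (qExpansion 1 G).coeff m))
    (by exact_mod_cast Nat.pos_of_ne_zero hN)
    (analyticAt_cuspFunction_slash_heckeMatrix hN j hper hhol hbdd k) ?_ m
  intro τ
  have := (hasSum_qExpansion one_pos hper hhol hbdd (heckeMatrix N j • τ)).mul_left (N : ℂ)⁻¹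
  rw [qParam_heckeMatrix_smul hN, ← slash_heckeMatrix_apply k hN] at this
  have key : (fun m => ((N : ℂ)⁻¹ * ((zeta N ^ j) ^ m * (qExpansion 1 G).coeff m)) •
      𝕢 (N : ℝ) (τ : ℂ) ^ m) = fun i => (N : ℂ)⁻¹ * ((qExpansion 1 G).coeff i •
      (zeta N ^ j * 𝕢 (N : ℝ) (τ : ℂ)) ^ i) := by
    funext n
    simp only [smul_eq_mul, mul_pow]
    ring
  rw [key]
  exact this

include hN hper hhol hbdd in
theorem qExpansion_slash_heckeMatrix_zero :
    qExpansion (N : ℝ) (G ∣[k] heckeMatrix N 0) = (N : ℂ)⁻¹ • qExpansion 1 G := by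
  rw [qExpansion_slash_heckeMatrix hN 0 hper hhol hbdd k, pow_zero, PowerSeries.rescale_one]
  rfl

end hecke

end Fermat.Agent.S16.NormPeriodP
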