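import Mathlib
import Fermat.Prelude.Thm_UpperHalfPlane_qExpansion_prod
import Fermat.Prelude.Thm_UpperHalfPlane_qExpansion_coeff_nat_mul
import Fermat.Prelude.Thm_CongruenceSubgroup_one_mem_strictPeriods_Gamma0
import Fermat.Agent.M2.P1Psi

/-!
# S16 / block [N] : the `q`-expansion of the norm `M_k(Γ₀(p)) → M_{k(p+1)}(SL₂(ℤ))`

`p` prime, `F : ModularForm (Gamma0 p) k`, `ζ = zeta p = e^{2πi/p}`, `gj j = S T^j`.

* `card_quot` : `[SL₂(ℤ) : Γ₀(p)] = p + 1` (in the `GL(2, ℝ)` form used by `ModularForm.norm`);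
* `cosetOf_bijective` : the cosets are `{1} ∪ {(S T^j)⁻¹ : j < p}`;
* `normOne F : ModularForm 𝒮ℒ (k * (p + 1))` (= `ModularForm.norm 𝒮ℒ F` with its weight rewritten),
  `coe_normOne_eq : ⇑(normOne F) = ⇑F * ∏ j ∈ range p, ⇑F ∣[k] gj j`, `normOne_eq_zero_iff`;
* `periodic_slash`, `mdiff_slash`, `bdd_slash`, `analyticAt_slash` : every conjugate `F ∣[k] γ`
  (`γ : SL(2, ℤ)`) is holomorphic, `p`-periodic, bounded at `i∞`;
* `qExpansion_slash_gj` : `qExpansion p (F ∣ S T^j) = rescale (ζ^j) (qExpansion p (F ∣ S))`;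
* `expand_qExpansion_normOne` : `N(F)(x^p) = A(x^p) · ∏_{j<p} B'(ζ^j x)` with `A = qExpansion 1 F`,
  `B' = qExpansion p (F ∣ S)`;
* `qExpansion_normOne_eq_mul` : `qExpansion 1 (normOne F) = A * N` for every `N` with
  `N(x^p) = ∏_{j<p} B'(ζ^j x)`;
* `qExpansion_slash_S_eq_smul` : `B' = c • qExpansion 1 G` as soon as `(F ∣ S)(z) = c G(z/p)`.
-/

set_option autoImplicit false

namespace Fermat.Agent.S16.NormQExp

open UpperHalfPlane ModularForm SlashInvariantForm CongruenceSubgroup Matrix.SpecialLinearGroup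
open scoped MatrixGroups Manifold Topology ModularForm

local notation "𝕢" => Function.Periodic.qParam

/-- The coset representatives `S T^j`. -/
def gj (j : ℤ) : SL(2, ℤ) := ModularGroup.S * ModularGroup.T ^ j

lemma gj_coe (j : ℤ) : (gj j : Matrix (Fin 2) (Fin 2) ℤ) = !![0, -1; 1, j] := by
  rw [gj, Matrix.SpecialLinearGroup.coe_mul, ModularGroup.coe_T_zpow, ModularGroup.coe_S]
  simp

lemma gj_mul_inv_coe (i j : ℤ) :
    ((gj i * (gj j)⁻¹ : SL(2, ℤ)) : Matrix (Fin 2) (Fin 2) ℤ) = !![1, 0; j - i, 1] := by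
  rw [Matrix.SpecialLinearGroup.coe_mul, Matrix.SpecialLinearGroup.coe_inv, gj_coe, gj_coe,
    Matrix.adjugate_fin_two]
  simp
  ring

variable (p : ℕ) [hp : Fact p.Prime]

lemma gj_not_mem (j : ℤ) : gj j ∉ Gamma0 p := by
  rw [Gamma0_mem]
  have : (gj j) 1 0 = 1 := by
    have := congrFun (congrFun (gj_coe j) 1) 0
    simpa using this
  rw [this]
  have := hp.out.one_lt
  simp

omit hp in
lemma gj_mul_inv_mem_iff (i j : ℤ) : gj i * (gj j)⁻¹ ∈ Gamma0 p ↔ (p : ℤ) ∣ j - i := by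
  rw [Gamma0_mem]
  have : (gj i * (gj j)⁻¹) 1 0 = j - i := by
    have := congrFun (congrFun (gj_mul_inv_coe i j) 1) 0
    simpa using this
  rw [this, ZMod.intCast_zmod_eq_zero_iff_dvd]

/-- The image of `Γ₀(p)` in `GL(2, ℝ)`. -/
local notation "Γp" => ((Gamma0 p : Subgroup SL(2, ℤ)) : Subgroup (GL (Fin 2) ℝ))

/-- The element of `𝒮ℒ` attached to `γ`. -/
def slOf (γ : SL(2, ℤ)) : 𝒮ℒ := ⟨mapGL ℝ γ, γ, rfl⟩

@[simp] lemma coe_slOf (γ : SL(2, ℤ)) : ((slOf γ : 𝒮ℒ) : GL (Fin 2) ℝ) = mapGL ℝ γ := rfl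

omit hp in
lemma mk_slOf_eq_iff (a b : SL(2, ℤ)) :
    (QuotientGroup.mk (slOf a) : 𝒮ℒ ⧸ (Γp).subgroupOf 𝒮ℒ) = QuotientGroup.mk (slOf b) ↔
      a⁻¹ * b ∈ Gamma0 p := by
  rw [QuotientGroup.eq, Subgroup.mem_subgroupOf]
  have : (((slOf a)⁻¹ * slOf b : 𝒮ℒ) : GL (Fin 2) ℝ) = mapGL ℝ (a⁻¹ * b) := by
    simp
  rw [this, Subgroup.mem_map_iff_mem mapGL_injective]

theorem card_quot : Nat.card (𝒮ℒ ⧸ (Γp).subgroupOf 𝒮ℒ) = p + 1 := by
  have h1 : Nat.card (𝒮ℒ ⧸ (Γp).subgroupOf 𝒮ℒ) = (Γp).relIndex 𝒮ℒ := rfl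
  rw [h1, ← Subgroup.index_comap, Subgroup.comap_map_eq_self_of_injective mapGL_injective,
    Fermat.Agent.M2.P1.index_Gamma0 p hp.out.ne_zero]
  have := Fermat.Agent.M2.P1.dedekindPsi_prime_pow p 0 hp.out
  simpa using this

/-- The enumeration of the cosets. -/
noncomputable def cosetOf : Option (Fin p) → 𝒮ℒ ⧸ (Γp).subgroupOf 𝒮ℒ
  | none => QuotientGroup.mk (slOf 1)
  | some j => QuotientGroup.mk (slOf (gj (j : ℕ))⁻¹)

theorem cosetOf_injective : Function.Injective (cosetOf p) := by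
  intro a b h
  rcases a with _ | i <;> rcases b with _ | j
  · rfl
  · exfalso
    simp only [cosetOf] at h
    rw [mk_slOf_eq_iff] at h
    rw [inv_one, one_mul] at h
    exact gj_not_mem p _ (by simpa using inv_mem h)
  · exfalso
    simp only [cosetOf] at h
    rw [mk_slOf_eq_iff] at h
    rw [inv_inv, mul_one] at h
    exact gj_not_mem p _ h
  · simp only [cosetOf] at h
    rw [mk_slOf_eq_iff, inv_inv, gj_mul_inv_mem_iff] at h
    congr 1
    apply Fin.ext
    have hi := i.2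
    have hj := j.2
    obtain ⟨c, hc⟩ := h
    have : c = 0 := by
      by_contra hc0
      rcases lt_or_gt_of_ne hc0 with h1 | h1
      · nlinarith
      · nlinarith
    subst this
    omega

theorem cosetOf_bijective : Function.Bijective (cosetOf p) := by
  have : Finite (𝒮ℒ ⧸ (Γp).subgroupOf 𝒮ℒ) :=
    Nat.finite_of_card_ne_zero (by rw [card_quot]; omega)
  refine (Nat.bijective_iff_injective_and_card _).mpr ⟨cosetOf_injective p, ?_⟩
  rw [card_quot]
  simp

variable {p} {k : ℤ} (F : ModularForm (Gamma0 p) k)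

omit hp in
theorem quotientFunc_cosetOf_none :
    quotientFunc F (cosetOf p none) = ⇑F := by
  simp only [cosetOf]
  erw [quotientFunc_mk]
  simp

omit hp in
theorem quotientFunc_cosetOf_some (j : Fin p) :
    quotientFunc F (cosetOf p (some j)) = ⇑F ∣[k] (gj (j : ℕ)) := by
  simp only [cosetOf]
  erw [quotientFunc_mk]
  simp only [ModularForm.SL_slash, coe_slOf, map_inv, inv_inv]
  rfl

theorem coe_norm_eq :
    ⇑(ModularForm.norm 𝒮ℒ F) = ⇑F * ∏ j : Fin p, (⇑F ∣[k] (gj (j : ℕ))) := by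
  rw [ModularForm.coe_norm]
  let _ := Fintype.ofFinite (𝒮ℒ ⧸ (Γp).subgroupOf 𝒮ℒ)
  rw [← Fintype.prod_bijective (cosetOf p) (cosetOf_bijective p)
    (fun o => quotientFunc F (cosetOf p o)) (fun q => quotientFunc F q) (fun _ => rfl)]
  rw [Fintype.prod_option, quotientFunc_cosetOf_none]
  simp_rw [quotientFunc_cosetOf_some]

/-! ### Periods of the conjugates -/

omit hp in
lemma upperRightHom_intCast (n : ℤ) :
    (Matrix.GeneralLinearGroup.upperRightHom (n : ℝ) : GL (Fin 2) ℝ) =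
      mapGL ℝ (ModularGroup.T ^ n) := by
  apply Units.ext
  rw [mapGL_coe_matrix, map_apply_coe, ModularGroup.coe_T_zpow]
  ext i j
  fin_cases i <;> fin_cases j <;> simp

omit hp in
lemma conj_T_pow_mem (γ : SL(2, ℤ)) : γ * ModularGroup.T ^ (p : ℤ) * γ⁻¹ ∈ Gamma0 p := by
  rw [Gamma0_mem]
  have h : (γ * ModularGroup.T ^ (p : ℤ) * γ⁻¹) 1 0 = -(γ 1 0) ^ 2 * p := by
    rw [Matrix.SpecialLinearGroup.coe_mul, Matrix.SpecialLinearGroup.coe_mul,
      Matrix.SpecialLinearGroup.coe_inv, ModularGroup.coe_T_zpow, Matrix.adjugate_fin_two]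
    simp [Matrix.mul_apply, Fin.sum_univ_two]
    ring
  rw [h]
  simp

open ConjAct Pointwise in
omit hp in
theorem natCast_mem_strictPeriods_conj (γ : SL(2, ℤ)) :
    (p : ℝ) ∈ (toConjAct (mapGL ℝ γ)⁻¹ • (Γp)).strictPeriods := by
  rw [Subgroup.mem_strictPeriods_iff, map_inv, Subgroup.mem_inv_pointwise_smul_iff, toConjAct_smul]
  have : ((p : ℝ)) = ((p : ℤ) : ℝ) := by simp
  rw [this, upperRightHom_intCast, ← map_inv, ← map_mul, ← map_mul,
    Subgroup.mem_map_iff_mem mapGL_injective]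
  exact conj_T_pow_mem γ

/-! ### The conjugates `F ∣[k] γ` -/

lemma prime_pos_real : (0 : ℝ) < (p : ℝ) := by exact_mod_cast hp.out.pos

omit hp in
theorem periodic_slash (γ : SL(2, ℤ)) :
    Function.Periodic ((⇑F ∣[k] γ) ∘ ofComplex) (p : ℝ) :=
  SlashInvariantFormClass.periodic_comp_ofComplex (ModularForm.translate F (mapGL ℝ γ))
    (natCast_mem_strictPeriods_conj γ)

omit hp in
theorem mdiff_slash (γ : SL(2, ℤ)) : MDiff (⇑F ∣[k] γ) :=
  (ModularForm.translate F (mapGL ℝ γ)).holo'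

open ConjAct Pointwise in
theorem bdd_slash (γ : SL(2, ℤ)) : IsBoundedAtImInfty (⇑F ∣[k] γ) := by
  have : Fact (IsCusp OnePoint.infty (toConjAct (mapGL ℝ γ)⁻¹ • (Γp))) :=
    ⟨Subgroup.isCusp_of_mem_strictPeriods prime_pos_real (natCast_mem_strictPeriods_conj γ)⟩
  exact ModularFormClass.bdd_at_infty (ModularForm.translate F (mapGL ℝ γ))

theorem analyticAt_slash (γ : SL(2, ℤ)) :
    AnalyticAt ℂ (cuspFunction (p : ℝ) (⇑F ∣[k] γ)) 0 :=
  ModularFormClass.analyticAt_cuspFunction_zero (ModularForm.translate F (mapGL ℝ γ))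
    prime_pos_real (natCast_mem_strictPeriods_conj γ)

omit hp in
theorem slash_gj_apply (j : ℤ) (τ : ℍ) :
    (⇑F ∣[k] gj j) τ = (⇑F ∣[k] ModularGroup.S) ((j : ℝ) +ᵥ τ) := by
  rw [gj, SlashAction.slash_mul, ModularForm.SL_slash_apply (γ := ModularGroup.T ^ j),
    modular_T_zpow_smul]
  have h10 : (ModularGroup.T ^ j) 1 0 = 0 := by
    have := congrFun (congrFun (ModularGroup.coe_T_zpow j) 1) 0
    simpa using this
  have h11 : (ModularGroup.T ^ j) 1 1 = 1 := by
    have := congrFun (congrFun (ModularGroup.coe_T_zpow j) 1) 1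
    simpa using this
  rw [ModularGroup.denom_apply, h10, h11]
  simp

/-! ### `q`-expansions of the conjugates -/

/-- `ζ_p = e^{2πi/p}`. -/
noncomputable def zeta (p : ℕ) : ℂ := Complex.exp (2 * Real.pi * Complex.I / p)

omit hp in
lemma qParam_natCast_vadd (j : ℕ) (τ : ℍ) :
    𝕢 (p : ℝ) ((((j : ℤ) : ℝ) +ᵥ τ : ℍ) : ℂ) = zeta p ^ j * 𝕢 (p : ℝ) (τ : ℂ) := by
  rw [UpperHalfPlane.coe_vadd, zeta, ← Complex.exp_nat_mul]
  simp only [Function.Periodic.qParam]
  rw [← Complex.exp_add]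
  congr 1
  push_cast
  ring

omit hp in
/-- Uniqueness of `q`-expansion coefficients, for plain functions. -/
lemma coeff_unique {h : ℝ} (hh : 0 < h) {f : ℍ → ℂ} {c : ℕ → ℂ}
    (hfanalytic : AnalyticAt ℂ (cuspFunction h f) 0)
    (hf : ∀ τ : ℍ, HasSum (fun m : ℕ ↦ c m • 𝕢 h (τ : ℂ) ^ m) (f τ)) (m : ℕ) :
    c m = (qExpansion h f).coeff m := by
  have h1 := (hasFPowerSeriesOnBall_cuspFunction hh hfanalytic hf).hasFPowerSeriesAt
  have h2 := hfanalytic.hasFPowerSeriesAt
  have h3 := congr_arg (FormalMultilinearSeries.coeff · m) (h1.eq_formalMultilinearSeries h2)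
  simp only [FormalMultilinearSeries.coeff_ofScalars] at h3
  rw [h3, qExpansion_coeff, div_eq_inv_mul]

/-- **(N2)** the expansion of `F ∣ S T^j` in `x = e^{2πiz/p}` is that of `F ∣ S` with `x`
replaced by `ζ^j x`. -/
theorem qExpansion_slash_gj (j : ℕ) :
    qExpansion (p : ℝ) (⇑F ∣[k] gj (j : ℤ)) =
      PowerSeries.rescale (zeta p ^ j) (qExpansion (p : ℝ) (⇑F ∣[k] ModularGroup.S)) := by
  refine PowerSeries.ext fun m => ?_
  rw [PowerSeries.coeff_rescale]
  have hsum : ∀ τ : ℍ, HasSum (fun m : ℕ => ((zeta p ^ j) ^ m *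
      (qExpansion (p : ℝ) (⇑F ∣[k] ModularGroup.S)).coeff m) • 𝕢 (p : ℝ) (τ : ℂ) ^ m)
      ((⇑F ∣[k] gj (j : ℤ)) τ) := by
    intro τ
    have h1 := UpperHalfPlane.hasSum_qExpansion (h := (p : ℝ)) prime_pos_real
      (periodic_slash F ModularGroup.S)
      (mdiff_slash F ModularGroup.S) (bdd_slash F ModularGroup.S) (((j : ℤ) : ℝ) +ᵥ τ)
    rw [qParam_natCast_vadd] at h1
    rw [slash_gj_apply]
    have h2 : (fun m : ℕ => ((zeta p ^ j) ^ m *
        (qExpansion (p : ℝ) (⇑F ∣[k] ModularGroup.S)).coeff m) • 𝕢 (p : ℝ) (τ : ℂ) ^ m) =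
        fun m : ℕ => (qExpansion (p : ℝ) (⇑F ∣[k] ModularGroup.S)).coeff m •
          (zeta p ^ j * 𝕢 (p : ℝ) (τ : ℂ)) ^ m := by
      funext m
      simp only [smul_eq_mul, mul_pow]
      ring
    rw [h2]
    exact h1
  exact (coeff_unique prime_pos_real (analyticAt_slash F (gj j)) hsum m).symm

/-! ### Period `p` versus period `1` -/

/-- For a `1`-periodic function the expansion in `x = e^{2πiz/p}` is the expansion in
`q = x^p` with `q` replaced by `x^p`. -/
theorem qExpansion_natCast_eq_expand {G : ℍ → ℂ}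
    (hper : Function.Periodic (G ∘ ofComplex) (1 : ℝ)) (hhol : MDiff G)
    (hbdd : IsBoundedAtImInfty G) :
    qExpansion (p : ℝ) G = PowerSeries.expand p hp.out.ne_zero (qExpansion 1 G) := by
  refine PowerSeries.ext fun n => ?_
  rw [PowerSeries.coeff_expand]
  have := UpperHalfPlane.qExpansion_coeff_nat_mul one_pos hper hhol hbdd hp.out.pos n
  rw [mul_one] at this
  exact this

/-! ### The `q`-expansion of the norm -/

/-- The `p + 1` conjugates of `F`. -/
noncomputable def conjFun : Option (Fin p) → ℍ → ℂ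
  | none => ⇑F
  | some j => ⇑F ∣[k] gj ((j : ℕ) : ℤ)

omit hp in
theorem quotientFunc_cosetOf (o : Option (Fin p)) :
    quotientFunc F (cosetOf p o) = conjFun F o := by
  rcases o with _ | j
  · exact quotientFunc_cosetOf_none F
  · exact quotientFunc_cosetOf_some F j

theorem coe_norm_eq_prod :
    ⇑(ModularForm.norm 𝒮ℒ F) = ∏ o : Option (Fin p), conjFun F o := by
  rw [ModularForm.coe_norm]
  let _ := Fintype.ofFinite (𝒮ℒ ⧸ (Γp).subgroupOf 𝒮ℒ)
  rw [← Fintype.prod_bijective (cosetOf p) (cosetOf_bijective p)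
    (fun o => quotientFunc F (cosetOf p o)) (fun q => quotientFunc F q) (fun _ => rfl)]
  simp_rw [quotientFunc_cosetOf]

theorem analyticAt_conjFun (o : Option (Fin p)) :
    AnalyticAt ℂ (cuspFunction (p : ℝ) (conjFun F o)) 0 := by
  rcases o with _ | j
  · have := analyticAt_slash F 1
    rwa [SlashAction.slash_one] at this
  · exact analyticAt_slash F _

/-- **(N3), period `p` form.** -/
theorem qExpansion_norm_period :
    qExpansion (p : ℝ) (ModularForm.norm 𝒮ℒ F) =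
      qExpansion (p : ℝ) F * ∏ j : Fin p, PowerSeries.rescale (zeta p ^ (j : ℕ))
        (qExpansion (p : ℝ) (⇑F ∣[k] ModularGroup.S)) := by
  rw [coe_norm_eq_prod, UpperHalfPlane.qExpansion_prod Finset.univ
    (fun o _ => analyticAt_conjFun F o), Fintype.prod_option]
  simp only [conjFun, qExpansion_slash_gj]

omit hp in
theorem isPrimitiveRoot_zeta (hp0 : p ≠ 0) : IsPrimitiveRoot (zeta p) p :=
  Complex.isPrimitiveRoot_exp p hp0

/-- The norm of `F` to level one, with its weight written as `k (p + 1)`. -/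
noncomputable def normOne : ModularForm 𝒮ℒ (k * ((p : ℤ) + 1)) :=
  ModularForm.mcast (by rw [card_quot p]; push_cast; ring) (ModularForm.norm 𝒮ℒ F)

theorem coe_normOne : ⇑(normOne F) = ⇑(ModularForm.norm 𝒮ℒ F) := rfl

/-- **(N1)** the norm is the product of the `p + 1` conjugates. -/
theorem coe_normOne_eq :
    ⇑(normOne F) = ⇑F * ∏ j ∈ Finset.range p, (⇑F ∣[k] gj ((j : ℕ) : ℤ)) := by
  rw [coe_normOne, coe_norm_eq_prod, Fintype.prod_option]
  simp only [conjFun]
  rw [Fin.prod_univ_eq_prod_range (fun j : ℕ => ⇑F ∣[k] gj ((j : ℕ) : ℤ)) p]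

theorem normOne_eq_zero_iff : normOne F = 0 ↔ F = 0 := by
  constructor
  · intro h
    have h1 : ModularForm.norm 𝒮ℒ F = 0 := by
      ext z
      have := DFunLike.congr_fun h z
      simpa [coe_normOne] using this
    rw [ModularForm.norm_eq_zero_iff] at h1
    exact DFunLike.coe_injective (h1.trans FunLike.coe_zero.symm)
  · rintro rfl
    ext z
    rw [coe_normOne]
    have : ModularForm.norm 𝒮ℒ (0 : ModularForm (Gamma0 p) k) = 0 := by
      rw [ModularForm.norm_eq_zero_iff]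
      rfl
    rw [this]
    rfl

omit hp in
theorem expand_injective (hp0 : p ≠ 0) {R : Type*} [CommRing R] :
    Function.Injective (PowerSeries.expand p hp0 : PowerSeries R → PowerSeries R) := by
  intro a b h
  refine PowerSeries.ext fun n => ?_
  have := congrArg (fun φ => PowerSeries.coeff (p * n) φ) h
  simpa [PowerSeries.coeff_expand_mul] using this

/-- **(N3)** the `q`-expansion of the norm, with `q` replaced by `x^p`:
`N(F)(x^p) = A(x^p) ∏_{j < p} B'(ζ^j x)` where `A` is the `q`-expansion of `F` and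
`B'` the `x`-expansion of `F ∣ S`. -/
theorem expand_qExpansion_normOne :
    PowerSeries.expand p hp.out.ne_zero (qExpansion 1 (normOne F)) =
      PowerSeries.expand p hp.out.ne_zero (qExpansion 1 F) *
        ∏ j ∈ Finset.range p, PowerSeries.rescale (zeta p ^ j)
          (qExpansion (p : ℝ) (⇑F ∣[k] ModularGroup.S)) := by
  have h1 : Function.Periodic (⇑(ModularForm.norm 𝒮ℒ F) ∘ ofComplex) (1 : ℝ) :=
    SlashInvariantFormClass.periodic_comp_ofComplex _ one_mem_strictPeriods_SL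
  have h2 : Function.Periodic (⇑F ∘ ofComplex) (1 : ℝ) :=
    SlashInvariantFormClass.periodic_comp_ofComplex _
      (CongruenceSubgroup.one_mem_strictPeriods_Gamma0 p)
  have hb2 : IsBoundedAtImInfty ⇑F := by
    have := bdd_slash F 1
    rwa [SlashAction.slash_one] at this
  have hb1 : IsBoundedAtImInfty ⇑(ModularForm.norm 𝒮ℒ F) :=
    ModularFormClass.bdd_at_infty _
  rw [coe_normOne, ← qExpansion_natCast_eq_expand h1 (ModularForm.norm 𝒮ℒ F).holo' hb1,
    ← qExpansion_natCast_eq_expand h2 F.holo' hb2, qExpansion_norm_period,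
    Fin.prod_univ_eq_prod_range (fun j : ℕ => PowerSeries.rescale (zeta p ^ j)
          (qExpansion (p : ℝ) (⇑F ∣[k] ModularGroup.S))) p]

/-- **(N3')** if `N` is *any* power series with `N(x^p) = ∏_{j<p} B'(ζ^j x)` (e.g. the algebraic
norm `N_p(B')`), then the `q`-expansion of the norm of `F` is `A · N`. -/
theorem qExpansion_normOne_eq_mul {N : PowerSeries ℂ}
    (hN : PowerSeries.expand p hp.out.ne_zero N =
      ∏ j ∈ Finset.range p, PowerSeries.rescale (zeta p ^ j)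
        (qExpansion (p : ℝ) (⇑F ∣[k] ModularGroup.S))) :
    qExpansion 1 (normOne F) = qExpansion 1 F * N := by
  apply expand_injective hp.out.ne_zero
  rw [expand_qExpansion_normOne, map_mul, hN]

/-! ### Bridge to the Atkin–Lehner involution -/

omit hp in
/-- If `H(z) = c · G(z / N)` with `G` of period `1`, then the expansion of `H` in
`x = e^{2πiz/N}` is `c` times the `q`-expansion of `G`. -/
theorem qExpansion_eq_smul_of_scale {N : ℕ} (hN : 0 < N) {G H : ℍ → ℂ} (c : ℂ)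
    (hG : Function.Periodic (G ∘ ofComplex) (1 : ℝ)) (hGhol : MDiff G)
    (hGbdd : IsBoundedAtImInfty G) (hH : AnalyticAt ℂ (cuspFunction (N : ℝ) H) 0)
    (hHG : ∀ z w : ℍ, (z : ℂ) = N * (w : ℂ) → H z = c * G w) :
    qExpansion (N : ℝ) H = c • qExpansion 1 G := by
  have hN' : (0 : ℝ) < N := by exact_mod_cast hN
  refine PowerSeries.ext fun m => ?_
  rw [PowerSeries.coeff_smul, smul_eq_mul]
  have hsum : ∀ τ : ℍ, HasSum (fun m : ℕ => (c * (qExpansion 1 G).coeff m) •
      𝕢 (N : ℝ) (τ : ℂ) ^ m) (H τ) := by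
    intro τ
    have him : 0 < ((τ : ℂ) / N).im := by
      rw [Complex.div_natCast_im]
      exact div_pos τ.im_pos hN'
    set w : ℍ := ⟨(τ : ℂ) / N, him⟩ with hw
    have hzw : (τ : ℂ) = N * (w : ℂ) := by
      have : (N : ℂ) ≠ 0 := by exact_mod_cast hN.ne'
      rw [hw]
      show (τ : ℂ) = N * ((τ : ℂ) / N)
      field_simp
    have h1 := UpperHalfPlane.hasSum_qExpansion (h := (1 : ℝ)) one_pos hG hGhol hGbdd w
    have hq : 𝕢 (1 : ℝ) (w : ℂ) = 𝕢 (N : ℝ) (τ : ℂ) := by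
      simp only [Function.Periodic.qParam]
      congr 1
      rw [hzw]
      have : (N : ℂ) ≠ 0 := by exact_mod_cast hN.ne'
      push_cast
      field_simp
    rw [hq] at h1
    rw [hHG τ w hzw]
    have h2 := h1.mul_left c
    have h3 : (fun m : ℕ => (c * (qExpansion 1 G).coeff m) • 𝕢 (N : ℝ) (τ : ℂ) ^ m) =
        fun m : ℕ => c * ((qExpansion 1 G).coeff m • 𝕢 (N : ℝ) (τ : ℂ) ^ m) := by
      funext m
      simp only [smul_eq_mul]
      ring
    rw [h3]
    exact h2
  exact (coeff_unique hN' hH hsum m).symm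

/-- **(N4)** bridge to `W_p`: if `(F ∣ S)(z) = c · G(z / p)` for a `1`-periodic `G` (in practice
`G = F ∣ W_p`), then `B' = c · (q-expansion of G)`. -/
theorem qExpansion_slash_S_eq_smul {G : ℍ → ℂ} (c : ℂ)
    (hG : Function.Periodic (G ∘ ofComplex) (1 : ℝ)) (hGhol : MDiff G)
    (hGbdd : IsBoundedAtImInfty G)
    (hHG : ∀ z w : ℍ, (z : ℂ) = p * (w : ℂ) → (⇑F ∣[k] ModularGroup.S) z = c * G w) :
    qExpansion (p : ℝ) (⇑F ∣[k] ModularGroup.S) = c • qExpansion 1 G :=
  qExpansion_eq_smul_of_scale hp.out.pos c hG hGhol hGbdd (analyticAt_slash F ModularGroup.S) hHG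

end Fermat.Agent.S16.NormQExp
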