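import Mathlib

/-!
# S16 / [P]: the determinant norm of `R⟦x⟧` over `R⟦x^p⟧`

For a commutative ring `R` and `p ≥ 1` the ring `R⟦x⟧` is free of rank `p` over `R⟦q⟧`, `q = x^p`,
with basis `1, x, …, x^{p-1}`.  We write down the matrix `mulMat p B` of multiplication by `B` in
this basis and define `normP p B := det (mulMat p B)`.

Main results:

* `asm_mulVec` : `asm p (mulMat p B *ᵥ v) = B * asm p v` (the matrix represents multiplication);
* `mulMat_mul`, `normP_mul`, `normP_one`;
* `map_normP` : compatibility with every ring homomorphism of the coefficients;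
* `normP_expand` : `normP p (β(x^p)) = β ^ p`;
* `constantCoeff_normP` : the constant coefficient of `normP p B` is `b₀ ^ p`;
* `order_normP` : over a domain, `order (normP p B) = order B`;
* `expand_normP_eq_prod` : over a domain with a primitive `p`-th root of unity `ζ`,
  `(normP p B)(x^p) = ∏_{j<p} B(ζ^j x)`.
-/

set_option autoImplicit false

open PowerSeries

namespace Fermat.Agent.S16.NormSeries

variable {R : Type*} [CommRing R] (p : ℕ) [NeZero p]

/-- the substitution `x ↦ x ^ p` -/
noncomputable abbrev ex : R⟦X⟧ →ₐ[R] R⟦X⟧ := PowerSeries.expand p (NeZero.ne p)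

/-- The `r`-th section of `B` modulo `p`: `Σ_m b_{pm+r} X^m`. -/
noncomputable def sect (r : ℕ) (B : R⟦X⟧) : R⟦X⟧ := PowerSeries.mk fun m => coeff (p * m + r) B

omit [NeZero p] in
@[simp] theorem coeff_sect (r m : ℕ) (B : R⟦X⟧) :
    coeff m (sect p r B) = coeff (p * m + r) B := coeff_mk _ _

/-- The assembly map `(v_i)_i ↦ Σ_i x^i v_i(x^p)`. -/
noncomputable def asm (v : Fin p → R⟦X⟧) : R⟦X⟧ := ∑ i : Fin p, X ^ (i : ℕ) * ex p (v i)

theorem coeff_X_pow_mul_ex (i : ℕ) (hi : i < p) (g : R⟦X⟧) (n : ℕ) :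
    coeff n (X ^ i * ex p g) = if n % p = i then coeff (n / p) g else 0 := by
  have hp : 0 < p := NeZero.pos p
  rw [coeff_X_pow_mul', PowerSeries.coeff_expand]
  by_cases h : n % p = i
  · have h1 : i ≤ n := h ▸ Nat.mod_le n p
    have h2 : n - i = p * (n / p) := by
      have := Nat.div_add_mod n p
      omega
    rw [if_pos h1, if_pos h, if_pos (h2 ▸ dvd_mul_right p _), h2,
      Nat.mul_div_cancel_left _ hp]
  · rw [if_neg h]
    split_ifs with h1 h2
    · exfalso
      apply h
      obtain ⟨k, hk⟩ := h2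
      have : n = i + p * k := by omega
      rw [this, Nat.add_mul_mod_self_left, Nat.mod_eq_of_lt hi]
    · rfl
    · rfl

theorem coeff_asm (v : Fin p → R⟦X⟧) (n : ℕ) :
    coeff n (asm p v) = coeff (n / p) (v ⟨n % p, Nat.mod_lt _ (NeZero.pos p)⟩) := by
  unfold asm
  rw [map_sum]
  rw [Finset.sum_eq_single (⟨n % p, Nat.mod_lt _ (NeZero.pos p)⟩ : Fin p)]
  · rw [coeff_X_pow_mul_ex p _ (Nat.mod_lt _ (NeZero.pos p)), if_pos rfl]
  · intro b _ hb
    rw [coeff_X_pow_mul_ex p _ b.2, if_neg]
    intro h
    apply hb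
    exact Fin.ext h.symm
  · intro h
    exact absurd (Finset.mem_univ _) h

theorem asm_injective : Function.Injective (asm (R := R) p) := by
  intro v w h
  funext i
  ext m
  have h1 := coeff_asm p v (p * m + i)
  have h2 := coeff_asm p w (p * m + i)
  have hp : 0 < p := NeZero.pos p
  have e1 : (p * m + (i : ℕ)) / p = m := by
    rw [Nat.mul_add_div hp, (Nat.div_eq_zero_iff).2 (Or.inr i.2), add_zero]
  have e2 : (p * m + (i : ℕ)) % p = i := by
    rw [Nat.mul_add_mod, Nat.mod_eq_of_lt i.2]
  have e3 : (⟨(p * m + (i : ℕ)) % p, Nat.mod_lt _ hp⟩ : Fin p) = i := Fin.ext e2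
  rw [e1, e3] at h1 h2
  rw [← h1, ← h2, h]

theorem asm_smul (β : R⟦X⟧) (v : Fin p → R⟦X⟧) :
    asm p (fun i => β * v i) = ex p β * asm p v := by
  unfold asm
  rw [Finset.mul_sum]
  refine Finset.sum_congr rfl fun i _ => ?_
  rw [map_mul]
  ring

/-- The matrix of multiplication by `B` in the basis `1, x, …, x^{p-1}` of `R⟦x⟧` over
`R⟦x^p⟧`. -/
noncomputable def mulMat (B : R⟦X⟧) : Matrix (Fin p) (Fin p) R⟦X⟧ := fun i j =>
  if (j : ℕ) ≤ i then sect p (i - j) B else X * sect p (p + i - j) B

/-- column `j` of `mulMat p B` assembles to `x^j * B` -/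
theorem asm_col (B : R⟦X⟧) (j : Fin p) :
    asm p (fun i => mulMat p B i j) = X ^ (j : ℕ) * B := by
  have hp : 0 < p := NeZero.pos p
  ext n
  rw [coeff_asm, coeff_X_pow_mul']
  have hn := Nat.div_add_mod n p
  have hi : n % p < p := Nat.mod_lt _ hp
  have hj : (j : ℕ) < p := j.2
  have hle : n % p ≤ n := Nat.mod_le n p
  show coeff (n / p) (if (j : ℕ) ≤ n % p then sect p (n % p - j) B
    else X * sect p (p + n % p - j) B) = _
  generalize n % p = i at hn hi hle ⊢
  generalize (j : ℕ) = j' at hj ⊢
  by_cases h : j' ≤ i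
  · rw [if_pos h, coeff_sect, if_pos (h.trans hle)]
    have : p * (n / p) + (i - j') = n - j' := by
      generalize p * (n / p) = k at hn ⊢
      omega
    rw [this]
  · rw [if_neg h]
    rcases Nat.eq_zero_or_pos (n / p) with h0 | h0
    · rw [h0, coeff_zero_X_mul, if_neg]
      rw [h0, mul_zero, zero_add] at hn
      omega
    · obtain ⟨m', hm'⟩ : ∃ m', n / p = m' + 1 := ⟨n / p - 1, by omega⟩
      rw [hm', coeff_succ_X_mul, coeff_sect]
      rw [hm', Nat.mul_succ] at hn
      rw [if_pos (by generalize p * m' = k at hn ⊢; omega)]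
      have : p * m' + (p + i - j') = n - j' := by
        generalize p * m' = k at hn ⊢
        omega
      rw [this]

/-- `mulMat p B` represents multiplication by `B`. -/
theorem asm_mulVec (B : R⟦X⟧) (v : Fin p → R⟦X⟧) :
    asm p ((mulMat p B).mulVec v) = B * asm p v := by
  have h1 : asm p ((mulMat p B).mulVec v)
      = ∑ j : Fin p, ex p (v j) * asm p (fun i => mulMat p B i j) := by
    unfold asm
    simp only [Matrix.mulVec, dotProduct, map_sum, map_mul, Finset.mul_sum]
    rw [Finset.sum_comm]
    refine Finset.sum_congr rfl fun j _ => Finset.sum_congr rfl fun i _ => ?_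
    ring
  rw [h1]
  simp only [asm_col]
  unfold asm
  rw [Finset.mul_sum]
  refine Finset.sum_congr rfl fun j _ => ?_
  ring

theorem mulMat_eq_of_forall (M : Matrix (Fin p) (Fin p) R⟦X⟧) (B : R⟦X⟧)
    (h : ∀ v, asm p (M.mulVec v) = B * asm p v) : mulMat p B = M := by
  refine Matrix.ext fun i j => ?_
  have h1 := h (Pi.single j 1)
  rw [← asm_mulVec] at h1
  have h2 := congrFun (asm_injective p h1) i
  rw [Matrix.mulVec_single_one, Matrix.mulVec_single_one] at h2
  exact h2.symm

theorem mulMat_mul (B C : R⟦X⟧) : mulMat p (B * C) = mulMat p B * mulMat p C := by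
  apply mulMat_eq_of_forall
  intro v
  rw [← Matrix.mulVec_mulVec, asm_mulVec, asm_mulVec, mul_assoc]

theorem mulMat_one : mulMat p (1 : R⟦X⟧) = 1 := by
  apply mulMat_eq_of_forall
  intro v
  rw [Matrix.one_mulVec, one_mul]

theorem mulMat_expand (β : R⟦X⟧) : mulMat p (ex p β) = β • (1 : Matrix (Fin p) (Fin p) R⟦X⟧) := by
  apply mulMat_eq_of_forall
  intro v
  rw [Matrix.smul_mulVec, Matrix.one_mulVec, ← asm_smul]
  rfl

/-- The determinant norm of `R⟦x⟧` over `R⟦x^p⟧`. -/
noncomputable def normP (B : R⟦X⟧) : R⟦X⟧ := (mulMat p B).det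

theorem normP_mul (B C : R⟦X⟧) : normP p (B * C) = normP p B * normP p C := by
  unfold normP
  rw [mulMat_mul, Matrix.det_mul]

theorem normP_one : normP p (1 : R⟦X⟧) = 1 := by
  unfold normP
  rw [mulMat_one, Matrix.det_one]

theorem normP_pow (B : R⟦X⟧) (n : ℕ) : normP p (B ^ n) = normP p B ^ n := by
  induction n with
  | zero => rw [pow_zero, pow_zero, normP_one]
  | succ n ih => rw [pow_succ, pow_succ, normP_mul, ih]

theorem normP_zero : normP p (0 : R⟦X⟧) = 0 := by
  unfold normP
  have h0 : ∀ r, sect p r (0 : R⟦X⟧) = 0 := fun r => by ext m; simp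
  have : mulMat p (0 : R⟦X⟧) = 0 := by
    refine Matrix.ext fun i j => ?_
    unfold mulMat
    split_ifs <;> simp [h0]
  rw [this]
  have : Nonempty (Fin p) := ⟨⟨0, NeZero.pos p⟩⟩
  exact Matrix.det_zero

/-- `N_p(β(x^p)) = β^p`. -/
theorem normP_expand (β : R⟦X⟧) : normP p (ex p β) = β ^ p := by
  unfold normP
  rw [mulMat_expand, Matrix.det_smul, Matrix.det_one, mul_one, Fintype.card_fin]

/-! ### base change -/

section BaseChange

variable {S : Type*} [CommRing S] (f : R →+* S)

omit [NeZero p] in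
theorem map_sect (r : ℕ) (B : R⟦X⟧) :
    PowerSeries.map f (sect p r B) = sect p r (PowerSeries.map f B) := by
  ext m
  simp

theorem map_mulMat (B : R⟦X⟧) :
    (PowerSeries.map f).mapMatrix (mulMat p B) = mulMat p (PowerSeries.map f B) := by
  refine Matrix.ext fun i j => ?_
  simp only [RingHom.mapMatrix_apply, Matrix.map_apply]
  unfold mulMat
  split_ifs
  · exact map_sect p f _ B
  · rw [map_mul, PowerSeries.map_X, map_sect]

/-- The norm commutes with every change of coefficients. -/
theorem map_normP (B : R⟦X⟧) :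
    PowerSeries.map f (normP p B) = normP p (PowerSeries.map f B) := by
  unfold normP
  rw [RingHom.map_det, map_mulMat]

end BaseChange

/-! ### constant coefficient and order -/

omit [NeZero p] in
theorem constantCoeff_normP (B : R⟦X⟧) :
    constantCoeff (normP p B) = constantCoeff B ^ p := by
  unfold normP
  rw [RingHom.map_det]
  have htri : ((constantCoeff (R := R)).mapMatrix (mulMat p B)).IsLowerTriangular := by
    intro i j hij
    have hij' : (i : ℕ) < j := by
      simpa using hij
    simp only [RingHom.mapMatrix_apply, Matrix.map_apply]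
    unfold mulMat
    rw [if_neg (by omega)]
    simp
  rw [Matrix.det_of_isLowerTriangular _ htri]
  have : ∀ i : Fin p, (constantCoeff (R := R)).mapMatrix (mulMat p B) i i = constantCoeff B := by
    intro i
    simp only [RingHom.mapMatrix_apply, Matrix.map_apply]
    unfold mulMat
    rw [if_pos le_rfl]
    have h1 : constantCoeff (sect p ((i : ℕ) - i) B) = coeff 0 (sect p ((i : ℕ) - i) B) :=
      (coeff_zero_eq_constantCoeff_apply _).symm
    rw [h1, coeff_sect, Nat.sub_self, mul_zero, add_zero, coeff_zero_eq_constantCoeff_apply]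
  simp only [this, Finset.prod_const, Finset.card_univ, Fintype.card_fin]

section Domain

variable [IsDomain R]

theorem order_normP_X : (normP p (X : R⟦X⟧)).order = 1 := by
  have h0 : ex p (X : R⟦X⟧) = X ^ p := PowerSeries.expand_X p (NeZero.ne p)
  have h1 : normP p (X : R⟦X⟧) ^ p = X ^ p := by
    rw [← normP_pow, ← h0, normP_expand]
    exact h0.symm
  have h2 := congrArg PowerSeries.order h1
  rw [order_pow, order_pow, order_X] at h2
  have hp : p ≠ 0 := NeZero.ne p
  cases h : (normP p (X : R⟦X⟧)).order with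
  | top =>
    rw [h] at h2
    simp [hp] at h2
  | coe a =>
    rw [h] at h2
    have h3 : ((p * a : ℕ) : ℕ∞) = ((p * 1 : ℕ) : ℕ∞) := by
      simpa [nsmul_eq_mul] using h2
    have h4 : p * a = p * 1 := by exact_mod_cast h3
    have h5 : a = 1 := Nat.eq_of_mul_eq_mul_left (Nat.pos_of_ne_zero hp) h4
    rw [h5]
    rfl

/-- Over a domain the norm preserves the order. -/
theorem order_normP (B : R⟦X⟧) : (normP p B).order = B.order := by
  by_cases hB : B = 0
  · rw [hB, normP_zero]
  have h1 : B = X ^ B.order.toNat * divXPowOrder B := X_pow_order_mul_divXPowOrder.symm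
  have h2 : constantCoeff (divXPowOrder B) ≠ 0 := by
    rw [Ne, constantCoeff_divXPowOrder_eq_zero_iff]
    exact hB
  have h3 : (normP p (divXPowOrder B)).order = 0 := by
    have h4 : coeff 0 (normP p (divXPowOrder B)) ≠ 0 := by
      rw [coeff_zero_eq_constantCoeff_apply, constantCoeff_normP]
      exact pow_ne_zero _ h2
    have h5 := order_le 0 h4
    exact le_antisymm (by simpa using h5) (by simp)
  conv_lhs => rw [h1]
  rw [normP_mul, normP_pow, order_mul, order_pow, order_normP_X, h3, add_zero, nsmul_one]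
  exact ENat.natCast_toNat (by rwa [Ne, order_eq_top])

theorem normP_ne_zero {B : R⟦X⟧} (hB : B ≠ 0) : normP p B ≠ 0 := by
  intro h
  have := order_normP p B
  rw [h, order_zero] at this
  exact hB (order_eq_top.1 this.symm)

end Domain

/-! ### the norm as a product over conjugates -/

section Conjugates

variable {S : Type*} [CommRing S] [IsDomain S] {ζ : S}

omit [IsDomain S] in
theorem rescale_ex (a : S) (ha : a ^ p = 1) (g : S⟦X⟧) :
    rescale a (ex p g) = ex p g := by
  ext n
  rw [coeff_rescale, PowerSeries.coeff_expand]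
  split_ifs with h
  · obtain ⟨k, rfl⟩ := h
    rw [pow_mul, ha, one_pow, one_mul]
  · rw [mul_zero]

/-- `(N_p B)(x^p) = ∏_{j<p} B(ζ^j x)` for a primitive `p`-th root of unity `ζ`. -/
theorem expand_normP_eq_prod (hζ : IsPrimitiveRoot ζ p) (B : S⟦X⟧) :
    ex p (normP p B) = ∏ j : Fin p, rescale (ζ ^ (j : ℕ)) B := by
  set a : Fin p → S⟦X⟧ := fun j => C (ζ ^ (j : ℕ)) * X with ha
  set V : Matrix (Fin p) (Fin p) S⟦X⟧ := Matrix.vandermonde a with hV
  have hkey : V * ((ex p : S⟦X⟧ →ₐ[S] S⟦X⟧) : S⟦X⟧ →+* S⟦X⟧).mapMatrix (mulMat p B)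
      = Matrix.diagonal (fun j : Fin p => rescale (ζ ^ (j : ℕ)) B) * V := by
    refine Matrix.ext fun j i' => ?_
    have hpow : (ζ ^ (j : ℕ)) ^ p = 1 := by
      rw [← pow_mul, mul_comm, pow_mul, hζ.pow_eq_one, one_pow]
    have h0 := congrArg (rescale (ζ ^ (j : ℕ))) (asm_col p B i')
    unfold asm at h0
    rw [map_sum] at h0
    simp only [map_mul, map_pow, rescale_X, rescale_ex p _ hpow] at h0
    rw [Matrix.mul_apply, Matrix.diagonal_mul]
    simp only [hV, ha, Matrix.vandermonde_apply, RingHom.mapMatrix_apply, Matrix.map_apply]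
    rw [mul_comm (rescale (ζ ^ (j : ℕ)) B)]
    simpa only [map_pow, RingHom.coe_coe] using h0
  have hdet := congrArg Matrix.det hkey
  rw [Matrix.det_mul, Matrix.det_mul, Matrix.det_diagonal, ← RingHom.map_det] at hdet
  have hV0 : V.det ≠ 0 := by
    rw [hV, Matrix.det_vandermonde_ne_zero_iff]
    intro j j' hjj'
    have h1 := congrArg (coeff 1) hjj'
    simp only [ha, coeff_C_mul, coeff_one_X, mul_one] at h1
    exact Fin.ext (hζ.pow_inj j.2 j'.2 h1)
  rw [mul_comm] at hdet
  exact mul_right_cancel₀ hV0 hdet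

/-- the same with the product over `Finset.range p` -/
theorem expand_normP_eq_prod_range (hζ : IsPrimitiveRoot ζ p) (B : S⟦X⟧) :
    ex p (normP p B) = ∏ j ∈ Finset.range p, rescale (ζ ^ j) B := by
  rw [expand_normP_eq_prod p hζ, Fin.prod_univ_eq_prod_range (fun j => rescale (ζ ^ j) B) p]

/-- coefficientwise form: the `p * n`-th coefficient of `∏_j B(ζ^j x)` is the `n`-th coefficient
of the norm, and the other coefficients vanish. -/
theorem coeff_prod_rescale (hζ : IsPrimitiveRoot ζ p) (B : S⟦X⟧) (n : ℕ) :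
    coeff n (∏ j ∈ Finset.range p, rescale (ζ ^ j) B)
      = if p ∣ n then coeff (n / p) (normP p B) else 0 := by
  rw [← expand_normP_eq_prod_range p hζ, PowerSeries.coeff_expand]

end Conjugates

/-! ### the (NS) order count -/

section Count

variable [IsDomain R]

/-- `ord (A · N_p(B)) = ord A + ord B` over a domain: the zero count at the two cusps. -/
theorem order_mul_normP (A B : R⟦X⟧) : (A * normP p B).order = A.order + B.order := by
  rw [order_mul, order_normP]

/-- `ord N_p(β(x^p)) = p · ord β`. -/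
theorem order_normP_expand (β : R⟦X⟧) : (normP p (ex p β)).order = p • β.order := by
  rw [normP_expand, order_pow]

end Count

end Fermat.Agent.S16.NormSeries
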