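import Fermat.Agent.S16.RamanujanInputs
import Fermat.Prelude.Def_ModularCurve_JqCoeff

/-!
# S16 / K(9), step (2), Laurent form: `P̄³ - P̄ + 1/j̄ = 0` in `F₃((q))`

With `j̄ = jqModC (ZMod 3)` (the prelude's `j(q)` with coefficients reduced mod 3) and
`P̄ = ∑ σ₁(n) qⁿ mod 3`:

* `jqModC_mul_delta : j̄ · Δ̄ = 1` (since `E₄ ≡ 1 mod 3`);
* `artinSchreier_laurent : j̄ · (P̄ - P̄³) = 1`;
* `artinSchreier_laurent' : P̄³ - P̄ + j̄⁻¹ = 0`.
-/

set_option autoImplicit false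

namespace Fermat.Agent.S16.RamanujanMod3

open PowerSeries ModularCurve

/-- reduction mod 3 of integral power series. -/
noncomputable abbrev red3 : ℤ⟦X⟧ →+* (ZMod 3)⟦X⟧ := PowerSeries.map (Int.castRingHom (ZMod 3))

/-- `P̄ = ∑ σ₁(n) Xⁿ mod 3`. -/
noncomputable def Pbar : (ZMod 3)⟦X⟧ := red3 (sig 1)

/-- `P̄` as a Laurent series. -/
noncomputable def PbarL : LaurentSeries (ZMod 3) := HahnSeries.ofPowerSeries ℤ (ZMod 3) Pbar

lemma red3_eisenstein4 : red3 eisenstein4 = 1 := by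
  rw [eisenstein4_eq, map_add, map_mul, map_one]
  have h : red3 (240 : ℤ⟦X⟧) = 0 := by
    rw [map_ofNat]
    have h : (240 : (ZMod 3)⟦X⟧) = C (240 : ZMod 3) := (map_ofNat (C (R := ZMod 3)) 240).symm
    rw [h, show (240 : ZMod 3) = 0 from by decide, map_zero]
  rw [h, zero_mul, add_zero]

lemma red3_jNum_mul : red3 jNum * red3 (X * dedekindEtaUnit) = X := by
  rw [jNum, map_mul, map_pow, red3_eisenstein4, one_pow, one_mul, map_mul, ← mul_assoc,
    mul_comm (red3 dedekindEtaUnitInv), mul_assoc, ← map_mul, mul_comm dedekindEtaUnitInv,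
    dedekindEtaUnit_mul_inv, map_one, mul_one, PowerSeries.map_X]

/-- `j̄ · Δ̄ = 1` in `F₃((q))`. -/
theorem jqModC_mul_delta :
    jqModC (ZMod 3) * HahnSeries.ofPowerSeries ℤ (ZMod 3) (red3 (X * dedekindEtaUnit)) = 1 := by
  rw [jqModC, mul_assoc, ← map_mul, red3_jNum_mul, HahnSeries.ofPowerSeries_X,
    HahnSeries.single_mul_single]
  simp

/-- **Artin–Schreier equation** `j̄ · (P̄ - P̄³) = 1` in `F₃((q))`. -/
theorem artinSchreier_laurent : jqModC (ZMod 3) * (PbarL - PbarL ^ 3) = 1 := by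
  have h := jqModC_mul_delta
  rw [show red3 (X * dedekindEtaUnit) = Pbar - Pbar ^ 3 from delta_mod_three, map_sub, map_pow] at h
  exact h

/-- **Artin–Schreier equation** `P̄³ - P̄ + j̄⁻¹ = 0` in the field `F₃((q))`. -/
theorem artinSchreier_laurent' : PbarL ^ 3 - PbarL + (jqModC (ZMod 3))⁻¹ = 0 := by
  have h := artinSchreier_laurent
  have hj : jqModC (ZMod 3) ≠ 0 := by
    intro h0
    rw [h0, zero_mul] at h
    exact zero_ne_one h
  rw [← eq_inv_of_mul_eq_one_right h]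
  ring

end Fermat.Agent.S16.RamanujanMod3
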