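import Mathlib

/-!
# S16 / K(9), step (2): Ramanujan's congruence `Δ ≡ P - P³ (mod 3)`, pure power-series part

`sig k = ∑_{n ≥ 1} σ_k(n) Xⁿ ∈ ℤ⟦X⟧`, `P = sig 1`.

`delta_eq_of_identities` : if `D ∈ ℤ⟦X⟧` satisfies
  (a) `1728 D = (1 + 240 sig 3)³ - (1 - 504 sig 5)²`   (`1728 Δ = E₄³ - E₆²`), and
  (b) `120 (sig 3)² = sig 7 - sig 3`                    (`E₄² = E₈`),
then `D = P - P³ + 3 R` for an explicit `R ∈ ℤ⟦X⟧`.

No Ramanujan differential equation, no `τ(n) ≡ n² σ₁(n)`, no Frobenius is used: expanding (a),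
inserting (b) and dividing by `144` gives the exact identity
`12 D = 10 sig 7 - 5 sig 3 + 7 sig 5 + 96000 (sig 3)³ - 1764 (sig 5)²`, and
`10 d⁷ - 5 d³ + 7 d⁵ ≡ 12 d (mod 36)`, `d³ ≡ d (mod 3)` for every integer `d`.
-/

set_option autoImplicit false

namespace Fermat.Agent.S16.RamanujanMod3

open PowerSeries

/-- `sig k = ∑_{n ≥ 1} σ_k(n) Xⁿ` (the coefficient at `0` is the empty sum). -/
noncomputable def sig (k : ℕ) : ℤ⟦X⟧ :=
  PowerSeries.mk fun n => ∑ d ∈ n.divisors, (d : ℤ) ^ k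

@[simp] lemma coeff_sig (k n : ℕ) : coeff n (sig k) = ∑ d ∈ n.divisors, (d : ℤ) ^ k := by
  simp [sig]

/-- `10 d⁷ - 5 d³ + 7 d⁵ ≡ 12 d (mod 36)`. -/
lemma dvd_poly36 (d : ℤ) : (36 : ℤ) ∣ 10 * d ^ 7 - 5 * d ^ 3 + 7 * d ^ 5 - 12 * d := by
  have h : ((10 * d ^ 7 - 5 * d ^ 3 + 7 * d ^ 5 - 12 * d : ℤ) : ZMod 36) = 0 := by
    push_cast
    generalize (d : ZMod 36) = x
    revert x
    decide
  exact_mod_cast (ZMod.intCast_zmod_eq_zero_iff_dvd _ 36).mp h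

/-- `d³ ≡ d (mod 3)`. -/
lemma dvd_poly3 (d : ℤ) : (3 : ℤ) ∣ d ^ 3 - d := by
  have h : ((d ^ 3 - d : ℤ) : ZMod 3) = 0 := by
    push_cast
    generalize (d : ZMod 3) = x
    revert x
    decide
  exact_mod_cast (ZMod.intCast_zmod_eq_zero_iff_dvd _ 3).mp h

/-- The quotient series `U` with `10 sig 7 - 5 sig 3 + 7 sig 5 = 12 sig 1 + 36 U`. -/
noncomputable def U : ℤ⟦X⟧ :=
  PowerSeries.mk fun n =>
    ∑ d ∈ n.divisors, (10 * (d : ℤ) ^ 7 - 5 * (d : ℤ) ^ 3 + 7 * (d : ℤ) ^ 5 - 12 * (d : ℤ)) / 36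

/-- The quotient series `V` with `sig 3 = sig 1 + 3 V`. -/
noncomputable def V : ℤ⟦X⟧ :=
  PowerSeries.mk fun n => ∑ d ∈ n.divisors, ((d : ℤ) ^ 3 - (d : ℤ)) / 3

lemma sig_combination :
    10 * sig 7 - 5 * sig 3 + 7 * sig 5 = 12 * sig 1 + 36 * U := by
  ext n
  have h10 : (10 : ℤ⟦X⟧) = C (10 : ℤ) := by simp
  have h5 : (5 : ℤ⟦X⟧) = C (5 : ℤ) := by simp
  have h7 : (7 : ℤ⟦X⟧) = C (7 : ℤ) := by simp
  have h12 : (12 : ℤ⟦X⟧) = C (12 : ℤ) := by simp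
  have h36 : (36 : ℤ⟦X⟧) = C (36 : ℤ) := by simp
  rw [h10, h5, h7, h12, h36]
  simp only [map_add, map_sub, coeff_C_mul, coeff_sig, U, coeff_mk, Finset.mul_sum, pow_one]
  rw [← Finset.sum_sub_distrib, ← Finset.sum_add_distrib, ← Finset.sum_add_distrib]
  refine Finset.sum_congr rfl fun d _ => ?_
  have h := Int.mul_ediv_cancel' (dvd_poly36 (d : ℤ))
  linarith

lemma sig_three : sig 3 = sig 1 + 3 * V := by
  ext n
  have h3 : (3 : ℤ⟦X⟧) = C (3 : ℤ) := by simp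
  rw [h3]
  simp only [map_add, coeff_C_mul, coeff_sig, V, coeff_mk, Finset.mul_sum, pow_one]
  rw [← Finset.sum_add_distrib]
  refine Finset.sum_congr rfl fun d _ => ?_
  have h := Int.mul_ediv_cancel' (dvd_poly3 (d : ℤ))
  linarith

/-- The explicit remainder series. -/
noncomputable def R : ℤ⟦X⟧ :=
  U + 2667 * sig 1 ^ 3 +
    8000 * (3 * sig 1 ^ 2 * V + 9 * sig 1 * V ^ 2 + 9 * V ^ 3) - 49 * sig 5 ^ 2

/-- **Ramanujan's congruence mod 3, algebraic core.** -/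
theorem delta_eq_of_identities (D : ℤ⟦X⟧)
    (ha : 1728 * D = (1 + 240 * sig 3) ^ 3 - (1 - 504 * sig 5) ^ 2)
    (hb : 120 * sig 3 ^ 2 = sig 7 - sig 3) :
    D = sig 1 - sig 1 ^ 3 + 3 * R := by
  have hU := sig_combination
  have hV := sig_three
  have h1728 : (1728 : ℤ⟦X⟧) ≠ 0 := by
    intro h
    have := congrArg (constantCoeff (R := ℤ)) h
    rw [map_ofNat] at this
    norm_num at this
  apply mul_left_cancel₀ h1728
  rw [R]
  rw [hV] at ha hb hU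
  linear_combination ha + 1440 * hb + 144 * hU

end Fermat.Agent.S16.RamanujanMod3
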