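/-
S16 block [UB], final glue (helper13): **the upper bound `UpperGlue.UpperB p` with no hypotheses left.**

Inputs (all on main): `UpperBuild.build` (helper15), `ArithA5.not_eisCong_ZLoc` (helper8),
`ArithA3.not_eisCong_of_mod` (helper3), `ArithA2Lead.not_eisCong_ZLoc` (lead),
`TwoCuspForms.three_dvd_succ` / `four_dvd_succ` (helper11), `UpperGlue.upperB_of_inputs` /
`upperB_of_lt_five` (helper13).
-/
import Mathlib
import Fermat.Agent.S16.UpperGlue
import Fermat.Agent.S16.UpperBuild
import Fermat.Agent.S16.ArithA5
import Fermat.Agent.S16.ArithA3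
import Fermat.Agent.S16.ArithA2Lead
import Fermat.Agent.S16.TwoCuspForms

set_option autoImplicit false

open ModularFormClass CongruenceSubgroup ModularCurve

noncomputable section

namespace Fermat.Agent.S16.Upper

open Fermat.Agent.S16.EisP Fermat.Agent.S16.EisCong Fermat.Agent.S16.LInt
  Fermat.Agent.S16.UpperGlue

/-- **The upper bound of S16**, in the shape `[B]` consumed by
`Adapters.card_eq_of_eigenvector_of_forms'` / `Adapters.exists_killer_of_forms'`. -/
theorem upperB (p : ℕ) [Fact p.Prime] : UpperB p := by
  rcases Nat.lt_or_ge p 5 with hp | hp5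
  · exact upperB_of_lt_five p hp
  · exact upperB_of_inputs p hp5 (UpperBuild.build p)
      (fun ℓ hℓ h5 => ArithA5.not_eisCong_ZLoc ℓ hℓ h5)
      (fun h => ArithA3.not_eisCong_of_mod h) (TwoCuspForms.three_dvd_succ p (by omega))
      (fun h => ArithA2Lead.not_eisCong_ZLoc h) (TwoCuspForms.four_dvd_succ p (by omega))

end Fermat.Agent.S16.Upper
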