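import Fermat.Agent.S16.RamanujanMod3

/-!
# S16 / (A2): the weight-8 combination `G8` modulo `512`

For `F = 1 + 4 v`, `E4 = 1 + 240 S3`, `E6 = 1 - 504 S5` in ANY commutative ring, with `S5 = S3 + 8 Z`
(coefficientwise `d⁵ ≡ d³ mod 8`):

`F⁴ - 6 F² E4 + 8 F E6 - 3 E4² = 256 (v³ + v⁴ + S3 + S3²) + 512 γ`,  `γ` explicit.

Hence `G8 := (F⁴ - 6F²E₄ + 8FE₆ - 3E₄²)/6912 ≡ v³ + v⁴ + S3 + S3² (mod 2)` (`6912 = 256 · 27`):
at the cusp `∞` (`v` even) `G8 ≡ S3 + S3² = q + …`, and at the cusp `0` (`v ≡ const mod 2`, with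
`S3(q^p), S5(q^p)`) `G8 ≡ (S3 + S3²)(q^p)`.

Also `sig_five_eq : sig 5 = sig 3 + 8 * Z8` for the divisor-sum series of `RamanujanMod3`.
-/

set_option autoImplicit false

namespace Fermat.Agent.S16.Weight8Mod512

open PowerSeries Fermat.Agent.S16.RamanujanMod3

variable {S : Type*} [CommRing S]

/-- the explicit `γ`. -/
def gamma (v S3 Z : S) : S :=
  -14 * S3 - 63 * Z - 54 * v * S3 - 45 * v ^ 2 * S3 - 252 * v * Z - 338 * S3 ^ 2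

/-- **(A2) bookkeeping, generic form.** -/
theorem weight8_mod512 (v S3 S5 Z : S) (hZ : S5 = S3 + 8 * Z) :
    (1 + 4 * v) ^ 4 - 6 * (1 + 4 * v) ^ 2 * (1 + 240 * S3)
        + 8 * (1 + 4 * v) * (1 - 504 * S5) - 3 * (1 + 240 * S3) ^ 2 =
      256 * (v ^ 3 + v ^ 4 + S3 + S3 ^ 2) + 512 * gamma v S3 Z := by
  subst hZ
  simp only [gamma]
  ring

/-- `d⁵ ≡ d³ (mod 8)`. -/
lemma dvd_poly8 (d : ℤ) : (8 : ℤ) ∣ d ^ 5 - d ^ 3 := by
  have h : ((d ^ 5 - d ^ 3 : ℤ) : ZMod 8) = 0 := by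
    push_cast
    generalize (d : ZMod 8) = x
    revert x
    decide
  exact_mod_cast (ZMod.intCast_zmod_eq_zero_iff_dvd _ 8).mp h

/-- `Z8 = ∑ₙ ∑_{d ∣ n} (d⁵ - d³)/8 · Xⁿ`. -/
noncomputable def Z8 : ℤ⟦X⟧ :=
  PowerSeries.mk fun n => ∑ d ∈ n.divisors, ((d : ℤ) ^ 5 - (d : ℤ) ^ 3) / 8

lemma sig_five_eq : sig 5 = sig 3 + 8 * Z8 := by
  ext n
  have h8 : (8 : ℤ⟦X⟧) = C (8 : ℤ) := by simp
  rw [h8]
  simp only [map_add, coeff_C_mul, coeff_sig, Z8, coeff_mk, Finset.mul_sum]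
  rw [← Finset.sum_add_distrib]
  refine Finset.sum_congr rfl fun d _ => ?_
  have h := Int.mul_ediv_cancel' (dvd_poly8 (d : ℤ))
  linarith

/-- The same relation after any ring homomorphism out of `ℤ⟦X⟧` (coefficient change, `q ↦ q^p`, …). -/
lemma map_sig_five_eq {S : Type*} [CommRing S] (φ : ℤ⟦X⟧ →+* S) :
    φ (sig 5) = φ (sig 3) + 8 * φ Z8 := by
  rw [sig_five_eq, map_add, map_mul, map_ofNat]

/-- **(A2) for the divisor series**, after any ring homomorphism `φ : ℤ⟦X⟧ →+* S`. -/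
theorem weight8_mod512_sig {S : Type*} [CommRing S] (φ : ℤ⟦X⟧ →+* S) (v : S) :
    (1 + 4 * v) ^ 4 - 6 * (1 + 4 * v) ^ 2 * (1 + 240 * φ (sig 3))
        + 8 * (1 + 4 * v) * (1 - 504 * φ (sig 5)) - 3 * (1 + 240 * φ (sig 3)) ^ 2 =
      256 * (v ^ 3 + v ^ 4 + φ (sig 3) + φ (sig 3) ^ 2) + 512 * gamma v (φ (sig 3)) (φ Z8) :=
  weight8_mod512 v _ _ _ (map_sig_five_eq φ)

end Fermat.Agent.S16.Weight8Mod512
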